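import Fermat.Agent.MazurPrinciple.Valued
import Fermat.Agent.Mazur.Descent.Unramified
import Fermat.Agent.Hasse.Galois

/-!
# Finite extensions of an inertia field as local bases

`inertiaField A` is fixed by the inertia group; adjoining a finite extension gives a `LocalBase`,
and every residue class lifts to a root of unity in it.
-/

set_option autoImplicit false

noncomputable section

open Polynomial

namespace FermatAgent.MazurPrinciple

local notation "Qb" => AlgebraicClosure ℚ
local notation "GQ" => AlgebraicClosure ℚ ≃ₐ[ℚ] AlgebraicClosure ℚ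

variable {A : ValuationSubring Qb} {p : ℕ}

/-- The field fixed by inertia. -/
def inertiaField (A : ValuationSubring Qb) : IntermediateField ℚ Qb :=
  IntermediateField.fixedField (A.inertiaSubgroupIn ℚ)

theorem mem_inertiaField {x : Qb} :
    x ∈ inertiaField A ↔ ∀ σ ∈ A.inertiaSubgroupIn ℚ, σ x = x :=
  ⟨fun h σ hσ => h ⟨σ, hσ⟩, fun h σ => h σ.1 σ.2⟩

/-- A polynomial relation over a field with values powers of that of `p` bounds the index. -/
theorem exists_val_pow_eq_of_base (hp : p.Prime) (_hA : A.LiesOverPrime p)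
    (M : IntermediateField ℚ Qb)
    (hM : ∀ x ∈ M, x ≠ 0 → ∃ k : ℤ, A.valuation x = A.valuation (p : Qb) ^ k)
    {z : Qb} (hz : z ≠ 0) {f : M[X]} (hf : f ≠ 0) {n : ℕ} (hn : f.natDegree ≤ n)
    (hfz : aeval z f = 0) :
    ∃ k : ℤ, A.valuation z ^ n.factorial = A.valuation (p : Qb) ^ k := by
  classical
  have h0 : ∑ i ∈ f.support, (f.coeff i : Qb) * z ^ i = 0 := by
    rw [← hfz, aeval_def, eval₂_eq_sum, Polynomial.sum]
    rfl
  obtain ⟨i, hi, hmax⟩ := f.support.exists_max_image
    (fun i => A.valuation ((f.coeff i : Qb) * z ^ i)) (Polynomial.support_nonempty.mpr hf)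
  have hci : ∀ j ∈ f.support, (f.coeff j : Qb) ≠ 0 := fun j hj e =>
    Polynomial.mem_support_iff.mp hj (Subtype.ext e)
  obtain ⟨j, hj, hji, heq⟩ : ∃ j ∈ f.support, j ≠ i ∧
      A.valuation ((f.coeff j : Qb) * z ^ j) = A.valuation ((f.coeff i : Qb) * z ^ i) := by
    by_contra! hall
    have hlt : A.valuation (∑ j ∈ f.support.erase i, (f.coeff j : Qb) * z ^ j) <
        A.valuation ((f.coeff i : Qb) * z ^ i) := by
      refine A.valuation.map_sum_lt ((_root_.map_ne_zero _).2 (mul_ne_zero (hci i hi) (pow_ne_zero _ hz)))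
        fun j hj => ?_
      obtain ⟨hji, hj⟩ := Finset.mem_erase.mp hj
      exact lt_of_le_of_ne (hmax j hj) (hall j hj hji)
    rw [← Finset.add_sum_erase _ _ hi, add_eq_zero_iff_eq_neg] at h0
    rw [h0, Valuation.map_neg] at hlt
    exact lt_irrefl _ hlt
  have hℓ0 := TW.natCast_val_ne_zero A hp
  have hv0 : A.valuation z ≠ 0 := (_root_.map_ne_zero _).2 hz
  obtain ⟨a, ha⟩ := hM _ (f.coeff i).2 (hci i hi)
  obtain ⟨b, hb⟩ := hM _ (f.coeff j).2 (hci j hj)
  rw [map_mul, map_mul, map_pow, map_pow, ha, hb] at heq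
  have hzab : A.valuation z ^ ((j : ℤ) - i) = A.valuation (p : Qb) ^ (a - b) := by
    rw [zpow_sub₀ hv0, zpow_sub₀ hℓ0, zpow_natCast, zpow_natCast,
      div_eq_div_iff (pow_ne_zero _ hv0) (zpow_ne_zero _ hℓ0), mul_comm (A.valuation z ^ j)]
    exact heq
  have hdvd : ((j : ℤ) - i) ∣ (n.factorial : ℤ) := by
    rw [← Int.natAbs_dvd_natAbs, Int.natAbs_natCast]
    have := (Polynomial.le_natDegree_of_mem_supp j hj).trans hn
    have := (Polynomial.le_natDegree_of_mem_supp i hi).trans hn
    exact Nat.dvd_factorial (by omega) (by omega)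
  obtain ⟨c, hc⟩ := hdvd
  exact ⟨(a - b) * c, by rw [← zpow_natCast, hc, zpow_mul, hzab, ← zpow_mul]⟩

theorem val_inertiaField (hp : p.Prime) (hA : A.LiesOverPrime p) :
    ∀ x ∈ inertiaField A, x ≠ 0 → ∃ k : ℤ, A.valuation x = A.valuation (p : Qb) ^ k :=
  fun _ hx hx0 =>
    Mazur.Descent.exists_val_eq_zpow_of_inertia_fixed hp hA hx0 (mem_inertiaField.mp hx)

/-- The local base `inertiaField A ⊔ L`. -/
def LocalBase.ofField (hp : p.Prime) (hA : A.LiesOverPrime p) (L : IntermediateField ℚ Qb)
    [FiniteDimensional ℚ L] : LocalBase A p where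
  S := (inertiaField A ⊔ L).toSubfield
  prime := hp
  liesOver := hA
  d := (Module.finrank ℚ L).factorial
  d_ne_zero := Nat.factorial_ne_zero _
  bdd x hx hx0 := by
    obtain ⟨α, hα⟩ := Field.exists_primitive_element ℚ L
    set M := inertiaField A
    have hαint : IsIntegral ℚ (α : Qb) := (IsIntegral.of_finite ℚ α).map L.val
    have hLα : L = IntermediateField.adjoin ℚ {(α : Qb)} := by
      have := congrArg (IntermediateField.map L.val) hα
      have h2 := ((IntermediateField.adjoin_map ℚ {α} L.val).symm.trans this).trans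
        ((AlgHom.fieldRange_eq_map L.val).symm.trans L.fieldRange_val)
      rw [Set.image_singleton] at h2
      exact h2.symm
    have hαM : IsIntegral M (α : Qb) := hαint.tower_top
    have hx' : x ∈ IntermediateField.adjoin M {(α : Qb)} := by
      have h : IntermediateField.restrictScalars ℚ (IntermediateField.adjoin M {(α : Qb)}) =
          M ⊔ IntermediateField.adjoin ℚ {(α : Qb)} :=
        IntermediateField.restrictScalars_adjoin_eq_sup ℚ M _
      rw [← hLα] at h
      rw [← IntermediateField.mem_restrictScalars ℚ, h]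
      exact hx
    have : FiniteDimensional M (IntermediateField.adjoin M {(α : Qb)}) :=
      IntermediateField.adjoin.finiteDimensional hαM
    set y : IntermediateField.adjoin M {(α : Qb)} := ⟨x, hx'⟩
    have hy : IsIntegral M y := IsIntegral.of_finite M y
    refine exists_val_pow_eq_of_base hp hA M (val_inertiaField hp hA) hx0
      (minpoly.ne_zero hy) ?_ ?_
    · refine (minpoly.natDegree_le y).trans ?_
      have hdeg : (minpoly ℚ α).natDegree = Module.finrank ℚ L :=
        (Field.primitive_element_iff_minpoly_natDegree_eq ℚ α).mp hα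
      rw [IntermediateField.adjoin.finrank hαM, ← hdeg]
      refine le_trans ?_ (le_of_eq (congrArg Polynomial.natDegree
        (minpoly.algHom_eq L.val Subtype.val_injective α)))
      exact (Polynomial.natDegree_le_of_dvd (minpoly.dvd_map_of_isScalarTower ℚ M (α : Qb))
        (Polynomial.map_ne_zero (minpoly.ne_zero hαint))).trans (Polynomial.natDegree_map_le)
    · have := congrArg (IntermediateField.adjoin M {(α : Qb)}).val (minpoly.aeval M y)
      rwa [← Polynomial.aeval_algHom_apply, map_zero] at this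

theorem LocalBase.mem_ofField_left (hp : p.Prime) (hA : A.LiesOverPrime p)
    (L : IntermediateField ℚ Qb) [FiniteDimensional ℚ L] {x : Qb} (hx : x ∈ inertiaField A) :
    x ∈ (LocalBase.ofField hp hA L).S :=
  (le_sup_left : inertiaField A ≤ inertiaField A ⊔ L) hx

theorem LocalBase.mem_ofField_right (hp : p.Prime) (hA : A.LiesOverPrime p)
    (L : IntermediateField ℚ Qb) [FiniteDimensional ℚ L] {x : Qb} (hx : x ∈ L) :
    x ∈ (LocalBase.ofField hp hA L).S :=
  (le_sup_right : L ≤ inertiaField A ⊔ L) hx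

theorem mem_of_pow_eq_one {x : Qb} {m : ℕ} (hm : m ≠ 0) (hx : x ^ m = 1) : x ∈ A := by
  rw [← A.valuation_le_one_iff]
  refine (TW.eq_one_of_pow_eq_one hm ?_).le
  rw [← map_pow, hx, map_one]

/-- Roots of unity of order prime to `p` are fixed by inertia. -/
theorem mem_inertiaField_of_pow_eq_one (hp : p.Prime) (hA : A.LiesOverPrime p) {x : Qb} {m : ℕ}
    (hm : ¬ p ∣ m) (hx : x ^ m = 1) : x ∈ inertiaField A := by
  rw [mem_inertiaField]
  intro σ hσ
  have hm0 : m ≠ 0 := fun e => hm (e ▸ dvd_zero p)
  have hxA := mem_of_pow_eq_one (A := A) hm0 hx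
  have hx0 : x ≠ 0 := fun e => by simp [e, hm0] at hx
  have hlt : A.valuation (σ x - x) < 1 := Local.inertia_val_sub_lt_one (A := A) hσ hxA
  set y := σ x / x
  have hym : y ^ m = 1 := by rw [div_pow, ← map_pow, hx, map_one, div_one]
  have hvx : A.valuation x = 1 :=
    TW.eq_one_of_pow_eq_one hm0 (by rw [← map_pow, hx, map_one])
  have hy : A.valuation (y - 1) < 1 := by
    rwa [show y - 1 = (σ x - x) / x by rw [sub_div, div_self hx0], map_div₀, hvx, div_one]
  by_contra hne
  have hy1 : y ≠ 1 := fun e => hne (by rwa [div_eq_one_iff_eq hx0] at e)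
  have hgeom : ∑ i ∈ Finset.range m, y ^ i = 0 := by
    have := geom_sum_mul y m
    rw [hym, sub_self] at this
    exact (mul_eq_zero.mp this).resolve_right (sub_ne_zero.mpr hy1)
  have hyA := mem_of_pow_eq_one (A := A) hm0 hym
  have hsum : A.valuation (∑ i ∈ Finset.range m, (y ^ i - 1)) < 1 := by
    refine A.valuation.map_sum_lt one_ne_zero fun i _ => ?_
    rw [← geom_sum_mul, map_mul]
    refine (mul_le_of_le_one_left' ((A.valuation_le_one_iff _).mpr ?_)).trans_lt hy
    exact sum_mem fun j _ => pow_mem hyA j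
  rw [Finset.sum_sub_distrib, hgeom, Finset.sum_const, Finset.card_range, nsmul_one, zero_sub,
    Valuation.map_neg, Local.val_natCast_eq_one hp hA hm] at hsum
  exact lt_irrefl _ hsum

/-- Residue classes lift to roots of unity in the inertia field. -/
theorem exists_lift_inertiaField (hp : p.Prime) (hA : A.LiesOverPrime p) {k : Type*} [Field k]
    (π : A →+* k) (hπ : Function.Surjective π) (c : k) :
    ∃ a : A, (a : Qb) ∈ inertiaField A ∧ π a = c := by
  classical
  rcases eq_or_ne c 0 with rfl | hc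
  · exact ⟨0, zero_mem _, map_zero π⟩
  have : Fact p.Prime := ⟨hp⟩
  have := Hasse.charP_residueField (ℓ := p) hA
  let : Algebra (ZMod p) (IsLocalRing.ResidueField A) := ZMod.algebra _ p
  have := Hasse.isAlgebraic_residueField (ℓ := p) hA
  obtain ⟨a, rfl⟩ := hπ c
  set z := IsLocalRing.residue A a
  have hker : RingHom.ker π = IsLocalRing.maximalIdeal A :=
    IsLocalRing.eq_maximalIdeal (RingHom.ker_isMaximal_of_surjective π hπ)
  have hiff : ∀ b : A, π b = 0 ↔ IsLocalRing.residue A b = 0 := fun b => by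
    rw [IsLocalRing.residue_eq_zero_iff, ← hker, RingHom.mem_ker]
  have hz : IsIntegral (ZMod p) z := (Algebra.IsAlgebraic.isAlgebraic z).isIntegral
  have := IntermediateField.adjoin.finiteDimensional hz
  set G := IntermediateField.adjoin (ZMod p) {z}
  have : Finite G := Module.finite_of_finite (ZMod p)
  have := Fintype.ofFinite G
  set m := Fintype.card G - 1
  have hzne : (⟨z, IntermediateField.mem_adjoin_simple_self _ z⟩ : G) ≠ 0 := fun e =>
    hc ((hiff a).mpr (congrArg Subtype.val e))
  have hzm : z ^ m = 1 := congrArg Subtype.val (FiniteField.pow_card_sub_one_eq_one _ hzne)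
  obtain ⟨f, -, hf⟩ := FiniteField.card G p
  have hcard : 1 < Fintype.card G := Fintype.one_lt_card
  have hpm : ¬ p ∣ m := fun h => by
    have h1 : p ∣ Fintype.card G := hf ▸ dvd_pow_self p f.ne_zero
    have h2 : p ∣ Fintype.card G - m := Nat.dvd_sub h1 h
    rw [show Fintype.card G - m = 1 by omega] at h2
    exact hp.ne_one (Nat.dvd_one.mp h2)
  have hm0 : 0 < m := by omega
  have : NeZero (m : Qb) := ⟨Nat.cast_ne_zero.mpr hm0.ne'⟩
  obtain ⟨ζ, hζ⟩ := HasEnoughRootsOfUnity.exists_primitiveRoot Qb m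
  set ζA : A := ⟨ζ, mem_of_pow_eq_one hm0.ne' hζ.pow_eq_one⟩
  have hζA : IsPrimitiveRoot ζA m :=
    IsPrimitiveRoot.of_map_of_injective (f := A.subtype) hζ Subtype.val_injective
  have h1 : π a ^ m - 1 = 0 := by
    rw [← map_pow, ← map_one π, ← map_sub, hiff, map_sub, map_pow, map_one]
    exact sub_eq_zero.mpr hzm
  have h2 := congrArg (Polynomial.eval (π a)) (congrArg (Polynomial.map π)
    (Polynomial.X_pow_sub_one_eq_prod hm0 hζA))
  simp only [Polynomial.map_sub, Polynomial.map_pow, Polynomial.map_X, Polynomial.map_one,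
    Polynomial.map_prod, Polynomial.map_C, eval_sub, eval_pow, eval_X, eval_one, eval_prod,
    eval_C, h1] at h2
  obtain ⟨b, hb, hb0⟩ := Finset.prod_eq_zero_iff.mp h2.symm
  have hbm : (b : Qb) ^ m = 1 := by
    have := (mem_nthRootsFinset hm0 _).mp hb
    exact congrArg Subtype.val this
  exact ⟨b, mem_inertiaField_of_pow_eq_one hp hA hpm hbm, (sub_eq_zero.mp hb0).symm⟩

end FermatAgent.MazurPrinciple
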