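import Fermat.Agent.MazurPrinciple.NodeSides
import Fermat.Agent.ES.Twist

/-!
# Semilinear automorphisms of the annulus ring

An endomorphism `σ` of the scalars with `σ ϖ = ε ϖ` acts by `X ↦ X`, `Y ↦ ε Y`, compatibly with
the two ends.
-/

set_option autoImplicit false
set_option linter.unusedSectionVars false

noncomputable section

open ModularCurve

namespace FermatAgent.MazurPrinciple

variable {W : Type*} [CommRing W] {ϖ : W}

/-- An endomorphism of the scalars moving the uniformiser by a unit. -/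
structure ScalarTwist (ϖ : W) where
  σ : W →+* W
  ε : Wˣ
  map_unif : σ ϖ = ε * ϖ

namespace ScalarTwist

variable (s : ScalarTwist ϖ)

/-- On series in two variables. -/
def bi : Bi W →+* Bi W :=
  (PowerSeries.rescale (PowerSeries.C (s.ε : W))).comp (PowerSeries.map (PowerSeries.map s.σ))

theorem bcoeff_bi (f : Bi W) (i j : ℕ) :
    bcoeff i j (s.bi f) = (s.ε : W) ^ j * s.σ (bcoeff i j f) := by
  simp [bi, bcoeff, PowerSeries.coeff_rescale, ← map_pow, PowerSeries.coeff_C_mul]

theorem bi_annulusRel : s.bi (annulusRel ϖ) = biC (s.ε : W) * annulusRel ϖ := by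
  have hX : s.bi biX = biX := by simp [bi, biX, rescale_const]
  have hY : s.bi biY = biC (s.ε : W) * biY := by simp [bi, biY, biC, PowerSeries.rescale_X]
  have hC : s.bi (biC ϖ) = biC (s.ε * ϖ) := by
    simp [bi, biC, rescale_const, s.map_unif]
  rw [annulusRel, map_sub, map_mul, hX, hY, hC, map_mul]
  ring

/-- On the annulus ring. -/
def ann : Ann ϖ →+* Ann ϖ :=
  Ideal.Quotient.lift _ ((Ann.mk ϖ).comp s.bi) (by
    intro a ha
    obtain ⟨b, rfl⟩ := Ideal.mem_span_singleton.mp ha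
    rw [RingHom.comp_apply, map_mul, bi_annulusRel, Ideal.Quotient.eq_zero_iff_mem,
      Ideal.mem_span_singleton]
    exact ⟨biC (s.ε : W) * s.bi b, by ring⟩)

theorem ann_mk (f : Bi W) : s.ann (Ann.mk ϖ f) = Ann.mk ϖ (s.bi f) := rfl

theorem ann_const (c : W) : s.ann (Ann.const ϖ c) = Ann.const ϖ (s.σ c) := by
  show Ann.mk ϖ (s.bi (biC c)) = Ann.mk ϖ (biC (s.σ c))
  congr 1
  simp [bi, biC, rescale_const]

/-- Modulo a power of the uniformiser. -/
def modTwist (R : ℕ) : modPow ϖ R →+* modPow ϖ R :=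
  Ideal.Quotient.lift _ ((modPowMk ϖ R).comp s.σ) (by
    intro a ha
    obtain ⟨b, rfl⟩ := Ideal.mem_span_singleton.mp ha
    rw [RingHom.comp_apply, modPowMk_eq_zero_iff, map_mul, map_pow, s.map_unif, mul_pow]
    exact ⟨(s.ε : W) ^ R * s.σ b, by ring⟩)

theorem modTwist_mk (R : ℕ) (c : W) : s.modTwist R (modPowMk ϖ R c) = modPowMk ϖ R (s.σ c) := rfl

/-- The unit modulo a power of the uniformiser. -/
def modUnit (R : ℕ) : (modPow ϖ R)ˣ := Units.map (modPowMk ϖ R).toMonoidHom s.ε

/-- On the end at which `X` is the coordinate. -/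
def serX (R : ℕ) : LaurentSeries (modPow ϖ R) →+* LaurentSeries (modPow ϖ R) :=
  coeffMap (s.modTwist R)

/-- On the end at which `Y` is the coordinate. -/
def serY (R : ℕ) : LaurentSeries (modPow ϖ R) →+* LaurentSeries (modPow ϖ R) :=
  (ES.qTwist (s.modUnit R)).comp (coeffMap (s.modTwist R))

theorem serY_C (R : ℕ) (c : W) :
    s.serY R (HahnSeries.C (modPowMk ϖ R c)) = HahnSeries.C (modPowMk ϖ R (s.σ c)) := by
  simp [serY, HahnSeries.C_apply, coeffMap_single, modTwist_mk]

theorem endX_bi (R : ℕ) (f : Bi W) : endX ϖ R (s.bi f) = s.serX R (endX ϖ R f) := by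
  ext n
  rw [serX, coeffMap_coeff, coeff_endX_eq_sum, coeff_endX_eq_sum, modTwist_mk,
    map_sum s.σ]
  refine congrArg _ (Finset.sum_congr rfl fun j _ => ?_)
  split_ifs
  · rw [map_zero]
  · rw [bcoeff_bi, map_mul, map_pow, s.map_unif, mul_pow]
    ring

theorem endY_bi (R : ℕ) (f : Bi W) : endY ϖ R (s.bi f) = s.serY R (endY ϖ R f) := by
  ext n
  rw [serY, RingHom.comp_apply, ES.qTwist_coeff, coeffMap_coeff, endY, RingHom.comp_apply,
    RingHom.comp_apply, coeff_endX_eq_sum, coeff_endX_eq_sum, modTwist_mk, map_sum, map_sum,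
    map_sum, Finset.mul_sum]
  refine Finset.sum_congr rfl fun j _ => ?_
  split_ifs with h
  · simp
  · rw [bcoeff_biSwap, bcoeff_biSwap, bcoeff_bi]
    have he : ((s.modUnit R ^ n : (modPow ϖ R)ˣ) : modPow ϖ R) * modPowMk ϖ R ((s.ε : W) ^ j) =
        modPowMk ϖ R ((s.ε : W) ^ (n + j).toNat) := by
      rw [map_pow, map_pow, show modPowMk ϖ R (s.ε : W) = (s.modUnit R : modPow ϖ R) from rfl,
        ← Units.val_pow_eq_pow_val, ← Units.val_pow_eq_pow_val, ← Units.val_mul, ← zpow_natCast,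
        ← zpow_natCast, ← zpow_add, Int.toNat_of_nonneg (not_lt.mp h)]
    rw [map_mul s.σ, map_pow s.σ, s.map_unif, mul_pow]
    simp only [map_mul]
    rw [← he]
    ring

theorem toX_ann (R : ℕ) (z : Ann ϖ) : Ann.toX ϖ R (s.ann z) = s.serX R (Ann.toX ϖ R z) := by
  obtain ⟨f, rfl⟩ := Ideal.Quotient.mk_surjective z
  exact s.endX_bi R f

theorem toY_ann (R : ℕ) (z : Ann ϖ) : Ann.toY ϖ R (s.ann z) = s.serY R (Ann.toY ϖ R z) := by
  obtain ⟨f, rfl⟩ := Ideal.Quotient.mk_surjective z
  exact s.endY_bi R f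

variable [IsDomain W] [IsDiscreteValuationRing W]

theorem modTwist_injective (hϖ : Irreducible ϖ) (R : ℕ) : Function.Injective (s.modTwist R) := by
  rw [injective_iff_map_eq_zero]
  intro x hx
  obtain ⟨x, rfl⟩ := Ideal.Quotient.mk_surjective x
  rcases eq_or_ne x 0 with rfl | h0
  · exact map_zero _
  obtain ⟨m, u, rfl⟩ := IsDiscreteValuationRing.eq_unit_mul_pow_irreducible h0 hϖ
  rw [show Ideal.Quotient.mk _ _ = modPowMk ϖ R _ from rfl, modTwist_mk, modPowMk_eq_zero_iff,
    map_mul, map_pow, s.map_unif, mul_pow, ← mul_assoc,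
    ((u.isUnit.map s.σ).mul (s.ε.isUnit.pow m)).dvd_mul_left] at hx
  exact (modPowMk_eq_zero_iff ϖ R _).mpr (hx.mul_left _)

variable [IsAdicComplete (Ideal.span {ϖ}) W]

theorem ann_injective (hϖ : Irreducible ϖ) : Function.Injective s.ann := by
  rw [injective_iff_map_eq_zero]
  intro z hz
  refine Ann.eq_zero_of_forall_toX ϖ hϖ fun R => HahnSeries.ext (funext fun n => ?_)
  have h := congrArg (fun y => (Ann.toX ϖ R y).coeff n) hz
  simp only [toX_ann, serX, coeffMap_coeff, map_zero, HahnSeries.coeff_zero] at h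
  exact (map_eq_zero_iff _ (s.modTwist_injective hϖ R)).mp h

/-- On the fractions. -/
def loc (hϖ : Irreducible ϖ) :
    Localization (nonZeroDivisors (Ann ϖ)) →+* Localization (nonZeroDivisors (Ann ϖ)) :=
  IsLocalization.map (M := nonZeroDivisors (Ann ϖ)) (S := Localization (nonZeroDivisors (Ann ϖ)))
    (Localization (nonZeroDivisors (Ann ϖ))) s.ann
    (show nonZeroDivisors (Ann ϖ) ≤ (nonZeroDivisors (Ann ϖ)).comap s.ann from fun z hz => by
      let := Ann.isDomain ϖ hϖ
      exact mem_nonZeroDivisors_of_ne_zero fun h => nonZeroDivisors.ne_zero hz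
        (s.ann_injective hϖ (h.trans (map_zero _).symm)))

theorem loc_algebraMap (hϖ : Irreducible ϖ) (z : Ann ϖ) :
    s.loc hϖ (algebraMap _ _ z) = algebraMap _ _ (s.ann z) :=
  IsLocalization.map_eq _ _

end ScalarTwist

end FermatAgent.MazurPrinciple
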