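import Fermat.Agent.BadRed.Semistable.Gauss

/-!
# Contraction by a norm operator

If `f = κ H ^ p N (N f)` for a multiplicative operator `N` improving congruences to `1`, then `f`
is, to every precision, a fixed constant times a `p`-th power times the image of any lift of its
reduction. A second multiplicative operator removes the constant.
-/

set_option autoImplicit false

noncomputable section

namespace FermatAgent.MazurPrinciple

open BadRed.Semistable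

variable {K : Type*} [Field K] {A : ValuationSubring K} {k : Type*} [Field k] {π : A →+* k}
  {F : Type*} [Field F] [Algebra K F] {Fb : Type*} [Field Fb] [Algebra k Fb]

/-- Congruence modulo `ϖ ^ R` for a Gauss valuation. -/
def CongMod (g : GaussRed A π F Fb) (ϖ : A) (R : ℕ) (x y : F) : Prop :=
  ∃ w ∈ g.integers, x - y = (ϖ : K) ^ R • w

/-- Integral with non-zero reduction. -/
def IsUnitAt (g : GaussRed A π F Fb) (x : F) : Prop :=
  ∃ h : x ∈ g.integers, g.red ⟨x, h⟩ ≠ 0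

variable {g : GaussRed A π F Fb} {ϖ : A}

theorem IsUnitAt.ne_zero {x : F} (h : IsUnitAt g x) : x ≠ 0 := fun e => h.2 (by
  rw [g.red_congr e h.1]; exact map_zero g.red)

theorem isUnitAt_one : IsUnitAt g (1 : F) :=
  ⟨one_mem _, by rw [show (⟨1, one_mem _⟩ : g.integers) = 1 from rfl, map_one]; exact one_ne_zero⟩

theorem IsUnitAt.mul {x y : F} (hx : IsUnitAt g x) (hy : IsUnitAt g y) : IsUnitAt g (x * y) :=
  ⟨mul_mem hx.1 hy.1, by
    rw [show (⟨x * y, mul_mem hx.1 hy.1⟩ : g.integers) = ⟨x, hx.1⟩ * ⟨y, hy.1⟩ from rfl, map_mul]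
    exact mul_ne_zero hx.2 hy.2⟩

theorem IsUnitAt.pow {x : F} (hx : IsUnitAt g x) (m : ℕ) : IsUnitAt g (x ^ m) := by
  induction m with
  | zero => rw [pow_zero]; exact isUnitAt_one
  | succ m ih => rw [pow_succ]; exact ih.mul hx

theorem IsUnitAt.inv (hπ : Function.Surjective π) {x : F} (hx : IsUnitAt g x) :
    IsUnitAt g x⁻¹ := by
  obtain ⟨h, e⟩ := g.inv_mem hπ hx.1 hx.2
  exact ⟨h, by rw [e]; exact inv_ne_zero hx.2⟩

theorem CongMod.refl (R : ℕ) (x : F) : CongMod g ϖ R x x := ⟨0, zero_mem _, by simp⟩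

theorem CongMod.trans {R : ℕ} {x y z : F} (h : CongMod g ϖ R x y) (h' : CongMod g ϖ R y z) :
    CongMod g ϖ R x z := by
  obtain ⟨a, ha, e⟩ := h
  obtain ⟨b, hb, e'⟩ := h'
  exact ⟨a + b, add_mem ha hb, by rw [smul_add, ← e, ← e']; ring⟩

theorem CongMod.mul_left {R : ℕ} {x y z : F} (hz : z ∈ g.integers) (h : CongMod g ϖ R x y) :
    CongMod g ϖ R (z * x) (z * y) := by
  obtain ⟨a, ha, e⟩ := h
  exact ⟨z * a, mul_mem hz ha, by rw [← mul_sub, e, mul_smul_comm]⟩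

theorem CongMod.mono {R R' : ℕ} (hR : R' ≤ R) {x y : F} (h : CongMod g ϖ R x y) :
    CongMod g ϖ R' x y := by
  obtain ⟨a, ha, e⟩ := h
  refine ⟨(ϖ : K) ^ (R - R') • a, g.smul_mem (pow_mem ϖ.2 _) ha, ?_⟩
  rw [e, smul_smul, ← pow_add, Nat.add_sub_cancel' hR]

theorem CongMod.mem_E {E : Subfield F} (hϖ0 : (ϖ : K) ≠ 0)
    (hϖE : ∀ y : E, (ϖ : K) • (y : F) ∈ E) {R : ℕ} {x y : F} (hx : x ∈ E) (hy : y ∈ E)
    (h : CongMod g ϖ R x y) : ∃ w ∈ g.integers, w ∈ E ∧ x - y = (ϖ : K) ^ R • w := by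
  obtain ⟨w, hw, e⟩ := h
  refine ⟨w, hw, ?_, e⟩
  have h1 : algebraMap K F (ϖ : K) ∈ E := by
    have := hϖE ⟨1, E.one_mem⟩
    rwa [Algebra.smul_def, mul_one] at this
  have : w = (algebraMap K F (ϖ : K) ^ R)⁻¹ * (x - y) := by
    have hne : algebraMap K F (ϖ : K) ≠ 0 := by simpa using hϖ0
    rw [e, Algebra.smul_def, map_pow, inv_mul_cancel_left₀ (pow_ne_zero _ hne)]
  rw [this]
  exact E.mul_mem (E.inv_mem (pow_mem h1 R)) (E.sub_mem hx hy)

/-- Two units with the same reduction are congruent modulo `ϖ`, relative to `g`. -/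
theorem exists_congMod_one (hπ : Function.Surjective π) {E : Subfield F}
    (hdiv : ∀ x ∈ E, ∀ (h : x ∈ g.integers), g.red ⟨x, h⟩ = 0 → CongMod g ϖ 1 x 0)
    {x y : F} (hxE : x ∈ E) (hyE : y ∈ E) (hx : IsUnitAt g x) (hy : IsUnitAt g y)
    (e : g.red ⟨x, hx.1⟩ = g.red ⟨y, hy.1⟩) :
    IsUnitAt g (x / y) ∧ CongMod g ϖ 1 (x / y) 1 := by
  have hu : IsUnitAt g (x / y) := by rw [div_eq_mul_inv]; exact hx.mul (hy.inv hπ)
  refine ⟨hu, ?_⟩
  have h0 : g.red ⟨x / y - 1, sub_mem hu.1 (one_mem _)⟩ = 0 := by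
    obtain ⟨hi, er⟩ := g.inv_mem hπ hy.1 hy.2
    rw [show (⟨x / y - 1, sub_mem hu.1 (one_mem _)⟩ : g.integers) = ⟨x, hx.1⟩ * ⟨y⁻¹, hi⟩ - 1 from
      Subtype.ext (by simp [div_eq_mul_inv]), map_sub, map_mul, er, e, mul_inv_cancel₀ hy.2,
      map_one, sub_self]
  obtain ⟨w, hw, ew⟩ := hdiv _ (E.sub_mem (E.div_mem hxE hyE) E.one_mem) _ h0
  exact ⟨w, hw, by rw [← ew, sub_zero]⟩

/-- A multiplicative operator improving congruences to `1`. -/
structure ContractOp (g : GaussRed A π F Fb) (E E₀ : Subfield F) (ϖ : A) (p : ℕ) where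
  N : F →* F
  mem_E : ∀ x ∈ E, N x ∈ E
  mem_E₀ : ∀ x ∈ E₀, N x ∈ E₀
  isUnitAt : ∀ x, IsUnitAt g x → IsUnitAt g (N x)
  step : ∀ R, 1 ≤ R → ∀ x, IsUnitAt g x → CongMod g ϖ R x 1 → CongMod g ϖ (R + 1) (N x) 1
  const : ∀ c : K, N (algebraMap K F c) = algebraMap K F (c ^ p)

namespace ContractOp

variable {E E₀ : Subfield F} {p : ℕ} (C : ContractOp g E E₀ ϖ p)

theorem isUnitAt_iterate {x : F} (h : IsUnitAt g x) (m : ℕ) : IsUnitAt g (C.N^[m] x) := by
  induction m with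
  | zero => exact h
  | succ m ih => rw [Function.iterate_succ_apply']; exact C.isUnitAt _ ih

theorem step_iterate {x : F} (h : IsUnitAt g x) (h1 : CongMod g ϖ 1 x 1) (m : ℕ) :
    CongMod g ϖ (m + 1) (C.N^[m] x) 1 := by
  induction m with
  | zero => exact h1
  | succ m ih =>
    rw [Function.iterate_succ_apply']
    exact C.step _ (by omega) _ (C.isUnitAt_iterate h m) ih

theorem mem_E_iterate {x : F} (h : x ∈ E) (m : ℕ) : C.N^[m] x ∈ E := by
  induction m with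
  | zero => exact h
  | succ m ih => rw [Function.iterate_succ_apply']; exact C.mem_E _ ih

theorem mem_E₀_iterate {x : F} (h : x ∈ E₀) (m : ℕ) : C.N^[m] x ∈ E₀ := by
  induction m with
  | zero => exact h
  | succ m ih => rw [Function.iterate_succ_apply']; exact C.mem_E₀ _ ih

theorem iterate_mul (x y : F) (m : ℕ) : C.N^[m] (x * y) = C.N^[m] x * C.N^[m] y := by
  induction m with
  | zero => rfl
  | succ m ih => simp only [Function.iterate_succ_apply', ih, map_mul]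

theorem iterate_pow (x : F) (a : ℕ) (m : ℕ) : C.N^[m] (x ^ a) = C.N^[m] x ^ a := by
  induction m with
  | zero => rfl
  | succ m ih => simp only [Function.iterate_succ_apply', ih, map_pow]

/-- A fixed point up to a `p`-th power and a constant is, to every precision, that constant times
a `p`-th power times the iterated image of a lift of its reduction. -/
theorem exists_shape (hπ : Function.Surjective π)
    (hdiv : ∀ x ∈ E, ∀ (h : x ∈ g.integers), g.red ⟨x, h⟩ = 0 → CongMod g ϖ 1 x 0)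
    {f H : F} {κ : K} (hκA : κ ∈ A) (hκE : algebraMap K F κ ∈ E) (hf : IsUnitAt g f)
    (hH : IsUnitAt g H) (hHE : H ∈ E) (hid : f = κ • (H ^ p * C.N (C.N f))) {f₀ : F}
    (hf₀ : IsUnitAt g f₀) (hfE : f ∈ E) (hf₀E : f₀ ∈ E)
    (he : g.red ⟨f, hf.1⟩ = g.red ⟨f₀, hf₀.1⟩) (R : ℕ) :
    ∃ (m : ℕ) (T : F), T ∈ E ∧ IsUnitAt g T ∧
      CongMod g ϖ R f (κ • (T ^ p * C.N^[m] f₀)) := by
  have hκ0 : π ⟨κ, hκA⟩ ≠ 0 := fun h0 => by
    apply hf.2
    have hm : H ^ p * C.N (C.N f) ∈ g.integers :=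
      mul_mem (pow_mem hH.1 p) (C.isUnitAt _ (C.isUnitAt _ hf)).1
    rw [g.red_congr hid hf.1, g.red_smul hκA hm, h0, zero_smul]
  have hκU : IsUnitAt g (algebraMap K F κ) :=
    ⟨g.algebraMap_mem ⟨κ, hκA⟩, by
      rw [g.red_algebraMap ⟨κ, hκA⟩]; simpa using hκ0⟩
  have key : ∀ m, ∃ T, T ∈ E ∧ IsUnitAt g T ∧
      f = κ • (T ^ p * C.N^[2 * (m + 1)] f) := by
    intro m
    induction m with
    | zero => exact ⟨H, hHE, hH, hid⟩
    | succ m ih =>
      obtain ⟨T, hTE, hT, e⟩ := ih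
      refine ⟨T * (algebraMap K F κ ^ p ^ (2 * m + 1)) * C.N^[2 * (m + 1)] H,
        E.mul_mem (E.mul_mem hTE (pow_mem hκE _)) (C.mem_E_iterate hHE _),
        (hT.mul (hκU.pow _)).mul (C.isUnitAt_iterate hH _), ?_⟩
      have hc : ∀ j, C.N^[j] (algebraMap K F κ) = algebraMap K F κ ^ p ^ j := by
        intro j
        induction j with
        | zero => simp
        | succ j ihj =>
          rw [Function.iterate_succ_apply', ihj, map_pow, C.const, map_pow, ← pow_mul,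
            ← pow_succ']
      conv_lhs => rw [e]
      congr 1
      conv_lhs => rw [hid]
      rw [Algebra.smul_def, C.iterate_mul, C.iterate_mul, C.iterate_pow, hc,
        show C.N (C.N f) = C.N^[2] f from rfl, ← Function.iterate_add_apply,
        show 2 * (m + 1) + 2 = 2 * (m + 1 + 1) by ring, mul_pow, mul_pow, ← pow_mul,
        show p ^ (2 * m + 1) * p = p ^ (2 * (m + 1)) by rw [← pow_succ]; congr 1]
      ring
  obtain ⟨T, hTE, hT, e⟩ := key R
  refine ⟨2 * (R + 1), T, hTE, hT, ?_⟩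
  obtain ⟨hu, hu1⟩ := exists_congMod_one hπ hdiv hfE hf₀E hf hf₀ he
  have h := (C.step_iterate hu hu1 (2 * (R + 1))).mono (show R ≤ 2 * (R + 1) + 1 by omega)
  have h2 := CongMod.mul_left (z := κ • (T ^ p * C.N^[2 * (R + 1)] f₀))
    (g.smul_mem hκA (mul_mem (hT.pow p).1 (C.isUnitAt_iterate hf₀ _).1)) h
  rwa [mul_one, smul_mul_assoc, mul_assoc, ← C.iterate_mul, mul_div_cancel₀ f hf₀.ne_zero,
    ← e] at h2

end ContractOp

/-- A multiplicative operator acting on constants by a power. -/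
structure HeckeOp (g : GaussRed A π F Fb) (E E₀ : Subfield F) (ϖ : A) (e : ℕ) where
  T : F →* F
  mem_E : ∀ x ∈ E, T x ∈ E
  mem_E₀ : ∀ x ∈ E₀, T x ∈ E₀
  isUnitAt : ∀ x, IsUnitAt g x → IsUnitAt g (T x)
  congr : ∀ R x, IsUnitAt g x → CongMod g ϖ R x 1 → CongMod g ϖ R (T x) 1
  const : ∀ c : K, T (algebraMap K F c) = algebraMap K F (c ^ e)

/-- `f ≡ T ^ p g₀` with `g₀` rational, to precision `R`. -/
def HasShape (g : GaussRed A π F Fb) (E E₀ : Subfield F) (ϖ : A) (p R : ℕ) (f : F) : Prop :=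
  ∃ T g₀, T ∈ E ∧ g₀ ∈ E₀ ∧ IsUnitAt g T ∧ IsUnitAt g g₀ ∧ CongMod g ϖ R f (T ^ p * g₀)

theorem HasShape.mul_pow {E E₀ : Subfield F} {p R : ℕ} {f G : F}
    (h : HasShape g E E₀ ϖ p R f) (hGE : G ∈ E) (hG : IsUnitAt g G) :
    HasShape g E E₀ ϖ p R (f * G ^ p) := by
  obtain ⟨T, g₀, hT, hg, hTu, hgu, hc⟩ := h
  refine ⟨T * G, g₀, E.mul_mem hT hGE, hg, hTu.mul hG, hgu, ?_⟩
  have := CongMod.mul_left (z := G ^ p) (hG.pow p).1 hc
  rw [mul_comm f]
  rwa [show (T * G) ^ p * g₀ = G ^ p * (T ^ p * g₀) by ring]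

/-- The constant disappears from `T f / f ^ e`. -/
theorem HeckeOp.exists_shape {E E₀ : Subfield F} {p e : ℕ} (hπ : Function.Surjective π)
    (O : HeckeOp g E E₀ ϖ e) {f : F} {R : ℕ} {κ : K} {T g₀ : F} (hf : IsUnitAt g f)
    (hκA : κ ∈ A) (hTE : T ∈ E) (hgE : g₀ ∈ E₀) (hT : IsUnitAt g T) (hg : IsUnitAt g g₀)
    (h : CongMod g ϖ R f (κ • (T ^ p * g₀))) (hR : 1 ≤ R) (hπϖ : π ϖ = 0) :
    IsUnitAt g (O.T f / f ^ e) ∧ HasShape g E E₀ ϖ p R (O.T f / f ^ e) := by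
  refine ⟨by rw [div_eq_mul_inv]; exact (O.isUnitAt f hf).mul ((hf.pow e).inv hπ), ?_⟩
  set b := κ • (T ^ p * g₀) with hb
  obtain ⟨w, hw, ew⟩ := h
  have hbi : b ∈ g.integers := g.smul_mem hκA (mul_mem (pow_mem hT.1 p) hg.1)
  have hz := g.red_smul (pow_mem ϖ.2 R) hw
  rw [show (⟨(ϖ : K) ^ R, pow_mem ϖ.2 R⟩ : A) = ϖ ^ R from rfl, map_pow, hπϖ,
    zero_pow (by omega), zero_smul] at hz
  have hbu : IsUnitAt g b := ⟨hbi, fun h0 => hf.2 (by
    rw [show (⟨f, hf.1⟩ : g.integers) = ⟨b, hbi⟩ + ⟨_, g.smul_mem (pow_mem ϖ.2 R) hw⟩ from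
      Subtype.ext (by simp [← ew]), map_add, h0, hz, add_zero])⟩
  have hu : IsUnitAt g (f / b) := by rw [div_eq_mul_inv]; exact hf.mul (hbu.inv hπ)
  have h1 : CongMod g ϖ R (f / b) 1 := by
    refine ⟨w * b⁻¹, mul_mem hw (hbu.inv hπ).1, ?_⟩
    rw [← smul_mul_assoc, ← ew, sub_mul, mul_inv_cancel₀ hbu.ne_zero, div_eq_mul_inv]
  have hTE' : O.T T / T ^ e ∈ E := E.div_mem (O.mem_E T hTE) (pow_mem hTE e)
  have hgE' : O.T g₀ / g₀ ^ e ∈ E₀ := E₀.div_mem (O.mem_E₀ g₀ hgE) (pow_mem hgE e)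
  have hTu' : IsUnitAt g (O.T T / T ^ e) := by
    rw [div_eq_mul_inv]; exact (O.isUnitAt T hT).mul ((hT.pow e).inv hπ)
  have hgu' : IsUnitAt g (O.T g₀ / g₀ ^ e) := by
    rw [div_eq_mul_inv]; exact (O.isUnitAt g₀ hg).mul ((hg.pow e).inv hπ)
  have hκ0 : κ ≠ 0 := fun h0 => hbu.ne_zero (by rw [hb, h0, zero_smul])
  refine ⟨_, _, hTE', hgE', hTu', hgu', ?_⟩
  -- `T f / f ^ e = (T b / b ^ e) * (T u / u ^ e)` with `u = f / b`
  have hub : f = b * (f / b) := by rw [mul_div_cancel₀ f hbu.ne_zero]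
  have hTb : O.T b / b ^ e = (O.T T / T ^ e) ^ p * (O.T g₀ / g₀ ^ e) := by
    rw [hb, Algebra.smul_def, map_mul, map_mul, map_pow, O.const, map_pow, mul_pow, mul_pow,
      div_pow, ← pow_mul, ← pow_mul, mul_comm p e, div_mul_div_comm, mul_div_mul_left]
    exact pow_ne_zero _ (by simpa using hκ0)
  have hue : CongMod g ϖ R (O.T (f / b) / (f / b) ^ e) 1 := by
    obtain ⟨a, ha, ea⟩ := O.congr R _ hu h1
    obtain ⟨c, hc', ec⟩ := h1
    have hinv := ((hu.pow e).inv hπ).1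
    refine ⟨(a - (∑ i ∈ Finset.range e, (f / b) ^ i) * c) * ((f / b) ^ e)⁻¹,
      mul_mem (sub_mem ha (mul_mem (sum_mem fun i _ => pow_mem hu.1 i) hc')) hinv, ?_⟩
    have hgeo := geom_sum_mul (f / b) e
    rw [ec] at hgeo
    rw [← smul_mul_assoc, smul_sub, ← ea, ← mul_smul_comm, hgeo, div_eq_mul_inv (O.T (f / b))]
    have hne := pow_ne_zero e hu.ne_zero
    field_simp
    ring
  have hmul := CongMod.mul_left (z := (O.T T / T ^ e) ^ p * (O.T g₀ / g₀ ^ e))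
    (mul_mem (hTu'.pow p).1 hgu'.1) hue
  rw [mul_one] at hmul
  convert hmul using 1
  rw [← hTb]
  conv_lhs => rw [hub, map_mul, mul_pow]
  rw [div_mul_div_comm]

end FermatAgent.MazurPrinciple
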