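import Fermat.Agent.MazurPrinciple.NodeEmb

/-!
# The constants at the two ends of an annulus

If an element with multiplicities divisible by `p` is, at each end, a `p`-th power times a given
series, the orders of the two series are divisible by `p` and their constant parts differ by a
`p`-th power.
-/

set_option autoImplicit false
set_option linter.style.haveILetI false

noncomputable section

namespace FermatAgent.MazurPrinciple

theorem IsDecomp.pow {S : Type*} [CommRing S] {z : LaurentSeries S} {c : Sˣ} {n : ℤ}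
    (h : IsDecomp z c n) (a : ℕ) : IsDecomp (z ^ a) (c ^ a) (a * n) := by
  induction a with
  | zero => simpa using isDecomp_one (S := S)
  | succ a ih =>
    rw [pow_succ, pow_succ]
    convert ih.mul h using 1
    push_cast; ring

theorem IsDecomp.isUnit {S : Type*} [CommRing S] {z : LaurentSeries S} {c : Sˣ} {n : ℤ}
    (h : IsDecomp z c n) : IsUnit z := by
  obtain ⟨P, Q, hP, hQ, rfl⟩ := h
  obtain ⟨P', -, hP'⟩ := hP.exists_inv
  obtain ⟨Q', -, hQ'⟩ := hQ.exists_inv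
  refine ((IsUnit.of_mul_eq_one (HahnSeries.single (-n) ((c⁻¹ : Sˣ) : S)) ?_).mul
    (IsUnit.of_mul_eq_one _ hP')).mul (IsUnit.of_mul_eq_one _ hQ')
  rw [HahnSeries.single_mul_single, add_neg_cancel, Units.mul_inv]
  rfl

namespace Ann

variable {W : Type*} [CommRing W] [IsDomain W] [IsDiscreteValuationRing W] (ϖ : W)
  [IsAdicComplete (Ideal.span {ϖ}) W] (hϖ : Irreducible ϖ)
include hϖ

/-- The constants of an element that is, at both ends, a `p`-th power times a given series. -/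
theorem exists_const_rel {p : ℕ} (hp : p.Prime) {R : ℕ} (hR : 1 ≤ R) {a : Ann ϖ} (ha : a ≠ 0)
    (hdiv : ∀ q : Ann ϖ, Prime q → ¬ q ∣ const ϖ ϖ → p ∣ multiplicity q a)
    {U₁ U₂ G₁ G₂ : LaurentSeries (modPow ϖ R)} (hU₁ : IsUnit U₁) (hU₂ : IsUnit U₂)
    {d₁ d₂ : (modPow ϖ R)ˣ} {n₁ n₂ : ℤ} (hG₁ : IsDecomp G₁ d₁ n₁) (hG₂ : IsDecomp G₂ d₂ n₂)
    (h₁ : toX ϖ R a = U₁ ^ p * G₁) (h₂ : toY ϖ R a = U₂ ^ p * G₂) :
    (p : ℤ) ∣ n₁ ∧ (p : ℤ) ∣ n₂ ∧ ∃ η : (modPow ϖ R)ˣ, d₂ = d₁ * η ^ p := by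
  letI := isDomain ϖ hϖ
  letI := isLocalRing_modPow ϖ hϖ (show R ≠ 0 by omega)
  haveI := isLocalRing_modPow ϖ hϖ one_ne_zero
  have hm := isNilpotent_maximalIdeal_modPow ϖ hϖ (show R ≠ 0 by omega)
  obtain ⟨ε, g, α, β, hε, rfl⟩ := exists_monomial_mul_pow ϖ hϖ ha p hdiv
  have u₁ : IsUnit (toX ϖ R (ε * x ϖ ^ α * y ϖ ^ β * g ^ p)) :=
    h₁ ▸ (hU₁.pow p).mul hG₁.isUnit
  have u₂ : IsUnit (toY ϖ R (ε * x ϖ ^ α * y ϖ ^ β * g ^ p)) :=
    h₂ ▸ (hU₂.pow p).mul hG₂.isUnit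
  have hne : ∀ U : LaurentSeries (modPow ϖ R), IsUnit U → levelMap ϖ hR U ≠ 0 :=
    fun U hU => (hU.map _).ne_zero
  have hβ : β = 0 := by
    by_contra hb
    apply hne _ u₁
    rw [levelMap_toX, map_mul, map_mul, map_mul, map_pow, map_pow, toX_y,
      (modPowMk_eq_zero_iff ϖ 1 ϖ).mpr (by rw [pow_one]), map_zero, zero_pow hb]
    ring
  have hα : α = 0 := by
    by_contra hb
    apply hne _ u₂
    rw [levelMap_toY, map_mul, map_mul, map_mul, map_pow, map_pow, toY_x,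
      (modPowMk_eq_zero_iff ϖ 1 ϖ).mpr (by rw [pow_one]), map_zero, zero_pow hb]
    ring
  subst hα hβ
  rw [pow_zero, pow_zero, mul_one, mul_one] at h₁ h₂ u₁ u₂
  rw [map_mul, map_pow] at h₁ h₂ u₁ u₂
  obtain ⟨c, dX, dY⟩ := exists_isDecomp_unit ϖ hϖ hε (show R ≠ 0 by omega)
  have key : ∀ {E G U G₀ : LaurentSeries (modPow ϖ R)} {d : (modPow ϖ R)ˣ} {n : ℤ}
      (_ : IsUnit (E * G ^ p)) (_ : IsUnit U) (_ : IsDecomp G₀ d n)
      (_ : IsDecomp E (Units.map (modPowMk ϖ R).toMonoidHom c) 0) (_ : E * G ^ p = U ^ p * G₀),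
      (p : ℤ) ∣ n ∧
        ∃ η : (modPow ϖ R)ˣ, d = Units.map (modPowMk ϖ R).toMonoidHom c * η ^ p := by
    intro E G U G₀ d n hu hU hG₀ hE e
    obtain ⟨γ, m, hγ⟩ := exists_decomp hm
      ((isUnit_pow_iff hp.ne_zero).mp (isUnit_of_mul_isUnit_right hu))
    obtain ⟨β, b, hβ⟩ := exists_decomp hm hU
    have h := (hE.mul (hγ.pow p)).unique (e ▸ (hβ.pow p).mul hG₀)
    refine ⟨⟨m - b, by linarith [h.2]⟩, γ * β⁻¹, ?_⟩
    rw [mul_pow, inv_pow, ← mul_assoc, h.1]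
    exact (mul_inv_cancel_comm _ _).symm
  obtain ⟨hn₁, η₁, e₁⟩ := key u₁ hU₁ hG₁ dX h₁
  obtain ⟨hn₂, η₂, e₂⟩ := key u₂ hU₂ hG₂ dY h₂
  refine ⟨hn₁, hn₂, η₂ * η₁⁻¹, ?_⟩
  rw [e₁, e₂, mul_pow, inv_pow, mul_mul_mul_comm, mul_inv_cancel, mul_one]

end Ann

end FermatAgent.MazurPrinciple
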