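import Fermat.Agent.MazurPrinciple.Invariant
import Fermat.Agent.MazurPrinciple.NodeConst
import Fermat.Agent.MazurPrinciple.Contraction

/-!
# The local setting of Mazur's principle

`Setup d E E₀ ϖ ϖW p`: a nodal datum, a discretely valued field of definition `E` containing the
rational functions `E₀`, the embeddings at the nodes and the scalars seen in `W`.
-/

set_option autoImplicit false
set_option linter.unusedSectionVars false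

noncomputable section

open AlgebraicCurve WithZero

namespace FermatAgent.MazurPrinciple

open FermatAgent.Curve FermatAgent.Curve.RR BadRed.Semistable
open scoped Classical

variable {K : Type*} [Field K] [IsAlgClosed K] {A : ValuationSubring K} {k : Type*}
    [Field k] [IsAlgClosed k] {π : A →+* k} {F F₁ F₂ : Type*} [Field F] [Field F₁] [Field F₂]
    [Algebra K F] [Algebra k F₁] [Algebra k F₂] [IsFunctionField1 K F] [IsFunctionField1 k F₁]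
    [IsFunctionField1 k F₂] [RRSetting K F] [RRSetting k F₁] [RRSetting k F₂] [Infinite k]
variable {W : Type*} [CommRing W] [IsDomain W] [IsDiscreteValuationRing W]

/-- The integral scalars of a subfield. -/
def scalars (A : ValuationSubring K) (E : Subfield F) : Subring A :=
  (E.toSubring.comap (algebraMap K F)).comap A.subtype

/-- The setting. -/
structure Setup (d : NodalDatum A π F F₁ F₂) (E E₀ : Subfield F) (ϖ : A) (ϖW : W) (p : ℕ) where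
  irreducible : Irreducible ϖW
  prime : p.Prime
  le : E₀ ≤ E
  unif_ne_zero : (ϖ : K) ≠ 0
  pi_unif : π ϖ = 0
  arch : ∀ δ : K, δ ≠ 0 → ∃ R : ℕ, δ / (ϖ : K) ^ R ∉ A
  smul_mem : ∀ y : E, (ϖ : K) • (y : F) ∈ E
  v : ℕ
  one_le : 1 ≤ v
  p_eq : ∃ u : A, (p : A) = ϖ ^ v * u ∧ π u ≠ 0
  p_eqW : ∃ w : W, IsUnit w ∧ (p : W) = ϖW ^ v * w
  ζ : W
  isPrimitiveRoot : IsPrimitiveRoot ζ p
  node : ∀ i, NodeEmb d E i ϖ ϖW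
  toW : scalars A E →+* W
  end_scalar₁ : ∀ (c : scalars A E) (i : d.C.ι) (R : ℕ),
    (node i).end₁ R ⟨algebraMap K F ((c : A) : K), c.2, d.g₁.algebraMap_mem c⟩ =
      HahnSeries.C (modPowMk ϖW R (toW c))
  end_scalar₂ : ∀ (c : scalars A E) (i : d.C.ι) (R : ℕ),
    (node i).end₂ R ⟨algebraMap K F ((c : A) : K), c.2, d.g₂.algebraMap_mem c⟩ =
      HahnSeries.C (modPowMk ϖW R (toW c))
  isUnit_toW : ∀ c : scalars A E, π (c : A) ≠ 0 → IsUnit (toW c)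
  reflect : ∀ (c c' : scalars A E) (R : ℕ), ϖW ^ R ∣ toW c - toW c' →
    ∃ a : A, (c : A) - c' = ϖ ^ R * a
  dense : ∀ (R : ℕ) (w : W), IsUnit w →
    ∃ c : scalars A E, π (c : A) ≠ 0 ∧ ϖW ^ R ∣ toW c - w
  div₁ : ∀ x ∈ E, ∀ (h : x ∈ d.g₁.integers), d.g₁.red ⟨x, h⟩ = 0 → CongMod d.g₁ ϖ 1 x 0
  div₂ : ∀ x ∈ E, ∀ (h : x ∈ d.g₂.integers), d.g₂.red ⟨x, h⟩ = 0 → CongMod d.g₂ ϖ 1 x 0
  norm₁ : ∀ x ∈ E, x ≠ 0 → ∃ c : K, algebraMap K F c ∈ E ∧ IsUnitAt d.g₁ (c • x)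
  norm₂ : ∀ x ∈ E, x ≠ 0 → ∃ c : K, algebraMap K F c ∈ E ∧ IsUnitAt d.g₂ (c • x)
  lift₁ : ∀ φ : F₁, φ ≠ 0 → ∃ h ∈ E₀, ∃ hu : IsUnitAt d.g₁ h, d.g₁.red ⟨h, hu.1⟩ = φ
  lift₂ : ∀ φ : F₂, φ ≠ 0 → ∃ h ∈ E₀, ∃ hu : IsUnitAt d.g₂ h, d.g₂.red ⟨h, hu.1⟩ = φ
  sec : F
  sec_mem : sec ∈ E
  sec_unit : IsDiscUnit d sec
  secDeg : ℕ
  one_le_secDeg : 1 ≤ secDeg
  sec_rr : sec ∈ riemannRochSpace (secDeg • d.D)
  sec_div : ∀ ω, d.redDiv d.D ω ≠ 0 → d.redDiv (divisorOf sec + secDeg • d.D) ω = 0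
  regularise : ∀ f ∈ E, f ≠ 0 → ∃ G ∈ E, IsDiscUnit d G ∧
    ∃ n : ℕ, f * G ^ p ∈ riemannRochSpace ((p * n) • d.D)
  rational : ∀ f ∈ E, ∀ m n' : ℕ, 0 ≤ smoothRoot d p m f → ∃ S : RationalStructure d ϖ
    (d.sub n' (smoothRoot d p m f)), ∀ x, x ∈ S.carrier ↔ x ∈ E

theorem isDiscUnit_iff {d : NodalDatum A π F F₁ F₂} {f : F} :
    IsDiscUnit d f ↔ IsUnitAt d.g₁ f ∧ IsUnitAt d.g₂ f :=
  ⟨fun h => ⟨⟨h.1.1, h.2.1⟩, ⟨h.1.2, h.2.2⟩⟩, fun h => ⟨⟨h.1.1, h.2.1⟩, h.1.2, h.2.2⟩⟩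

variable {d : NodalDatum A π F F₁ F₂} {E E₀ : Subfield F} {ϖ : A} {ϖW : W} {p : ℕ}
  [IsAdicComplete (Ideal.span {ϖW}) W]

theorem Setup.end₁_congr (L : Setup d E E₀ ϖ ϖW p) (i : d.C.ι) {R : ℕ} {x y : F} (hxE : x ∈ E)
    (hyE : y ∈ E) (hx : x ∈ d.g₁.integers) (hy : y ∈ d.g₁.integers)
    (h : CongMod d.g₁ ϖ R x y) :
    (L.node i).end₁ R ⟨x, hxE, hx⟩ = (L.node i).end₁ R ⟨y, hyE, hy⟩ := by
  obtain ⟨w, hw, hwE, e⟩ := h.mem_E L.unif_ne_zero L.smul_mem hxE hyE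
  have := (L.node i).end₁_sub L.irreducible (R := R) (z := ⟨x, hxE, hx⟩) (w := ⟨y, hyE, hy⟩)
    (u := ⟨w, hwE, hw⟩) L.smul_mem e
  rwa [(modPowMk_eq_zero_iff ϖW R _).mpr dvd_rfl, map_zero, zero_mul, sub_eq_zero] at this

theorem Setup.end₂_congr (L : Setup d E E₀ ϖ ϖW p) (i : d.C.ι) {R : ℕ} {x y : F} (hxE : x ∈ E)
    (hyE : y ∈ E) (hx : x ∈ d.g₂.integers) (hy : y ∈ d.g₂.integers)
    (h : CongMod d.g₂ ϖ R x y) :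
    (L.node i).end₂ R ⟨x, hxE, hx⟩ = (L.node i).end₂ R ⟨y, hyE, hy⟩ := by
  obtain ⟨w, hw, hwE, e⟩ := h.mem_E L.unif_ne_zero L.smul_mem hxE hyE
  have := (L.node i).end₂_sub L.irreducible (R := R) (z := ⟨x, hxE, hx⟩) (w := ⟨y, hyE, hy⟩)
    (u := ⟨w, hwE, hw⟩) L.smul_mem e
  rwa [(modPowMk_eq_zero_iff ϖW R _).mpr dvd_rfl, map_zero, zero_mul, sub_eq_zero] at this

/-- Decompositions of the ends of shapes at a node. -/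
theorem Setup.node_rel (L : Setup d E E₀ ϖ ϖW p) (i : d.C.ι) {R : ℕ} (hR : 1 ≤ R) {t : F}
    (htE : t ∈ E) (ht : IsDiscUnit d t) {n : ℕ} (htn : t ∈ riemannRochSpace (n • d.D))
    (hdiv : ∀ P : Place K F, (p : ℤ) ∣ P.ord t) {T₁ T₂ G₁ G₂ : F}
    (hT₁ : IsUnitAt d.g₁ T₁) (hT₁E : T₁ ∈ E) (hT₂ : IsUnitAt d.g₂ T₂) (hT₂E : T₂ ∈ E)
    (hG₁ : IsUnitAt d.g₁ G₁) (hG₁E : G₁ ∈ E) (hG₂ : IsUnitAt d.g₂ G₂) (hG₂E : G₂ ∈ E)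
    (h₁ : CongMod d.g₁ ϖ R t (T₁ ^ p * G₁)) (h₂ : CongMod d.g₂ ϖ R t (T₂ ^ p * G₂)) :
    ∃ (d₁ d₂ : (modPow ϖW R)ˣ) (n₁ n₂ : ℤ),
      IsDecomp ((L.node i).end₁ R ⟨G₁, hG₁E, hG₁.1⟩) d₁ n₁ ∧
      IsDecomp ((L.node i).end₂ R ⟨G₂, hG₂E, hG₂.1⟩) d₂ n₂ ∧
      (p : ℤ) ∣ n₁ ∧ (p : ℤ) ∣ n₂ ∧ ∃ η : (modPow ϖW R)ˣ, d₂ = d₁ * η ^ p := by
  let := Ann.isDomain ϖW L.irreducible
  let := Ann.isLocalRing_modPow ϖW L.irreducible (show R ≠ 0 by omega)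
  have hm := Ann.isNilpotent_maximalIdeal_modPow ϖW L.irreducible (show R ≠ 0 by omega)
  obtain ⟨a, ha⟩ := (L.node i).reg ⟨t, htE⟩ n ht.1 htn
  have uT₁ := (L.node i).isUnit_end₁ L.irreducible hR hT₁E hT₁.1 hT₁.2
  have uT₂ := (L.node i).isUnit_end₂ L.irreducible hR hT₂E hT₂.1 hT₂.2
  have uG₁ := (L.node i).isUnit_end₁ L.irreducible hR hG₁E hG₁.1 hG₁.2
  have uG₂ := (L.node i).isUnit_end₂ L.irreducible hR hG₂E hG₂.1 hG₂.2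
  obtain ⟨d₁, n₁, hd₁⟩ := exists_decomp hm uG₁
  obtain ⟨d₂, n₂, hd₂⟩ := exists_decomp hm uG₂
  have eX : Ann.toX ϖW R a =
      (L.node i).end₁ R ⟨T₁, hT₁E, hT₁.1⟩ ^ p * (L.node i).end₁ R ⟨G₁, hG₁E, hG₁.1⟩ := by
    rw [← (L.node i).end₁_eq_toX L.irreducible R ⟨t, htE, ht.1.1⟩ ha,
      L.end₁_congr i htE (E.mul_mem (pow_mem hT₁E p) hG₁E) ht.1.1
        (mul_mem (pow_mem hT₁.1 p) hG₁.1) h₁, ← map_pow, ← map_mul]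
    rfl
  have eY : Ann.toY ϖW R a =
      (L.node i).end₂ R ⟨T₂, hT₂E, hT₂.1⟩ ^ p * (L.node i).end₂ R ⟨G₂, hG₂E, hG₂.1⟩ := by
    rw [← (L.node i).end₂_eq_toY L.irreducible R ⟨t, htE, ht.1.2⟩ ha,
      L.end₂_congr i htE (E.mul_mem (pow_mem hT₂E p) hG₂E) ht.1.2
        (mul_mem (pow_mem hT₂.1 p) hG₂.1) h₂, ← map_pow, ← map_mul]
    rfl
  have ha0 : a ≠ 0 := by
    rintro rfl
    rw [map_zero] at eX
    exact not_isUnit_zero (eX ▸ (uT₁.pow p).mul uG₁)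
  obtain ⟨h1, h2, η, hη⟩ := Ann.exists_const_rel ϖW L.irreducible L.prime hR ha0
    (fun q hq hqϖ => by
      obtain ⟨P, e, hP⟩ := (L.node i).place_of_prime q hq hqϖ
      have := hP ⟨t, htE⟩ a ht.ne_zero ha
      exact_mod_cast this ▸ (hdiv P).mul_left (e : ℤ)) uT₁ uT₂ hd₁ hd₂ eX eY
  exact ⟨d₁, d₂, n₁, n₂, hd₁, hd₂, h1, h2, η, hη⟩

end FermatAgent.MazurPrinciple
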