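import Fermat.Agent.MazurPrinciple.LevelTwist
import Fermat.Agent.BadRed.Carayol.Instance.Fields

/-!
# The nodes of the level datum over a local base

Constants go to their images in the completion, and inertia moves the gluing constants by its
action on the completed scalars.
-/

set_option autoImplicit false
set_option linter.unusedSectionVars false
set_option maxHeartbeats 800000
set_option maxRecDepth 2000

noncomputable section

namespace FermatAgent.MazurPrinciple

open Polynomial AlgebraicCurve ModularCurve IsLocalRing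
open FermatAgent.Curve (IsFunctionField1 divisorOf)
open FermatAgent.BadRed.Semistable FermatAgent.BadRed.Carayol FermatAgent.BadRed.Carayol.Instance
open FermatAgent.ModFun FermatAgent.ModCurveTorsion

local notation "ℚbar" => AlgebraicClosure ℚ
local notation "GQ" => AlgebraicClosure ℚ ≃ₐ[ℚ] AlgebraicClosure ℚ
local notation "𝐅" N:max => laurentBaseChange ℚbar (modularFunctionFieldFull N)

attribute [local instance] ModCurveTorsion.isFunctionField1_laurent
attribute [local instance] isAlgClosed_residue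

variable {p : ℕ} {A : ValuationSubring ℚbar} (B : LocalBase A p)

/-- An integer of the local base has integral coordinates. -/
theorem LocalBase.exists_int_coord (hB : ∀ a ∈ inertiaField A, a ∈ B.S) (c : B.int) :
    ∃ a : ℕ → inertiaRing A,
      c = ∑ i ∈ Finset.range B.idx, B.inertiaToInt hB (a i) * B.unifO ^ i := by
  classical
  obtain ⟨x, hx, he⟩ := B.inSpan_of_mem hB c.2.2
  have hxA := B.coord_mem_of_mem hx he c.2.1
  refine ⟨fun i => if h : i < B.idx then ⟨⟨x i, hx i⟩, hxA i h⟩ else 0, Subtype.ext ?_⟩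
  rw [AddSubmonoidClass.coe_finsetSum]
  refine he.trans (Finset.sum_congr rfl fun i hi => ?_)
  simp only [dif_pos (Finset.mem_range.mp hi)]
  rfl

variable [Fact p.Prime] [NeZero p] (hA : A.LiesOverPrime p) {N' : ℕ} [NeZero N']
  (hco : p.Coprime N') [IsFunctionField1 (IsLocalRing.ResidueField A) (FibField A N')]
  [IsDiscreteValuationRing (inertiaRing A)] [IsAlgClosed (ResidueField (inertiaRing A))]
  (H : Hauptmodul p) (hN : H.L ∣ N')
  (hpN : ¬ p ∣ N') {R : ℤ[X]} (hR : IsCuspPoly H R) (hB : ∀ a ∈ inertiaField A, a ∈ B.S)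
  (D : ChartData (inertiaRing A) (tower (inertiaField A) N' hpN) (uElt (inertiaField A) H hN))
  (hDc : D.cusps = cuspSet R (inertiaRing A))

include hDc in
theorem exists_levelChart (i : (levelData p A hA hco).C.ι) :
    Nonempty (NodeChart (levelLink hA hco H hN hpN hR) i (cuspSet R (inertiaRing A))) :=
  hDc ▸ exists_nodeChart _ (maximalIdeal_inertiaRing Fact.out hA) D i

/-- The embedding at a node of the level datum. -/
def levelNode (i : (levelData p A hA hco).C.ι) :
    NodeEmb (levelData p A hA hco) (B.funField (p * N')) i B.unif B.unifW :=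
  (levelScalars B hA hco H hN hpN hR hB).nodeEmb (exists_levelChart hA hco H hN hpN hR D hDc i).some
    (maximalIdeal_inertiaRing Fact.out hA) D

/-- An integral constant at a node, through any chart. -/
theorem levelScalars_nodeEmb_const {i : (levelData p A hA hco).C.ι}
    (NC : NodeChart (levelLink hA hco H hN hpN hR) i (cuspSet R (inertiaRing A))) (c : B.int)
    (z : B.funField (p * N'))
    (hz : (z : 𝐅 (p * N')) = algebraMap ℚbar (𝐅 (p * N')) (c : ℚbar)) :
    ((levelScalars B hA hco H hN hpN hR hB).nodeEmb NC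
        (maximalIdeal_inertiaRing Fact.out hA) D).emb z =
      algebraMap _ _ (Ann.const B.unifW (algebraMap B.int B.W c)) := by
  obtain ⟨a, rfl⟩ := B.exists_int_coord hB c
  refine ((levelScalars B hA hco H hN hpN hR hB).embE_sum _ _ D a z (hz.trans ?_)).trans ?_
  · rw [AddSubmonoidClass.coe_finsetSum]
    rfl
  · congr 2
    rw [map_sum]
    refine Finset.sum_congr rfl fun j _ => ?_
    rw [map_mul, map_pow]
    rfl

/-- An integral constant at a node. -/
theorem levelNode_const (i : (levelData p A hA hco).C.ι) (c : B.int) (z : B.funField (p * N'))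
    (hz : (z : 𝐅 (p * N')) = algebraMap ℚbar (𝐅 (p * N')) (c : ℚbar)) :
    (levelNode B hA hco H hN hpN hR hB D hDc i).emb z =
      algebraMap _ _ (Ann.const B.unifW (algebraMap B.int B.W c)) :=
  levelScalars_nodeEmb_const B hA hco H hN hpN hR hB D _ c z hz

theorem levelNode_end₁_const (i : (levelData p A hA hco).C.ι) (c : B.int) (n : ℕ)
    (z : ((B.funField (p * N')).toSubring ⊓ (levelData p A hA hco).g₁.integers : Subring _))
    (hz : (z : 𝐅 (p * N')) = algebraMap ℚbar (𝐅 (p * N')) (c : ℚbar)) :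
    (levelNode B hA hco H hN hpN hR hB D hDc i).end₁ n z =
      HahnSeries.C (modPowMk B.unifW n (algebraMap B.int B.W c)) := by
  rw [(levelNode B hA hco H hN hpN hR hB D hDc i).end₁_eq_toX B.irreducible_unifW n z
    (levelNode_const B hA hco H hN hpN hR hB D hDc i c ⟨z, z.2.1⟩ hz), Ann.toX_const]

theorem levelNode_end₂_const (i : (levelData p A hA hco).C.ι) (c : B.int) (n : ℕ)
    (z : ((B.funField (p * N')).toSubring ⊓ (levelData p A hA hco).g₂.integers : Subring _))
    (hz : (z : 𝐅 (p * N')) = algebraMap ℚbar (𝐅 (p * N')) (c : ℚbar)) :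
    (levelNode B hA hco H hN hpN hR hB D hDc i).end₂ n z =
      HahnSeries.C (modPowMk B.unifW n (algebraMap B.int B.W c)) := by
  rw [(levelNode B hA hco H hN hpN hR hB D hDc i).end₂_eq_toY B.irreducible_unifW n z
    (levelNode_const B hA hco H hN hpN hR hB D hDc i c ⟨z, z.2.1⟩ hz), Ann.toY_const]

variable {σ : GQ} (hσ : σ ∈ A.inertiaSubgroupIn ℚ) (hσS : ∀ x ∈ B.S, σ x ∈ B.S)

theorem galN_smul_levelHom (l : LevelField (inertiaField A) (N' * p))
    (hσ : σ ∈ A.inertiaSubgroupIn ℚ) :
    galN (p * N') σ • levelHom A p N' l = levelHom A p N' l := by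
  refine Subtype.ext ?_
  rw [coe_galN_smul]
  ext n
  rw [coeffMap_coeff]
  exact mem_inertiaField.mp (coeff_levelHom_mem l n) σ hσ

theorem intTwist_inertiaToInt (c : inertiaRing A) :
    intTwist hσ B hσS (B.inertiaToInt hB c) = B.inertiaToInt hB c :=
  Subtype.ext (mem_inertiaField.mp (c : inertiaField A).2 σ hσ)

/-- Gluing constants are moved by the action on the roots of unity. -/
theorem levelNode_twist (i : (levelData p A hA hco).C.ι) {ζ : B.W} {w : ℕ}
    (hζ : (scalarTwist hσ B hσS).σ ζ = ζ ^ w) (n c : ℕ) (r : Ann B.unifW)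
    (T₁ : ((B.funField (p * N')).toSubring ⊓ (levelData p A hA hco).g₁.integers : Subring _))
    (T₂ : ((B.funField (p * N')).toSubring ⊓ (levelData p A hA hco).g₂.integers : Subring _))
    (eX : Ann.toX B.unifW n r = (levelNode B hA hco H hN hpN hR hB D hDc i).end₁ n T₁)
    (eY : Ann.toY B.unifW n r = HahnSeries.C (modPowMk B.unifW n (ζ ^ c)) *
      (levelNode B hA hco H hN hpN hR hB D hDc i).end₂ n T₂) :
    let τ := levelTwist hA hco hσ B hσS
    ∃ r', Ann.toX B.unifW n r' = (levelNode B hA hco H hN hpN hR hB D hDc i).end₁ n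
        ⟨τ.τ T₁, τ.mem_E _ T₁.2.1, (τ.mem₁ _ T₁.2.2).1⟩ ∧
      Ann.toY B.unifW n r' = HahnSeries.C (modPowMk B.unifW n (ζ ^ (w * c))) *
        (levelNode B hA hco H hN hpN hR hB D hDc i).end₂ n
          ⟨τ.τ T₂, τ.mem_E _ T₂.2.1, (τ.mem₂ _ T₂.2.2).1⟩ := by
  intro τ
  obtain ⟨a, ha⟩ := B.exists_int_coord hB (intTwist hσ B hσS B.unifO)
  refine (levelScalars B hA hco H hN hpN hR hB).node_twist _ _ D (scalarTwist hσ B hσS)
    (fun c => ?_) τ.τ (fun f => galN_smul_levelHom f hσ) τ.mem_E a ?_ ?_ hζ n c r T₁ T₂ (τ.mem₁ _ T₁.2.2).1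
    (τ.mem₂ _ T₂.2.2).1 eX eY
  · exact (scalarTwist_algebraMap hσ B hσS _).trans
      (congrArg _ (intTwist_inertiaToInt B hB hσ hσS c))
  · refine (SemilinearAut.commutes (galN (p * N') σ) _).trans (congrArg _ ?_)
    show ((intTwist hσ B hσS B.unifO : B.int) : ℚbar) = _
    rw [ha, AddSubmonoidClass.coe_finsetSum]
    rfl
  · refine (scalarTwist_algebraMap hσ B hσS B.unifO).trans ?_
    rw [ha, map_sum]
    refine Finset.sum_congr rfl fun j _ => ?_
    rw [map_mul, map_pow]
    rfl

end FermatAgent.MazurPrinciple
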