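import Fermat.Agent.MazurPrinciple.LevelRational
import Fermat.Agent.MazurPrinciple.Setup

/-!
# The setting of Mazur's principle at `X₀(p N')`
-/

set_option autoImplicit false
set_option linter.unusedSectionVars false
set_option maxHeartbeats 800000

noncomputable section

namespace FermatAgent.MazurPrinciple

open Polynomial AlgebraicCurve ModularCurve IsLocalRing
open FermatAgent.Curve (IsFunctionField1 divisorOf)
open FermatAgent.BadRed.Semistable FermatAgent.BadRed.Carayol FermatAgent.BadRed.Carayol.Instance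
open FermatAgent.ModFun FermatAgent.ModCurveTorsion

local notation "ℚbar" => AlgebraicClosure ℚ
local notation "GQ" => AlgebraicClosure ℚ ≃ₐ[ℚ] AlgebraicClosure ℚ
local notation "𝐅" N:max => laurentBaseChange ℚbar (modularFunctionFieldFull N)

attribute [local instance] ModCurveTorsion.isFunctionField1_laurent
attribute [local instance] isAlgClosed_residue

variable {p : ℕ} {A : ValuationSubring ℚbar} (B : LocalBase A p)

section Scalars

variable (M : ℕ) [NeZero M]

/-- The integral scalars are the integers of the local base. -/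
def scalarsToInt : scalars A (B.funField M) →+* B.int :=
  (A.subtype.comp (scalars A (B.funField M)).subtype).codRestrict B.int fun c =>
    ⟨(c : A).2, algebraMap_mem_fixedFun.mp c.2⟩

/-- An integer of the local base as a scalar. -/
def intToScalars (c : B.int) : scalars A (B.funField M) :=
  ⟨⟨c, c.2.1⟩, algebraMap_mem_fixedFun.mpr c.2.2⟩

theorem LocalBase.isUnit_of_residue_ne_zero {c : B.int}
    (h : residue A ⟨(c : ℚbar), c.2.1⟩ ≠ 0) : IsUnit c := by
  by_contra hc
  refine h ?_
  have hm : c ∈ maximalIdeal B.int := hc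
  rw [B.maximalIdeal_eq, Ideal.mem_span_singleton] at hm
  obtain ⟨y, rfl⟩ := hm
  rw [residue_eq_zero_iff]
  refine (A.valuation_lt_one_iff _).2 ?_
  show A.valuation (B.unifQ * y) < 1
  rw [map_mul]
  exact mul_lt_one_of_lt_of_le B.val_unifQ_lt_one ((A.valuation_le_one_iff _).mpr y.2.1)

/-- A unit of the completion is approximated by scalars with non-zero residue. -/
theorem exists_scalar_approx (R : ℕ) (w : B.W) (hw : IsUnit w) :
    ∃ c : scalars A (B.funField M), residue A (c : A) ≠ 0 ∧
      B.unifW ^ R ∣ algebraMap B.int B.W (scalarsToInt B M c) - w := by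
  obtain ⟨c, hc⟩ := B.exists_approx (max R 1) w
  refine ⟨intToScalars B M c, fun h0 => ?_, (pow_dvd_pow _ (le_max_left R 1)).trans hc⟩
  have hm : c ∈ maximalIdeal B.int := (mem_maximalIdeal _).mpr fun hu => by
    obtain ⟨v, hv⟩ := isUnit_iff_exists_inv.mp hu
    have e : (⟨(c : ℚbar), c.2.1⟩ : A) * ⟨(v : ℚbar), v.2.1⟩ = 1 :=
      Subtype.ext (congrArg (fun y : B.int => (y : ℚbar)) hv)
    have := congrArg (residue A) e
    rw [map_mul, show residue A ⟨(c : ℚbar), c.2.1⟩ = 0 from h0, zero_mul, map_one] at this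
    exact zero_ne_one this
  rw [B.maximalIdeal_eq, Ideal.mem_span_singleton] at hm
  have h1 : B.unifW ∣ algebraMap B.int B.W c := map_dvd _ hm
  have h2 : B.unifW ∣ algebraMap B.int B.W c - w :=
    (dvd_pow_self _ (by omega)).trans hc
  have h3 := dvd_sub h1 h2
  rw [sub_sub_cancel] at h3
  exact B.irreducible_unifW.not_isUnit (isUnit_of_dvd_unit h3 hw)

end Scalars

variable [Fact p.Prime] [NeZero p] (hA : A.LiesOverPrime p) {N' : ℕ} [NeZero N']
  (hco : p.Coprime N') [IsFunctionField1 (IsLocalRing.ResidueField A) (FibField A N')]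
  [Infinite (IsLocalRing.ResidueField A)]
  [IsDiscreteValuationRing (inertiaRing A)] [IsAlgClosed (ResidueField (inertiaRing A))]
  (H : Hauptmodul p) (hN : H.L ∣ N')
  (hpN : ¬ p ∣ N') {R : ℤ[X]} (hR : IsCuspPoly H R) (hB : ∀ a ∈ inertiaField A, a ∈ B.S)
  (D : ChartData (inertiaRing A) (tower (inertiaField A) N' hpN) (uElt (inertiaField A) H hN))
  (hDc : D.cusps = cuspSet R (inertiaRing A))

theorem levelHom_mem_inertiaFun (l : LevelField (inertiaField A) (N' * p)) :
    levelHom A p N' l ∈ inertiaFun A (p * N') :=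
  mem_fixedFun_iff_coeff.mpr (coeff_levelHom_mem l)

/-- The setting over a local base containing a primitive `p`-th root of unity. -/
def levelSetup (ζ : B.int) (hζ : IsPrimitiveRoot (ζ : ℚbar) p) :
    Setup (levelData p A hA hco) (B.funField (p * N')) (inertiaFun A (p * N')) B.unif B.unifW p where
  irreducible := B.irreducible_unifW
  prime := Fact.out
  le x hx := mem_fixedFun_iff_coeff.mpr fun n => hB _ (mem_fixedFun_iff_coeff.mp hx n)
  unif_ne_zero := B.unif_ne_zero
  pi_unif := B.pi_unif _ (levelData p A hA hco).residue_surjective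
  arch := levelData_arch B
  smul_mem y := by
    rw [Algebra.smul_def]; exact Subfield.mul_mem _ (unif_mem_funField B) y.2
  v := B.idx
  one_le := B.idx_pos
  p_eq := by
    obtain ⟨u, hu⟩ := B.exists_p_eq_idx
    refine ⟨⟨((u : B.int) : ℚbar), (u : B.int).2.1⟩, Subtype.ext ?_, fun h => ?_⟩
    · have e := congrArg Subtype.val hu
      rw [show ((p : B.int) : ℚbar) = (p : ℚbar) from map_natCast B.int.subtype p] at e
      rw [show ((p : A) : ℚbar) = (p : ℚbar) from map_natCast A.subtype p, e]
      rfl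
    · rw [residue_eq_zero_iff] at h
      exact ((A.valuation_lt_one_iff _).1 h).ne (B.val_unit u)
  p_eqW := by
    obtain ⟨u, hu⟩ := B.exists_p_eq_idx
    refine ⟨algebraMap B.int B.W u, u.isUnit.map _, ?_⟩
    have h := congrArg (algebraMap B.int B.W) hu
    rwa [map_natCast, map_mul, map_pow] at h
  ζ := algebraMap B.int B.W ζ
  isPrimitiveRoot := (IsPrimitiveRoot.of_map_of_injective (f := B.int.subtype) hζ
    Subtype.val_injective).map_of_injective B.algebraMap_injective
  node := levelNode B hA hco H hN hpN hR hB D hDc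
  toW := (algebraMap B.int B.W).comp (scalarsToInt B (p * N'))
  end_scalar₁ c i n := levelNode_end₁_const B hA hco H hN hpN hR hB D hDc i (scalarsToInt B _ c) n
    ⟨_, c.2, (levelData p A hA hco).g₁.algebraMap_mem c⟩ rfl
  end_scalar₂ c i n := levelNode_end₂_const B hA hco H hN hpN hR hB D hDc i (scalarsToInt B _ c) n
    ⟨_, c.2, (levelData p A hA hco).g₂.algebraMap_mem c⟩ rfl
  isUnit_toW c hc := (B.isUnit_of_residue_ne_zero (c := scalarsToInt B _ c) hc).map
    (algebraMap B.int B.W)
  reflect c c' n h := by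
    rw [← map_sub, RingHom.comp_apply] at h
    obtain ⟨y, hy⟩ := B.dvd_reflect h
    refine ⟨⟨(y : ℚbar), y.2.1⟩, Subtype.ext ?_⟩
    exact congrArg (fun z : B.int => (z : ℚbar)) hy
  dense := exists_scalar_approx B (p * N')
  div₁ x hx h h0 := by
    obtain ⟨y, hy, e⟩ := levelData_div₁ B hA hco H hN hpN hR hB D hDc hx h h0
    exact ⟨y, hy, by rw [sub_zero, pow_one]; exact e⟩
  div₂ x hx h h0 := by
    obtain ⟨y, hy, e⟩ := levelData_div₂ B hA hco H hN hpN hR hB D hDc hx h h0
    exact ⟨y, hy, by rw [sub_zero, pow_one]; exact e⟩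
  norm₁ x := levelData_norm₁ B hA hco H hN hpN hR hB D hDc
  norm₂ x := levelData_norm₂ B hA hco H hN hpN hR hB D hDc
  lift₁ φ hφ := by
    obtain ⟨f, hf, rfl⟩ := levelHom_surj₁ hA hco φ
    exact ⟨_, levelHom_mem_inertiaFun f, ⟨hf, hφ⟩, rfl⟩
  lift₂ φ hφ := by
    obtain ⟨f, hf, rfl⟩ := levelHom_surj₂ hA hco φ
    exact ⟨_, levelHom_mem_inertiaFun f, ⟨hf, hφ⟩, rfl⟩
  sec := levelSec hA hco
  sec_mem := levelSec_mem hA hco
  sec_unit := isDiscUnit_levelSec hA hco
  secDeg := levelSecDeg hA hco
  one_le_secDeg := one_le_levelSecDeg hA hco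
  sec_rr := levelSec_rr hA hco
  sec_div := levelSec_div hA hco
  regularise f _ hf := BadRed.AtP.exists_regularise (levelData_coordUnit hA hco) jBar_mem_fixedFun
    B.S (fun _ ha => algebraMap_mem_fixedFun.mpr ha)
    (fun c => IsIntegral.tower_top (R := ℚ)
      ((AlgebraicClosure.isAlgebraic ℚ).isAlgebraic c).isIntegral) hf (Fact.out : p.Prime).one_le
  rational := levelData_rational B hA hco H hN hpN hR hB D hDc

end FermatAgent.MazurPrinciple
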