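import Fermat.Agent.MazurPrinciple.GlobalRoot

/-!
# Invariants at the nodes and a semilinear automorphism

A function with approximate roots on both components has at each node an invariant in the roots
of unity. A semilinear automorphism `τ` acting on roots of unity by `w` multiplies the invariants
by `w`, so `τ t * t ^ (p - w)` has trivial invariants and is a `p`-th power.
-/

set_option autoImplicit false
set_option linter.unusedSectionVars false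

noncomputable section

open AlgebraicCurve WithZero

namespace FermatAgent.MazurPrinciple

open FermatAgent.Curve FermatAgent.Curve.RR BadRed.Semistable
open scoped Classical

variable {K : Type*} [Field K] [IsAlgClosed K] {A : ValuationSubring K} {k : Type*}
    [Field k] [IsAlgClosed k] {π : A →+* k} {F F₁ F₂ : Type*} [Field F] [Field F₁] [Field F₂]
    [Algebra K F] [Algebra k F₁] [Algebra k F₂] [IsFunctionField1 K F] [IsFunctionField1 k F₁]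
    [IsFunctionField1 k F₂] [RRSetting K F] [RRSetting k F₁] [RRSetting k F₂] [Infinite k]
variable {W : Type*} [CommRing W] [IsDomain W] [IsDiscreteValuationRing W] {ϖW : W}
  [IsAdicComplete (Ideal.span {ϖW}) W]
variable {d : NodalDatum A π F F₁ F₂} {E : Subfield F} {ϖ : A}

/-- Approximate roots at precision `R + v` have invariants at precision `R` at a node. -/
theorem exists_invariant (hϖW : Irreducible ϖW) (hϖE : ∀ y : E, (ϖ : K) • (y : F) ∈ E) {p : ℕ}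
    (hp : p.Prime) {v : ℕ} (hv : ∃ w : W, IsUnit w ∧ (p : W) = ϖW ^ v * w) {ζ : W}
    (hζ : IsPrimitiveRoot ζ p) {i : d.C.ι} (ν : NodeEmb d E i ϖ ϖW) {t : F} (htE : t ∈ E)
    (ht : t ∈ d.int) {n : ℕ} (htn : t ∈ riemannRochSpace (n • d.D))
    (hdiv : ∀ P : Place K F, (p : ℤ) ∣ P.ord t) {R : ℕ} (hR : v ≤ R) (hR0 : R ≠ 0)
    (T₁ : (E.toSubring ⊓ d.g₁.integers : Subring F))
    (T₂ : (E.toSubring ⊓ d.g₂.integers : Subring F))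
    (h0₁ : d.g₁.red ⟨T₁, T₁.2.2⟩ ≠ 0) (h0₂ : d.g₂.red ⟨T₂, T₂.2.2⟩ ≠ 0)
    {u₁ : (E.toSubring ⊓ d.g₁.integers : Subring F)}
    {u₂ : (E.toSubring ⊓ d.g₂.integers : Subring F)}
    (e₁ : (T₁ : F) ^ p - t = (ϖ : K) ^ (R + v) • (u₁ : F))
    (e₂ : (T₂ : F) ^ p - t = (ϖ : K) ^ (R + v) • (u₂ : F)) :
    ∃ (r : Ann ϖW) (c : ℕ), Ann.toX ϖW R r = ν.end₁ R T₁ ∧
      Ann.toY ϖW R r = HahnSeries.C (modPowMk ϖW R (ζ ^ c)) * ν.end₂ R T₂ := by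
  have hpR : R + v ≤ p * R := by
    have := Nat.mul_le_mul_right R hp.two_le
    omega
  obtain ⟨r, a, ha, b, -, hX, hY⟩ := ν.exists_root hϖW hp hv hζ hϖE (le_refl (R + v)) hR0 hpR htE ht
    htn hdiv T₁ T₂ h0₁ h0₂ e₁ e₂
  refine ⟨r * Ann.const ϖW (ζ ^ (p - a)), p - a + b, ?_, ?_⟩
  · rw [map_mul, hX, Ann.toX_const, mul_right_comm, ← map_mul, ← map_mul, ← pow_add,
      Nat.add_sub_cancel' ha.le, hζ.pow_eq_one, map_one, map_one, one_mul]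
  · rw [map_mul, hY, Ann.toY_const, mul_right_comm, ← map_mul, ← map_mul, ← pow_add, add_comm b]

/-- A semilinear automorphism of the datum. -/
structure Twist (d : NodalDatum A π F F₁ F₂) (E : Subfield F) (ϖ : A) where
  σ : K ≃+* K
  τ : F ≃+* F
  map_smul : ∀ (c : K) (x : F), τ (c • x) = σ c • τ x
  map_unif : ∃ u ∈ A, σ ϖ = u * ϖ
  mem_E : ∀ x ∈ E, τ x ∈ E
  mem₁ : ∀ x (h : x ∈ d.g₁.integers), ∃ h' : τ x ∈ d.g₁.integers,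
    d.g₁.red ⟨x, h⟩ ≠ 0 → d.g₁.red ⟨τ x, h'⟩ ≠ 0
  mem₂ : ∀ x (h : x ∈ d.g₂.integers), ∃ h' : τ x ∈ d.g₂.integers,
    d.g₂.red ⟨x, h⟩ ≠ 0 → d.g₂.red ⟨τ x, h'⟩ ≠ 0
  place : ∀ P : Place K F, ∃ P' : Place K F, ∀ f : F, P.ord (τ f) = P'.ord f
  mem_rr : ∀ (n : ℕ) (x : F), x ∈ riemannRochSpace (n • d.D) → τ x ∈ riemannRochSpace (n • d.D)

theorem Twist.congr_pow (T : Twist d E ϖ) {x y : F} {R : ℕ} (e : x = (ϖ : K) ^ R • y) :
    ∃ u ∈ A, T.τ x = (ϖ : K) ^ R • u • T.τ y := by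
  obtain ⟨u, hu, hσ⟩ := T.map_unif
  exact ⟨u ^ R, pow_mem hu R, by rw [e, T.map_smul, map_pow, hσ, smul_smul, mul_pow, mul_comm]⟩

/-- The twisted product of a function with invariants at the nodes is a `p`-th power. -/
theorem exists_root_twist (hϖW : Irreducible ϖW) (hϖ0 : (ϖ : K) ≠ 0) (hπϖ : π ϖ = 0)
    (hc : ∀ δ : K, δ ≠ 0 → ∃ R : ℕ, δ / (ϖ : K) ^ R ∉ A)
    (hϖE : ∀ y : E, (ϖ : K) • (y : F) ∈ E) {p : ℕ} [CharP k p] (hp : p.Prime)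
    {v : ℕ} (hv : 1 ≤ v) {u : A} (hu : (p : A) = ϖ ^ v * u) (hu0 : π u ≠ 0)
    (hvW : ∃ w : W, IsUnit w ∧ (p : W) = ϖW ^ v * w) {ζ : W} (hζ : IsPrimitiveRoot ζ p)
    (ν : ∀ i, NodeEmb d E i ϖ ϖW)
    {s₀ : F} (hs₀E : s₀ ∈ E) (hs₀ : IsDiscUnit d s₀) {c₀ : ℕ} (hc1 : 1 ≤ c₀)
    (hs₀c : s₀ ∈ riemannRochSpace (c₀ • d.D))
    (hs₀D : ∀ ω, d.redDiv d.D ω ≠ 0 → d.redDiv (divisorOf s₀ + c₀ • d.D) ω = 0)
    (τ : Twist d E ϖ) {w : ℕ} (hw : w ≤ p)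
    (hτν : ∀ (i : d.C.ι) (R c : ℕ) (r : Ann ϖW)
      (T₁ : (E.toSubring ⊓ d.g₁.integers : Subring F))
      (T₂ : (E.toSubring ⊓ d.g₂.integers : Subring F)),
      Ann.toX ϖW R r = (ν i).end₁ R T₁ →
      Ann.toY ϖW R r = HahnSeries.C (modPowMk ϖW R (ζ ^ c)) * (ν i).end₂ R T₂ →
      ∃ r', Ann.toX ϖW R r' =
          (ν i).end₁ R ⟨τ.τ T₁, τ.mem_E _ T₁.2.1, (τ.mem₁ _ T₁.2.2).1⟩ ∧
        Ann.toY ϖW R r' = HahnSeries.C (modPowMk ϖW R (ζ ^ (w * c))) *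
          (ν i).end₂ R ⟨τ.τ T₂, τ.mem_E _ T₂.2.1, (τ.mem₂ _ T₂.2.2).1⟩)
    {t : F} (htE : t ∈ E) (ht : IsDiscUnit d t) {n : ℕ}
    (htn : t ∈ riemannRochSpace ((p * n) • d.D)) (hdiv : ∀ P : Place K F, (p : ℤ) ∣ P.ord t)
    (hS : ∀ m n', 0 ≤ smoothRoot d p m (τ.τ t * t ^ (p - w)) → ∃ S : RationalStructure d ϖ
      (d.sub n' (smoothRoot d p m (τ.τ t * t ^ (p - w)))), ∀ x, x ∈ S.carrier ↔ x ∈ E)
    (happ : ∀ R : ℕ, ∃ (T₁ : (E.toSubring ⊓ d.g₁.integers : Subring F))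
      (T₂ : (E.toSubring ⊓ d.g₂.integers : Subring F))
      (u₁ : (E.toSubring ⊓ d.g₁.integers : Subring F))
      (u₂ : (E.toSubring ⊓ d.g₂.integers : Subring F)),
      (T₁ : F) ^ p - t = (ϖ : K) ^ R • (u₁ : F) ∧ (T₂ : F) ^ p - t = (ϖ : K) ^ R • (u₂ : F)) :
    ∃ Φ : F, Φ ^ p = τ.τ t * t ^ (p - w) := by
  obtain ⟨a₁, ha₁⟩ := τ.mem₁ t ht.1.1
  obtain ⟨a₂, ha₂⟩ := τ.mem₂ t ht.1.2
  have hτt : IsDiscUnit d (τ.τ t) := ⟨⟨a₁, a₂⟩, ha₁ ht.2.1, ha₂ ht.2.2⟩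
  have hrr : τ.τ t * t ^ (p - w) ∈ riemannRochSpace ((p * (n * (1 + (p - w)))) • d.D) := by
    have h1 := d.pow_mem_sub (Z := 0) (by rwa [NodalDatum.sub, sub_zero]) (p - w) (f := t)
      (n := p * n)
    rw [smul_zero, NodalDatum.sub, sub_zero] at h1
    have := mul_mem_rrSpace (τ.mem_rr _ t htn) h1
    rwa [← add_smul, show p * n + (p - w) * (p * n) = p * (n * (1 + (p - w))) by ring] at this
  refine exists_root_of_components hϖW hϖ0 hπϖ hc hϖE hp hv hu hu0 ν (hτt.mul (ht.pow _))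
    (n := n * (1 + (p - w))) hrr ?_ hs₀E hs₀ hc1 hs₀c hs₀D
    (fun n' => hS _ n' (smoothRoot_nonneg d hp.ne_zero (hτt.mul (ht.pow _)).ne_zero hrr)) ?_
  · intro P
    obtain ⟨P', hP'⟩ := τ.place P
    rw [P.ord_mul hτt.ne_zero (pow_ne_zero _ ht.ne_zero), hP', Curve.ord_pow']
    exact dvd_add (hdiv P') ((hdiv P).mul_left _)
  intro R
  set R' := R + v + 1 with hR'
  obtain ⟨T₁, T₂, u₁, u₂, e₁, e₂⟩ := happ (R' + v)
  have hne : ∀ (g : Subring F) (T x : F) (hT : T ∈ g) (hx : x ∈ g) (ht' : t ∈ g),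
      T ^ p - t = (ϖ : K) ^ (R' + v) • x → ∀ h : (ϖ : K) ^ (R' + v) • x ∈ g,
      (⟨t, ht'⟩ : g) = ⟨T, hT⟩ ^ p - ⟨_, h⟩ := fun g T x hT hx ht' e h =>
    Subtype.ext (by simp [← e])
  have hπR : π ϖ ^ (R' + v) = 0 := by rw [hπϖ, zero_pow (by omega)]
  have h0₁ : d.g₁.red ⟨T₁, T₁.2.2⟩ ≠ 0 := fun he => ht.2.1 <| by
    have h := red_pow_smul d.g₁ ϖ (R' + v) u₁.2.2
    simp only [hπR, zero_smul, SubmonoidClass.coe_pow] at h
    show d.g₁.red ⟨t, ht.1.1⟩ = 0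
    rw [hne _ _ _ T₁.2.2 u₁.2.2 ht.1.1 e₁ (d.g₁.smul_mem (pow_mem ϖ.2 _) u₁.2.2), map_sub,
      map_pow, he, zero_pow hp.ne_zero, h, sub_zero]
  have h0₂ : d.g₂.red ⟨T₂, T₂.2.2⟩ ≠ 0 := fun he => ht.2.2 <| by
    have h := red_pow_smul d.g₂ ϖ (R' + v) u₂.2.2
    simp only [hπR, zero_smul, SubmonoidClass.coe_pow] at h
    show d.g₂.red ⟨t, ht.1.2⟩ = 0
    rw [hne _ _ _ T₂.2.2 u₂.2.2 ht.1.2 e₂ (d.g₂.smul_mem (pow_mem ϖ.2 _) u₂.2.2), map_sub,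
      map_pow, he, zero_pow hp.ne_zero, h, sub_zero]
  have hr := fun i => exists_invariant hϖW hϖE hp hvW hζ (ν i) htE ht.1 htn hdiv
    (show v ≤ R' by omega) (show R' ≠ 0 by omega) T₁ T₂ h0₁ h0₂ e₁ e₂
  set Y₁ : (E.toSubring ⊓ d.g₁.integers : Subring F) :=
    ⟨τ.τ T₁, τ.mem_E _ T₁.2.1, (τ.mem₁ _ T₁.2.2).1⟩ * T₁ ^ (p - w)
  set Y₂ : (E.toSubring ⊓ d.g₂.integers : Subring F) :=
    ⟨τ.τ T₂, τ.mem_E _ T₂.2.1, (τ.mem₂ _ T₂.2.2).1⟩ * T₂ ^ (p - w)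
  have hprod : ∀ (g : Subring F) (_ : ∀ c : A, algebraMap K F (c : K) ∈ g) (T x : F) (_ : T ∈ g)
      (_ : x ∈ g) (_ : t ∈ g) (_ : τ.τ t ∈ g) (_ : τ.τ x ∈ g) (_ : τ.τ T ∈ g),
      T ^ p - t = (ϖ : K) ^ (R' + v) • x →
      ∃ y ∈ g, (τ.τ T * T ^ (p - w)) ^ p - τ.τ t * t ^ (p - w) = (ϖ : K) ^ R • y := by
    intro g hg T x hT hx ht' hτt' hτx hτT e
    obtain ⟨c, hcA, hc'⟩ := τ.congr_pow e
    rw [map_sub, map_pow] at hc'
    have hgeo := geom_sum₂_mul (T ^ p) t (p - w)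
    set S := ∑ i ∈ Finset.range (p - w), (T ^ p) ^ i * t ^ (p - w - 1 - i)
    have hS : S ∈ g := sum_mem fun i _ =>
      mul_mem (pow_mem (pow_mem hT _) _) (pow_mem ht' _)
    refine ⟨algebraMap K F ((ϖ ^ (R' + v - R) : A) : K) *
      ((c • τ.τ x) * (T ^ p) ^ (p - w) + τ.τ t * (S * x)),
      mul_mem (hg _) (add_mem (mul_mem (by rw [Algebra.smul_def]; exact mul_mem (hg ⟨c, hcA⟩) hτx)
        (pow_mem (pow_mem hT _) _)) (mul_mem hτt' (mul_mem hS hx))), ?_⟩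
    rw [SubmonoidClass.coe_pow, map_pow, Algebra.smul_def, map_pow]
    rw [Algebra.smul_def, map_pow] at hc' e
    have eR : algebraMap K F (ϖ : K) ^ R * algebraMap K F (ϖ : K) ^ (R' + v - R) =
        algebraMap K F (ϖ : K) ^ (R' + v) := by rw [← pow_add]; congr 1; omega
    rw [mul_pow, ← pow_mul, mul_comm (p - w) p, pow_mul]
    linear_combination (T ^ p) ^ (p - w) * hc' + (τ.τ t * S) * e - τ.τ t * hgeo -
      ((c • τ.τ x) * (T ^ p) ^ (p - w) + τ.τ t * (S * x)) * eR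
  refine ⟨Y₁, Y₂, ?_, ?_, fun i => ?_⟩
  · exact hprod _ d.g₁.algebraMap_mem _ _ T₁.2.2 u₁.2.2 ht.1.1 a₁ (τ.mem₁ _ u₁.2.2).1
      (τ.mem₁ _ T₁.2.2).1 e₁
  · exact hprod _ d.g₂.algebraMap_mem _ _ T₂.2.2 u₂.2.2 ht.1.2 a₂ (τ.mem₂ _ u₂.2.2).1
      (τ.mem₂ _ T₂.2.2).1 e₂
  obtain ⟨r, c, hX, hY⟩ := hr i
  obtain ⟨r', hX', hY'⟩ := hτν i R' c r T₁ T₂ hX hY
  refine ⟨r' * r ^ (p - w), ?_, ?_⟩
  · rw [← Ann.levelMap_toX ϖW (show R ≤ R' by omega), map_mul, map_pow, hX', hX, ← map_pow,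
      ← map_mul, (ν i).end₁_level]
  · rw [← Ann.levelMap_toY ϖW (show R ≤ R' by omega), map_mul, map_pow, hY', hY, mul_pow,
      mul_mul_mul_comm, ← map_pow, ← map_mul, ← map_pow, ← map_mul, ← pow_mul, ← pow_add,
      show w * c + c * (p - w) = p * c by rw [Nat.mul_comm c, ← Nat.add_mul, Nat.add_sub_cancel' hw],
      pow_mul, hζ.pow_eq_one, one_pow, map_one, map_one, one_mul, ← map_pow, ← map_mul,
      (ν i).end₂_level]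

end FermatAgent.MazurPrinciple
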