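import Fermat.Agent.BadRed.Carayol.Assembly.Descent
import Mathlib.FieldTheory.Galois.Infinite
import Fermat.Agent.RT.Frobenius

/-!
# Functions defined over a field of constants

`fixedFun S M` are the functions of level `M` fixed by the automorphisms over `S`, equivalently
those with coefficients in `S`. Spaces of sections of stable divisors are spanned by them, and at
each of their zeros or poles one of them has order one.
-/

set_option autoImplicit false
set_option maxHeartbeats 1600000

noncomputable section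

namespace FermatAgent.MazurPrinciple

open AlgebraicCurve ModularCurve
open FermatAgent.Curve (divisorOf IsFunctionField1)
open FermatAgent.ModCurveTorsion

local notation "ℚbar" => AlgebraicClosure ℚ
local notation "GQ" => AlgebraicClosure ℚ ≃ₐ[ℚ] AlgebraicClosure ℚ
local notation "𝐅" N:max => laurentBaseChange ℚbar (modularFunctionFieldFull N)

attribute [local instance] isFunctionField1_laurent RT.isGalois_algClosureRat

variable (S : IntermediateField ℚ ℚbar) (M : ℕ) [NeZero M]

/-- The functions defined over `S`. -/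
def fixedFun : Subfield (𝐅 M) where
  carrier := {x | ∀ σ ∈ S.fixingSubgroup, galN M σ • x = x}
  mul_mem' hx hy σ hσ := by rw [smul_mul', hx σ hσ, hy σ hσ]
  one_mem' σ _ := smul_one _
  add_mem' hx hy σ hσ := by rw [smul_add, hx σ hσ, hy σ hσ]
  zero_mem' σ _ := smul_zero _
  neg_mem' hx σ hσ := by rw [smul_neg, hx σ hσ]
  inv_mem' x hx σ hσ := by rw [smul_inv'', hx σ hσ]

variable {S M}

omit [NeZero M] in
theorem mem_fixedFun {x : 𝐅 M} :
    x ∈ fixedFun S M ↔ ∀ σ ∈ S.fixingSubgroup, galN M σ • x = x := Iff.rfl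

omit [NeZero M] in
/-- The coefficients lie in `S`. -/
theorem mem_fixedFun_iff_coeff {x : 𝐅 M} :
    x ∈ fixedFun S M ↔ ∀ n : ℤ, (x : LaurentSeries ℚbar).coeff n ∈ S := by
  constructor
  · intro hx n
    rw [← InfiniteGalois.fixedField_fixingSubgroup S]
    rintro ⟨σ, hσ⟩
    have h := congrArg (fun y : 𝐅 M => (y : LaurentSeries ℚbar).coeff n) (hx σ hσ)
    simp only [coe_galN_smul, coeffMap_coeff] at h
    exact h
  · intro h σ hσ
    refine Subtype.ext ?_
    rw [coe_galN_smul]
    ext n
    rw [coeffMap_coeff]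
    exact (IntermediateField.mem_fixingSubgroup_iff S σ).mp hσ _ (h n)

omit [NeZero M] in
theorem algebraMap_mem_fixedFun {c : ℚbar} :
    algebraMap ℚbar (𝐅 M) c ∈ fixedFun S M ↔ c ∈ S := by
  rw [mem_fixedFun_iff_coeff]
  have h : ∀ n : ℤ, ((algebraMap ℚbar (𝐅 M) c : 𝐅 M) : LaurentSeries ℚbar).coeff n =
      if n = 0 then c else 0 := fun n => by
    rw [IntermediateField.coe_algebraMap_apply, algebraMap_laurentSeries_eq_single,
      HahnSeries.coeff_single]
    congr 1
  simp only [h]
  exact ⟨fun h => by simpa using h 0, fun hc n => by split_ifs; exacts [hc, zero_mem S]⟩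

theorem jBar_mem_fixedFun : ModFun.jBar ℚbar M ∈ fixedFun S M := fun σ _ =>
  Subtype.ext (by rw [coe_galN_smul, ModFun.coe_jBar, coeffMap_jqModC])

omit [NeZero M] in
theorem isIntegral_constants (c : ℚbar) :
    IsIntegral ((fixedFun S M).comap (algebraMap ℚbar (𝐅 M))) c := by
  refine IsIntegral.tower_top (R := ℚ) ?_
  exact ((AlgebraicClosure.isAlgebraic ℚ).isAlgebraic c).isIntegral

/-- Sections of a stable divisor are spanned by functions over `S`. -/
theorem rrSpace_le_span (D : Divisor ℚbar (𝐅 M))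
    (hD : ∀ σ ∈ S.fixingSubgroup, galN M σ • D = D) :
    riemannRochSpace D ≤
      Submodule.span ℚbar {x : 𝐅 M | x ∈ riemannRochSpace D ∧ x ∈ fixedFun S M} := by
  refine BadRed.Carayol.exists_fixed_spanning M (riemannRochSpace D) (S.fixingSubgroup : Set GQ)
    fun σ hσ y hy => ?_
  rw [mem_riemannRochSpace_iff] at hy ⊢
  intro v
  rcases hy ((galN M σ)⁻¹ • v) with h | h
  · exact Or.inl (by rw [h, smul_zero])
  · refine Or.inr ?_
    have h2 : v.ord (galN M σ • y) = ((galN M σ)⁻¹ • v).ord y := by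
      have := SemilinearAut.ord_smul (galN M σ) ((galN M σ)⁻¹ • v) y
      rwa [smul_inv_smul] at this
    have h3 : D v = D ((galN M σ)⁻¹ • v) := by
      conv_lhs => rw [← hD σ hσ, SemilinearAut.divisor_smul_apply]
    rw [h2, h3]
    exact h

/-- At a zero or pole of a function over `S` some function over `S` has order one. -/
theorem exists_ord_one (P : Place ℚbar (𝐅 M))
    (hP : ∃ z ∈ fixedFun S M, P.ord z ≠ 0) : ∃ u ∈ fixedFun S M, P.ord u = 1 := by
  classical
  obtain ⟨z, hz, hzP⟩ := hP
  set G : Set GQ := (S.fixingSubgroup : Set GQ)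
  set C := Mazur.Step3.cInf M
  -- the orbit of the place
  set O : Finset (Place ℚbar (𝐅 M)) :=
    (divisorOf (K := ℚbar) z).support.filter fun v => ∃ σ ∈ S.fixingSubgroup, galN M σ • P = v
  have hO : ∀ v, v ∈ O ↔ ∃ σ ∈ S.fixingSubgroup, galN M σ • P = v := fun v => by
    refine ⟨fun h => (Finset.mem_filter.mp h).2, fun h => Finset.mem_filter.mpr ⟨?_, h⟩⟩
    obtain ⟨σ, hσ, rfl⟩ := h
    rw [Finsupp.mem_support_iff, FermatAgent.Curve.divisorOf_apply]
    have := SemilinearAut.ord_smul (galN M σ) P z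
    rw [hz σ hσ] at this
    rw [this]
    exact hzP
  have hPO : P ∈ O := (hO P).mpr ⟨1, one_mem _, by
    show arithmeticGalois _ (1 : GQ) • P = P
    rw [map_one, one_smul]⟩
  set T : Divisor ℚbar (𝐅 M) := ∑ v ∈ O, Finsupp.single v (1 : ℤ)
  have hTv : ∀ v, T v = if v ∈ O then 1 else 0 := fun v => by
    simp [T, Finsupp.finsetSum_apply, Finsupp.single_apply]
  set k := 2 * genusFF ℚbar (𝐅 M) + O.card
  set D : Divisor ℚbar (𝐅 M) := Finsupp.single C (k : ℤ) - T
  have hDdeg : 2 * (genusFF ℚbar (𝐅 M) : ℤ) ≤ Divisor.degree D := by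
    rw [map_sub, FermatAgent.Curve.RR.degree_single, map_sum]
    simp only [FermatAgent.Curve.RR.degree_single, Finset.sum_const, nsmul_one]
    push_cast [k]
    linarith
  have hDfix : ∀ σ ∈ S.fixingSubgroup, galN M σ • D = D := by
    intro σ hσ
    rw [smul_sub, SemilinearAut.smul_single, BadRed.Carayol.galN_smul_cInf]
    congr 1
    refine Finsupp.ext fun v => ?_
    rw [SemilinearAut.divisor_smul_apply, hTv, hTv]
    refine if_congr ?_ rfl rfl
    rw [hO, hO]
    constructor
    · rintro ⟨τ, hτ, e⟩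
      exact ⟨σ * τ, mul_mem hσ hτ, by
        show arithmeticGalois _ (σ * τ) • P = v
        rw [map_mul, mul_smul]
        exact (congrArg (galN M σ • ·) e).trans (smul_inv_smul _ _)⟩
    · rintro ⟨τ, hτ, e⟩
      exact ⟨σ⁻¹ * τ, mul_mem (inv_mem hσ) hτ, by
        show arithmeticGalois _ (σ⁻¹ * τ) • P = _
        rw [map_mul, map_inv, mul_smul]
        exact congrArg ((galN M σ)⁻¹ • ·) e⟩
  obtain ⟨h₀, hh₀, hh₀0, hord₀⟩ := FermatAgent.Curve.RR.exists_mem_ord_eq hDdeg P
  obtain ⟨h₁, hh₁, hh₁0, hord₁⟩ : ∃ h₁ : 𝐅 M, h₁ ∈ fixedFun S M ∧ h₁ ≠ 0 ∧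
      P.ord h₁ = -D P := by
    by_contra hcon
    push Not at hcon
    have hall : ∀ y ∈ Submodule.span ℚbar
        {y : 𝐅 M | y ∈ riemannRochSpace D ∧ y ∈ fixedFun S M}, y = 0 ∨ -D P + 1 ≤ P.ord y := by
      intro y hy
      induction hy using Submodule.span_induction with
      | mem y hy =>
        rcases eq_or_ne y 0 with h0 | h0
        · exact Or.inl h0
        · refine Or.inr ?_
          have h1 := (mem_riemannRochSpace_iff.mp hy.1 P).resolve_left h0
          have h2 := hcon y hy.2 h0
          omega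
      | zero => exact Or.inl rfl
      | add y z _ _ hy hz =>
        rcases eq_or_ne (y + z) 0 with h0 | h0
        · exact Or.inl h0
        · exact Or.inr ((FermatAgent.Curve.RR.le_ord_add P hy hz).resolve_left h0)
      | smul a y _ hy =>
        rcases eq_or_ne a 0 with rfl | ha
        · exact Or.inl (zero_smul _ _)
        rcases hy with rfl | hy
        · exact Or.inl (smul_zero _)
        rcases eq_or_ne y 0 with rfl | hy0
        · exact Or.inl (smul_zero _)
        refine Or.inr ?_
        rw [Algebra.smul_def, P.ord_mul ((_root_.map_ne_zero _).mpr ha) hy0,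
          FermatAgent.Curve.RR.ord_algebraMap P ha, zero_add]
        exact hy
    rcases hall h₀ (rrSpace_le_span D hDfix hh₀) with h | h
    · exact hh₀0 h
    · omega
  by_cases hPC : P = C
  · have hjP : P.ord (ModFun.jBar ℚbar M) = -1 := by
      rw [hPC, Mazur.Step3.ord_cInf, ModFun.coe_jBar, Mazur.Step3.order_jqModC]
    exact ⟨(ModFun.jBar ℚbar M)⁻¹, inv_mem jBar_mem_fixedFun, by rw [P.ord_inv, hjP, neg_neg]⟩
  · refine ⟨h₁, hh₁, ?_⟩
    rw [hord₁, show D P = -1 by simp [D, hTv, hPO, Ne.symm hPC], neg_neg]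

end FermatAgent.MazurPrinciple
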