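import Fermat.Agent.MazurPrinciple.InertiaField
import Fermat.Agent.Local.Place
import Mathlib.FieldTheory.Fixed
import Mathlib.LinearAlgebra.Dual.Lemmas

/-!
# A local base over the inertia field has the powers of the uniformiser as a basis

Integers are approximated by combinations of `1, ϖ, ..., ϖ ^ (e - 1)` with inertia-fixed
coefficients; as inertia is isometric and its fixed field is `inertiaField A`, such combinations
exhaust the field.
-/

set_option autoImplicit false

noncomputable section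

namespace FermatAgent.MazurPrinciple

local notation "Qb" => AlgebraicClosure ℚ

local instance : Algebra.IsAlgebraic ℚ Qb := AlgebraicClosure.isAlgebraic ℚ

variable {A : ValuationSubring Qb} {p : ℕ} (B : LocalBase A p)

namespace LocalBase

/-- The ramification index. -/
def idx : ℕ := B.exists_p_eq.choose

theorem idx_pos : 0 < B.idx := B.exists_p_eq.choose_spec.1

theorem exists_p_eq_idx : ∃ u : B.intˣ, (p : B.int) = B.unifO ^ B.idx * u :=
  B.exists_p_eq.choose_spec.2

theorem val_unit (u : B.intˣ) : A.valuation ((u : B.int) : Qb) = 1 := by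
  refine le_antisymm ((A.valuation_le_one_iff _).mpr (u : B.int).2.1) ?_
  have h := congrArg (fun y : B.int => A.valuation (y : Qb)) u.mul_inv
  simp only [Subring.coe_mul, map_mul, Subring.coe_one, map_one] at h
  rw [← h]
  exact mul_le_of_le_one_right' ((A.valuation_le_one_iff _).mpr (↑u⁻¹ : B.int).2.1)

theorem val_natCast_p : A.valuation (p : Qb) = A.valuation B.unifQ ^ B.idx := by
  obtain ⟨u, hu⟩ := B.exists_p_eq_idx
  have h := congrArg (fun y : B.int => A.valuation (y : Qb)) hu
  simp only [Subring.coe_mul, map_mul, B.val_unit u, mul_one, SubmonoidClass.coe_pow, map_pow]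
    at h
  rwa [show ((p : B.int) : Qb) = (p : Qb) from map_natCast B.int.subtype p] at h

/-- Combinations of powers of the uniformiser over the inertia field. -/
def InSpan (x : Qb) : Prop :=
  ∃ c : ℕ → Qb, (∀ i, c i ∈ inertiaField A) ∧ x = ∑ i ∈ Finset.range B.idx, c i * B.unifQ ^ i

theorem InSpan.add {x y : Qb} (hx : B.InSpan x) (hy : B.InSpan y) : B.InSpan (x + y) := by
  obtain ⟨c, hc, rfl⟩ := hx
  obtain ⟨d, hd, rfl⟩ := hy
  exact ⟨c + d, fun i => add_mem (hc i) (hd i), by simp [add_mul, Finset.sum_add_distrib]⟩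

theorem inSpan_zero : B.InSpan 0 := ⟨0, fun _ => zero_mem _, by simp⟩

theorem inSpan_single {i : ℕ} (hi : i < B.idx) {a : Qb} (ha : a ∈ inertiaField A) :
    B.InSpan (a * B.unifQ ^ i) := by
  refine ⟨fun j => if j = i then a else 0, fun j => ?_, ?_⟩
  · show (if j = i then a else 0) ∈ inertiaField A
    split_ifs
    exacts [ha, zero_mem _]
  · rw [Finset.sum_eq_single_of_mem i (Finset.mem_range.mpr hi) fun j _ hj => by
      simp [hj]]
    simp

/-- Powers of the uniformiser are approximately in the span. -/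
theorem exists_inSpan_val (R : ℕ) :
    ∃ a : Qb, a ≠ 0 ∧ a ∈ inertiaField A ∧ ∃ i < B.idx,
      A.valuation (a * B.unifQ ^ i) = A.valuation B.unifQ ^ R := by
  refine ⟨(p : Qb) ^ (R / B.idx), pow_ne_zero _ (Nat.cast_ne_zero.mpr B.prime.ne_zero),
    pow_mem (natCast_mem _ p) _, R % B.idx, Nat.mod_lt _ B.idx_pos, ?_⟩
  rw [map_mul, map_pow, map_pow, B.val_natCast_p, ← pow_mul, ← pow_add, Nat.div_add_mod]

theorem exists_inSpan_approx (hB : ∀ a ∈ inertiaField A, a ∈ B.S) {x : Qb} (hx : x ∈ B.S)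
    (hxA : x ∈ A) (R : ℕ) :
    ∃ y, B.InSpan y ∧ A.valuation (x - y) ≤ A.valuation B.unifQ ^ R := by
  induction R with
  | zero =>
    exact ⟨0, B.inSpan_zero, by rw [sub_zero, pow_zero]; exact (A.valuation_le_one_iff _).mpr hxA⟩
  | succ R ih =>
    obtain ⟨y, hy, hle⟩ := ih
    obtain ⟨b, hb0, hb, i, hi, hbi⟩ := B.exists_inSpan_val R
    set π₀ := IsLocalRing.residue A
    set s := b * B.unifQ ^ i
    have hs0 : s ≠ 0 := mul_ne_zero hb0 (pow_ne_zero _ B.unifQ_ne_zero)
    have hsS : s ∈ B.S := mul_mem (hB b hb) (pow_mem B.unifQ_mem _)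
    have hyS : y ∈ B.S := by
      obtain ⟨c, hc, rfl⟩ := hy
      exact sum_mem fun j _ => mul_mem (hB _ (hc j)) (pow_mem B.unifQ_mem _)
    have hz : (x - y) / s ∈ A := by
      rw [← A.valuation_le_one_iff, map_div₀, hbi]
      exact (div_le_one₀ (zero_lt_iff.mpr (pow_ne_zero _
        ((map_ne_zero _).2 B.unifQ_ne_zero)))).mpr hle
    obtain ⟨a, ha, haπ⟩ := exists_lift_inertiaField B.prime B.liesOver π₀
      IsLocalRing.residue_surjective (π₀ ⟨_, hz⟩)
    refine ⟨y + (a : Qb) * b * B.unifQ ^ i, hy.add B (B.inSpan_single hi (mul_mem ha hb)), ?_⟩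
    set r := (x - y) / s - (a : Qb)
    have hr1 : A.valuation r < 1 := by
      have : IsLocalRing.residue A (⟨_, hz⟩ - a) = 0 := by rw [map_sub, sub_eq_zero]; exact haπ.symm
      rw [IsLocalRing.residue_eq_zero_iff] at this
      exact (A.valuation_lt_one_iff _).1 this
    have hr : x - (y + (a : Qb) * b * B.unifQ ^ i) = s * r := by
      rw [mul_sub, mul_div_cancel₀ _ hs0]; ring
    rw [hr, map_mul, hbi]
    rcases eq_or_ne r 0 with h0 | h0
    · rw [h0, map_zero, mul_zero]; exact zero_le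
    obtain ⟨k, hk⟩ := B.val_eq_zpow
      (sub_mem (B.S.div_mem (sub_mem hx hyS) hsS) (hB _ ha)) h0
    rw [pow_succ]
    refine mul_le_mul' le_rfl ?_
    have hv0 : A.valuation B.unifQ ≠ 0 := (map_ne_zero _).2 B.unifQ_ne_zero
    rw [hk] at hr1 ⊢
    rw [zpow_lt_one_iff_right_of_lt_one₀ (zero_lt_iff.mpr hv0) B.val_unifQ_lt_one] at hr1
    calc A.valuation B.unifQ ^ k ≤ A.valuation B.unifQ ^ (1 : ℤ) :=
          zpow_le_zpow_right_of_le_one₀ (zero_lt_iff.mpr hv0) B.val_unifQ_lt_one.le (by omega)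
      _ = _ := zpow_one _

/-- The powers of the uniformiser are independent over the inertia field. -/
theorem unif_indep {c : ℕ → Qb} (hc : ∀ i, c i ∈ inertiaField A)
    (h : ∑ i ∈ Finset.range B.idx, c i * B.unifQ ^ i = 0) : ∀ i < B.idx, c i = 0 := by
  classical
  by_contra! hne
  obtain ⟨i₀, hi₀, hc₀⟩ := hne
  set s := (Finset.range B.idx).filter fun i => c i ≠ 0
  have hs : s.Nonempty := ⟨i₀, Finset.mem_filter.mpr ⟨Finset.mem_range.mpr hi₀, hc₀⟩⟩
  obtain ⟨m, hm, hmax⟩ := s.exists_max_image (fun i => A.valuation (c i * B.unifQ ^ i)) hs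
  have hsum : ∑ i ∈ s, c i * B.unifQ ^ i = 0 := by
    rw [← h]
    exact Finset.sum_subset (Finset.filter_subset _ _) fun i hi hni => by
      have : c i = 0 := by
        by_contra hne; exact hni (Finset.mem_filter.mpr ⟨hi, hne⟩)
      rw [this, zero_mul]
  have hv0 : A.valuation B.unifQ ≠ 0 := (map_ne_zero _).2 B.unifQ_ne_zero
  have hinj : ∀ i ∈ s, A.valuation (c i * B.unifQ ^ i) = A.valuation (c m * B.unifQ ^ m) → i = m := by
    intro i hi heq
    obtain ⟨hir, hci⟩ := Finset.mem_filter.mp hi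
    obtain ⟨hmr, hcm⟩ := Finset.mem_filter.mp hm
    obtain ⟨k, hk⟩ := val_inertiaField B.prime B.liesOver _ (hc i) hci
    obtain ⟨l, hl⟩ := val_inertiaField B.prime B.liesOver _ (hc m) hcm
    simp only [map_mul, map_pow, hk, hl, B.val_natCast_p] at heq
    simp only [← zpow_natCast, ← zpow_mul, ← zpow_add₀ hv0] at heq
    have h1 := (zpow_right_strictAnti₀ (zero_lt_iff.mpr hv0) B.val_unifQ_lt_one).injective heq
    have h2 := congrArg (fun a : ℤ => a % (B.idx : ℤ)) h1
    simp only [Int.mul_add_emod_self_left] at h2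
    rw [Int.emod_eq_of_lt (by positivity) (by exact_mod_cast Finset.mem_range.mp hir),
      Int.emod_eq_of_lt (by positivity) (by exact_mod_cast Finset.mem_range.mp hmr)] at h2
    exact_mod_cast h2
  have hlt : A.valuation (∑ i ∈ s.erase m, c i * B.unifQ ^ i) <
      A.valuation (c m * B.unifQ ^ m) := by
    refine A.valuation.map_sum_lt ((map_ne_zero _).2 (mul_ne_zero (Finset.mem_filter.mp hm).2
      (pow_ne_zero _ B.unifQ_ne_zero))) fun i hi => ?_
    exact lt_of_le_of_ne (hmax i (Finset.mem_erase.mp hi).2)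
      fun e => (Finset.mem_erase.mp hi).1 (hinj i (Finset.mem_erase.mp hi).2 e)
  rw [← Finset.add_sum_erase _ _ hm, add_eq_zero_iff_eq_neg] at hsum
  rw [hsum, Valuation.map_neg] at hlt
  exact lt_irrefl _ hlt

/-- The powers of the uniformiser span. -/
theorem inSpan_of_mem (hB : ∀ a ∈ inertiaField A, a ∈ B.S) {x : Qb} (hx : x ∈ B.S) :
    B.InSpan x := by
  classical
  suffices h : ∀ x ∈ B.S, x ∈ A → B.InSpan x by
    rcases eq_or_ne x 0 with rfl | hx0
    · exact B.inSpan_zero
    have hp : (p : Qb) ≠ 0 := Nat.cast_ne_zero.mpr B.prime.ne_zero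
    obtain ⟨k, hk⟩ := B.val_eq_zpow hx hx0
    obtain ⟨m, hm⟩ : ∃ m : ℕ, 0 ≤ k + (B.idx : ℤ) * m :=
      ⟨(-k).toNat, by
        have := B.idx_pos
        have := Int.self_le_toNat (-k)
        nlinarith⟩
    obtain ⟨c, hc, he⟩ := h ((p : Qb) ^ m * x) (mul_mem (pow_mem (natCast_mem _ p) _) hx) (by
      rw [← A.valuation_le_one_iff, map_mul, map_pow, B.val_natCast_p, hk, ← zpow_natCast,
        ← zpow_natCast, ← zpow_mul, ← zpow_add₀ ((map_ne_zero _).2 B.unifQ_ne_zero)]
      exact le_of_le_of_eq (zpow_le_zpow_right_of_le_one₀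
        (zero_lt_iff.mpr ((map_ne_zero _).2 B.unifQ_ne_zero)) B.val_unifQ_lt_one.le
        (show (0 : ℤ) ≤ _ by rw [add_comm]; exact hm)) (zpow_zero _))
    refine ⟨fun i => ((p : Qb) ^ m)⁻¹ * c i,
      fun i => mul_mem (inv_mem (pow_mem (natCast_mem _ p) _)) (hc i), ?_⟩
    simp_rw [mul_assoc, ← Finset.mul_sum, ← he]
    rw [inv_mul_cancel_left₀ (pow_ne_zero _ hp)]
  intro x hx hxA
  by_contra hns
  let G := A.inertiaSubgroupIn ℚ
  let v : Fin (B.idx + 1) → Qb := fun i => if (i : ℕ) < B.idx then B.unifQ ^ (i : ℕ) else x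
  have hindep : ∀ c : Fin (B.idx + 1) → Qb, (∀ i, c i ∈ inertiaField A) →
      ∑ i, c i * v i = 0 → c = 0 := by
    intro c hc hs
    rw [Fin.sum_univ_castSucc] at hs
    simp only [v, Fin.val_castSucc, Fin.is_lt, if_true, Fin.val_last, lt_irrefl, if_false] at hs
    set d : ℕ → Qb := fun i => if h : i < B.idx + 1 then c ⟨i, h⟩ else 0
    have hd : ∀ i, d i ∈ inertiaField A := fun i => by
      simp only [d]
      split_ifs
      exacts [hc _, zero_mem _]
    have hsd : ∑ i : Fin B.idx, c i.castSucc * B.unifQ ^ (i : ℕ) =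
        ∑ i ∈ Finset.range B.idx, d i * B.unifQ ^ i := by
      rw [← Fin.sum_univ_eq_sum_range (fun i => d i * B.unifQ ^ i)]
      refine Finset.sum_congr rfl fun i _ => ?_
      simp only [d, dif_pos (Nat.lt_succ_of_lt i.2)]
      rfl
    rw [hsd] at hs
    have hl : c (Fin.last _) = 0 := by
      by_contra hne
      refine hns ⟨fun i => -(c (Fin.last _))⁻¹ * d i,
        fun i => mul_mem (neg_mem (inv_mem (hc _))) (hd i), ?_⟩
      simp_rw [mul_assoc, ← Finset.mul_sum]
      rw [show ∑ i ∈ Finset.range B.idx, d i * B.unifQ ^ i = -(c (Fin.last _) * x) by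
        linear_combination hs]
      field_simp
    rw [hl, zero_mul, add_zero] at hs
    funext i
    induction i using Fin.lastCases with
    | last => exact hl
    | cast i =>
      have := B.unif_indep hd hs i i.2
      simp only [d, dif_pos (Nat.lt_succ_of_lt i.2)] at this
      exact this
  have hli : LinearIndependent (FixedPoints.subfield G Qb) v := by
    rw [Fintype.linearIndependent_iff]
    intro g hg i
    have := hindep (fun i => (g i : Qb)) (fun i => mem_inertiaField.mpr fun σ hσ => (g i).2 ⟨σ, hσ⟩)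
      (by rw [← hg]; rfl)
    exact Subtype.ext (congrFun this i)
  have hfun : LinearIndependent Qb fun i => MulAction.toFun G Qb (v i) := by
    have h1 := FixedPoints.linearIndependent_smul_of_linearIndependent (G := G) (F := Qb)
      (s := Finset.univ.image v) (by
        rw [Finset.coe_image, Finset.coe_univ, Set.image_univ]
        exact hli.linearIndepOn_id)
    rw [Finset.coe_image, Finset.coe_univ, Set.image_univ] at h1
    exact (linearIndepOn_range_iff hli.injective _).mp h1
  -- a finite combination of inertia elements reads the last coordinate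
  let row : G → Fin (B.idx + 1) → Qb := fun σ i => (σ : Qb ≃ₐ[ℚ] Qb) (v i)
  have hspan : Submodule.span Qb (Set.range row) = ⊤ := by
    by_contra hne
    obtain ⟨φ, hφ0, hφ⟩ :=
      Submodule.exists_dual_map_eq_bot_of_lt_top (lt_top_iff_ne_top.mpr hne) inferInstance
    set a : Fin (B.idx + 1) → Qb := fun i => φ (Pi.single i 1)
    have hφa : ∀ w, φ w = ∑ i, w i * a i := fun w => by
      conv_lhs => rw [pi_eq_sum_univ' w]
      rw [map_sum]
      simp [a]
    refine hφ0 (LinearMap.ext fun w => ?_)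
    have ha := Fintype.linearIndependent_iff.mp hfun a (funext fun σ => by
      have : φ (row σ) = 0 := by
        have := Submodule.mem_map_of_mem (f := φ) (Submodule.subset_span ⟨σ, rfl⟩ :
          row σ ∈ Submodule.span Qb (Set.range row))
        rwa [hφ, Submodule.mem_bot] at this
      rw [hφa] at this
      rw [Finset.sum_apply, Pi.zero_apply, ← this]
      exact Finset.sum_congr rfl fun i _ => mul_comm _ _)
    simp [hφa, ha]
  obtain ⟨a, ha⟩ := Finsupp.mem_span_range_iff_exists_finsupp.mp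
    (hspan ▸ Submodule.mem_top : Pi.single (Fin.last B.idx) (1 : Qb) ∈ _)
  obtain ⟨R, hR⟩ : ∃ R : ℕ, ∀ σ ∈ a.support, A.valuation (a σ) * A.valuation B.unifQ ^ R < 1 := by
    have h1 : ∀ σ, ∃ R : ℕ, A.valuation (a σ) * A.valuation B.unifQ ^ R < 1 := fun σ => by
      rcases eq_or_ne (a σ) 0 with h | h
      · exact ⟨0, by rw [h, map_zero, zero_mul]; exact zero_lt_one⟩
      obtain ⟨R, hR⟩ := B.arch (inv_ne_zero h)
      refine ⟨R, not_le.mp fun hle => hR ?_⟩
      rw [← A.valuation_le_one_iff, map_div₀, map_inv₀, map_pow,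
        div_eq_mul_inv, ← mul_inv]
      exact inv_le_one_of_one_le₀ hle
    choose f hf using h1
    refine ⟨a.support.sup f, fun σ hσ => lt_of_le_of_lt ?_ (hf σ)⟩
    exact mul_le_mul' le_rfl (pow_le_pow_of_le_one zero_le B.val_unifQ_lt_one.le
      (Finset.le_sup hσ))
  obtain ⟨y, ⟨c, hc, rfl⟩, hy⟩ := B.exists_inSpan_approx hB hx hxA R
  have hcomb : ∀ i : Fin (B.idx + 1), ∑ σ ∈ a.support, a σ * (σ : Qb ≃ₐ[ℚ] Qb) (v i) =
      (Pi.single (Fin.last B.idx) (1 : Qb) : Fin (B.idx + 1) → Qb) i := fun i => by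
    rw [← ha, Finsupp.sum, Finset.sum_apply]
    rfl
  have hvx : ∑ σ ∈ a.support, a σ * (σ : Qb ≃ₐ[ℚ] Qb) x = 1 := by
    simpa [v] using hcomb (Fin.last _)
  have hvy : ∑ σ ∈ a.support, a σ * (σ : Qb ≃ₐ[ℚ] Qb)
      (∑ i ∈ Finset.range B.idx, c i * B.unifQ ^ i) = 0 := by
    simp_rw [map_sum, map_mul, Finset.mul_sum]
    rw [Finset.sum_comm]
    refine Finset.sum_eq_zero fun i hi => ?_
    have h0 := hcomb ⟨i, Nat.lt_succ_of_lt (Finset.mem_range.mp hi)⟩
    rw [Pi.single_eq_of_ne (by simp [Fin.ext_iff, (Finset.mem_range.mp hi).ne])] at h0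
    simp only [v, Finset.mem_range.mp hi, if_true] at h0
    have : ∀ σ : G, (σ : Qb ≃ₐ[ℚ] Qb) (c i) = c i := fun σ => mem_inertiaField.mp (hc i) σ σ.2
    simp_rw [this, map_pow, mul_left_comm _ (c i), ← Finset.mul_sum]
    simp only [map_pow] at h0
    rw [h0, mul_zero]
  have hone : A.valuation (1 : Qb) < 1 := by
    rw [← hvx, ← sub_zero (∑ σ ∈ a.support, _), ← hvy, ← Finset.sum_sub_distrib]
    refine A.valuation.map_sum_lt one_ne_zero fun σ hσ => ?_
    rw [← mul_sub, ← map_sub, map_mul,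
      Local.decomposition_val_eq (Local.mem_decomposition_of_inertia σ.2)]
    exact lt_of_le_of_lt (mul_le_mul' le_rfl hy) (hR σ hσ)
  rw [map_one] at hone
  exact lt_irrefl _ hone

end LocalBase

end FermatAgent.MazurPrinciple
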