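import Fermat.Agent.BadRed.Semistable.Nodal
import Fermat.Agent.MazurPrinciple.FixedFun
import Fermat.Agent.MazurPrinciple.InertiaSpan
import Fermat.Agent.Igusa.Down.Concrete
import Fermat.Agent.Igusa.Down.Model
import Fermat.Agent.Hasse.Galois

/-!
# The nodal datum of `X₀(p N')` over `ℚ̄` and its fields of definition

`levelData p A hA hco` is the nodal datum at the place `A` over `p`; `LocalBase.funField` are the
functions with coefficients in the local base and `inertiaFun` those with coefficients in the
inertia field.
-/

set_option autoImplicit false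

noncomputable section

namespace FermatAgent.MazurPrinciple

open AlgebraicCurve ModularCurve
open FermatAgent.BadRed.Semistable

local notation "ℚbar" => AlgebraicClosure ℚ
local notation "𝐅" N:max => laurentBaseChange ℚbar (modularFunctionFieldFull N)

variable (p : ℕ) [Fact p.Prime] (A : ValuationSubring ℚbar) (hA : A.LiesOverPrime p)

/-- The residue field is algebraically closed. -/
local instance isAlgClosed_residue : IsAlgClosed (IsLocalRing.ResidueField A) :=
  Igusa.Down.isAlgClosed_residueField A

include hA in
/-- Values are archimedean. -/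
theorem residue_arch (b : ℚbar) (c : A) (hc : IsLocalRing.residue A c = 0) :
    ∃ n : ℕ, b * (c : ℚbar) ^ n ∈ A := by
  rcases eq_or_ne b 0 with rfl | hb
  · exact ⟨0, by rw [zero_mul]; exact zero_mem _⟩
  rcases eq_or_ne (c : ℚbar) 0 with h0 | h0
  · exact ⟨1, by rw [h0, pow_one, mul_zero]; exact zero_mem _⟩
  have : FiniteDimensional ℚ (IntermediateField.adjoin ℚ {b}) :=
    IntermediateField.adjoin.finiteDimensional
      ((AlgebraicClosure.isAlgebraic ℚ).isAlgebraic b).isIntegral
  have : FiniteDimensional ℚ (IntermediateField.adjoin ℚ {(c : ℚbar)}) :=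
    IntermediateField.adjoin.finiteDimensional
      ((AlgebraicClosure.isAlgebraic ℚ).isAlgebraic (c : ℚbar)).isIntegral
  obtain ⟨j, hj⟩ := TW.exists_val_pow_eq Fact.out hA (IntermediateField.adjoin ℚ {b})
    (IntermediateField.mem_adjoin_simple_self ℚ b) hb
  obtain ⟨k, hk⟩ := TW.exists_val_pow_eq Fact.out hA (IntermediateField.adjoin ℚ {(c : ℚbar)})
    (IntermediateField.mem_adjoin_simple_self ℚ (c : ℚbar)) h0
  set m := (Module.finrank ℚ (IntermediateField.adjoin ℚ {b})).factorial
  set m' := (Module.finrank ℚ (IntermediateField.adjoin ℚ {(c : ℚbar)})).factorial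
  set v := A.valuation (p : ℚbar)
  have hv0 : v ≠ 0 := TW.natCast_val_ne_zero A Fact.out
  have hv1 : v < 1 := hA
  have hc1 : A.valuation (c : ℚbar) ^ m' < 1 := by
    rw [IsLocalRing.residue_eq_zero_iff] at hc
    exact pow_lt_one₀ zero_le ((A.valuation_lt_one_iff c).1 hc) (Nat.factorial_ne_zero _)
  rw [hk, zpow_lt_one_iff_right_of_lt_one₀ (zero_lt_iff.mpr hv0) hv1] at hc1
  refine ⟨(-(j * m')).toNat, ?_⟩
  rw [← A.valuation_le_one_iff, ← pow_le_one_iff_of_nonneg zero_le
    (mul_ne_zero (Nat.factorial_ne_zero _) (Nat.factorial_ne_zero _) : m * m' ≠ 0)]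
  rw [map_mul, map_pow, mul_pow, pow_mul, hj, ← pow_mul, mul_comm m m', mul_left_comm, pow_mul, hk]
  simp only [← zpow_natCast, ← zpow_mul, ← zpow_add₀ hv0]
  refine le_of_le_of_eq (zpow_le_zpow_right_of_le_one₀ (zero_lt_iff.mpr hv0) hv1.le ?_)
    (zpow_zero v)
  have h1 := Int.self_le_toNat (-(j * m'))
  have hm : (1 : ℤ) ≤ m := by exact_mod_cast Nat.factorial_pos _
  push_cast
  nlinarith [mul_le_mul_of_nonneg_left hm (Int.natCast_nonneg (-(j * m')).toNat),
    mul_le_mul_of_nonneg_left (show (1 : ℤ) ≤ k by omega)
      (mul_nonneg (Int.natCast_nonneg (-(j * m')).toNat) (Int.natCast_nonneg m))]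

/-- The place of `ℚ̄`. -/
def placeHom : PlaceHom A A (IsLocalRing.residue A) where
  emb := RingHom.id _
  surjective := IsLocalRing.residue_surjective
  arch := residue_arch p A hA
  mem a := a.2
  compat _ := rfl

include hA in
theorem charP_residue_place : CharP (IsLocalRing.ResidueField A) p :=
  Hasse.charP_residueField (ℓ := p) hA

variable {N' : ℕ} [NeZero N'] (hco : p.Coprime N')

instance neZero_level : NeZero (p * N') :=
  ⟨Nat.mul_ne_zero (Fact.out : p.Prime).ne_zero (NeZero.ne N')⟩

attribute [local instance] ModCurveTorsion.isFunctionField1_laurent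

/-- The function field of the fibre. -/
abbrev FibField (N' : ℕ) := modularFunctionFieldFullC (IsLocalRing.ResidueField A) N'

include hA hco in
theorem isFunctionField1_fib :
    Curve.IsFunctionField1 (IsLocalRing.ResidueField A) (FibField A N') :=
  haveI := charP_residue_place p A hA
  Igusa.Down.isFunctionField1_fibre (ℓ := p) A N'
    ((Nat.Prime.coprime_iff_not_dvd Fact.out).mp hco) hA

/-- The nodal datum of `X₀(p N')` at `A`. -/
def levelData :
    haveI := isFunctionField1_fib p A hA hco
    NodalDatum A (IsLocalRing.residue A) (𝐅 (p * N')) (FibField A N') (FibField A N') :=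
  haveI := isFunctionField1_fib p A hA hco
  haveI := charP_residue_place p A hA
  levelDatum hco (placeHom p A hA) hA

variable {p A} (B : LocalBase A p) (M : ℕ) [NeZero M]

/-- The local base as an intermediate field. -/
def LocalBase.base : IntermediateField ℚ ℚbar :=
  B.S.toIntermediateField fun r => by
    rw [eq_ratCast]
    exact SubfieldClass.ratCast_mem B.S r

/-- The functions with coefficients in the local base. -/
def LocalBase.funField : Subfield (𝐅 M) := fixedFun B.base M

variable (A)

/-- The functions with coefficients in the inertia field. -/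
def inertiaFun : Subfield (𝐅 M) := fixedFun (inertiaField A) M

end FermatAgent.MazurPrinciple
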