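import Fermat.Agent.Ihara.CommAlg
import Fermat.Agent.BadRed.Carayol.Assembly.MultOne
import Fermat.Agent.Periods.HeckeFinite
import Fermat.Prelude.Def_FLTPrelim_ModularRep

/-!
# Eigensystems mod `p` absent at a level

If no character of the Hecke algebra of level `M` into `ZMod p` has the values `a l`, some
expression in the generators is zero in the Hecke algebra and prime to `p` at `a`; a character
gives a congruent eigenform.
-/

set_option autoImplicit false

noncomputable section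

open CongruenceSubgroup

namespace FermatAgent.MazurPrinciple

/-- An eigenform of level `M` congruent to `a` mod `p` outside `S`. -/
def HasCongruentForm (a : ℕ → ℤ) (p M : ℕ) (S : Set ℕ) : Prop :=
  ∃ (f : CuspForm (Gamma0 M) 2) (𝔪 : Ideal (integralClosure ℤ ℂ)),
    f.IsNormalizedEigenform ∧ 𝔪.IsMaximal ∧ (p : integralClosure ℤ ℂ) ∈ 𝔪 ∧
    ∀ l : ℕ, l.Prime → ¬ l ∣ M → l ∉ S → ∃ b : integralClosure ℤ ℂ,
      (b : ℂ) = ModularFormClass.qCoeff f l ∧ b - (a l : integralClosure ℤ ℂ) ∈ 𝔪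

variable {M : ℕ} [NeZero M] (S : Set ℕ) (a : ℕ → ℤ)

/-- The generators paired with the eigensystem, in an auxiliary ring. -/
def sysRing {R : Type*} [Ring R] (τ : ℕ → R) :
    Subring (R × CuspForm.heckeAlgebra M 2 S × ℤ) :=
  Subring.closure {x | ∃ (l : ℕ) (hl : l.Prime) (hlM : ¬ l ∣ M) (hlS : l ∉ S),
    x = (τ l, CuspForm.heckeAlgebra.T hl hlM hlS, a l)}

variable {S a}

/-- Every element of the Hecke algebra occurs. -/
theorem exists_mem_sysRing (hMS : ∀ q : ℕ, q.Prime → q ∣ M → q ∈ S) {R : Type*} [Ring R]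
    (τ : ℕ → R) (t : CuspForm.heckeAlgebra M 2 S) :
    ∃ (r : R) (c : ℤ), (r, t, c) ∈ sysRing S a τ := by
  obtain ⟨t, ht⟩ := t
  induction ht using Algebra.adjoin_induction with
  | mem x hx =>
    rcases hx with ⟨l, hl, hlM, hlS, rfl⟩ | ⟨q, hqM, hq, hqS, -⟩
    · exact ⟨_, _, Subring.subset_closure ⟨l, hl, hlM, hlS, rfl⟩⟩
    · exact absurd (hMS q hq hqM) hqS
  | algebraMap n =>
    refine ⟨n, n, ?_⟩
    have h : ((n : R), (⟨_, (CuspForm.heckeAlgebra M 2 S).algebraMap_mem n⟩ :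
        CuspForm.heckeAlgebra M 2 S), (n : ℤ)) = (n : R × CuspForm.heckeAlgebra M 2 S × ℤ) := by
      refine Prod.ext rfl (Prod.ext ?_ ?_)
      · show algebraMap ℤ (CuspForm.heckeAlgebra M 2 S) n = _
        rw [eq_intCast]
        rfl
      · simp
    rw [show ((n : ℤ) : ℤ) = n from rfl] at h
    exact h ▸ intCast_mem (sysRing S a τ) n
  | add x y hx hy ihx ihy =>
    obtain ⟨r, c, h⟩ := ihx
    obtain ⟨r', c', h'⟩ := ihy
    exact ⟨r + r', c + c', add_mem h h'⟩
  | mul x y hx hy ihx ihy =>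
    obtain ⟨r, c, h⟩ := ihx
    obtain ⟨r', c', h'⟩ := ihy
    exact ⟨r * r', c * c', mul_mem h h'⟩

/-- An absent system has a killing expression with value prime to `p`. -/
theorem exists_killer (hMS : ∀ q : ℕ, q.Prime → q ∣ M → q ∈ S) (p : ℕ)
    (hno : ¬ ∃ χ : CuspForm.heckeAlgebra M 2 S →+* ZMod p,
      ∀ (l : ℕ) (hl : l.Prime) (hlM : ¬ l ∣ M) (hlS : l ∉ S),
        χ (CuspForm.heckeAlgebra.T hl hlM hlS) = a l)
    {R : Type*} [Ring R] (τ : ℕ → R) :
    ∃ (r : R) (c : ℤ), ¬ (p : ℤ) ∣ c ∧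
      (r, (0 : CuspForm.heckeAlgebra M 2 S), c) ∈ sysRing S a τ := by
  by_contra hk
  simp only [not_exists, not_and] at hk
  choose r c hc using exists_mem_sysRing (a := a) hMS τ
  have huniq : ∀ {t r' c'}, (r', t, c') ∈ sysRing S a τ → (c t : ZMod p) = c' := fun {t r' c'} h => by
    rw [ZMod.intCast_eq_intCast_iff_dvd_sub]
    by_contra hdvd
    refine hk (r' - r t) _ hdvd ?_
    have := sub_mem h (hc t)
    rwa [Prod.mk_sub_mk, Prod.mk_sub_mk, sub_self] at this
  refine hno ⟨{ toFun := fun t => (c t : ZMod p)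
                map_one' := by rw [huniq (one_mem (sysRing S a τ)), Int.cast_one]
                map_zero' := by rw [huniq (zero_mem (sysRing S a τ)), Int.cast_zero]
                map_add' := fun x y => by rw [huniq (show (_, x + y, c x + c y) ∈ sysRing S a τ from add_mem (hc x) (hc y)), Int.cast_add]
                map_mul' := fun x y => by rw [huniq (show (_, x * y, c x * c y) ∈ sysRing S a τ from mul_mem (hc x) (hc y)), Int.cast_mul] },
    fun l hl hlM hlS => ?_⟩
  exact huniq (Subring.subset_closure ⟨l, hl, hlM, hlS, rfl⟩)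

/-- A character into `ZMod p` lifts to an eigenform. -/
theorem exists_eigenform_of_char (p : ℕ) [Fact p.Prime]
    (χ : CuspForm.heckeAlgebra M 2 S →+* ZMod p)
    (hχ : ∀ (l : ℕ) (hl : l.Prime) (hlM : ¬ l ∣ M) (hlS : l ∉ S),
      χ (CuspForm.heckeAlgebra.T hl hlM hlS) = a l) :
    HasCongruentForm a p M S := by
  have : Module.Finite ℤ (CuspForm.heckeAlgebra M 2 S) :=
    Periods.moduleFinite_heckeAlgebra_all M 2 S
  have hsurj : Function.Surjective χ := fun z => ⟨(z.val : CuspForm.heckeAlgebra M 2 S), by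
    rw [map_natCast, ZMod.natCast_val, ZMod.cast_id]⟩
  have : (RingHom.ker χ).IsMaximal := RingHom.ker_isMaximal_of_surjective χ hsurj
  obtain ⟨ψ, 𝔪, h𝔪, hψ⟩ := Ihara.exists_lift_of_isMaximal (RingHom.ker χ)
  obtain ⟨f, hf, hfT⟩ := BadRed.Carayol.exists_eigenform_of_character
    ((Subalgebra.val (integralClosure ℤ ℂ)).toRingHom.comp ψ)
  refine ⟨f, 𝔪, hf, h𝔪, ?_, fun l hl hlM hlS =>
    ⟨ψ (CuspForm.heckeAlgebra.T hl hlM hlS), (hfT l hl hlM hlS).symm, ?_⟩⟩
  · rw [← map_natCast ψ p]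
    exact hψ _ (by rw [RingHom.mem_ker, map_natCast, ZMod.natCast_self])
  · rw [← map_intCast ψ (a l), ← map_sub]
    exact hψ _ (by rw [RingHom.mem_ker, map_sub, map_intCast, hχ, sub_self])

/-- Absence of congruent eigenforms gives a killing expression. -/
theorem exists_killer_of_not_modular (hMS : ∀ q : ℕ, q.Prime → q ∣ M → q ∈ S) (p : ℕ)
    [Fact p.Prime]
    (hno : ¬ HasCongruentForm a p M S)
    {R : Type*} [Ring R] (τ : ℕ → R) :
    ∃ (r : R) (c : ℤ), ¬ (p : ℤ) ∣ c ∧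
      (r, (0 : CuspForm.heckeAlgebra M 2 S), c) ∈ sysRing S a τ :=
  exists_killer hMS p (fun ⟨χ, hχ⟩ => hno (exists_eigenform_of_char p χ hχ)) τ

end FermatAgent.MazurPrinciple

end
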