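import Mathlib.RingTheory.AdicCompletion.Basic
import Mathlib.RingTheory.PowerSeries.Trunc

/-!
# Sums of `∑ aₖ ϖ ^ k` in a complete ring; evaluation of power series at nilpotent elements
-/

set_option autoImplicit false

noncomputable section

namespace FermatAgent.MazurPrinciple

section Adic

variable {W : Type*} [CommRing W] (ϖ : W) [IsAdicComplete (Ideal.span {ϖ}) W]

omit [IsAdicComplete (Ideal.span {ϖ}) W] in
theorem smodEq_iff_dvd {x y : W} {n : ℕ} :
    x ≡ y [SMOD ((Ideal.span {ϖ}) ^ n • ⊤ : Submodule W W)] ↔ ϖ ^ n ∣ x - y := by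
  rw [SModEq.sub_mem, smul_eq_mul, Ideal.mul_top, Ideal.span_singleton_pow,
    Ideal.mem_span_singleton]

theorem exists_adicSum (a : ℕ → W) :
    ∃ L : W, ∀ m, ϖ ^ m ∣ (∑ k ∈ Finset.range m, a k * ϖ ^ k) - L := by
  obtain ⟨L, hL⟩ := IsPrecomplete.prec' (I := Ideal.span {ϖ})
    (fun m => ∑ k ∈ Finset.range m, a k * ϖ ^ k) (fun {m n} h => by
      rw [smodEq_iff_dvd, ← Finset.sum_range_add_sum_Ico _ h, sub_add_cancel_left, dvd_neg]
      exact Finset.dvd_sum fun k hk =>
        dvd_mul_of_dvd_right (pow_dvd_pow _ (Finset.mem_Ico.mp hk).1) _)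
  exact ⟨L, fun m => (smodEq_iff_dvd ϖ).mp (hL m)⟩

/-- `∑ aₖ ϖ ^ k`. -/
def adicSum (a : ℕ → W) : W := (exists_adicSum ϖ a).choose

theorem adicSum_spec (a : ℕ → W) (m : ℕ) :
    ϖ ^ m ∣ (∑ k ∈ Finset.range m, a k * ϖ ^ k) - adicSum ϖ a :=
  (exists_adicSum ϖ a).choose_spec m

theorem eq_zero_of_forall_pow_dvd {x : W} (h : ∀ m, ϖ ^ m ∣ x) : x = 0 :=
  IsHausdorff.haus' (I := Ideal.span {ϖ}) x fun m => (smodEq_iff_dvd ϖ).mpr (by simpa using h m)

theorem adicSum_unique {a : ℕ → W} {L : W}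
    (h : ∀ m, ϖ ^ m ∣ (∑ k ∈ Finset.range m, a k * ϖ ^ k) - L) : adicSum ϖ a = L := by
  refine sub_eq_zero.mp (eq_zero_of_forall_pow_dvd ϖ fun m => ?_)
  have := dvd_sub (h m) (adicSum_spec ϖ a m)
  rwa [sub_sub_sub_cancel_left] at this

theorem adicSum_succ (a : ℕ → W) : adicSum ϖ a = a 0 + ϖ * adicSum ϖ fun k => a (k + 1) := by
  refine adicSum_unique ϖ fun m => ?_
  cases m with
  | zero => simp
  | succ m =>
    obtain ⟨c, hc⟩ := adicSum_spec ϖ (fun k => a (k + 1)) m
    refine ⟨c, ?_⟩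
    rw [Finset.sum_range_succ', pow_zero, mul_one, pow_succ' ϖ m, mul_assoc, ← hc, mul_sub,
      Finset.mul_sum]
    simp only [pow_succ]
    rw [Finset.sum_congr rfl fun k _ =>
      show a (k + 1) * (ϖ ^ k * ϖ) = ϖ * (a (k + 1) * ϖ ^ k) by ring]
    ring

end Adic

section EvalNil

variable {R B : Type*} [CommRing R] [CommRing B] (φ : R →+* B) (t : B) (n : ℕ) (ht : t ^ n = 0)
include ht

omit φ in
theorem pow_eq_zero_of_ge {j : ℕ} (hj : n ≤ j) : t ^ j = 0 := by
  rw [← Nat.sub_add_cancel hj, pow_add, ht, mul_zero]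

theorem eval₂_eq_eval₂_trunc (P : Polynomial R) :
    P.eval₂ φ t = (PowerSeries.trunc n (P : PowerSeries R)).eval₂ φ t := by
  rw [PowerSeries.eval₂_trunc_eq_sum_range, Polynomial.eval₂_eq_sum_range' φ
    (show P.natDegree < max n (P.natDegree + 1) by omega)]
  rw [← Finset.sum_range_add_sum_Ico _ (le_max_left n (P.natDegree + 1)),
    Finset.sum_eq_zero (s := Finset.Ico n _) fun j hj => by
      rw [pow_eq_zero_of_ge t n ht (Finset.mem_Ico.mp hj).1, mul_zero], add_zero]
  simp only [Polynomial.coeff_coe]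

/-- Evaluation of power series at a nilpotent element. -/
def evalNil : PowerSeries R →+* B where
  toFun f := (PowerSeries.trunc n f).eval₂ φ t
  map_one' := by
    have h := eval₂_eq_eval₂_trunc φ t n ht (1 : Polynomial R)
    rw [Polynomial.eval₂_one] at h
    simpa using h.symm
  map_mul' f g := by
    rw [← Polynomial.eval₂_mul, eval₂_eq_eval₂_trunc φ t n ht (_ * _), Polynomial.coe_mul,
      PowerSeries.trunc_trunc_mul_trunc]
  map_zero' := by simp
  map_add' f g := by rw [map_add, Polynomial.eval₂_add]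

theorem evalNil_apply (f : PowerSeries R) :
    evalNil φ t n ht f = ∑ j ∈ Finset.range n, φ (PowerSeries.coeff j f) * t ^ j :=
  PowerSeries.eval₂_trunc_eq_sum_range t φ n f

@[simp] theorem evalNil_C (r : R) : evalNil φ t n ht (PowerSeries.C r) = φ r := by
  have h := eval₂_eq_eval₂_trunc φ t n ht (Polynomial.C r)
  rw [Polynomial.eval₂_C, Polynomial.coe_C] at h
  exact h.symm

@[simp] theorem evalNil_X : evalNil φ t n ht PowerSeries.X = t := by
  have h := eval₂_eq_eval₂_trunc φ t n ht (Polynomial.X)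
  rw [Polynomial.eval₂_X, Polynomial.coe_X] at h
  exact h.symm

end EvalNil

end FermatAgent.MazurPrinciple
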