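import Fermat.Agent.MazurPrinciple.AdicSum
import Mathlib.RingTheory.LaurentSeries
import Mathlib.RingTheory.PowerSeries.Inverse

/-!
# The ring of functions of an annulus `W[[X, Y]] / (X * Y - ϖ)`

Normal coefficients `ncoeff f n` (`n : ℤ`) of `f` and the two ends
`endX R f, endY R f ∈ (W / ϖ ^ R)((u))`.
-/

set_option autoImplicit false

noncomputable section

namespace FermatAgent.MazurPrinciple

variable {W : Type*} [CommRing W] (ϖ : W)

/-- Series in two variables: the outer variable is `Y`, the inner one `X`. -/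
abbrev Bi (W : Type*) [CommRing W] := PowerSeries (PowerSeries W)

/-- The coefficient of `X ^ i * Y ^ j`. -/
def bcoeff (i j : ℕ) (f : Bi W) : W := PowerSeries.coeff i (PowerSeries.coeff j f)

theorem bi_ext {f g : Bi W} (h : ∀ i j, bcoeff i j f = bcoeff i j g) : f = g :=
  PowerSeries.ext fun j => PowerSeries.ext fun i => h i j

/-- The inner variable. -/
def biX : Bi W := PowerSeries.C PowerSeries.X

/-- The outer variable. -/
def biY : Bi W := PowerSeries.X

/-- A constant. -/
def biC : W →+* Bi W := (PowerSeries.C (R := PowerSeries W)).comp PowerSeries.C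

/-- `X * Y - ϖ`. -/
def annulusRel : Bi W := biX * biY - biC ϖ

theorem bcoeff_biX_mul_biY_mul_zero_left (g : Bi W) (j : ℕ) :
    bcoeff 0 j (biX * biY * g) = 0 := by
  simp [bcoeff, biX, biY, mul_assoc, PowerSeries.coeff_C_mul]

theorem bcoeff_biX_mul_biY_mul_zero_right (g : Bi W) (i : ℕ) :
    bcoeff i 0 (biX * biY * g) = 0 := by
  simp [bcoeff, biX, biY, mul_assoc, PowerSeries.coeff_C_mul]

theorem bcoeff_biX_mul_biY_mul_succ (g : Bi W) (i j : ℕ) :
    bcoeff (i + 1) (j + 1) (biX * biY * g) = bcoeff i j g := by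
  simp [bcoeff, biX, biY, mul_assoc, PowerSeries.coeff_C_mul]

theorem bcoeff_biC_mul (c : W) (g : Bi W) (i j : ℕ) :
    bcoeff i j (biC c * g) = c * bcoeff i j g := by
  simp [bcoeff, biC, PowerSeries.coeff_C_mul]

/-- The two natural numbers with difference `n`, one of them zero. -/
theorem toNat_succ_shift (n : ℤ) (k : ℕ) :
    n.toNat + (k + 1) = (n.toNat + k) + 1 ∧ (-n).toNat + (k + 1) = ((-n).toNat + k) + 1 :=
  ⟨by omega, by omega⟩

section Complete

variable [IsAdicComplete (Ideal.span {ϖ}) W]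

/-- The normal coefficient at `u ^ n`. -/
def ncoeff (f : Bi W) (n : ℤ) : W :=
  adicSum ϖ fun k => bcoeff (n.toNat + k) ((-n).toNat + k) f

/-- An element is a multiple of `X * Y - ϖ` iff all normal coefficients vanish. -/
theorem dvd_iff_ncoeff_eq_zero (f : Bi W) :
    annulusRel ϖ ∣ f ↔ ∀ n, ncoeff ϖ f n = 0 := by
  constructor
  · rintro ⟨g, rfl⟩ n
    refine adicSum_unique ϖ fun m => ⟨-if m = 0 then 0 else
      bcoeff (n.toNat + (m - 1)) ((-n).toNat + (m - 1)) g, ?_⟩
    rw [sub_zero]
    induction m with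
    | zero => simp
    | succ m ih =>
      rw [Finset.sum_range_succ, ih, annulusRel, sub_mul]
      have hc : bcoeff (n.toNat + m) ((-n).toNat + m) (biX * biY * g - biC ϖ * g) =
          (if m = 0 then 0 else bcoeff (n.toNat + (m - 1)) ((-n).toNat + (m - 1)) g) -
            ϖ * bcoeff (n.toNat + m) ((-n).toNat + m) g := by
        have e : bcoeff (n.toNat + m) ((-n).toNat + m) (biX * biY * g - biC ϖ * g) =
            bcoeff (n.toNat + m) ((-n).toNat + m) (biX * biY * g) -
              ϖ * bcoeff (n.toNat + m) ((-n).toNat + m) g := by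
          rw [← bcoeff_biC_mul]; simp [bcoeff]
        rw [e]
        congr 1
        cases m with
        | zero =>
          rw [if_pos rfl, add_zero, add_zero]
          rcases le_total n 0 with h | h
          · rw [Int.toNat_of_nonpos h, bcoeff_biX_mul_biY_mul_zero_left]
          · rw [Int.toNat_of_nonpos (show -n ≤ 0 by omega), bcoeff_biX_mul_biY_mul_zero_right]
        | succ m =>
          rw [if_neg (by omega), Nat.add_sub_cancel, (toNat_succ_shift n m).1,
            (toNat_succ_shift n m).2, bcoeff_biX_mul_biY_mul_succ]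
      rw [hc, if_neg (Nat.succ_ne_zero m), Nat.succ_sub_one, pow_succ]
      ring
  · intro h
    let g : Bi W := PowerSeries.mk fun j => PowerSeries.mk fun i =>
      adicSum ϖ fun k => bcoeff (i + (k + 1)) (j + (k + 1)) f
    have hg : ∀ i j, bcoeff i j g = adicSum ϖ fun k => bcoeff (i + (k + 1)) (j + (k + 1)) f :=
      fun i j => by simp [bcoeff, g]
    refine ⟨g, bi_ext fun i j => ?_⟩
    have e : bcoeff i j (annulusRel ϖ * g) =
        bcoeff i j (biX * biY * g) - ϖ * bcoeff i j g := by
      rw [← bcoeff_biC_mul, annulusRel, sub_mul]; simp [bcoeff]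
    rw [e]
    rcases i with - | i
    · rw [bcoeff_biX_mul_biY_mul_zero_left, hg, zero_sub]
      have h0 := h (-(j : ℤ))
      rw [ncoeff, adicSum_succ] at h0
      simp only [Int.toNat_neg_natCast, neg_neg, Int.toNat_natCast, zero_add, add_zero] at h0 ⊢
      linear_combination h0
    rcases j with - | j
    · rw [bcoeff_biX_mul_biY_mul_zero_right, hg, zero_sub]
      have h0 := h ((i + 1 : ℕ) : ℤ)
      rw [ncoeff, adicSum_succ] at h0
      simp only [Int.toNat_natCast, Int.toNat_neg_natCast, zero_add, add_zero] at h0 ⊢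
      linear_combination h0
    · rw [bcoeff_biX_mul_biY_mul_succ, hg, hg, adicSum_succ ϖ (fun k =>
        bcoeff (i + (k + 1)) (j + (k + 1)) f)]
      simp only [zero_add, ← add_assoc]
      simp only [add_right_comm _ 1 _]
      ring

end Complete

/-! ### Swapping the variables -/

/-- Exchange of `X` and `Y`. -/
def biSwap : Bi W →+* Bi W where
  toFun f := PowerSeries.mk fun j => PowerSeries.mk fun i => bcoeff j i f
  map_zero' := bi_ext fun i j => by simp [bcoeff]
  map_one' := bi_ext fun i j => by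
    simp only [bcoeff, PowerSeries.coeff_mk, PowerSeries.coeff_one]
    split_ifs <;> simp [PowerSeries.coeff_one, *]
  map_add' f g := bi_ext fun i j => by simp [bcoeff]
  map_mul' f g := bi_ext fun i j => by
    simp only [bcoeff, PowerSeries.coeff_mk, PowerSeries.coeff_mul, map_sum]
    rw [Finset.sum_comm]

theorem bcoeff_biSwap (f : Bi W) (i j : ℕ) : bcoeff i j (biSwap f) = bcoeff j i f := by
  simp [biSwap, bcoeff]

theorem biSwap_biSwap (f : Bi W) : biSwap (biSwap f) = f :=
  bi_ext fun i j => by rw [bcoeff_biSwap, bcoeff_biSwap]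

theorem biSwap_biX : biSwap (biX : Bi W) = biY := bi_ext fun i j => by
  rw [bcoeff_biSwap]
  simp only [bcoeff, biX, biY, PowerSeries.coeff_C, PowerSeries.coeff_X]
  split_ifs <;> simp_all [PowerSeries.coeff_X, PowerSeries.coeff_one]

theorem biSwap_biY : biSwap (biY : Bi W) = biX := by rw [← biSwap_biX, biSwap_biSwap]

theorem biSwap_biC (c : W) : biSwap (biC c) = biC c := bi_ext fun i j => by
  rw [bcoeff_biSwap]
  simp only [bcoeff, biC, RingHom.comp_apply, PowerSeries.coeff_C]
  split_ifs <;> simp_all [PowerSeries.coeff_C]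

theorem biSwap_annulusRel : biSwap (annulusRel ϖ) = annulusRel ϖ := by
  rw [annulusRel, map_sub, map_mul, biSwap_biX, biSwap_biY, biSwap_biC, mul_comm]

/-! ### The ends -/

/-- `W / ϖ ^ R`. -/
abbrev modPow (R : ℕ) := W ⧸ Ideal.span {ϖ ^ R}

/-- Reduction modulo `ϖ ^ R`. -/
abbrev modPowMk (R : ℕ) : W →+* modPow ϖ R := Ideal.Quotient.mk _

theorem modPowMk_eq_zero_iff (R : ℕ) (x : W) : modPowMk ϖ R x = 0 ↔ ϖ ^ R ∣ x := by
  rw [Ideal.Quotient.eq_zero_iff_mem, Ideal.mem_span_singleton]

theorem single_neg_one_pow_eq_zero (R : ℕ) :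
    (HahnSeries.single (-1 : ℤ) (modPowMk ϖ R ϖ)) ^ R = (0 : LaurentSeries (modPow ϖ R)) := by
  rw [HahnSeries.single_pow, ← map_pow, (modPowMk_eq_zero_iff ϖ R _).mpr dvd_rfl,
    map_zero]

/-- Coefficientwise reduction of a series in `X` as a Laurent series. -/
def innerHom (R : ℕ) : PowerSeries W →+* LaurentSeries (modPow ϖ R) :=
  (HahnSeries.ofPowerSeries ℤ _).comp (PowerSeries.map (modPowMk ϖ R))

/-- The end at which `X` is the coordinate: `Y ↦ ϖ / u`. -/
def endX (R : ℕ) : Bi W →+* LaurentSeries (modPow ϖ R) :=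
  evalNil (innerHom ϖ R) (HahnSeries.single (-1 : ℤ) (modPowMk ϖ R ϖ)) R
    (single_neg_one_pow_eq_zero ϖ R)

/-- The end at which `Y` is the coordinate: `X ↦ ϖ / u`. -/
def endY (R : ℕ) : Bi W →+* LaurentSeries (modPow ϖ R) := (endX ϖ R).comp biSwap

theorem endX_biX (R : ℕ) : endX ϖ R biX = HahnSeries.single 1 1 := by
  simp [endX, biX, innerHom]

theorem endX_biY (R : ℕ) : endX ϖ R biY = HahnSeries.single (-1) (modPowMk ϖ R ϖ) := by
  simp [endX, biY]

theorem endX_biC (R : ℕ) (c : W) : endX ϖ R (biC c) = HahnSeries.C (modPowMk ϖ R c) := by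
  simp [endX, biC, innerHom]

theorem endX_annulusRel (R : ℕ) : endX ϖ R (annulusRel ϖ) = 0 := by
  rw [annulusRel, map_sub, map_mul, endX_biX, endX_biY, endX_biC, HahnSeries.single_mul_single]
  simp [HahnSeries.C_apply]

theorem endY_annulusRel (R : ℕ) : endY ϖ R (annulusRel ϖ) = 0 := by
  rw [endY, RingHom.comp_apply, biSwap_annulusRel, endX_annulusRel]

theorem coeff_endX_eq_sum (R : ℕ) (f : Bi W) (n : ℤ) :
    (endX ϖ R f).coeff n = modPowMk ϖ R (∑ j ∈ Finset.range R,
      if n + j < 0 then 0 else bcoeff (n + j).toNat j f * ϖ ^ j) := by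
  rw [endX, evalNil_apply, HahnSeries.coeff_sum, map_sum]
  refine Finset.sum_congr rfl fun j _ => ?_
  rw [HahnSeries.single_pow, ← map_pow, mul_comm, HahnSeries.coeff_single_mul]
  rw [show n - j • (-1 : ℤ) = n + j by rw [nsmul_eq_mul]; ring]
  rw [innerHom, RingHom.comp_apply, show (HahnSeries.ofPowerSeries ℤ (modPow ϖ R)
      (PowerSeries.map (modPowMk ϖ R) (PowerSeries.coeff j f))).coeff (n + j) = _ from
      PowerSeries.coeff_coe _ _]
  split_ifs with h
  · rw [mul_zero, map_zero]
  · rw [PowerSeries.coeff_map, map_mul, mul_comm, bcoeff,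
      show (n + j).natAbs = (n + j).toNat by omega]

variable [IsAdicComplete (Ideal.span {ϖ}) W]

/-- The `X`-end in terms of normal coefficients. -/
theorem coeff_endX (R : ℕ) (f : Bi W) (n : ℤ) :
    (endX ϖ R f).coeff n = modPowMk ϖ R (ϖ ^ (-n).toNat * ncoeff ϖ f n) := by
  rw [coeff_endX_eq_sum, Ideal.Quotient.eq, Ideal.mem_span_singleton]
  set s := (-n).toNat with hs
  have hspec := adicSum_spec ϖ (fun k => bcoeff (n.toNat + k) (s + k) f) R
  have hd : ϖ ^ R ∣ ϖ ^ s * (∑ k ∈ Finset.range R, bcoeff (n.toNat + k) (s + k) f * ϖ ^ k -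
      ncoeff ϖ f n) := hspec.mul_left _
  refine (dvd_iff_dvd_of_dvd_sub ?_).mpr hd
  -- compare the two finite sums
  rw [mul_sub, sub_sub_sub_cancel_right, Finset.mul_sum]
  rw [← Finset.sum_range_add_sum_Ico (fun j => if n + j < 0 then 0 else
    bcoeff (n + j).toNat j f * ϖ ^ j) (min_le_right s R)]
  rw [Finset.sum_eq_zero (s := Finset.range (min s R)) fun j hj => by
    rw [if_pos]
    have := Finset.mem_range.mp hj
    omega, zero_add, Finset.sum_Ico_eq_sum_range,
    ← Finset.sum_range_add_sum_Ico (fun k => ϖ ^ s * (bcoeff (n.toNat + k) (s + k) f * ϖ ^ k))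
      (Nat.sub_le R (min s R)), ← sub_sub, ← Finset.sum_sub_distrib]
  refine dvd_sub (Finset.dvd_sum fun k hk => ?_) (Finset.dvd_sum fun k hk => ?_)
  · have hk' := Finset.mem_range.mp hk
    rw [if_neg (by omega), show (n + ((min s R + k : ℕ) : ℤ)).toNat = n.toNat + k by omega,
      show min s R + k = s + k by omega]
    simp [pow_add]
    ring_nf
    exact dvd_zero _
  · have hk' := (Finset.mem_Ico.mp hk).1
    refine dvd_trans (pow_dvd_pow ϖ (show R ≤ s + k by omega)) ⟨bcoeff (n.toNat + k) (s + k) f, ?_⟩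
    ring

theorem ncoeff_biSwap (f : Bi W) (n : ℤ) : ncoeff ϖ (biSwap f) n = ncoeff ϖ f (-n) := by
  simp [ncoeff, bcoeff_biSwap]

/-- The `Y`-end in terms of normal coefficients. -/
theorem coeff_endY (R : ℕ) (f : Bi W) (n : ℤ) :
    (endY ϖ R f).coeff n = modPowMk ϖ R (ϖ ^ (-n).toNat * ncoeff ϖ f (-n)) := by
  rw [endY, RingHom.comp_apply, coeff_endX, ncoeff_biSwap]

end FermatAgent.MazurPrinciple
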