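import Mathlib.RingTheory.LaurentSeries
import Mathlib.RingTheory.Nilpotent.Basic
import Mathlib.RingTheory.Polynomial.Nilpotent
import Fermat.Prelude.Def_ModularCurve_LaurentCoeff

/-!
# Units of Laurent series over a local ring with nilpotent maximal ideal

Over a local ring `S` with nilpotent maximal ideal a unit of `S((u))` is uniquely
`c * u ^ n * P * Q` with `c ∈ Sˣ`, `P ∈ 1 + u S[[u]]` and `Q` a polynomial in `u⁻¹` with constant
coefficient `1`, congruent to `1` modulo nilpotents. `c` is the constant part of the unit.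
-/

set_option autoImplicit false

noncomputable section

namespace FermatAgent.MazurPrinciple

open Polynomial ModularCurve

variable {S : Type*} [CommRing S]

/-- A polynomial in `u⁻¹`. -/
def negPart : Polynomial S →+* LaurentSeries S :=
  Polynomial.eval₂RingHom HahnSeries.C (HahnSeries.single (-1 : ℤ) (1 : S))

theorem negPart_monomial (n : ℕ) (r : S) :
    negPart (monomial n r) = HahnSeries.single (-(n : ℤ)) r := by
  rw [negPart, coe_eval₂RingHom, eval₂_monomial, HahnSeries.single_pow, one_pow,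
    HahnSeries.C_apply, HahnSeries.single_mul_single, mul_one, zero_add, smul_neg,
    nsmul_eq_mul, mul_one]

theorem coeff_negPart (Q : Polynomial S) (m : ℕ) : (negPart Q).coeff (-(m : ℤ)) = Q.coeff m := by
  induction Q using Polynomial.induction_on' with
  | add p q hp hq => rw [map_add, HahnSeries.coeff_add, hp, hq, Polynomial.coeff_add]
  | monomial n r =>
    rw [negPart_monomial, Polynomial.coeff_monomial, HahnSeries.coeff_single]
    simp only [neg_inj, Nat.cast_inj, eq_comm]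

theorem coeff_negPart_pos (Q : Polynomial S) {m : ℤ} (hm : 0 < m) :
    (negPart Q).coeff m = 0 := by
  induction Q using Polynomial.induction_on' with
  | add p q hp hq => rw [map_add, HahnSeries.coeff_add, hp, hq, add_zero]
  | monomial n r =>
    rw [negPart_monomial, HahnSeries.coeff_single_of_ne]
    omega

theorem coeff_ofPowerSeries (P : PowerSeries S) (i : ℤ) :
    (HahnSeries.ofPowerSeries ℤ S P).coeff i =
      if i < 0 then 0 else PowerSeries.coeff i.natAbs P :=
  PowerSeries.coeff_coe P i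

/-- `1 + u S[[u]]`. -/
def IsPos (z : LaurentSeries S) : Prop :=
  ∃ P : PowerSeries S, PowerSeries.constantCoeff P = 1 ∧ HahnSeries.ofPowerSeries ℤ S P = z

/-- `1 +` nilpotent strictly negative part. -/
def IsNeg (z : LaurentSeries S) : Prop :=
  ∃ Q : Polynomial S, Q.coeff 0 = 1 ∧ IsNilpotent (Q - 1) ∧ negPart Q = z

theorem isPos_one : IsPos (1 : LaurentSeries S) := ⟨1, map_one _, map_one _⟩

theorem isNeg_one : IsNeg (1 : LaurentSeries S) :=
  ⟨1, by simp, by simp, map_one _⟩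

theorem IsPos.mul {z w : LaurentSeries S} (hz : IsPos z) (hw : IsPos w) : IsPos (z * w) := by
  obtain ⟨P, hP, rfl⟩ := hz
  obtain ⟨P', hP', rfl⟩ := hw
  exact ⟨P * P', by rw [map_mul, hP, hP', one_mul], map_mul _ _ _⟩

theorem IsNeg.mul {z w : LaurentSeries S} (hz : IsNeg z) (hw : IsNeg w) : IsNeg (z * w) := by
  obtain ⟨Q, hQ, hn, rfl⟩ := hz
  obtain ⟨Q', hQ', hn', rfl⟩ := hw
  refine ⟨Q * Q', by rw [mul_coeff_zero, hQ, hQ', one_mul], ?_, map_mul _ _ _⟩
  rw [show Q * Q' - 1 = (Q - 1) * Q' + (Q' - 1) by ring]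
  exact (Commute.all _ _).isNilpotent_add ((Commute.all _ _).isNilpotent_mul_right hn) hn'

theorem IsPos.exists_inv {z : LaurentSeries S} (hz : IsPos z) :
    ∃ w, IsPos w ∧ z * w = 1 := by
  obtain ⟨P, hP, rfl⟩ := hz
  refine ⟨HahnSeries.ofPowerSeries ℤ S (PowerSeries.invOfUnit P 1),
    ⟨_, by simp, rfl⟩, ?_⟩
  rw [← map_mul, PowerSeries.mul_invOfUnit P 1 (by simp [hP]), map_one]

theorem IsNeg.exists_inv {z : LaurentSeries S} (hz : IsNeg z) :
    ∃ w, IsNeg w ∧ z * w = 1 := by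
  obtain ⟨Q, hQ, hn, rfl⟩ := hz
  obtain ⟨R, hR⟩ := (isUnit_iff_exists_inv.mp
    (show IsUnit Q by simpa using hn.isUnit_add_one))
  refine ⟨negPart R, ⟨R, ?_, ?_, rfl⟩, by rw [← map_mul, hR, map_one]⟩
  · have := congrArg (fun p : Polynomial S => p.coeff 0) hR
    simpa [mul_coeff_zero, hQ] using this
  · rw [show R - 1 = -((Q - 1) * R) by linear_combination hR]
    exact ((Commute.all _ _).isNilpotent_mul_right hn).neg

/-- The ideal of series with all coefficients in `I`. -/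
def coeffIdeal (I : Ideal S) : Ideal (LaurentSeries S) :=
  RingHom.ker (coeffMap (Ideal.Quotient.mk I))

theorem mem_coeffIdeal {I : Ideal S} {z : LaurentSeries S} :
    z ∈ coeffIdeal I ↔ ∀ n, z.coeff n ∈ I := by
  rw [coeffIdeal, RingHom.mem_ker]
  refine ⟨fun h n => Ideal.Quotient.eq_zero_iff_mem.mp ?_, fun h => HahnSeries.ext (funext fun n =>
    Ideal.Quotient.eq_zero_iff_mem.mpr (h n))⟩
  rw [← coeffMap_coeff, h, HahnSeries.coeff_zero]

theorem mul_mem_coeffIdeal {I J : Ideal S} {z w : LaurentSeries S} (hz : z ∈ coeffIdeal I)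
    (hw : w ∈ coeffIdeal J) : z * w ∈ coeffIdeal (I * J) := by
  rw [mem_coeffIdeal] at hz hw ⊢
  intro n
  rw [HahnSeries.coeff_mul]
  exact Ideal.sum_mem _ fun ij _ => Ideal.mul_mem_mul (hz _) (hw _)

theorem coeffIdeal_mono {I J : Ideal S} (h : I ≤ J) : coeffIdeal I ≤ coeffIdeal J :=
  fun _ hz => mem_coeffIdeal.mpr fun n => h (mem_coeffIdeal.mp hz n)

set_option linter.unusedVariables false in
theorem exists_split (z : LaurentSeries S) :
    ∃ (Q : Polynomial S) (P : PowerSeries S), Q.coeff 0 = 0 ∧ PowerSeries.constantCoeff P = 0 ∧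
      z = negPart Q + HahnSeries.C (z.coeff 0) + HahnSeries.ofPowerSeries ℤ S P ∧
      (∀ m, Q.coeff m = 0 ∨ Q.coeff m = z.coeff (-(m : ℤ))) ∧
      (∀ m, PowerSeries.coeff m P = 0 ∨ PowerSeries.coeff m P = z.coeff (m : ℤ)) := by
  classical
  obtain ⟨N, hN⟩ : ∃ N : ℕ, ∀ m : ℕ, N ≤ m → 0 < m → z.coeff (-(m : ℤ)) = 0 := by
    refine ⟨(-z.order).toNat + 1, fun m hm _ => HahnSeries.coeff_eq_zero_of_lt_order ?_⟩
    omega
  let Q : Polynomial S := ∑ m ∈ Finset.range N,
    monomial m (if m = 0 then 0 else z.coeff (-(m : ℤ)))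
  have hQ : ∀ m, Q.coeff m = if m = 0 then 0 else z.coeff (-(m : ℤ)) := by
    intro m
    simp only [Q, finsetSum_coeff, coeff_monomial, Finset.sum_ite_eq', Finset.mem_range]
    by_cases hm : m < N
    · simp [hm]
    · rcases eq_or_ne m 0 with rfl | hm0
      · simp
      · simp [hm, hm0, hN m (by omega) (by omega)]
  let P : PowerSeries S := PowerSeries.mk fun m => if m = 0 then 0 else z.coeff (m : ℤ)
  refine ⟨Q, P, by simp [hQ], ?_, ?_, ?_, ?_⟩
  · simp [P, ← PowerSeries.coeff_zero_eq_constantCoeff_apply]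
  · ext n
    rcases lt_trichotomy n 0 with hn | rfl | hn
    · obtain ⟨m, rfl⟩ : ∃ m : ℕ, n = -(m : ℤ) := ⟨(-n).toNat, by omega⟩
      have hm : m ≠ 0 := by omega
      simp only [HahnSeries.coeff_add, coeff_negPart, hQ, if_neg hm, HahnSeries.C_apply,
        HahnSeries.coeff_single_of_ne (show -(m : ℤ) ≠ 0 by omega), add_zero]
      rw [show (HahnSeries.ofPowerSeries ℤ S P).coeff (-(m : ℤ)) = 0 from by
        rw [coeff_ofPowerSeries, if_pos (by omega)], add_zero]
    · have h0 : (negPart Q).coeff (0 : ℤ) = 0 := by simpa [hQ] using coeff_negPart Q 0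
      have h1 : (HahnSeries.ofPowerSeries ℤ S P).coeff (0 : ℤ) = 0 := by
        simpa [P] using HahnSeries.ofPowerSeries_apply_coeff (Γ := ℤ) P 0
      simp [HahnSeries.coeff_add, h0, h1, HahnSeries.C_apply]
    · obtain ⟨m, rfl⟩ : ∃ m : ℕ, n = (m : ℤ) := ⟨n.toNat, by omega⟩
      have hm : m ≠ 0 := by omega
      have h1 : (HahnSeries.ofPowerSeries ℤ S P).coeff (m : ℤ) = z.coeff (m : ℤ) := by
        rw [HahnSeries.ofPowerSeries_apply_coeff]
        simp [P, hm]
      simp [HahnSeries.coeff_add, coeff_negPart_pos Q hn, h1, HahnSeries.C_apply,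
        HahnSeries.coeff_single_of_ne hn.ne']
  · intro m
    rw [hQ]
    split_ifs <;> simp
  · intro m
    simp only [P, PowerSeries.coeff_mk]
    split_ifs <;> simp

/-- `z = c * u ^ n * P * Q`. -/
def IsDecomp (z : LaurentSeries S) (c : Sˣ) (n : ℤ) : Prop :=
  ∃ P Q, IsPos P ∧ IsNeg Q ∧ z = HahnSeries.single n (c : S) * P * Q

theorem IsDecomp.mul {z w : LaurentSeries S} {c d : Sˣ} {m n : ℤ} (hz : IsDecomp z c m)
    (hw : IsDecomp w d n) : IsDecomp (z * w) (c * d) (m + n) := by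
  obtain ⟨P, Q, hP, hQ, rfl⟩ := hz
  obtain ⟨P', Q', hP', hQ', rfl⟩ := hw
  refine ⟨P * P', Q * Q', hP.mul hP', hQ.mul hQ', ?_⟩
  rw [Units.val_mul, ← HahnSeries.single_mul_single]
  ring

theorem isDecomp_one : IsDecomp (1 : LaurentSeries S) 1 0 :=
  ⟨1, 1, isPos_one, isNeg_one, by simp⟩

theorem isDecomp_C (c : Sˣ) : IsDecomp (HahnSeries.C (c : S)) c 0 :=
  ⟨1, 1, isPos_one, isNeg_one, by simp [HahnSeries.C_apply]⟩

theorem isDecomp_single (n : ℤ) : IsDecomp (HahnSeries.single n (1 : S)) 1 n :=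
  ⟨1, 1, isPos_one, isNeg_one, by simp⟩

theorem IsPos.isDecomp {P : LaurentSeries S} (hP : IsPos P) : IsDecomp P 1 0 :=
  ⟨P, 1, hP, isNeg_one, by simp⟩

theorem IsNeg.isDecomp {Q : LaurentSeries S} (hQ : IsNeg Q) : IsDecomp Q 1 0 :=
  ⟨1, Q, isPos_one, hQ, by simp⟩

theorem IsDecomp.exists_inv {z : LaurentSeries S} {c : Sˣ} {n : ℤ} (hz : IsDecomp z c n) :
    ∃ w, IsDecomp w c⁻¹ (-n) ∧ z * w = 1 := by
  obtain ⟨P, Q, hP, hQ, rfl⟩ := hz
  obtain ⟨P', hP', eP⟩ := hP.exists_inv
  obtain ⟨Q', hQ', eQ⟩ := hQ.exists_inv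
  refine ⟨HahnSeries.single (-n) ((c⁻¹ : Sˣ) : S) * P' * Q', ⟨P', Q', hP', hQ', rfl⟩, ?_⟩
  calc _ = HahnSeries.single n (c : S) * HahnSeries.single (-n) ((c⁻¹ : Sˣ) : S)
        * (P * P') * (Q * Q') := by ring
    _ = 1 := by simp [eP, eQ, HahnSeries.single_mul_single]

theorem IsDecomp.map {T : Type*} [CommRing T] (φ : S →+* T) {z : LaurentSeries S} {c : Sˣ}
    {n : ℤ} (hz : IsDecomp z c n) : IsDecomp (coeffMap φ z) (Units.map φ c) n := by
  obtain ⟨_, _, ⟨P, hP, rfl⟩, ⟨Q, hQ, hn, rfl⟩, rfl⟩ := hz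
  refine ⟨HahnSeries.ofPowerSeries ℤ T (PowerSeries.map φ P), negPart (Q.map φ), ⟨_, ?_, rfl⟩,
    ⟨_, ?_, ?_, rfl⟩, ?_⟩
  · rw [← PowerSeries.coeff_zero_eq_constantCoeff_apply, PowerSeries.coeff_map,
      PowerSeries.coeff_zero_eq_constantCoeff_apply, hP, map_one]
  · simp [hQ]
  · simpa using hn.map (Polynomial.mapRingHom φ)
  · rw [map_mul, map_mul, coeffMap_single]
    congr 1
    · congr 1
      ext k
      rw [coeffMap_coeff, coeff_ofPowerSeries, coeff_ofPowerSeries]
      split_ifs <;> simp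
    · clear hQ hn
      induction Q using Polynomial.induction_on' with
      | add p q hp hq => simp [hp, hq]
      | monomial k r => rw [negPart_monomial, coeffMap_single, map_monomial, negPart_monomial]

section Local

variable [IsLocalRing S]

local notation "𝔪" => IsLocalRing.maximalIdeal S

theorem coeff_neg_of_isNeg_sub_one {Q : LaurentSeries S} (hQ : IsNeg Q) :
    Q - 1 ∈ coeffIdeal 𝔪 := by
  obtain ⟨Q, hQ0, hn, rfl⟩ := hQ
  rw [mem_coeffIdeal]
  intro n
  rw [← map_one negPart, ← map_sub]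
  rcases lt_or_ge 0 n with hn' | hn'
  · rw [coeff_negPart_pos _ hn']
    exact zero_mem _
  · obtain ⟨m, rfl⟩ : ∃ m : ℕ, n = -(m : ℤ) := ⟨(-n).toNat, by omega⟩
    rw [coeff_negPart]
    obtain ⟨k, hk⟩ := Polynomial.isNilpotent_iff.mp hn m
    exact (IsLocalRing.maximalIdeal.isMaximal S).isPrime.mem_of_pow_mem k (hk ▸ zero_mem _)

/-- The decomposition is unique. -/
theorem IsDecomp.unique {z : LaurentSeries S} {c d : Sˣ} {m n : ℤ} (h₁ : IsDecomp z c m)
    (h₂ : IsDecomp z d n) : c = d ∧ m = n := by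
  suffices h : ∀ (e : Sˣ) (k : ℤ), IsDecomp (1 : LaurentSeries S) e k → e = 1 ∧ k = 0 by
    obtain ⟨w, hw, hzw⟩ := h₂.exists_inv
    obtain ⟨h, h'⟩ := h _ _ (hzw ▸ h₁.mul hw)
    exact ⟨mul_inv_eq_one.mp h, by omega⟩
  rintro e k ⟨_, Q, ⟨P, hP, rfl⟩, hQ, h⟩
  have hQm := coeff_neg_of_isNeg_sub_one hQ
  set g := coeffMap (IsLocalRing.residue S)
  have hgQ : g Q = 1 := by
    rw [← sub_eq_zero, ← map_one g, ← map_sub]
    exact hQm
  have h0 := congrArg g h
  rw [map_one, map_mul, map_mul, hgQ, mul_one] at h0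
  have he : IsLocalRing.residue S (e : S) ≠ 0 := by
    simp
  have hk : k = 0 := by
    rcases lt_trichotomy k 0 with hk | hk | hk
    · exfalso
      have := congrArg (fun y => HahnSeries.coeff y k) h0
      simp only [g, coeffMap_single, HahnSeries.coeff_one, if_neg hk.ne] at this
      rw [HahnSeries.coeff_single_mul, sub_self, coeffMap_coeff] at this
      have hP0 : (HahnSeries.ofPowerSeries ℤ S P).coeff (0 : ℤ) = 1 := by
        simpa [hP] using HahnSeries.ofPowerSeries_apply_coeff (Γ := ℤ) P 0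
      rw [hP0, map_one, mul_one] at this
      exact he this.symm
    · exact hk
    · exfalso
      have := congrArg (fun y => HahnSeries.coeff y 0) h0
      simp only [g, coeffMap_single, HahnSeries.coeff_one] at this
      rw [HahnSeries.coeff_single_mul, coeffMap_coeff,
        coeff_ofPowerSeries, zero_sub, if_pos (show -k < 0 by omega)] at this
      simp at this
  subst hk
  refine ⟨?_, rfl⟩
  obtain ⟨Q', hQ', eQ⟩ := hQ.exists_inv
  have h1 : HahnSeries.single (0 : ℤ) (e : S) * HahnSeries.ofPowerSeries ℤ S P = Q' := by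
    linear_combination (-Q') * h - (HahnSeries.single (0 : ℤ) (e : S) *
      HahnSeries.ofPowerSeries ℤ S P) * eQ
  have h2 := congrArg (fun y => HahnSeries.coeff y 0) h1
  obtain ⟨R, hR, -, rfl⟩ := hQ'
  rw [HahnSeries.coeff_single_mul, sub_zero,
    show (negPart R).coeff (0 : ℤ) = 1 by simpa [hR] using coeff_negPart R 0,
    show (HahnSeries.ofPowerSeries ℤ S P).coeff (0 : ℤ) = 1 by
      simpa [hP] using HahnSeries.ofPowerSeries_apply_coeff (Γ := ℤ) P 0, mul_one] at h2
  exact Units.ext h2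

variable (hm : IsNilpotent (IsLocalRing.maximalIdeal S))
include hm

theorem isNilpotent_of_mem {x : S} (hx : x ∈ 𝔪) : IsNilpotent x := by
  obtain ⟨k, hk⟩ := hm
  exact ⟨k, by rw [← Ideal.mem_bot, ← Ideal.zero_eq_bot, ← hk]; exact Ideal.pow_mem_pow hx k⟩

theorem exists_decomp_step {j : ℕ} (hj : 1 ≤ j) {z : LaurentSeries S}
    (hz : z - 1 ∈ coeffIdeal (𝔪 ^ j)) :
    ∃ (D : LaurentSeries S) (c : Sˣ), IsDecomp D c 0 ∧
      z * D - 1 ∈ coeffIdeal (𝔪 ^ (j + 1)) := by
  set w := z - 1 with hw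
  obtain ⟨Q, P, hQ0, hP0, hsplit, hQc, hPc⟩ := exists_split w
  have hwI := mem_coeffIdeal.mp hz
  have hjm : 𝔪 ^ j ≤ 𝔪 := Ideal.pow_le_self (by omega)
  have hQI : ∀ m, Q.coeff m ∈ 𝔪 ^ j := fun m => by
    rcases hQc m with h | h <;> rw [h]
    exacts [zero_mem _, hwI _]
  have hPI : ∀ m, PowerSeries.coeff m P ∈ 𝔪 ^ j := fun m => by
    rcases hPc m with h | h <;> rw [h]
    exacts [zero_mem _, hwI _]
  have hQn : IsNilpotent Q := Polynomial.isNilpotent_iff.mpr fun m =>
    isNilpotent_of_mem hm (hjm (hQI m))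
  have hu : IsUnit (1 - w.coeff 0) :=
    IsLocalRing.isUnit_one_sub_self_of_mem_nonunits _ (hjm (hwI 0))
  set A := negPart Q with hA
  set B : LaurentSeries S := HahnSeries.C (w.coeff 0) with hB
  set E := HahnSeries.ofPowerSeries ℤ S P with hE
  refine ⟨(1 - A) * (1 - B) * (1 - E), hu.unit, ?_, ?_⟩
  · have h1 : IsDecomp (1 - A) 1 0 := IsNeg.isDecomp
      ⟨1 - Q, by simp [hQ0], by simpa using hQn.neg, by simp [hA]⟩
    have h2 : IsDecomp (1 - B) hu.unit 0 := by
      have := isDecomp_C hu.unit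
      rwa [IsUnit.unit_spec, map_sub, map_one] at this
    have h3 : IsDecomp (1 - E) 1 0 := IsPos.isDecomp
      ⟨1 - P, by simp [hP0], by simp [hE]⟩
    simpa using (h1.mul h2).mul h3
  · have hAI : A ∈ coeffIdeal (𝔪 ^ j) := mem_coeffIdeal.mpr fun n => by
      rcases lt_or_ge 0 n with hn | hn
      · rw [hA, coeff_negPart_pos _ hn]; exact zero_mem _
      · obtain ⟨m, rfl⟩ : ∃ m : ℕ, n = -(m : ℤ) := ⟨(-n).toNat, by omega⟩
        rw [hA, coeff_negPart]; exact hQI m
    have hEI : E ∈ coeffIdeal (𝔪 ^ j) := mem_coeffIdeal.mpr fun n => by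
      rw [hE, coeff_ofPowerSeries]
      split_ifs
      exacts [zero_mem _, hPI _]
    have hBI : B ∈ coeffIdeal (𝔪 ^ j) := mem_coeffIdeal.mpr fun n => by
      rw [hB, HahnSeries.C_apply, HahnSeries.coeff_single]
      split_ifs
      exacts [hwI _, zero_mem _]
    have hsq : ∀ x y : LaurentSeries S, x ∈ coeffIdeal (𝔪 ^ j) → y ∈ coeffIdeal (𝔪 ^ j) →
        x * y ∈ coeffIdeal (𝔪 ^ (j + 1)) := fun x y hx hy => by
      have := mul_mem_coeffIdeal hx hy
      rw [← pow_add] at this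
      exact coeffIdeal_mono (Ideal.pow_le_pow_right (by omega)) this
    have hz' : z = 1 + w := by simp [hw]
    have key : z * ((1 - A) * (1 - B) * (1 - E)) - 1 =
        -(w * A) - w * B - w * E + (A * B + A * E + B * E) +
          (w * (A * B + A * E + B * E) - A * B * E - w * (A * B) * E) := by
      rw [hz']
      linear_combination hsplit
    rw [key]
    refine add_mem (add_mem (sub_mem (sub_mem (neg_mem (hsq _ _ hz hAI)) (hsq _ _ hz hBI))
      (hsq _ _ hz hEI)) (add_mem (add_mem (hsq _ _ hAI hBI) (hsq _ _ hAI hEI)) (hsq _ _ hBI hEI)))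
      (sub_mem (sub_mem ?_ ?_) ?_)
    · exact Ideal.mul_mem_left _ _ (add_mem (add_mem (hsq _ _ hAI hBI) (hsq _ _ hAI hEI))
        (hsq _ _ hBI hEI))
    · exact Ideal.mul_mem_right _ _ (hsq _ _ hAI hBI)
    · exact Ideal.mul_mem_right _ _ (Ideal.mul_mem_left _ _ (hsq _ _ hAI hBI))

/-- Every unit has a decomposition. -/
theorem exists_decomp {z : LaurentSeries S} (hz : IsUnit z) :
    ∃ (c : Sˣ) (n : ℤ), IsDecomp z c n := by
  set g := coeffMap (IsLocalRing.residue S) with hg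
  have hz0 : g z ≠ 0 := (hz.map g).ne_zero
  set n := (g z).order with hn
  have hlead : IsLocalRing.residue S (z.coeff n) ≠ 0 := by
    rw [← coeffMap_coeff]
    exact HahnSeries.coeff_order_eq_zero.not.mpr hz0
  obtain ⟨c, hc⟩ := (IsLocalRing.residue_ne_zero_iff_isUnit _).mp hlead
  -- the residual power series part
  let P : PowerSeries S := PowerSeries.mk fun m => z.coeff (n + m) * ((c⁻¹ : Sˣ) : S)
  have hP : PowerSeries.constantCoeff P = 1 := by
    simp [P, ← PowerSeries.coeff_zero_eq_constantCoeff_apply, ← hc]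
  have hbase : IsDecomp (HahnSeries.single n (c : S) * HahnSeries.ofPowerSeries ℤ S P) c n :=
    ⟨_, 1, ⟨P, hP, rfl⟩, isNeg_one, by rw [mul_one]⟩
  obtain ⟨w, hwd, hzw⟩ := hbase.exists_inv
  have hfirst : z * w - 1 ∈ coeffIdeal (𝔪 ^ 1) := by
    have hd : z - HahnSeries.single n (c : S) * HahnSeries.ofPowerSeries ℤ S P ∈
        coeffIdeal (𝔪 ^ 1) := by
      rw [mem_coeffIdeal, pow_one]
      intro m
      rw [HahnSeries.coeff_sub, HahnSeries.coeff_single_mul, coeff_ofPowerSeries]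
      split_ifs with hmn
      · rw [mul_zero, sub_zero]
        refine (IsLocalRing.residue_eq_zero_iff _).mp ?_
        rw [← coeffMap_coeff]
        exact HahnSeries.coeff_eq_zero_of_lt_order (show m < n by omega)
      · simp only [P, PowerSeries.coeff_mk]
        rw [show n + ((m - n).natAbs : ℤ) = m by omega]
        have : (c : S) * (z.coeff m * ((c⁻¹ : Sˣ) : S)) = z.coeff m := by
          rw [mul_left_comm, Units.mul_inv, mul_one]
        rw [this, sub_self]
        exact zero_mem _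
    have : z * w - 1 = (z - HahnSeries.single n (c : S) *
        HahnSeries.ofPowerSeries ℤ S P) * w := by rw [sub_mul, hzw]
    rw [this]
    exact Ideal.mul_mem_right _ _ hd
  have hiter : ∀ j, 1 ≤ j → ∃ (D : LaurentSeries S) (d : Sˣ) (k : ℤ), IsDecomp D d k ∧
      z * D - 1 ∈ coeffIdeal (𝔪 ^ j) := by
    intro j hj
    induction j, hj using Nat.le_induction with
    | base => exact ⟨w, _, _, hwd, hfirst⟩
    | succ j hj ih =>
      obtain ⟨D, d, k, hD, h⟩ := ih
      obtain ⟨D', d', hD', h'⟩ := exists_decomp_step hm hj h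
      exact ⟨D * D', _, _, hD.mul hD', by rwa [← mul_assoc]⟩
  obtain ⟨N, hN⟩ := hm
  obtain ⟨D, d, k, hD, h⟩ := hiter (N + 1) (by omega)
  have hzero : z * D = 1 := by
    rw [← sub_eq_zero]
    refine HahnSeries.ext (funext fun i => ?_)
    have := mem_coeffIdeal.mp h i
    rw [pow_succ, hN, Ideal.zero_eq_bot, Ideal.bot_mul, Ideal.mem_bot] at this
    simpa using this
  obtain ⟨D', hD', hDD'⟩ := hD.exists_inv
  refine ⟨d⁻¹, -k, ?_⟩
  rwa [show z = D' by linear_combination D' * hzero - z * hDD']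

end Local

end FermatAgent.MazurPrinciple
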