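import Fermat.Agent.MazurPrinciple.Annulus
import Fermat.Agent.MazurPrinciple.EndDecomp
import Fermat.Agent.BadRed.Carayol.Regular
import Mathlib.RingTheory.DiscreteValuationRing.Basic
import Mathlib.RingTheory.PowerSeries.Ideal

/-!
# `Ann ϖ = W[[X, Y]] / (X * Y - ϖ)` over a complete discrete valuation ring

A factorial domain; elements small at both ends are small; the two ends of a unit have the same
constant part.
-/

set_option autoImplicit false
set_option linter.style.haveILetI false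
set_option linter.unusedSectionVars false

noncomputable section

namespace FermatAgent.MazurPrinciple

variable {W : Type*} [CommRing W] (ϖ : W)

/-- The ring of functions on the annulus. -/
abbrev Ann := Bi W ⧸ Ideal.span {annulusRel ϖ}

namespace Ann

/-- The quotient map. -/
abbrev mk : Bi W →+* Ann ϖ := Ideal.Quotient.mk _

/-- The coordinate at one end. -/
def x : Ann ϖ := mk ϖ biX

/-- The coordinate at the other end. -/
def y : Ann ϖ := mk ϖ biY

/-- Constants. -/
def const : W →+* Ann ϖ := (mk ϖ).comp biC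

theorem x_mul_y : x ϖ * y ϖ = const ϖ ϖ := by
  rw [x, y, const, RingHom.comp_apply, ← map_mul, Ideal.Quotient.eq]
  exact Ideal.mem_span_singleton_self _

/-- The end with coordinate `x`. -/
def toX (R : ℕ) : Ann ϖ →+* LaurentSeries (modPow ϖ R) :=
  Ideal.Quotient.lift _ (endX ϖ R) (by
    intro a ha
    obtain ⟨b, rfl⟩ := Ideal.mem_span_singleton.mp ha
    rw [map_mul, endX_annulusRel, zero_mul])

/-- The end with coordinate `y`. -/
def toY (R : ℕ) : Ann ϖ →+* LaurentSeries (modPow ϖ R) :=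
  Ideal.Quotient.lift _ (endY ϖ R) (by
    intro a ha
    obtain ⟨b, rfl⟩ := Ideal.mem_span_singleton.mp ha
    rw [map_mul, endY_annulusRel, zero_mul])

@[simp] theorem toX_mk (R : ℕ) (f : Bi W) : toX ϖ R (mk ϖ f) = endX ϖ R f := rfl

@[simp] theorem toY_mk (R : ℕ) (f : Bi W) : toY ϖ R (mk ϖ f) = endY ϖ R f := rfl

theorem toX_x (R : ℕ) : toX ϖ R (x ϖ) = HahnSeries.single 1 1 := endX_biX ϖ R

theorem toX_y (R : ℕ) : toX ϖ R (y ϖ) = HahnSeries.single (-1) (modPowMk ϖ R ϖ) := endX_biY ϖ R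

theorem toY_y (R : ℕ) : toY ϖ R (y ϖ) = HahnSeries.single 1 1 := by
  rw [y, toY_mk, endY, RingHom.comp_apply, biSwap_biY, endX_biX]

theorem toY_x (R : ℕ) : toY ϖ R (x ϖ) = HahnSeries.single (-1) (modPowMk ϖ R ϖ) := by
  rw [x, toY_mk, endY, RingHom.comp_apply, biSwap_biX, endX_biY]

theorem toX_const (R : ℕ) (c : W) : toX ϖ R (const ϖ c) = HahnSeries.C (modPowMk ϖ R c) :=
  endX_biC ϖ R c

theorem toY_const (R : ℕ) (c : W) : toY ϖ R (const ϖ c) = HahnSeries.C (modPowMk ϖ R c) := by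
  rw [const, RingHom.comp_apply, toY_mk, endY, RingHom.comp_apply, biSwap_biC, endX_biC]

/-- A series in `x` plus a series in `y` with prescribed coefficients. -/
def normalBi (a : ℤ → W) : Bi W :=
  PowerSeries.mk fun j => PowerSeries.mk fun i =>
    if j = 0 then a i else if i = 0 then a (-(j : ℤ)) else 0

section Complete

variable [IsAdicComplete (Ideal.span {ϖ}) W]

theorem mk_eq_zero_iff (f : Bi W) : mk ϖ f = 0 ↔ ∀ n, ncoeff ϖ f n = 0 := by
  rw [Ideal.Quotient.eq_zero_iff_mem, Ideal.mem_span_singleton, dvd_iff_ncoeff_eq_zero]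

theorem ncoeff_sub_const_mul (c : W) (f g : Bi W) (n : ℤ) :
    ncoeff ϖ (f - biC c * g) n = ncoeff ϖ f n - c * ncoeff ϖ g n := by
  refine adicSum_unique ϖ fun m => ?_
  have h1 := adicSum_spec ϖ (fun k => bcoeff (n.toNat + k) ((-n).toNat + k) f) m
  have h2 := (adicSum_spec ϖ (fun k => bcoeff (n.toNat + k) ((-n).toNat + k) g) m).mul_left c
  have e : ∀ {a b d : W}, b = a → d ∣ a → d ∣ b := fun hba h => hba ▸ h
  refine e ?_ (dvd_sub h1 h2)
  rw [ncoeff, ncoeff, Finset.sum_congr rfl (fun k _ => show _ =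
    bcoeff (n.toNat + k) ((-n).toNat + k) f * ϖ ^ k -
      c * (bcoeff (n.toNat + k) ((-n).toNat + k) g * ϖ ^ k) from by
    rw [show bcoeff (n.toNat + k) ((-n).toNat + k) (f - biC c * g) =
      bcoeff (n.toNat + k) ((-n).toNat + k) f - c * bcoeff (n.toNat + k) ((-n).toNat + k) g by
        rw [← bcoeff_biC_mul]; simp [bcoeff]]
    ring), Finset.sum_sub_distrib, ← Finset.mul_sum]
  ring

theorem ncoeff_normalBi (a : ℤ → W) (n : ℤ) : ncoeff ϖ (normalBi a) n = a n := by
  refine adicSum_unique ϖ fun m => ?_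
  have h : ∀ k, bcoeff (n.toNat + k) ((-n).toNat + k) (normalBi a) =
      if k = 0 then a n else 0 := by
    intro k
    simp only [bcoeff, normalBi, PowerSeries.coeff_mk]
    rcases eq_or_ne k 0 with rfl | hk
    · simp only [add_zero, if_true]
      split_ifs with h1 h2
      · congr 1; omega
      · congr 1; omega
      · omega
    · rw [if_neg (by omega), if_neg (by omega), if_neg hk]
  cases m with
  | zero => simp
  | succ m =>
    rw [Finset.sum_range_succ', Finset.sum_eq_zero fun k _ => by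
      rw [h, if_neg (Nat.succ_ne_zero k), zero_mul]]
    rw [zero_add, h, if_pos rfl, pow_zero, mul_one, sub_self]
    exact dvd_zero _

theorem mk_normalBi_ncoeff (f : Bi W) : mk ϖ (normalBi fun n => ncoeff ϖ f n) = mk ϖ f := by
  refine (sub_eq_zero.mp ?_).symm
  rw [← map_sub, mk_eq_zero_iff]
  intro n
  have := ncoeff_sub_const_mul ϖ 1 f (normalBi fun n => ncoeff ϖ f n) n
  rw [map_one, one_mul, one_mul, ncoeff_normalBi] at this
  rw [this, sub_self]

/-- An element small at both ends is small. -/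
theorem exists_eq_const_pow_mul {R : ℕ} {z : Ann ϖ} (hX : toX ϖ R z = 0)
    (hY : toY ϖ R z = 0) : ∃ w, z = const ϖ (ϖ ^ R) * w := by
  obtain ⟨f, rfl⟩ := Ideal.Quotient.mk_surjective z
  have h : ∀ n, ϖ ^ R ∣ ncoeff ϖ f n := fun n => by
    rcases le_total 0 n with hn | hn
    · have := congrArg (fun s => HahnSeries.coeff s n) hX
      simp only [toX_mk, coeff_endX, HahnSeries.coeff_zero, Int.toNat_of_nonpos (show -n ≤ 0 by omega),
        pow_zero, one_mul] at this
      exact (modPowMk_eq_zero_iff ϖ R _).mp this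
    · have := congrArg (fun s => HahnSeries.coeff s (-n)) hY
      simp only [toY_mk, coeff_endY, HahnSeries.coeff_zero, neg_neg, Int.toNat_of_nonpos hn,
        pow_zero, one_mul] at this
      exact (modPowMk_eq_zero_iff ϖ R _).mp this
  choose b hb using h
  refine ⟨mk ϖ (normalBi b), sub_eq_zero.mp ?_⟩
  rw [const, RingHom.comp_apply, ← map_mul, ← map_sub, mk_eq_zero_iff]
  intro n
  rw [ncoeff_sub_const_mul, ncoeff_normalBi, ← hb, sub_self]

end Complete

section DVR

variable [IsDomain W] [IsDiscreteValuationRing W]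

theorem isLocalRing_modPow (hϖ : Irreducible ϖ) {R : ℕ} (hR : R ≠ 0) :
    IsLocalRing (modPow ϖ R) := by
  have : Nontrivial (modPow ϖ R) := Ideal.Quotient.nontrivial_iff.mpr fun h =>
    hϖ.not_isUnit ((isUnit_pow_iff hR).mp (Ideal.span_singleton_eq_top.mp h))
  exact IsLocalRing.of_surjective' (modPowMk ϖ R) Ideal.Quotient.mk_surjective

theorem isNilpotent_maximalIdeal_modPow (hϖ : Irreducible ϖ) {R : ℕ} (hR : R ≠ 0) :
    letI := isLocalRing_modPow ϖ hϖ hR
    IsNilpotent (IsLocalRing.maximalIdeal (modPow ϖ R)) := by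
  letI := isLocalRing_modPow ϖ hϖ hR
  refine ⟨R, ?_⟩
  rw [← IsLocalRing.map_maximalIdeal_of_surjective (modPowMk ϖ R) Ideal.Quotient.mk_surjective,
    hϖ.maximalIdeal_eq, ← Ideal.map_pow, Ideal.span_singleton_pow, Ideal.map_span,
    Set.image_singleton, (modPowMk_eq_zero_iff ϖ R _).mpr dvd_rfl, Ideal.span_singleton_eq_bot.mpr
    rfl, Ideal.zero_eq_bot]

variable (hϖ : Irreducible ϖ) [IsAdicComplete (Ideal.span {ϖ}) W]
include hϖ

theorem eq_zero_of_forall_toX {z : Ann ϖ} (h : ∀ R, toX ϖ R z = 0) : z = 0 := by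
  obtain ⟨f, rfl⟩ := Ideal.Quotient.mk_surjective z
  refine (mk_eq_zero_iff ϖ f).mpr fun n => ?_
  have h0 : ϖ ^ (-n).toNat * ncoeff ϖ f n = 0 := eq_zero_of_forall_pow_dvd ϖ fun R => by
    have := congrArg (fun s => HahnSeries.coeff s n) (h R)
    simp only [toX_mk, coeff_endX, HahnSeries.coeff_zero] at this
    exact (modPowMk_eq_zero_iff ϖ R _).mp this
  exact (mul_eq_zero.mp h0).resolve_left (pow_ne_zero _ hϖ.ne_zero)

omit [IsAdicComplete (Ideal.span {ϖ}) W] in
theorem isPrime_span_pow_one : (Ideal.span {ϖ ^ 1}).IsPrime := by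
  rw [pow_one]
  exact (Ideal.span_singleton_prime hϖ.ne_zero).mpr hϖ.prime

/-- The leading term of a nonzero element at the `x`-end. -/
theorem exists_leading {z : Ann ϖ} (hz : z ≠ 0) : ∃ m : ℕ, ∀ R, 1 ≤ R →
    ∃ F : LaurentSeries (modPow ϖ R), toX ϖ R z = HahnSeries.C (modPowMk ϖ R (ϖ ^ m)) * F ∧
      ∃ (n : ℤ) (w : W), F.coeff n = modPowMk ϖ R w ∧ ¬ ϖ ∣ w := by
  classical
  obtain ⟨f, rfl⟩ := Ideal.Quotient.mk_surjective z
  set e : ℤ → W := fun n => ϖ ^ (-n).toNat * ncoeff ϖ f n with he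
  have hex : ∃ m, ∃ n, ¬ ϖ ^ m ∣ e n := by
    by_contra hcon
    push Not at hcon
    exact hz (eq_zero_of_forall_toX ϖ hϖ fun R => HahnSeries.ext (funext fun n => by
      rw [toX_mk, coeff_endX, HahnSeries.coeff_zero]
      exact (modPowMk_eq_zero_iff ϖ R _).mpr (hcon R n)))
  obtain ⟨n₀, hn₀⟩ := Nat.find_spec hex
  have hpos : Nat.find hex ≠ 0 := fun h0 => hn₀ (by simp [h0])
  set m := Nat.find hex - 1 with hm
  have hdiv : ∀ n, ϖ ^ m ∣ e n := fun n => by
    have := Nat.find_min hex (show m < Nat.find hex by omega)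
    push Not at this
    exact this n
  choose a ha using hdiv
  refine ⟨m, fun R hR => ?_⟩
  have hsupp : ∀ n : ℤ, n < -((m + R : ℕ) : ℤ) → modPowMk ϖ R (a n) = 0 := fun n hn => by
    rw [modPowMk_eq_zero_iff]
    have h1 : ϖ ^ (m + R) ∣ ϖ ^ m * a n := by
      rw [← ha n]
      exact (pow_dvd_pow ϖ (show m + R ≤ (-n).toNat by omega)).mul_right _
    rw [pow_add] at h1
    exact (mul_dvd_mul_iff_left (pow_ne_zero _ hϖ.ne_zero)).mp h1
  refine ⟨HahnSeries.ofSuppBddBelow (fun n => modPowMk ϖ R (a n))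
    ⟨-((m + R : ℕ) : ℤ), fun n hn => le_of_not_gt fun hlt => hn (hsupp n hlt)⟩, ?_, n₀, a n₀,
    rfl, ?_⟩
  · refine HahnSeries.ext (funext fun n => ?_)
    rw [toX_mk, coeff_endX, HahnSeries.C_apply, HahnSeries.coeff_single_mul, sub_zero]
    show modPowMk ϖ R (e n) = modPowMk ϖ R (ϖ ^ m) * modPowMk ϖ R (a n)
    rw [ha n, map_mul]
  · intro hdvd
    refine hn₀ ?_
    rw [show Nat.find hex = m + 1 by omega, pow_succ, ha]
    exact mul_dvd_mul_left _ hdvd

/-- The annulus ring is a domain. -/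
theorem isDomain : IsDomain (Ann ϖ) := by
  have hnt : Nontrivial (Ann ϖ) := ⟨⟨0, 1, fun h => by
    haveI := isLocalRing_modPow ϖ hϖ one_ne_zero
    have := congrArg (fun s => (toX ϖ 1 s).coeff 0) h
    simp at this⟩⟩
  have : NoZeroDivisors (Ann ϖ) := ⟨fun {a b} hab => by
    by_contra hcon
    push Not at hcon
    obtain ⟨m, hm⟩ := exists_leading ϖ hϖ hcon.1
    obtain ⟨m', hm'⟩ := exists_leading ϖ hϖ hcon.2
    obtain ⟨F, hF, n, w, hwn, hw⟩ := hm (m + m' + 1) (by omega)
    obtain ⟨G, hG, n', w', hwn', hw'⟩ := hm' (m + m' + 1) (by omega)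
    have h0 := congrArg (toX ϖ (m + m' + 1)) hab
    rw [map_mul, hF, hG, map_zero, mul_mul_mul_comm, ← map_mul, ← map_mul, ← pow_add] at h0
    let φ : modPow ϖ (m + m' + 1) →+* modPow ϖ 1 := Ideal.Quotient.factor
      (Ideal.span_singleton_le_span_singleton.mpr (pow_dvd_pow ϖ (by omega)))
    haveI := isPrime_span_pow_one ϖ hϖ
    have hFG : ModularCurve.coeffMap φ (F * G) = 0 := HahnSeries.ext (funext fun i => by
      obtain ⟨r, hr⟩ := Ideal.Quotient.mk_surjective ((F * G).coeff i)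
      have hi := congrArg (fun s => HahnSeries.coeff s i) h0
      simp only [HahnSeries.C_apply, HahnSeries.coeff_single_mul, sub_zero,
        HahnSeries.coeff_zero] at hi
      rw [← hr, ← map_mul, Ideal.Quotient.eq_zero_iff_mem, Ideal.mem_span_singleton, pow_succ,
        mul_dvd_mul_iff_left (pow_ne_zero _ hϖ.ne_zero)] at hi
      rw [ModularCurve.coeffMap_coeff, HahnSeries.coeff_zero, ← hr]
      show modPowMk ϖ 1 r = 0
      rwa [modPowMk_eq_zero_iff, pow_one])
    rw [map_mul, mul_eq_zero] at hFG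
    have key : ∀ (H : LaurentSeries (modPow ϖ (m + m' + 1))) (i : ℤ) (v : W),
        H.coeff i = modPowMk ϖ _ v → ¬ ϖ ∣ v → ModularCurve.coeffMap φ H ≠ 0 := by
      intro H i v hv hndvd hH
      have := congrArg (fun s => HahnSeries.coeff s i) hH
      simp only [ModularCurve.coeffMap_coeff, hv, HahnSeries.coeff_zero] at this
      have h2 : modPowMk ϖ 1 v = 0 := this
      rw [modPowMk_eq_zero_iff, pow_one] at h2
      exact hndvd h2
    rcases hFG with h | h
    exacts [key F n w hwn hw h, key G n' w' hwn' hw' h]⟩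
  exact NoZeroDivisors.to_isDomain _

theorem isLocalRing : IsLocalRing (Ann ϖ) := by
  haveI := isDomain ϖ hϖ
  exact IsLocalRing.of_surjective' (mk ϖ) Ideal.Quotient.mk_surjective

theorem maximalIdeal_eq :
    letI := isLocalRing ϖ hϖ
    IsLocalRing.maximalIdeal (Ann ϖ) = Ideal.span {x ϖ, y ϖ} := by
  letI := isLocalRing ϖ hϖ
  refine le_antisymm (fun z hz => ?_) ?_
  · obtain ⟨f, rfl⟩ := Ideal.Quotient.mk_surjective z
    have ha : ¬ IsUnit (PowerSeries.constantCoeff (PowerSeries.constantCoeff f)) := fun h =>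
      (IsLocalRing.mem_maximalIdeal _).mp hz
        (((PowerSeries.isUnit_iff_constantCoeff.mpr
          (PowerSeries.isUnit_iff_constantCoeff.mpr h))).map (mk ϖ))
    obtain ⟨b, hb⟩ : ϖ ∣ PowerSeries.constantCoeff (PowerSeries.constantCoeff f) := by
      rw [← Ideal.mem_span_singleton, ← hϖ.maximalIdeal_eq]
      exact ha
    obtain ⟨g, hg⟩ := PowerSeries.X_dvd_iff.mpr
      (show PowerSeries.constantCoeff (f - PowerSeries.C (PowerSeries.constantCoeff f)) = 0 by simp)
    obtain ⟨g', hg'⟩ := PowerSeries.X_dvd_iff.mpr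
      (show PowerSeries.constantCoeff (PowerSeries.constantCoeff f - PowerSeries.C
        (PowerSeries.constantCoeff (PowerSeries.constantCoeff f))) = 0 by simp)
    have hf : f = biY * g + biX * PowerSeries.C g' + biC ϖ * biC b := by
      rw [← map_mul, ← hb, biX, biC, RingHom.comp_apply, biY, ← map_mul, ← hg, ← hg', map_sub]
      ring
    rw [hf, map_add, map_add, map_mul, map_mul, map_mul]
    rw [show mk ϖ (biC ϖ) = x ϖ * y ϖ from (x_mul_y ϖ).symm]
    exact Ideal.mem_span_pair.mpr ⟨mk ϖ (PowerSeries.C g') + y ϖ * mk ϖ (biC b), mk ϖ g, by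
      rw [x, y]; ring⟩
  · rw [Ideal.span_le]
    haveI := isLocalRing_modPow ϖ hϖ one_ne_zero
    rintro z (rfl | rfl) hu <;>
    · have h1 := hu.map (toX ϖ 1)
      have h2 := hu.map (toY ϖ 1)
      first
      | rw [toY_x, (modPowMk_eq_zero_iff ϖ 1 ϖ).mpr (by rw [pow_one]), map_zero] at h2
        exact not_isUnit_zero h2
      | rw [toX_y, (modPowMk_eq_zero_iff ϖ 1 ϖ).mpr (by rw [pow_one]), map_zero] at h1
        exact not_isUnit_zero h1

/-- Reduction to the `y`-axis of the special fibre. -/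
def resY : Ann ϖ →+* PowerSeries (IsLocalRing.ResidueField W) :=
  Ideal.Quotient.lift _ (PowerSeries.map ((IsLocalRing.residue W).comp PowerSeries.constantCoeff))
    (by
      intro a ha
      obtain ⟨b, rfl⟩ := Ideal.mem_span_singleton.mp ha
      have h0 : IsLocalRing.residue W ϖ = 0 := (IsLocalRing.residue_eq_zero_iff ϖ).mpr
        (hϖ.maximalIdeal_eq ▸ Ideal.mem_span_singleton_self ϖ)
      rw [map_mul, annulusRel, map_sub, map_mul, biX, biC, RingHom.comp_apply, PowerSeries.map_C,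
        PowerSeries.map_C]
      simp [h0])

theorem resY_mk (f : Bi W) : resY ϖ hϖ (mk ϖ f) =
    PowerSeries.map ((IsLocalRing.residue W).comp PowerSeries.constantCoeff) f := rfl

/-- The annulus ring is factorial. -/
theorem uniqueFactorizationMonoid :
    letI := isDomain ϖ hϖ
    UniqueFactorizationMonoid (Ann ϖ) := by
  letI := isDomain ϖ hϖ
  letI := isLocalRing ϖ hϖ
  refine BadRed.Carayol.uniqueFactorizationMonoid_of_maximalIdeal_eq_span_pair
    (maximalIdeal_eq ϖ hϖ) ⟨RingHom.ker (resY ϖ hϖ), RingHom.ker_isPrime _, ?_, ?_⟩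
  · intro h
    have hx : x ϖ ∈ RingHom.ker (resY ϖ hϖ) := by
      rw [RingHom.mem_ker]
      rw [x, resY_mk, biX, PowerSeries.map_C]
      simp
    rw [h, Ideal.mem_bot] at hx
    haveI := isLocalRing_modPow ϖ hϖ one_ne_zero
    have := congrArg (fun s => (toX ϖ 1 s).coeff 1) hx
    simp [toX_x] at this
  · intro h
    have hy : y ϖ ∈ IsLocalRing.maximalIdeal (Ann ϖ) := by
      rw [maximalIdeal_eq ϖ hϖ]
      exact Ideal.subset_span (by simp)
    rw [← h, RingHom.mem_ker] at hy
    rw [y, resY_mk, biY, PowerSeries.map_X] at hy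
    exact PowerSeries.X_ne_zero hy

end DVR

end Ann

end FermatAgent.MazurPrinciple
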