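import Fermat.Agent.MazurPrinciple.AnnulusRing

/-!
# Units, monomials and roots in the annulus ring

A unit has the same constant part at both ends; an element whose multiplicities at the primes
away from `ϖ` are divisible by `n` is a unit times a monomial times an `n`-th power.
-/

set_option autoImplicit false
set_option linter.style.haveILetI false
set_option linter.unusedSectionVars false

noncomputable section

namespace FermatAgent.MazurPrinciple

namespace Ann

variable {W : Type*} [CommRing W] (ϖ : W)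

/-- A series in `x`. -/
def serX : PowerSeries W →+* Ann ϖ := (mk ϖ).comp PowerSeries.C

/-- A series in `y`. -/
def serY : PowerSeries W →+* Ann ϖ := (mk ϖ).comp (PowerSeries.map PowerSeries.C)

theorem biSwap_C (P : PowerSeries W) :
    biSwap (PowerSeries.C P) = PowerSeries.map PowerSeries.C P := by
  refine bi_ext fun i j => ?_
  rw [bcoeff_biSwap]
  simp only [bcoeff, PowerSeries.coeff_map, PowerSeries.coeff_C]
  split_ifs <;> simp_all

theorem toY_serY (R : ℕ) (P : PowerSeries W) : toY ϖ R (serY ϖ P) = toX ϖ R (serX ϖ P) := by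
  rw [serX, serY, RingHom.comp_apply, RingHom.comp_apply, toY_mk, toX_mk, endY,
    RingHom.comp_apply, ← biSwap_C, biSwap_biSwap]

theorem toY_serX (R : ℕ) (P : PowerSeries W) : toY ϖ R (serX ϖ P) = toX ϖ R (serY ϖ P) := by
  rw [serX, serY, RingHom.comp_apply, RingHom.comp_apply, toY_mk, toX_mk, endY,
    RingHom.comp_apply, biSwap_C]

theorem toX_serX (R : ℕ) (P : PowerSeries W) :
    toX ϖ R (serX ϖ P) = HahnSeries.ofPowerSeries ℤ _ (PowerSeries.map (modPowMk ϖ R) P) := by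
  simp [serX, endX, innerHom]

theorem toX_serY (R : ℕ) (P : PowerSeries W) :
    toX ϖ R (serY ϖ P) = negPart (∑ j ∈ Finset.range R,
      Polynomial.monomial j (modPowMk ϖ R (PowerSeries.coeff j P * ϖ ^ j))) := by
  rw [serY, RingHom.comp_apply, toX_mk, endX, evalNil_apply, map_sum]
  refine Finset.sum_congr rfl fun j _ => ?_
  rw [negPart_monomial, HahnSeries.single_pow, PowerSeries.coeff_map, innerHom,
    RingHom.comp_apply, PowerSeries.map_C, HahnSeries.ofPowerSeries_C, HahnSeries.C_apply,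
    HahnSeries.single_mul_single, zero_add, smul_neg, nsmul_eq_mul, mul_one, ← map_pow, ← map_mul]

section DVR

variable [IsDomain W] [IsDiscreteValuationRing W] (hϖ : Irreducible ϖ)
include hϖ

theorem isPos_toX_serX (R : ℕ) {P : PowerSeries W} (hP : PowerSeries.constantCoeff P = 1) :
    IsPos (toX ϖ R (serX ϖ P)) := by
  rw [toX_serX]
  refine ⟨_, ?_, rfl⟩
  rw [← PowerSeries.coeff_zero_eq_constantCoeff_apply, PowerSeries.coeff_map,
    PowerSeries.coeff_zero_eq_constantCoeff_apply, hP, map_one]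

theorem isNeg_toX_serY {R : ℕ} (hR : R ≠ 0) {P : PowerSeries W}
    (hP : PowerSeries.constantCoeff P = 1) : IsNeg (toX ϖ R (serY ϖ P)) := by
  rw [toX_serY]
  set Q := ∑ j ∈ Finset.range R,
    Polynomial.monomial j (modPowMk ϖ R (PowerSeries.coeff j P * ϖ ^ j)) with hQ
  have hc : ∀ j, Q.coeff j =
      if j < R then modPowMk ϖ R (PowerSeries.coeff j P * ϖ ^ j) else 0 := fun j => by
    simp [hQ, Polynomial.finsetSum_coeff, Polynomial.coeff_monomial]
  have h0 : Q.coeff 0 = 1 := by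
    rw [hc, if_pos (Nat.pos_of_ne_zero hR), pow_zero, mul_one,
      PowerSeries.coeff_zero_eq_constantCoeff_apply, hP, map_one]
  refine ⟨Q, h0, Polynomial.isNilpotent_iff.mpr fun j => ?_, rfl⟩
  rcases eq_or_ne j 0 with rfl | hj
  · rw [Polynomial.coeff_sub, h0, Polynomial.coeff_one_zero, sub_self]
    exact IsNilpotent.zero
  · rw [Polynomial.coeff_sub, Polynomial.coeff_one, if_neg hj, sub_zero, hc]
    split_ifs with h
    · refine ⟨R, ?_⟩
      rw [← map_pow, modPowMk_eq_zero_iff, mul_pow, ← pow_mul]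
      exact (pow_dvd_pow ϖ (Nat.le_mul_of_pos_left R (Nat.pos_of_ne_zero hj))).mul_left _
    · exact IsNilpotent.zero

variable [IsAdicComplete (Ideal.span {ϖ}) W]

/-- Every element is a constant plus a series in `x` plus a series in `y`. -/
theorem exists_split (z : Ann ϖ) : ∃ (a : W) (A B : PowerSeries W),
    PowerSeries.constantCoeff A = 0 ∧ PowerSeries.constantCoeff B = 0 ∧
      z = const ϖ a + serX ϖ A + serY ϖ B := by
  obtain ⟨f, rfl⟩ := Ideal.Quotient.mk_surjective z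
  set c := fun n => ncoeff ϖ f n with hc
  refine ⟨c 0, PowerSeries.mk fun i => if i = 0 then 0 else c i,
    PowerSeries.mk fun j => if j = 0 then 0 else c (-(j : ℤ)),
    by simp [← PowerSeries.coeff_zero_eq_constantCoeff_apply],
    by simp [← PowerSeries.coeff_zero_eq_constantCoeff_apply], ?_⟩
  rw [← mk_normalBi_ncoeff ϖ f, const, serX, serY, RingHom.comp_apply, RingHom.comp_apply,
    RingHom.comp_apply, ← map_add, ← map_add]
  congr 1
  refine bi_ext fun i j => ?_
  simp only [bcoeff, normalBi, PowerSeries.coeff_mk, map_add, biC, RingHom.comp_apply,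
    PowerSeries.coeff_map, PowerSeries.coeff_C]
  rcases eq_or_ne j 0 with rfl | hj <;> rcases eq_or_ne i 0 with rfl | hi <;>
    simp_all [PowerSeries.coeff_C]

theorem const_dvd_serX_mul_serY {A B : PowerSeries W} (hA : PowerSeries.constantCoeff A = 0)
    (hB : PowerSeries.constantCoeff B = 0) : const ϖ ϖ ∣ serX ϖ A * serY ϖ B := by
  obtain ⟨A', rfl⟩ := PowerSeries.X_dvd_iff.mpr hA
  obtain ⟨B', rfl⟩ := PowerSeries.X_dvd_iff.mpr hB
  refine ⟨serX ϖ A' * serY ϖ B', ?_⟩
  have hx : serX ϖ PowerSeries.X = x ϖ := rfl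
  have hy : serY ϖ PowerSeries.X = y ϖ := by simp [serY, y, biY]
  rw [map_mul, map_mul, hx, hy, ← x_mul_y]
  ring

theorem mem_maximalIdeal_of_dvd {a : W} (ha : ϖ ∣ a) {A B : PowerSeries W}
    (hA : PowerSeries.constantCoeff A = 0) (hB : PowerSeries.constantCoeff B = 0) :
    ¬ IsUnit (const ϖ a + serX ϖ A + serY ϖ B) := by
  letI := isLocalRing ϖ hϖ
  rw [← mem_nonunits_iff, ← IsLocalRing.mem_maximalIdeal, maximalIdeal_eq ϖ hϖ]
  obtain ⟨a', rfl⟩ := ha
  obtain ⟨A', rfl⟩ := PowerSeries.X_dvd_iff.mpr hA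
  obtain ⟨B', rfl⟩ := PowerSeries.X_dvd_iff.mpr hB
  have hx : serX ϖ PowerSeries.X = x ϖ := rfl
  have hy : serY ϖ PowerSeries.X = y ϖ := by simp [serY, y, biY]
  rw [map_mul, ← x_mul_y, map_mul, hx, map_mul, hy]
  exact Ideal.mem_span_pair.mpr ⟨y ϖ * const ϖ a' + serX ϖ A', serY ϖ B', by ring⟩

/-- Units are, up to any precision, `c * (1 + x α(x)) * (1 + y β(y))`. -/
theorem exists_approx {z : Ann ϖ} (hz : IsUnit z) (j : ℕ) (hj : 1 ≤ j) :
    ∃ (c : Wˣ) (P Q : PowerSeries W), PowerSeries.constantCoeff P = 1 ∧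
      PowerSeries.constantCoeff Q = 1 ∧
        const ϖ (ϖ ^ j) ∣ z - const ϖ (c : W) * serX ϖ P * serY ϖ Q := by
  induction j, hj using Nat.le_induction with
  | base =>
    obtain ⟨a, A, B, hA, hB, rfl⟩ := exists_split ϖ hϖ z
    have ha : IsUnit a := by
      by_contra ha
      have : ϖ ∣ a := by
        rw [← Ideal.mem_span_singleton, ← hϖ.maximalIdeal_eq]
        exact ha
      exact mem_maximalIdeal_of_dvd ϖ hϖ this hA hB hz
    obtain ⟨c, rfl⟩ := ha
    refine ⟨c, 1 + PowerSeries.C ((c⁻¹ : Wˣ) : W) * A, 1 + PowerSeries.C ((c⁻¹ : Wˣ) : W) * B,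
      by simp [hA], by simp [hB], ?_⟩
    have hCX : ∀ b : W, serX ϖ (PowerSeries.C b) = const ϖ b := fun b => rfl
    have hCY : ∀ b : W, serY ϖ (PowerSeries.C b) = const ϖ b := fun b => by
      simp [serY, const, biC]
    rw [pow_one, map_add, map_add, map_one, map_one, map_mul, map_mul, hCX, hCY]
    have e1 : const ϖ (c : W) * const ϖ ((c⁻¹ : Wˣ) : W) = 1 := by
      rw [← map_mul, Units.mul_inv, map_one]
    have key : const ϖ (c : W) + serX ϖ A + serY ϖ B -
        const ϖ (c : W) * (1 + const ϖ ((c⁻¹ : Wˣ) : W) * serX ϖ A) *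
          (1 + const ϖ ((c⁻¹ : Wˣ) : W) * serY ϖ B) =
        -(const ϖ ((c⁻¹ : Wˣ) : W) * (serX ϖ A * serY ϖ B)) := by
      linear_combination (-(serX ϖ A) - serY ϖ B -
        const ϖ ((c⁻¹ : Wˣ) : W) * (serX ϖ A * serY ϖ B)) * e1
    rw [key]
    exact ((const_dvd_serX_mul_serY ϖ hϖ hA hB).mul_left _).neg_right
  | succ j hj ih =>
    obtain ⟨c, P, Q, hP, hQ, w, hw⟩ := ih
    have hD : IsUnit (const ϖ (c : W) * serX ϖ P * serY ϖ Q) :=
      ((c.isUnit.map _).mul ((PowerSeries.isUnit_iff_constantCoeff.mpr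
        (hP ▸ isUnit_one)).map _)).mul
          ((PowerSeries.isUnit_iff_constantCoeff.mpr (hQ ▸ isUnit_one)).map _)
    obtain ⟨D', hD'⟩ := isUnit_iff_exists_inv.mp hD
    obtain ⟨a, A, B, hA, hB, hw'⟩ := exists_split ϖ hϖ (w * D')
    have hu : IsUnit (1 + ϖ ^ j * a) := by
      rw [show 1 + ϖ ^ j * a = 1 - -(ϖ ^ j * a) by ring]
      refine IsLocalRing.isUnit_one_sub_self_of_mem_nonunits _ ?_
      rw [← IsLocalRing.mem_maximalIdeal, neg_mem_iff, hϖ.maximalIdeal_eq,
        Ideal.mem_span_singleton]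
      exact (dvd_pow_self ϖ (by omega)).mul_right _
    refine ⟨c * hu.unit, P * (1 + PowerSeries.C (ϖ ^ j) * A), Q * (1 + PowerSeries.C (ϖ ^ j) * B),
      by simp [hP, hA], by simp [hQ, hB], ?_⟩
    have hCX : serX ϖ (PowerSeries.C (ϖ ^ j)) = const ϖ (ϖ ^ j) := rfl
    have hCY : serY ϖ (PowerSeries.C (ϖ ^ j)) = const ϖ (ϖ ^ j) := by simp [serY, const, biC]
    simp only [Units.val_mul, IsUnit.unit_spec, map_mul, map_add, map_one, hCX, hCY]
    set t := const ϖ (ϖ ^ j) with ht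
    set D := const ϖ (c : W) * serX ϖ P * serY ϖ Q
    have key : z - const ϖ (c : W) * (1 + t * const ϖ a) * (serX ϖ P * (1 + t * serX ϖ A)) *
        (serY ϖ Q * (1 + t * serY ϖ B)) =
        -(D * (t * t * (const ϖ a * serX ϖ A + const ϖ a * serY ϖ B + serX ϖ A * serY ϖ B +
          t * (const ϖ a * serX ϖ A * serY ϖ B)))) := by
      linear_combination hw + (t * D) * hw' - (t * w) * hD'
    rw [key]
    refine (Dvd.dvd.mul_left (Dvd.dvd.mul_right ?_ _) _).neg_right
    rw [ht, ← map_mul, ← pow_add]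
    exact map_dvd _ (pow_dvd_pow ϖ (by omega))

/-- A unit has the same constant part at both ends. -/
theorem exists_isDecomp_unit {z : Ann ϖ} (hz : IsUnit z) {R : ℕ} (hR : R ≠ 0) :
    ∃ c : Wˣ, IsDecomp (toX ϖ R z) (Units.map (modPowMk ϖ R).toMonoidHom c) 0 ∧
      IsDecomp (toY ϖ R z) (Units.map (modPowMk ϖ R).toMonoidHom c) 0 := by
  obtain ⟨c, P, Q, hP, hQ, w, hw⟩ := exists_approx ϖ hϖ hz R (Nat.pos_of_ne_zero hR)
  have hz' : z = const ϖ (c : W) * serX ϖ P * serY ϖ Q + const ϖ (ϖ ^ R) * w := by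
    linear_combination hw
  have h0 : modPowMk ϖ R (ϖ ^ R) = 0 := (modPowMk_eq_zero_iff ϖ R _).mpr dvd_rfl
  refine ⟨c, ⟨_, _, isPos_toX_serX ϖ hϖ R hP, isNeg_toX_serY ϖ hϖ hR hQ, ?_⟩,
    ⟨toY ϖ R (serY ϖ Q), toY ϖ R (serX ϖ P), toY_serY ϖ R Q ▸ isPos_toX_serX ϖ hϖ R hQ,
      toY_serX ϖ R P ▸ isNeg_toX_serY ϖ hϖ hR hP, ?_⟩⟩
  · rw [hz', map_add, map_mul, map_mul, map_mul, toX_const, toX_const, h0, map_zero, zero_mul,
      add_zero, HahnSeries.C_apply]
    rfl
  · rw [hz', map_add, map_mul, map_mul, map_mul, toY_const, toY_const, h0, map_zero, zero_mul,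
      add_zero, HahnSeries.C_apply, mul_right_comm]
    rfl

theorem prime_x : letI := isDomain ϖ hϖ; Prime (x ϖ) := by
  letI := isDomain ϖ hϖ
  letI := isLocalRing ϖ hϖ
  refine BadRed.Carayol.prime_left_of_maximalIdeal_eq_span_pair (maximalIdeal_eq ϖ hϖ)
    ⟨RingHom.ker (resY ϖ hϖ), RingHom.ker_isPrime _, ?_, ?_⟩
  · intro h
    have hx : x ϖ ∈ RingHom.ker (resY ϖ hϖ) := by
      rw [RingHom.mem_ker, x, resY_mk, biX, PowerSeries.map_C]
      simp
    rw [h, Ideal.mem_bot] at hx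
    haveI := isLocalRing_modPow ϖ hϖ one_ne_zero
    have := congrArg (fun s => (toX ϖ 1 s).coeff 1) hx
    simp [toX_x] at this
  · intro h
    have hy : y ϖ ∈ IsLocalRing.maximalIdeal (Ann ϖ) := by
      rw [maximalIdeal_eq ϖ hϖ]
      exact Ideal.subset_span (by simp)
    rw [← h, RingHom.mem_ker, y, resY_mk, biY, PowerSeries.map_X] at hy
    exact PowerSeries.X_ne_zero hy

theorem prime_y : letI := isDomain ϖ hϖ; Prime (y ϖ) := by
  letI := isDomain ϖ hϖ
  letI := isLocalRing ϖ hϖ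
  have hm : IsLocalRing.maximalIdeal (Ann ϖ) = Ideal.span {y ϖ, x ϖ} := by
    rw [maximalIdeal_eq ϖ hϖ, Set.pair_comm]
  refine BadRed.Carayol.prime_left_of_maximalIdeal_eq_span_pair hm
    ⟨RingHom.ker (resY ϖ hϖ), RingHom.ker_isPrime _, ?_, ?_⟩
  · intro h
    have hx : x ϖ ∈ RingHom.ker (resY ϖ hϖ) := by
      rw [RingHom.mem_ker, x, resY_mk, biX, PowerSeries.map_C]
      simp
    rw [h, Ideal.mem_bot] at hx
    exact (prime_x ϖ hϖ).ne_zero hx
  · intro h
    have hy : y ϖ ∈ IsLocalRing.maximalIdeal (Ann ϖ) := by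
      rw [maximalIdeal_eq ϖ hϖ]
      exact Ideal.subset_span (by simp)
    rw [← h, RingHom.mem_ker, y, resY_mk, biY, PowerSeries.map_X] at hy
    exact PowerSeries.X_ne_zero hy

/-- Divisibility of the multiplicities away from `ϖ` gives a monomial times an `n`-th power. -/
theorem exists_monomial_mul_pow {z : Ann ϖ} (hz : z ≠ 0) (n : ℕ)
    (hdiv : ∀ π : Ann ϖ, Prime π → ¬ π ∣ const ϖ ϖ → n ∣ multiplicity π z) :
    ∃ (ε g : Ann ϖ) (a b : ℕ), IsUnit ε ∧ z = ε * x ϖ ^ a * y ϖ ^ b * g ^ n := by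
  letI := isDomain ϖ hϖ
  letI := isLocalRing ϖ hϖ
  letI := uniqueFactorizationMonoid ϖ hϖ
  have hx := prime_x ϖ hϖ
  have hy := prime_y ϖ hϖ
  obtain ⟨z₁, hz₁, hxz⟩ :=
    (FiniteMultiplicity.of_prime_left hx hz).exists_eq_pow_mul_and_not_dvd
  set a := multiplicity (x ϖ) z
  have hz₁0 : z₁ ≠ 0 := fun h => hz (by rw [hz₁, h, mul_zero])
  obtain ⟨z₂, hz₂, hyz⟩ :=
    (FiniteMultiplicity.of_prime_left hy hz₁0).exists_eq_pow_mul_and_not_dvd
  set b := multiplicity (y ϖ) z₁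
  have hz₂0 : z₂ ≠ 0 := fun h => hz₁0 (by rw [hz₂, h, mul_zero])
  have hxz₂ : ¬ x ϖ ∣ z₂ := fun h => hxz (hz₂ ▸ h.mul_left _)
  obtain ⟨ε, g, hg⟩ := BadRed.Carayol.exists_unit_mul_pow_of_forall_multiplicity hz₂0 n
    fun π hπ => by
      by_cases hπϖ : π ∣ const ϖ ϖ
      · have h0 : ¬ π ∣ z₂ := by
          rw [← x_mul_y] at hπϖ
          rcases hπ.dvd_or_dvd hπϖ with h | h
          · exact fun h' => hxz₂ ((hπ.associated_of_dvd hx h).symm.dvd.trans h')
          · exact fun h' => hyz ((hπ.associated_of_dvd hy h).symm.dvd.trans h')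
        rw [multiplicity_eq_zero.mpr h0]
        exact dvd_zero n
      · have hmul := hdiv π hπ hπϖ
        rw [hz₁, hz₂, ← mul_assoc, multiplicity_mul hπ (FiniteMultiplicity.of_prime_left hπ (by
          refine mul_ne_zero (mul_ne_zero (pow_ne_zero _ hx.ne_zero) (pow_ne_zero _ hy.ne_zero))
            hz₂0)), multiplicity_eq_zero.mpr (show ¬ π ∣ x ϖ ^ a * y ϖ ^ b from fun h => hπϖ ?_),
          zero_add] at hmul
        · exact hmul
        · rw [← x_mul_y]
          rcases hπ.dvd_or_dvd h with h' | h'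
          · exact (hπ.dvd_of_dvd_pow h').mul_right _
          · exact (hπ.dvd_of_dvd_pow h').mul_left _
  exact ⟨ε, g, a, b, ε.isUnit, by rw [hz₁, hz₂, hg]; ring⟩

end DVR

end Ann

end FermatAgent.MazurPrinciple
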