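import Mathlib.RingTheory.Nullstellensatz
import Mathlib.RingTheory.Valuation.ValuationSubring
import Mathlib.LinearAlgebra.Basis.VectorSpace

/-!
# Exact solutions from approximate solutions

A system of polynomial equations over an algebraically closed valued field with integral
approximate solutions of arbitrary precision has a solution (Hilbert's Nullstellensatz); in
particular roots in a finite-dimensional space of functions.
-/

set_option autoImplicit false

noncomputable section

namespace FermatAgent.MazurPrinciple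

variable {K : Type*} [Field K] [IsAlgClosed K] (A : ValuationSubring K)

omit [IsAlgClosed K] in
theorem exists_smul_mem (s : Finset K) : ∃ δ : K, δ ≠ 0 ∧ δ ∈ A ∧ ∀ c ∈ s, δ * c ∈ A := by
  classical
  induction s using Finset.induction with
  | empty => exact ⟨1, one_ne_zero, A.one_mem, by simp⟩
  | @insert c s _ ih =>
    obtain ⟨δ, hδ, hδA, hs⟩ := ih
    rcases A.mem_or_inv_mem c with hc | hc
    · refine ⟨δ, hδ, hδA, fun d hd => ?_⟩
      rcases Finset.mem_insert.mp hd with rfl | h
      exacts [A.mul_mem _ _ hδA hc, hs d h]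
    · rcases eq_or_ne c 0 with rfl | hc0
      · refine ⟨δ, hδ, hδA, fun d hd => ?_⟩
        rcases Finset.mem_insert.mp hd with rfl | h
        exacts [by simp, hs d h]
      · refine ⟨δ * c⁻¹, mul_ne_zero hδ (inv_ne_zero hc0), A.mul_mem _ _ hδA hc, fun d hd => ?_⟩
        rcases Finset.mem_insert.mp hd with rfl | h
        · rw [mul_assoc, inv_mul_cancel₀ hc0, mul_one]
          exact hδA
        · rw [mul_right_comm]
          exact A.mul_mem _ _ (hs d h) hc

omit [IsAlgClosed K] in
theorem eval_mem {σ : Type*} (P : MvPolynomial σ K) (z : σ → K) (hz : ∀ i, z i ∈ A)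
    (hP : ∀ m, P.coeff m ∈ A) : MvPolynomial.eval z P ∈ A := by
  rw [MvPolynomial.eval_eq]
  refine A.toSubring.sum_mem fun m _ => A.mul_mem _ _ (hP m) ?_
  exact A.toSubring.prod_mem fun i _ => A.toSubring.pow_mem (hz i) _

/-- Integral approximate zeros of every precision give a zero. -/
theorem exists_zero_of_approx {σ ι : Type*} [Finite σ] [Fintype ι] (Q : ι → MvPolynomial σ K)
    (c : ℕ → K) (hc : ∀ δ : K, δ ≠ 0 → ∃ R, δ / c R ∉ A)
    (happ : ∀ R, ∃ z : σ → K, (∀ s, z s ∈ A) ∧ ∀ i, MvPolynomial.eval z (Q i) / c R ∈ A) :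
    ∃ z : σ → K, ∀ i, MvPolynomial.eval z (Q i) = 0 := by
  classical
  by_contra hno
  push Not at hno
  have hempty : MvPolynomial.zeroLocus K (Ideal.span (Set.range Q)) = ∅ := by
    refine Set.eq_empty_iff_forall_notMem.mpr fun z hz => ?_
    obtain ⟨i, hi⟩ := hno z
    apply hi
    have := hz (Q i) (Ideal.subset_span ⟨i, rfl⟩)
    simpa [MvPolynomial.aeval_eq_eval] using this
  have h1 : (1 : MvPolynomial σ K) ∈ (Ideal.span (Set.range Q)).radical := by
    rw [← MvPolynomial.vanishingIdeal_zeroLocus_eq_radical (K := K), hempty]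
    intro x hx
    exact absurd hx (Set.notMem_empty x)
  obtain ⟨k, hk⟩ := h1
  rw [one_pow] at hk
  obtain ⟨H, hH⟩ := Ideal.mem_span_range_iff_exists_fun.mp hk
  obtain ⟨δ, hδ, -, hδH⟩ :=
    exists_smul_mem A (Finset.univ.biUnion fun i => (H i).support.image fun m => (H i).coeff m)
  obtain ⟨R, hR⟩ := hc δ hδ
  obtain ⟨z, hz, hzQ⟩ := happ R
  apply hR
  have hsum : δ = ∑ i, MvPolynomial.eval z (MvPolynomial.C δ * H i) *
      MvPolynomial.eval z (Q i) := by
    have := congrArg (fun P => δ * MvPolynomial.eval z P) hH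
    simp only [map_one, mul_one, map_sum, map_mul, Finset.mul_sum] at this
    simp only [map_mul, MvPolynomial.eval_C, mul_assoc]
    exact this.symm
  rw [hsum, div_eq_mul_inv, Finset.sum_mul]
  simp only [← div_eq_mul_inv]
  refine A.toSubring.sum_mem fun i _ => ?_
  rw [mul_div_assoc]
  refine A.mul_mem _ _ (eval_mem A _ z hz fun m => ?_) (hzQ i)
  rw [MvPolynomial.coeff_C_mul]
  by_cases hm : m ∈ (H i).support
  · exact hδH _ (Finset.mem_biUnion.mpr ⟨i, Finset.mem_univ i, Finset.mem_image_of_mem _ hm⟩)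
  · rw [MvPolynomial.notMem_support_iff.mp hm, mul_zero]
    exact A.zero_mem

/-- An `n`-th root in a finite-dimensional space from approximate roots. -/
theorem exists_pow_eq_of_approx {F : Type*} [CommRing F] [Algebra K F] {σ ι : Type*} [Fintype σ]
    [Fintype ι] (b : σ → F) (B : ι → F) (hB : LinearIndependent K B) (n : ℕ) (t : F)
    (hspan : ∀ z : σ → K, (∑ s, z s • b s) ^ n - t ∈ Submodule.span K (Set.range B))
    (c : ℕ → K) (hc : ∀ δ : K, δ ≠ 0 → ∃ R, δ / c R ∉ A)
    (happ : ∀ R, ∃ z : σ → K, (∀ s, z s ∈ A) ∧ ∃ w : ι → K, (∀ i, w i ∈ A) ∧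
      (∑ s, z s • b s) ^ n - t = c R • ∑ i, w i • B i) :
    ∃ z : σ → K, (∑ s, z s • b s) ^ n = t := by
  classical
  obtain ⟨proj, hproj⟩ := LinearMap.exists_leftInverse_of_injective
    (Fintype.linearCombination K B) (LinearMap.ker_eq_bot.mpr
      (linearIndependent_iff_injective_fintypeLinearCombination.mp hB))
  let G : MvPolynomial σ F := (∑ s, MvPolynomial.C (b s) * MvPolynomial.X s) ^ n - MvPolynomial.C t
  let Q : ι → MvPolynomial σ K := fun i =>
    ∑ m ∈ G.support, MvPolynomial.monomial m (proj (G.coeff m) i)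
  have hev : ∀ (z : σ → K) (i : ι), MvPolynomial.eval z (Q i) =
      proj ((∑ s, z s • b s) ^ n - t) i := by
    intro z i
    have hG : MvPolynomial.eval (fun s => algebraMap K F (z s)) G =
        (∑ s, z s • b s) ^ n - t := by
      simp [G, Algebra.smul_def, mul_comm]
    rw [← hG, MvPolynomial.eval_eq (fun s => algebraMap K F (z s)), map_sum proj,
      Finset.sum_apply]
    simp only [Q, map_sum, MvPolynomial.eval_monomial]
    refine Finset.sum_congr rfl fun m _ => ?_
    rw [Finsupp.prod_fintype _ _ (fun _ => pow_zero _)]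
    have : G.coeff m * ∏ s ∈ m.support, algebraMap K F (z s) ^ m s =
        (∏ s, z s ^ m s) • G.coeff m := by
      rw [Algebra.smul_def, mul_comm, map_prod]
      simp only [map_pow]
      congr 1
      refine Finset.prod_subset (Finset.subset_univ _) fun s _ hs => ?_
      rw [Finsupp.notMem_support_iff.mp hs, pow_zero]
    rw [this, map_smul, Pi.smul_apply, smul_eq_mul, mul_comm]
  have hinj : ∀ x ∈ Submodule.span K (Set.range B), proj x = 0 → x = 0 := by
    intro x hx hx0
    obtain ⟨a, rfl⟩ := (Submodule.mem_span_range_iff_exists_fun K).mp hx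
    have := LinearMap.congr_fun hproj a
    rw [LinearMap.comp_apply, Fintype.linearCombination_apply, hx0, LinearMap.id_apply] at this
    simp [← this]
  obtain ⟨z, hz⟩ := exists_zero_of_approx A Q c hc fun R => by
    obtain ⟨z, hz, w, hw, e⟩ := happ R
    refine ⟨z, hz, fun i => ?_⟩
    rw [hev, e, map_smul, Pi.smul_apply]
    have := LinearMap.congr_fun hproj w
    rw [LinearMap.comp_apply, Fintype.linearCombination_apply, LinearMap.id_apply] at this
    rw [this, smul_eq_mul]
    rcases eq_or_ne (c R) 0 with h0 | h0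
    · simp [h0]
    · rw [mul_div_cancel_left₀ _ h0]
      exact hw i
  refine ⟨z, sub_eq_zero.mp (hinj _ (hspan z) (funext fun i => ?_))⟩
  rw [← hev, hz, Pi.zero_apply]

end FermatAgent.MazurPrinciple
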