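import Fermat.Agent.MazurPrinciple.InertiaField
import Fermat.Agent.Local.Place
import Fermat.Agent.RT.Frobenius
import Mathlib.FieldTheory.Galois.Infinite

/-!
# The automorphisms fixing the inertia field are inertial
-/

set_option autoImplicit false

noncomputable section

namespace FermatAgent.MazurPrinciple

open scoped Pointwise

local notation "Qb" => AlgebraicClosure ℚ
local notation "GQ" => AlgebraicClosure ℚ ≃ₐ[ℚ] AlgebraicClosure ℚ

attribute [local instance] RT.isGalois_algClosureRat

variable {A : ValuationSubring Qb}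

/-- An automorphism fixing the inertia field agrees at each element with one of inertia. -/
theorem exists_inertia_eq {σ : GQ} (hσ : ∀ x ∈ inertiaField A, σ x = x) (z : Qb) :
    ∃ τ ∈ A.inertiaSubgroupIn ℚ, τ z = σ z := by
  let H : ClosedSubgroup GQ :=
    ⟨(A.inertiaSubgroupIn ℚ).topologicalClosure, Subgroup.isClosed_topologicalClosure _⟩
  have hmem : σ ∈ (IntermediateField.fixedField H.1).fixingSubgroup :=
    (IntermediateField.mem_fixingSubgroup_iff _ σ).mpr fun x hx =>
      hσ x (mem_inertiaField.mpr fun τ hτ =>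
        hx ⟨τ, Subgroup.le_topologicalClosure _ hτ⟩)
  rw [InfiniteGalois.fixingSubgroup_fixedField H] at hmem
  have hc : σ ∈ closure ((A.inertiaSubgroupIn ℚ : Subgroup GQ) : Set GQ) := hmem
  have : Algebra.IsAlgebraic ℚ Qb := AlgebraicClosure.isAlgebraic ℚ
  set L := IntermediateField.adjoin ℚ {z}
  have : FiniteDimensional ℚ L :=
    IntermediateField.adjoin.finiteDimensional (Algebra.IsIntegral.isIntegral z)
  obtain ⟨τ, ⟨h, hh, rfl⟩, hτ⟩ := mem_closure_iff.mp hc ((σ * ·) '' (L.fixingSubgroup : Set GQ))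
    ((IntermediateField.fixingSubgroup_isOpen L).leftCoset σ)
    ⟨1, one_mem _, mul_one σ⟩
  refine ⟨σ * h, hτ, ?_⟩
  rw [AlgEquiv.mul_apply, (IntermediateField.mem_fixingSubgroup_iff L h).mp hh z
    (IntermediateField.mem_adjoin_simple_self ℚ z)]

/-- The fixing subgroup of the inertia field is the inertia group. -/
theorem mem_inertia_of_fixes {σ : GQ} (hσ : ∀ x ∈ inertiaField A, σ x = x) :
    σ ∈ A.inertiaSubgroupIn ℚ := by
  have hd : σ ∈ A.decompositionSubgroup ℚ := by
    refine MulAction.mem_stabilizer_iff.mpr (SetLike.ext fun x => ?_)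
    obtain ⟨τ, hτ, e⟩ := exists_inertia_eq hσ (σ.symm x)
    rw [ValuationSubring.mem_pointwise_smul_iff_inv_smul_mem]
    show σ.symm x ∈ A ↔ x ∈ A
    rw [← Local.decomposition_mem_iff (Local.mem_decomposition_of_inertia hτ) (σ.symm x), e,
      σ.apply_symm_apply]
  refine Subgroup.mem_map.mpr ⟨⟨σ, hd⟩, MonoidHom.mem_ker.mpr (RingEquiv.ext fun r => ?_), rfl⟩
  obtain ⟨z, rfl⟩ := IsLocalRing.residue_surjective r
  show (⟨σ, hd⟩ : A.decompositionSubgroup ℚ) • IsLocalRing.residue A z = IsLocalRing.residue A z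
  rw [← IsLocalRing.ResidueField.residue_smul, ← sub_eq_zero, ← map_sub,
    IsLocalRing.residue_eq_zero_iff]
  refine (A.valuation_lt_one_iff _).2 ?_
  obtain ⟨τ, hτ, e⟩ := exists_inertia_eq hσ (z : Qb)
  show A.valuation (σ z - z) < 1
  rw [← e]
  exact Local.inertia_val_sub_lt_one hτ z.2

end FermatAgent.MazurPrinciple
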