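import Fermat.Agent.MazurPrinciple.NodeBranch
import Fermat.Agent.BadRed.Semistable.Datum

/-!
# The point of the integral model under a node

`ChartLink`: a chart of the model mapped into a function field with a nodal datum, compatibly with
the two reductions. Values at a node give a maximal ideal; both branches pass through it, so it is
supersingular and the local ring is a node ring with the two branches cut out by the reductions.
-/

set_option autoImplicit false
set_option linter.unusedSectionVars false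

noncomputable section

namespace FermatAgent.MazurPrinciple

open Polynomial IsLocalRing AlgebraicCurve
open FermatAgent.Curve FermatAgent.Curve.RR FermatAgent.BadRed.Semistable
open FermatAgent.BadRed.Carayol

variable {q : ℕ} [Fact q.Prime] {W K F F₁ F₂ : Type*}
  [CommRing W] [IsDomain W] [IsDiscreteValuationRing W] [IsAlgClosed (IsLocalRing.ResidueField W)]
  [Field K] [CharZero K] [Algebra W K] [IsFractionRing W K]
  [Field F] [Field F₁] [Field F₂] [Algebra K F] [Algebra K F₁] [Algebra K F₂]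
  [Algebra W F] [Algebra W F₁] [Algebra W F₂]
  [IsScalarTower W K F] [IsScalarTower W K F₁] [IsScalarTower W K F₂]
  {T : QTower q K F F₁ F₂} {u : F}
variable {L : Type*} [Field L] [IsAlgClosed L] {A : ValuationSubring L} {k : Type*} [Field k]
  [IsAlgClosed k] {π : A →+* k} {E G₁ G₂ : Type*} [Field E] [Field G₁] [Field G₂]
  [Algebra L E] [Algebra k G₁] [Algebra k G₂] [IsFunctionField1 L E] [IsFunctionField1 k G₁]
  [IsFunctionField1 k G₂] [RRSetting L E] [RRSetting k G₁] [RRSetting k G₂]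

/-- A chart seen inside a nodal datum. -/
structure ChartLink (W : Type*) [CommRing W] [IsDomain W] [IsDiscreteValuationRing W]
    [Algebra W K] [Algebra W F₁] (T : QTower q K F F₁ F₂) (u : F)
    (d : NodalDatum A π E G₁ G₂) where
  hom : F₁ →+* E
  κ : W →+* A
  commutes : ∀ w : W, hom (algebraMap W F₁ w) = algebraMap L E (κ w : L)
  pi_q : π (κ (q : W)) = 0
  surjective : Function.Surjective fun w => π (κ w)
  U₁ : G₁
  transc₁ : Transcendental k U₁
  U₂ : G₂
  transc₂ : Transcendental k U₂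
  s_mem₁ : hom (T.s u) ∈ d.g₁.integers
  t_mem₁ : hom (T.t u) ∈ d.g₁.integers
  red_s₁ : d.g₁.red ⟨hom (T.s u), s_mem₁⟩ = U₁
  red_t₁ : d.g₁.red ⟨hom (T.t u), t_mem₁⟩ = U₁ ^ q
  s_mem₂ : hom (T.s u) ∈ d.g₂.integers
  t_mem₂ : hom (T.t u) ∈ d.g₂.integers
  red_t₂ : d.g₂.red ⟨hom (T.t u), t_mem₂⟩ = U₂
  red_s₂ : d.g₂.red ⟨hom (T.s u), s_mem₂⟩ = U₂ ^ q
  poles : ∀ z ∈ chartRing W (T.t u), ∃ n : ℕ, hom z ∈ riemannRochSpace (n • d.D)

/-- The valuation ring of a reduction, pulled back. -/
def pullRing {Gb : Type*} [Field Gb] [Algebra k Gb] (g : GaussRed A π E Gb)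
    (hπ : Function.Surjective π) (φ : F₁ →+* E) : ValuationSubring F₁ :=
  { g.integers.comap φ with
    mem_or_inv_mem' := fun x => by
      rcases g.mem_or_inv_mem hπ (φ x) with h | h
      · exact Or.inl h
      · exact Or.inr (show φ x⁻¹ ∈ g.integers by rwa [map_inv₀]) }

theorem mem_pullRing {Gb : Type*} [Field Gb] [Algebra k Gb] {g : GaussRed A π E Gb}
    {hπ : Function.Surjective π} {φ : F₁ →+* E} {x : F₁} :
    x ∈ pullRing g hπ φ ↔ φ x ∈ g.integers := Iff.rfl

theorem mem_nonunits_pullRing {Gb : Type*} [Field Gb] [Algebra k Gb] {g : GaussRed A π E Gb}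
    {hπ : Function.Surjective π} {φ : F₁ →+* E} {x : F₁} :
    x ∈ (pullRing g hπ φ).nonunits ↔ ∃ h : φ x ∈ g.integers, g.red ⟨φ x, h⟩ = 0 := by
  constructor
  · intro hx
    have hmem : φ x ∈ g.integers := ValuationSubring.nonunits_subset hx
    refine ⟨hmem, by_contra fun hne => ?_⟩
    rcases (pullRing g hπ φ).inv_mem_nonunits_iff.mp
      (show (x⁻¹)⁻¹ ∈ (pullRing g hπ φ).nonunits by rwa [inv_inv]) with h1 | h1
    · rw [inv_eq_zero] at h1
      exact hne (by rw [g.red_congr (show φ x = 0 by rw [h1, map_zero])]; exact map_zero g.red)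
    · obtain ⟨hi, -⟩ := g.inv_mem hπ hmem hne
      exact h1 (show φ x⁻¹ ∈ g.integers by rwa [map_inv₀])
  · rintro ⟨hmem, h0⟩
    rw [ValuationSubring.mem_nonunits_iff]
    refine lt_of_le_of_ne (((pullRing g hπ φ).valuation_le_one_iff x).mpr hmem) fun h1 => ?_
    have hx0 : x ≠ 0 := fun e => by rw [e, map_zero] at h1; exact zero_ne_one h1
    have hi : φ x⁻¹ ∈ g.integers := (((pullRing g hπ φ).valuation_le_one_iff x⁻¹).mp
      (by rw [map_inv₀, h1, inv_one]))
    have := map_mul g.red ⟨φ x, hmem⟩ ⟨φ x⁻¹, hi⟩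
    rw [h0, zero_mul, show (⟨φ x, hmem⟩ : g.integers) * ⟨φ x⁻¹, hi⟩ = 1 from
      Subtype.ext (by show φ x * φ x⁻¹ = 1; rw [← map_mul, mul_inv_cancel₀ hx0, map_one]),
      map_one] at this
    exact one_ne_zero this

namespace ChartLink

variable {d : NodalDatum A π E G₁ G₂} (C : ChartLink W T u d)
  (hq : maximalIdeal W = Ideal.span {(q : W)})

include hq in
theorem pi_κ_eq_zero_iff (w : W) : π (C.κ w) = 0 ↔ residue W w = 0 := by
  constructor
  · intro h
    by_contra hne
    have hu : IsUnit w := by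
      by_contra hnu
      exact hne ((residue_eq_zero_iff _).mpr hnu)
    exact ((hu.map C.κ).map π).ne_zero h
  · intro h
    rw [residue_eq_zero_iff, hq, Ideal.mem_span_singleton] at h
    obtain ⟨v, rfl⟩ := h
    rw [map_mul, map_mul, C.pi_q, zero_mul]

include hq in
/-- The pulled back reduction is vertical when the coordinate reduces to a transcendental. -/
theorem isVertical_pullRing {Gb : Type*} [Field Gb] [Algebra k Gb] (g : GaussRed A π E Gb)
    {z : F₁} (hz : C.hom z ∈ g.integers) (htr : Transcendental k (g.red ⟨C.hom z, hz⟩)) :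
    IsVertical W q z (pullRing g d.residue_surjective C.hom) := by
  set V := pullRing g d.residue_surjective C.hom
  have hc : ∀ w : W, C.hom (algebraMap W F₁ w) ∈ g.integers := fun w => by
    rw [C.commutes]; exact g.algebraMap_mem _
  have hcred : ∀ w : W, g.red ⟨_, hc w⟩ = algebraMap k Gb (π (C.κ w)) := fun w => by
    rw [g.red_congr (C.commutes w)]; exact g.red_algebraMap _
  refine ⟨hc, mem_nonunits_pullRing.mpr ⟨by simp, ?_⟩, fun R hR => ?_⟩
  · rw [g.red_congr (show C.hom (q : F₁) = C.hom (algebraMap W F₁ (q : W)) by rw [map_natCast (algebraMap W F₁)]),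
      hcred, C.pi_q, map_zero]
  have hmem : C.hom (aeval z R) ∈ g.integers := by
    rw [aeval_eq_sum_range, map_sum]
    exact sum_mem fun i _ => by
      rw [Algebra.smul_def, map_mul, map_pow]; exact mul_mem (hc _) (pow_mem hz i)
  have hred : g.red ⟨_, hmem⟩ = aeval (g.red ⟨C.hom z, hz⟩) (R.map (π.comp C.κ)) := by
    let φ : Polynomial W →+* g.integers :=
      eval₂RingHom ((C.hom.comp (algebraMap W F₁)).codRestrict g.integers hc) ⟨_, hz⟩
    have e : (⟨_, hmem⟩ : g.integers) = φ R := Subtype.ext (by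
      show C.hom (aeval z R) = g.integers.subtype (φ R)
      rw [aeval_def, hom_eval₂]
      show _ = g.integers.subtype (R.eval₂ _ _)
      rw [hom_eval₂]
      rfl)
    rw [e]
    show g.red (R.eval₂ _ _) = _
    rw [hom_eval₂, aeval_def, eval₂_map]
    exact eval₂_congr (RingHom.ext fun w => hcred w) rfl rfl
  have hne : R.map (π.comp C.κ) ≠ 0 := fun h => hR (Polynomial.ext fun i => by
    have := congrArg (fun p => p.coeff i) h
    simp only [coeff_map, coeff_zero, RingHom.comp_apply] at this ⊢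
    exact (C.pi_κ_eq_zero_iff hq _).mp this)
  have hne' : g.red ⟨_, hmem⟩ ≠ 0 := by
    rw [hred]; exact fun h => htr ⟨_, hne, h⟩
  show V.valuation (aeval z R) = 1
  refine le_antisymm ((V.valuation_le_one_iff _).mpr hmem) (not_lt.mp fun hlt => hne' ?_)
  obtain ⟨_, h⟩ := mem_nonunits_pullRing.mp
    (show aeval z R ∈ V.nonunits by rw [ValuationSubring.mem_nonunits_iff]; exact hlt)
  exact h

/-- The valuation ring of the first component. -/
def V₁ : ValuationSubring F₁ := pullRing d.g₁ d.residue_surjective C.hom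

/-- The valuation ring of the second component. -/
def V₂ : ValuationSubring F₁ := pullRing d.g₂ d.residue_surjective C.hom

include hq in
theorem isVertical₁ : IsVertical W q (T.t u) C.V₁ :=
  C.isVertical_pullRing hq d.g₁ C.t_mem₁ (by
    rw [C.red_t₁]
    exact fun h => C.transc₁ (IsAlgebraic.of_pow (Fact.out : q.Prime).pos h))

include hq in
theorem isVertical₂ : IsVertical W q (T.t u) C.V₂ :=
  C.isVertical_pullRing hq d.g₂ C.t_mem₂ (by rw [C.red_t₂]; exact C.transc₂)

theorem res₁ : res C.V₁ (T.t u) = res C.V₁ (T.s u) ^ q := by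
  have hs : T.s u ∈ C.V₁ := C.s_mem₁
  have ht : T.t u ∈ C.V₁ := C.t_mem₁
  rw [← res_pow hs, res_eq_iff ht (pow_mem hs q)]
  refine mem_nonunits_pullRing.mpr ⟨by
    rw [map_sub, map_pow]; exact sub_mem C.t_mem₁ (pow_mem C.s_mem₁ q), ?_⟩
  rw [d.g₁.red_congr (map_sub C.hom (T.t u) (T.s u ^ q))]
  rw [show (⟨C.hom (T.t u) - C.hom (T.s u ^ q), _⟩ : d.g₁.integers) =
    ⟨_, C.t_mem₁⟩ - ⟨_, C.s_mem₁⟩ ^ q from Subtype.ext (by simp), map_sub, map_pow, C.red_t₁,
    C.red_s₁, sub_self]

theorem res₂ : res C.V₂ (T.s u) = res C.V₂ (T.t u) ^ q := by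
  have hs : T.s u ∈ C.V₂ := C.s_mem₂
  have ht : T.t u ∈ C.V₂ := C.t_mem₂
  rw [← res_pow ht, res_eq_iff hs (pow_mem ht q)]
  refine mem_nonunits_pullRing.mpr ⟨by
    rw [map_sub, map_pow]; exact sub_mem C.s_mem₂ (pow_mem C.t_mem₂ q), ?_⟩
  rw [d.g₂.red_congr (map_sub C.hom (T.s u) (T.t u ^ q))]
  rw [show (⟨C.hom (T.s u) - C.hom (T.t u ^ q), _⟩ : d.g₂.integers) =
    ⟨_, C.s_mem₂⟩ - ⟨_, C.t_mem₂⟩ ^ q from Subtype.ext (by simp), map_sub, map_pow, C.red_t₂,
    C.red_s₂, sub_self]

include hq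

theorem mem_int {z : F₁} (hz : z ∈ chartRing W (T.t u)) : C.hom z ∈ d.int :=
  ⟨(C.isVertical₁ hq).chartRing_le hz, (C.isVertical₂ hq).chartRing_le hz⟩

/-- At a node the two reductions of a chart element are regular with equal values. -/
theorem value_node {z : F₁} (hz : z ∈ chartRing W (T.t u)) (i : d.C.ι) :
    (d.C.x i).adicValuation (d.g₁.red ⟨C.hom z, (C.mem_int hq hz).1⟩) ≤ 1 ∧
      (d.C.y i).adicValuation (d.g₂.red ⟨C.hom z, (C.mem_int hq hz).2⟩) ≤ 1 ∧
      valueAt (d.C.x i) (d.g₁.red ⟨C.hom z, (C.mem_int hq hz).1⟩) =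
        valueAt (d.C.y i) (d.g₂.red ⟨C.hom z, (C.mem_int hq hz).2⟩) := by
  obtain ⟨n, hn⟩ := C.poles z hz
  have hmono : C.hom z ∈ riemannRochSpace ((n + d.n₀) • d.D) := by
    refine RR.riemannRochSpace_mono ?_ hn
    exact Finsupp.le_def.mpr fun v => by
      simp only [Finsupp.smul_apply, nsmul_eq_mul]
      have : 0 ≤ d.D v := by rw [NodalDatum.D, poleDiv_apply]; exact le_max_right _ _
      push_cast
      nlinarith
  obtain ⟨h1, h2, h3⟩ := d.C.mem_glue.mp (d.red_mem_glue (Nat.le_add_left _ _) (C.mem_int hq hz) hmono)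
  exact ⟨d.C.le_one_x h1 i, d.C.le_one_y h2 i, h3 i⟩

/-- The value at a node. -/
def nodeHom (i : d.C.ι) : chartRing W (T.t u) →+* k where
  toFun z := valueAt (d.C.x i) (d.g₁.red ⟨C.hom z, (C.mem_int hq z.2).1⟩)
  map_one' := by
    rw [d.g₁.red_congr (show C.hom ((1 : chartRing W (T.t u)) : F₁) = 1 from map_one C.hom),
      show (⟨(1 : E), _⟩ : d.g₁.integers) = 1 from rfl, map_one, ← map_one (algebraMap k G₁),
      valueAt_algebraMap]
  map_mul' z w := by
    rw [← valueAt_mul _ (mem_of_le_one (C.value_node hq z.2 i).1)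
      (mem_of_le_one (C.value_node hq w.2 i).1), ← map_mul]
    exact congrArg _ (congrArg d.g₁.red (Subtype.ext (map_mul C.hom (z : F₁) w)))
  map_zero' := by
    rw [d.g₁.red_congr (show C.hom ((0 : chartRing W (T.t u)) : F₁) = 0 from map_zero C.hom),
      show (⟨(0 : E), _⟩ : d.g₁.integers) = 0 from rfl, map_zero, ← map_zero (algebraMap k G₁),
      valueAt_algebraMap]
  map_add' z w := by
    rw [← valueAt_add _ (mem_of_le_one (C.value_node hq z.2 i).1)
      (mem_of_le_one (C.value_node hq w.2 i).1), ← map_add]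
    exact congrArg _ (congrArg d.g₁.red (Subtype.ext (map_add C.hom (z : F₁) w)))

theorem nodeHom_algebraMap (i : d.C.ι) (w : W) :
    C.nodeHom hq i (algebraMap W _ w) = π (C.κ w) := by
  show valueAt (d.C.x i) (d.g₁.red ⟨C.hom (algebraMap W F₁ w), _⟩) = _
  rw [d.g₁.red_congr (C.commutes w), d.g₁.red_algebraMap, valueAt_algebraMap]

/-- The point under a node. -/
def point (i : d.C.ι) : Ideal (chartRing W (T.t u)) := RingHom.ker (C.nodeHom hq i)

theorem point_isMaximal (i : d.C.ι) : (C.point hq i).IsMaximal :=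
  RingHom.ker_isMaximal_of_surjective _ fun c => by
    obtain ⟨w, rfl⟩ := C.surjective c
    exact ⟨_, C.nodeHom_algebraMap hq i w⟩

theorem q_mem_point (i : d.C.ι) : (q : chartRing W (T.t u)) ∈ C.point hq i := by
  rw [point, RingHom.mem_ker, ← map_natCast (algebraMap W (chartRing W (T.t u))),
    C.nodeHom_algebraMap hq, C.pi_q]

theorem through₁ (i : d.C.ι) :
    haveI := (C.point_isMaximal hq i).isPrime
    Through (C.point hq i) C.V₁ := fun z hz => by
  obtain ⟨_, h0⟩ := mem_nonunits_pullRing.mp hz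
  show valueAt (d.C.x i) (d.g₁.red ⟨C.hom z, _⟩) = 0
  rw [h0, ← map_zero (algebraMap k G₁), valueAt_algebraMap]

theorem through₂ (i : d.C.ι) :
    haveI := (C.point_isMaximal hq i).isPrime
    Through (C.point hq i) C.V₂ := fun z hz => by
  obtain ⟨_, h0⟩ := mem_nonunits_pullRing.mp hz
  show valueAt (d.C.x i) (d.g₁.red ⟨C.hom z, _⟩) = 0
  rw [(C.value_node hq z.2 i).2.2, h0, ← map_zero (algebraMap k G₂), valueAt_algebraMap]

end ChartLink

end FermatAgent.MazurPrinciple
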