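import Fermat.Agent.MazurPrinciple.LevelCoord
import Fermat.Agent.MazurPrinciple.NodePoint
import Fermat.Agent.BadRed.Carayol.Instance.BaseRing
import Fermat.Agent.BadRed.Carayol.Instance.ChartVar
import Fermat.Agent.BadRed.Carayol.Assembly.Descent
import Fermat.Agent.BadRed.Carayol.Assembly.NormChange

/-!
# The chart inside the nodal datum of `X₀(p N')`

The model over the integers of the inertia field maps to the nodal datum: `u` reduces to `ū` and
`u(pτ)` to `ū ^ p` on the first component, and the other way round on the second.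
-/

set_option autoImplicit false
set_option linter.unusedSectionVars false
set_option maxHeartbeats 800000

noncomputable section

namespace FermatAgent.MazurPrinciple

open Polynomial AlgebraicCurve ModularCurve
open FermatAgent.Curve (IsFunctionField1 divisorOf)
open FermatAgent.BadRed.Semistable FermatAgent.BadRed.Carayol FermatAgent.BadRed.Carayol.Instance
open FermatAgent.ModFun

local notation "ℚbar" => AlgebraicClosure ℚ
local notation "𝐅" N:max => laurentBaseChange ℚbar (modularFunctionFieldFull N)

attribute [local instance] ModCurveTorsion.isFunctionField1_laurent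
attribute [local instance] isAlgClosed_residue

variable {p : ℕ} [Fact p.Prime] [NeZero p] {A : ValuationSubring ℚbar} (hA : A.LiesOverPrime p)
  {N' : ℕ} [NeZero N'] (hco : p.Coprime N')

/-- The model's function field inside the field over `ℚ̄`. -/
def levelHom (A : ValuationSubring ℚbar) (p N' : ℕ) [NeZero p] [NeZero N'] [Fact p.Prime] :
    LevelField (inertiaField A) (N' * p) →+* 𝐅 (p * N') :=
  (castLevel ℚbar (mul_comm N' p)).toAlgHom.toRingHom.comp (fromInertia A (N' * p))

theorem levelHom_algebraMap (c : inertiaField A) :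
    levelHom A p N' (algebraMap _ _ c) = algebraMap ℚbar (𝐅 (p * N')) (c : ℚbar) := by
  show castLevel ℚbar (mul_comm N' p) (fromInertia A (N' * p) (algebraMap _ _ c)) = _
  rw [fromInertia_algebraMap, AlgEquiv.commutes]

theorem coe_levelHom (x : LevelField (inertiaField A) (N' * p)) :
    (levelHom A p N' x : LaurentSeries ℚbar) =
      coeffMap ((inertiaField A).val : inertiaField A →+* ℚbar)
        (x : LaurentSeries (inertiaField A)) :=
  (coe_castLevel ℚbar _ _).trans (coe_fromInertia A (N' * p) x)

variable (H : Hauptmodul p) (hN : H.L ∣ N')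

theorem levelHom_alpha :
    levelHom A p N' (heckeAlphaBar (inertiaField A) N' p (uElt (inertiaField A) H hN)) =
      sCoord H hN :=
  Subtype.ext (by
    rw [coe_levelHom, coe_sCoord, coe_alpha_uElt H (inertiaField A) hN, coeffMap_coeffMap]
    exact coeffMap_congr (RingHom.ext_int _ _) _)

theorem levelHom_beta :
    levelHom A p N' (heckeBetaBar (inertiaField A) N' p (uElt (inertiaField A) H hN)) =
      tCoord H hN :=
  Subtype.ext (by
    rw [coe_levelHom, coe_tCoord, coe_beta_uElt H (inertiaField A) hN, coeffMap_coeffMap]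
    exact coeffMap_congr (RingHom.ext_int _ _) _)

variable [IsFunctionField1 (IsLocalRing.ResidueField A) (FibField A N')]

/-- Integral series reduce coefficientwise. -/
theorem levelData_red₁ {x : 𝐅 (p * N')} (s : LaurentSeries ℤ)
    (hx : (x : LaurentSeries ℚbar) = coeffMap (Int.castRingHom ℚbar) s) :
    ∃ h : x ∈ (levelData p A hA hco).g₁.integers,
      (((levelData p A hA hco).g₁.red ⟨x, h⟩ : FibField A N') :
        LaurentSeries (IsLocalRing.ResidueField A)) =
          coeffMap (Int.castRingHom (IsLocalRing.ResidueField A)) s := by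
  have := charP_residue_place p A hA
  obtain ⟨hf, e⟩ := seriesGauss_coeffMap (q := p) (f := x)
    (IsLocalRing.residue_surjective (R := A)) (y := coeffMap (Int.castRingHom A) s)
    (by rw [hx, coeffMap_subtype_int])
  refine ⟨hf, ?_⟩
  show (seriesGauss p (p * N') _).red ⟨x, hf⟩ = _
  rw [e, coeffMap_coeffMap]
  exact coeffMap_congr (RingHom.ext_int _ _) _

/-- The second reduction is the first one after the involution. -/
theorem levelData_red₂ {x y : 𝐅 (p * N')} (hxy : atkinLehnerBar hco ℚbar x = y)
    (hy : y ∈ (levelData p A hA hco).g₁.integers) :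
    ∃ h : x ∈ (levelData p A hA hco).g₂.integers,
      (levelData p A hA hco).g₂.red ⟨x, h⟩ = (levelData p A hA hco).g₁.red ⟨y, hy⟩ := by
  subst hxy
  exact ⟨hy, rfl⟩

theorem levelData_z : (levelData p A hA hco).z = jBar ℚbar (p * N') := rfl

/-- A finite bound for the poles of a function with poles at the poles of `j`. -/
theorem exists_mem_rr {K F : Type*} [Field K] [Field F] [Algebra K F] [IsAlgClosed K]
    [IsFunctionField1 K F] {j f : F}
    (h : ∀ v : Place K F, j ∈ v.toValuationSubring → f ∈ v.toValuationSubring) :
    ∃ n : ℕ, f ∈ riemannRochSpace (n • poleDiv (K := K) j) := by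
  rcases eq_or_ne f 0 with rfl | hf0
  · exact ⟨0, zero_mem _⟩
  set b := (divisorOf (K := K) f).support.sup fun v => (-v.ord f).toNat
  refine ⟨b, mem_riemannRochSpace_iff.mpr fun v => Or.inr ?_⟩
  rw [Finsupp.smul_apply, nsmul_eq_mul, poleDiv_apply]
  rcases le_or_gt 0 (v.ord f) with h0 | h0
  · have : (0 : ℤ) ≤ (b : ℤ) * max (-v.ord j) 0 := mul_nonneg (by simp) (le_max_right _ _)
    omega
  · have hj : j ∉ v.toValuationSubring := fun hj => by
      have := Curve.ord_nonneg_of_mem' v (h v hj); omega
    have hjo := Curve.ord_neg_of_notMem v hj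
    have hb : (-v.ord f).toNat ≤ b := Finset.le_sup (f := fun v : Place K F => (-v.ord f).toNat)
      (Finsupp.mem_support_iff.mpr (by rw [Curve.divisorOf_apply]; omega))
    rw [max_eq_left (by omega)]
    nlinarith [mul_le_mul_of_nonneg_left (show (1 : ℤ) ≤ -v.ord j by omega) (Int.natCast_nonneg b),
      Int.toNat_of_nonneg (show (0 : ℤ) ≤ -v.ord f by omega)]

variable [IsDiscreteValuationRing (inertiaRing A)] (hpN : ¬ p ∣ N') {R : ℤ[X]}
  (hR : IsCuspPoly H R)

/-- The reduction of the coordinate. -/
def uBar : FibField A N' :=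
  (levelData p A hA hco).g₁.red ⟨sCoord H hN, (levelData_red₁ hA hco _ (coe_sCoord H hN)).choose⟩

theorem coe_uBar : (uBar hA hco H hN : LaurentSeries (IsLocalRing.ResidueField A)) =
    coeffMap (Int.castRingHom (IsLocalRing.ResidueField A)) (uSeries H) :=
  (levelData_red₁ hA hco _ (coe_sCoord H hN)).choose_spec

theorem transcendental_uBar : Transcendental (IsLocalRing.ResidueField A) (uBar hA hco H hN) := by
  rintro ⟨P, hP, h⟩
  refine hP (eq_zero_of_aeval_uSeries H _ ?_)
  have h' := congrArg (FibField A N').val h
  rw [← aeval_algHom_apply, map_zero] at h'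
  rw [← coe_uBar hA hco H hN]
  exact h'

/-- The chart inside the nodal datum. -/
def levelLink : ChartLink (inertiaRing A) (tower (inertiaField A) N' hpN)
    (uElt (inertiaField A) H hN) (levelData p A hA hco) where
  hom := levelHom A p N'
  κ := inertiaIncl A
  commutes w := levelHom_algebraMap (p := p) (N' := N') (w : inertiaField A)
  pi_q := inertiaRes_natCast hA
  surjective := inertiaRes_surjective Fact.out hA
  U₁ := uBar hA hco H hN
  transc₁ := transcendental_uBar hA hco H hN
  U₂ := uBar hA hco H hN
  transc₂ := transcendental_uBar hA hco H hN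
  s_mem₁ := (levelHom_alpha (A := A) H hN).symm ▸ (levelData_red₁ hA hco _ (coe_sCoord H hN)).choose
  t_mem₁ := (levelHom_beta (A := A) H hN).symm ▸ (levelData_red₁ hA hco _ (coe_tCoord H hN)).choose
  red_s₁ := GaussRed.red_congr _ (levelHom_alpha (A := A) H hN) _
  red_t₁ := by
    have := charP_residue_place p A hA
    refine (GaussRed.red_congr _ (levelHom_beta (A := A) H hN) _).trans (Subtype.ext ?_)
    rw [SubmonoidClass.coe_pow, coe_uBar, pow_eq_qExpand p, ← coeffMap_comm_qExpand]
    exact (levelData_red₁ hA hco _ (coe_tCoord H hN)).choose_spec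
  s_mem₂ := (levelHom_alpha (A := A) H hN).symm ▸ (levelData_red₂ hA hco
    (atkinLehnerBar_upAlpha hco _) (levelData_red₁ hA hco _ (coe_tCoord H hN)).choose).choose
  t_mem₂ := (levelHom_beta (A := A) H hN).symm ▸ (levelData_red₂ hA hco
    (atkinLehnerBar_upBeta hco _) (levelData_red₁ hA hco _ (coe_sCoord H hN)).choose).choose
  red_t₂ := (GaussRed.red_congr _ (levelHom_beta (A := A) H hN) _).trans
    (levelData_red₂ hA hco (atkinLehnerBar_upBeta hco _)
      (levelData_red₁ hA hco _ (coe_sCoord H hN)).choose).choose_spec
  red_s₂ := by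
    have := charP_residue_place p A hA
    refine ((GaussRed.red_congr _ (levelHom_alpha (A := A) H hN) _).trans
      (levelData_red₂ hA hco (atkinLehnerBar_upAlpha hco _)
        (levelData_red₁ hA hco _ (coe_tCoord H hN)).choose).choose_spec).trans (Subtype.ext ?_)
    rw [SubmonoidClass.coe_pow, coe_uBar, pow_eq_qExpand p, ← coeffMap_comm_qExpand]
    exact (levelData_red₁ hA hco _ (coe_tCoord H hN)).choose_spec
  poles z hz := by
    show ∃ n : ℕ, levelHom A p N' z ∈ riemannRochSpace (n • poleDiv (jBar ℚbar (p * N')))
    refine exists_mem_rr fun v hj => ?_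
    have ht : tCoord H hN ∈ v.toValuationSubring := tCoord_mem_place hco H hN hR hj
    let V := v.toValuationSubring.comap (levelHom A p N')
    refine Curve.mem_valuationSubring_of_isIntegral V (fun r => ?_) hz
    refine Algebra.adjoin_induction (p := fun y _ => y ∈ V) ?_ (fun w => ?_)
      (fun _ _ _ _ ha hb => add_mem ha hb) (fun _ _ _ _ ha hb => mul_mem ha hb) r.2
    · rintro _ rfl
      show levelHom A p N' _ ∈ v.toValuationSubring
      exact (levelHom_beta (A := A) H hN).symm ▸ ht
    · show levelHom A p N' (algebraMap (inertiaRing A) _ w) ∈ v.toValuationSubring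
      rw [IsScalarTower.algebraMap_apply (inertiaRing A) (inertiaField A), levelHom_algebraMap]
      exact v.algebraMap_mem' _

end FermatAgent.MazurPrinciple
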