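import Fermat.Agent.BadRed.AtP.AuxLevel
import Fermat.Agent.BadRed.Carayol.Instance.Tower
import Fermat.Agent.ModCurve.Torsion.HeckeDiv

/-!
# The two definitions of the norm of a Hecke correspondence, and a change of level

`levelIncl`, `w ∘ levelIncl` are `heckeAlphaBar`, `heckeBetaBar` up to the equality of the levels,
so `ModCurveTorsion.heckeNorm` is `AtP.heckeNorm`; the latter commutes with a change of level.
-/

set_option autoImplicit false
set_option linter.unusedSectionVars false

noncomputable section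

namespace FermatAgent.MazurPrinciple

open AlgebraicCurve ModularCurve
open FermatAgent.ModFun FermatAgent.ES
open FermatAgent.BadRed (AtP.levelIncl)
open FermatAgent.BadRed.Carayol.Instance (castLevel coe_castLevel)

/-- Norms along maps agreeing up to an isomorphism of the top fields. -/
theorem normAlong_equiv_comp {K A B B' : Type*} [Field K] [Field A] [Field B] [Field B']
    [Algebra K A] [Algebra K B] [Algebra K B'] (φ : A →ₐ[K] B) (φ' : A →ₐ[K] B') (e : B ≃ₐ[K] B')
    (h : ∀ a, e (φ a) = φ' a) (y : B) : normAlong φ' (e y) = normAlong φ y := by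
  let := algebraAlong φ
  let := algebraAlong φ'
  have := Algebra.norm_eq_of_equiv_equiv (RingEquiv.refl A) e.toRingEquiv
    (RingHom.ext fun a => (h a).symm) y
  exact this.symm

variable {K : Type*} [Field K] [Algebra ℚ K] {p : ℕ} [hp : Fact p.Prime] [NeZero p]

local notation "𝐅" N:max => laurentBaseChange K (modularFunctionFieldFull N)

section Alpha

variable {M : ℕ} [NeZero M] [NeZero (p * M)] (hco : p.Coprime M)

theorem cast_levelIncl (x : 𝐅 M) :
    castLevel K (mul_comm p M) (BadRed.AtP.levelIncl p M K x) = heckeAlphaBar K M p x :=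
  Subtype.ext (by rw [coe_castLevel, BadRed.AtP.coe_levelIncl, coe_heckeAlphaBar])

theorem cast_w_levelIncl (x : 𝐅 M) :
    castLevel K (mul_comm p M) (atkinLehnerBar hco K (BadRed.AtP.levelIncl p M K x)) =
      heckeBetaBar K M p x :=
  Subtype.ext (by
    rw [coe_castLevel, BadRed.AtP.coe_atkinLehnerBar_levelIncl, coe_heckeBetaBar])

theorem normAlong_alpha (y : 𝐅 (p * M)) :
    normAlong (heckeAlphaBar K M p) (castLevel K (mul_comm p M) y) =
      normAlong (BadRed.AtP.levelIncl p M K) y :=
  normAlong_equiv_comp _ _ _ cast_levelIncl y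

/-- The two definitions of the norm of the correspondence agree. -/
theorem torsion_heckeNorm_eq (x : 𝐅 M) :
    ModCurveTorsion.heckeNorm K M p x = BadRed.AtP.heckeNorm K hco x := by
  show normAlong (heckeAlphaBar K M p) (heckeBetaBar K M p x) = _
  rw [← cast_w_levelIncl hco, normAlong_alpha, BadRed.AtP.heckeNorm_apply]

end Alpha

theorem upLevel_eq_upBase {N M : ℕ} [NeZero N] [NeZero M] [NeZero (p * N)] [NeZero (p * M)]
    (h : N ∣ M) (x : 𝐅 (p * N)) :
    BadRed.AtP.upLevel (p := p) h K x = BadRed.AtP.upBase (Nat.mul_dvd_mul_left p h) K x :=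
  Subtype.ext (by rw [BadRed.AtP.coe_upLevel, BadRed.AtP.coe_upBase])

/-- `heckeNorm` commutes with a change of level. -/
theorem heckeNorm_upBase {L L' : ℕ} [NeZero L] [NeZero L'] [NeZero (p * L)] [NeZero (p * L')]
    (hco : p.Coprime L) (hco' : p.Coprime L') (h : L ∣ L') {ζ : Kˣ} (hζ : IsPrimitiveRoot ζ p)
    (x : 𝐅 L) :
    BadRed.AtP.heckeNorm K hco' (BadRed.AtP.upBase h K x) =
      BadRed.AtP.upBase h K (BadRed.AtP.heckeNorm K hco x) := by
  refine Subtype.ext (qExpand_injective (R := K) p ?_)
  rw [BadRed.AtP.qExpand_heckeNorm hco' hζ, BadRed.AtP.coe_upBase, BadRed.AtP.coe_upBase,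
    BadRed.AtP.qExpand_heckeNorm hco hζ]

end FermatAgent.MazurPrinciple

end
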