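import Fermat.Agent.MazurPrinciple.LevelLink

/-!
# Coordinates of functions over a local base

A function with coefficients in `S = ⊕ K₀ ϖ ^ i` is `∑ fᵢ ϖ ^ i` with `fᵢ` over the inertia field,
and each `fᵢ` is a combination of inertia conjugates of the function.
-/

set_option autoImplicit false
set_option maxHeartbeats 800000

noncomputable section

namespace FermatAgent.MazurPrinciple

open AlgebraicCurve ModularCurve
open FermatAgent.Curve (IsFunctionField1 divisorOf)
open FermatAgent.BadRed.Semistable FermatAgent.BadRed.Carayol FermatAgent.BadRed.Carayol.Instance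
open FermatAgent.ModFun FermatAgent.ModCurveTorsion

local notation "ℚbar" => AlgebraicClosure ℚ
local notation "GQ" => AlgebraicClosure ℚ ≃ₐ[ℚ] AlgebraicClosure ℚ
local notation "𝐅" N:max => laurentBaseChange ℚbar (modularFunctionFieldFull N)

attribute [local instance] ModCurveTorsion.isFunctionField1_laurent

variable {A : ValuationSubring ℚbar} {p : ℕ} (B : LocalBase A p)

namespace LocalBase

theorem mem_base {x : ℚbar} : x ∈ B.base ↔ x ∈ B.S := Iff.rfl

/-- Values of terms of distinct exponents differ. -/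
theorem term_val_ne {a b : ℚbar} (ha : a ∈ inertiaField A) (hb : b ∈ inertiaField A) (ha0 : a ≠ 0)
    (hb0 : b ≠ 0) {i j : ℕ} (hi : i < B.idx) (hj : j < B.idx) (hij : i ≠ j) :
    A.valuation (a * B.unifQ ^ i) ≠ A.valuation (b * B.unifQ ^ j) := by
  intro heq
  have hv0 : A.valuation B.unifQ ≠ 0 := (map_ne_zero _).2 B.unifQ_ne_zero
  obtain ⟨k, hk⟩ := val_inertiaField B.prime B.liesOver _ ha ha0
  obtain ⟨l, hl⟩ := val_inertiaField B.prime B.liesOver _ hb hb0
  simp only [map_mul, map_pow, hk, hl, B.val_natCast_p] at heq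
  simp only [← zpow_natCast, ← zpow_mul, ← zpow_add₀ hv0] at heq
  have h1 := (zpow_right_strictAnti₀ (zero_lt_iff.mpr hv0) B.val_unifQ_lt_one).injective heq
  have h2 := congrArg (fun a : ℤ => a % (B.idx : ℤ)) h1
  simp only [Int.mul_add_emod_self_left] at h2
  rw [Int.emod_eq_of_lt (by positivity) (by exact_mod_cast hi),
    Int.emod_eq_of_lt (by positivity) (by exact_mod_cast hj)] at h2
  exact hij (by exact_mod_cast h2)

/-- Coordinates of an integer are integral. -/
theorem coord_mem_of_mem {c : ℕ → ℚbar} (hc : ∀ i, c i ∈ inertiaField A) {x : ℚbar}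
    (hx : x = ∑ i ∈ Finset.range B.idx, c i * B.unifQ ^ i) (hxA : x ∈ A) :
    ∀ i < B.idx, c i ∈ A := by
  classical
  intro i hi
  rcases eq_or_ne (c i) 0 with h0 | h0
  · rw [h0]; exact zero_mem _
  set s := (Finset.range B.idx).filter fun j => c j ≠ 0
  have his : i ∈ s := Finset.mem_filter.mpr ⟨Finset.mem_range.mpr hi, h0⟩
  obtain ⟨m, hm, hmax⟩ := s.exists_max_image (fun j => A.valuation (c j * B.unifQ ^ j)) ⟨i, his⟩
  have hsum : x = ∑ j ∈ s, c j * B.unifQ ^ j := by
    rw [hx]
    exact (Finset.sum_subset (Finset.filter_subset _ _) fun j hj hnj => by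
      have : c j = 0 := by
        by_contra hne; exact hnj (Finset.mem_filter.mpr ⟨hj, hne⟩)
      rw [this, zero_mul]).symm
  have hlt : A.valuation (∑ j ∈ s.erase m, c j * B.unifQ ^ j) <
      A.valuation (c m * B.unifQ ^ m) := by
    refine A.valuation.map_sum_lt ((map_ne_zero _).2 (mul_ne_zero (Finset.mem_filter.mp hm).2
      (pow_ne_zero _ B.unifQ_ne_zero))) fun j hj => ?_
    obtain ⟨hjm, hjs⟩ := Finset.mem_erase.mp hj
    exact lt_of_le_of_ne (hmax j hjs) (B.term_val_ne (hc j) (hc m) (Finset.mem_filter.mp hjs).2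
      (Finset.mem_filter.mp hm).2 (Finset.mem_range.mp (Finset.mem_filter.mp hjs).1)
      (Finset.mem_range.mp (Finset.mem_filter.mp hm).1) hjm)
  have hle : A.valuation (c i * B.unifQ ^ i) ≤ 1 := by
    refine (hmax i his).trans ?_
    rw [← A.valuation.map_add_eq_of_lt_left hlt,
      Finset.add_sum_erase _ (fun j => c j * B.unifQ ^ j) hm, ← hsum]
    exact (A.valuation_le_one_iff _).mpr hxA
  obtain ⟨k, hk⟩ := val_inertiaField B.prime B.liesOver _ (hc i) h0
  have hv0 : A.valuation B.unifQ ≠ 0 := (map_ne_zero _).2 B.unifQ_ne_zero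
  rw [map_mul, map_pow, hk, B.val_natCast_p, ← zpow_natCast _ B.idx, ← zpow_natCast _ i, ← zpow_mul,
    ← zpow_add₀ hv0] at hle
  rw [← A.valuation_le_one_iff, hk, B.val_natCast_p, ← zpow_natCast _ B.idx, ← zpow_mul]
  refine le_of_le_of_eq (zpow_le_zpow_right_of_le_one₀ (zero_lt_iff.mpr hv0)
    B.val_unifQ_lt_one.le (show (0 : ℤ) ≤ (B.idx : ℤ) * k from ?_)) (zpow_zero _)
  by_contra hneg
  have hk0 : k ≤ -1 := by
    by_contra hk1
    exact hneg (mul_nonneg (by positivity) (by omega))
  refine absurd hle (not_le.mpr (one_lt_zpow_of_neg₀ (zero_lt_iff.mpr hv0) B.val_unifQ_lt_one ?_))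
  have : (i : ℤ) < B.idx := by exact_mod_cast hi
  nlinarith [mul_le_mul_of_nonneg_left hk0 (Int.natCast_nonneg B.idx)]

/-- A combination of inertia elements reads a coordinate. -/
theorem exists_coord_functional {i : ℕ} (hi : i < B.idx) :
    ∃ (s : Finset GQ) (a : GQ → ℚbar), (∀ σ ∈ s, σ ∈ A.inertiaSubgroupIn ℚ) ∧
      ∀ c : ℕ → ℚbar, (∀ j, c j ∈ inertiaField A) →
        ∑ σ ∈ s, a σ * σ (∑ j ∈ Finset.range B.idx, c j * B.unifQ ^ j) = c i := by
  classical
  let G := A.inertiaSubgroupIn ℚ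
  let v : Fin B.idx → ℚbar := fun j => B.unifQ ^ (j : ℕ)
  have hli : LinearIndependent (FixedPoints.subfield G ℚbar) v := by
    rw [Fintype.linearIndependent_iff]
    intro g hg j
    let d : ℕ → ℚbar := fun l => if h : l < B.idx then (g ⟨l, h⟩ : ℚbar) else 0
    have hd : ∀ l, d l ∈ inertiaField A := fun l => by
      simp only [d]
      split_ifs
      · exact mem_inertiaField.mpr fun σ hσ => (g _).2 ⟨σ, hσ⟩
      · exact zero_mem _
    have h := B.unif_indep hd (by
      rw [← Fin.sum_univ_eq_sum_range (fun l => d l * B.unifQ ^ l), ← hg]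
      exact Finset.sum_congr rfl fun l _ => by simp only [d, dif_pos l.2]; rfl) j j.2
    simp only [d, dif_pos j.2] at h
    exact Subtype.ext h
  have hfun : LinearIndependent ℚbar fun j => MulAction.toFun G ℚbar (v j) := by
    have h1 := FixedPoints.linearIndependent_smul_of_linearIndependent (G := G) (F := ℚbar)
      (s := Finset.univ.image v) (by
        rw [Finset.coe_image, Finset.coe_univ, Set.image_univ]
        exact hli.linearIndepOn_id)
    rw [Finset.coe_image, Finset.coe_univ, Set.image_univ] at h1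
    exact (linearIndepOn_range_iff hli.injective _).mp h1
  let row : G → Fin B.idx → ℚbar := fun σ j => (σ : GQ) (v j)
  have hspan : Submodule.span ℚbar (Set.range row) = ⊤ := by
    by_contra hne
    obtain ⟨φ, hφ0, hφ⟩ :=
      Submodule.exists_dual_map_eq_bot_of_lt_top (lt_top_iff_ne_top.mpr hne) inferInstance
    set a : Fin B.idx → ℚbar := fun j => φ (Pi.single j 1)
    have hφa : ∀ w, φ w = ∑ j, w j * a j := fun w => by
      conv_lhs => rw [pi_eq_sum_univ' w]
      rw [map_sum]
      simp [a]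
    refine hφ0 (LinearMap.ext fun w => ?_)
    have ha := Fintype.linearIndependent_iff.mp hfun a (funext fun σ => by
      have : φ (row σ) = 0 := by
        have := Submodule.mem_map_of_mem (f := φ) (Submodule.subset_span ⟨σ, rfl⟩ :
          row σ ∈ Submodule.span ℚbar (Set.range row))
        rwa [hφ, Submodule.mem_bot] at this
      rw [hφa] at this
      rw [Finset.sum_apply, Pi.zero_apply, ← this]
      exact Finset.sum_congr rfl fun j _ => mul_comm _ _)
    simp [hφa, ha]
  obtain ⟨a, ha⟩ := Finsupp.mem_span_range_iff_exists_finsupp.mp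
    (hspan ▸ Submodule.mem_top : Pi.single (⟨i, hi⟩ : Fin B.idx) (1 : ℚbar) ∈ _)
  refine ⟨a.support.map ⟨Subtype.val, Subtype.val_injective⟩,
    fun σ => if h : σ ∈ G then a ⟨σ, h⟩ else 0, fun σ hσ => ?_, fun c hc => ?_⟩
  · obtain ⟨τ, -, rfl⟩ := Finset.mem_map.mp hσ
    exact τ.2
  have hcomb : ∀ j : Fin B.idx, ∑ σ ∈ a.support, a σ * (σ : GQ) (v j) =
      (Pi.single (⟨i, hi⟩ : Fin B.idx) (1 : ℚbar) : Fin B.idx → ℚbar) j := fun j => by
    rw [← ha, Finsupp.sum, Finset.sum_apply]
    rfl
  rw [Finset.sum_map]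
  simp only [Function.Embedding.coeFn_mk, SetLike.coe_mem, dif_pos, map_sum, map_mul, map_pow,
    Finset.mul_sum]
  rw [Finset.sum_comm, Finset.sum_eq_single_of_mem i (Finset.mem_range.mpr hi) fun j hj hne => ?_]
  · have h := hcomb ⟨i, hi⟩
    rw [Pi.single_eq_same] at h
    simp only [v, map_pow] at h
    simp_rw [mem_inertiaField.mp (hc i) _ (SetLike.coe_mem _), mul_left_comm _ (c i),
      ← Finset.mul_sum]
    rw [h, mul_one]
  · have h := hcomb ⟨j, Finset.mem_range.mp hj⟩
    rw [Pi.single_eq_of_ne (by simp [Fin.ext_iff, hne])] at h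
    simp only [v, map_pow] at h
    simp_rw [mem_inertiaField.mp (hc j) _ (SetLike.coe_mem _), mul_left_comm _ (c j),
      ← Finset.mul_sum]
    rw [h, mul_zero]

end LocalBase

variable [Fact p.Prime] [NeZero p] {N' : ℕ} [NeZero N']

theorem coeff_levelHom_mem (l : LevelField (inertiaField A) (N' * p)) (n : ℤ) :
    (levelHom A p N' l : LaurentSeries ℚbar).coeff n ∈ inertiaField A := by
  rw [coe_levelHom, coeffMap_coeff]; exact SetLike.coe_mem _

/-- Functions fixed by inertia come from the inertia field. -/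
theorem mem_range_levelHom {x : 𝐅 (p * N')}
    (hx : ∀ σ ∈ A.inertiaSubgroupIn ℚ, galN (p * N') σ • x = x) :
    ∃ l, levelHom A p N' l = x := by
  obtain ⟨y, rfl⟩ := mem_range_fromInertia A (p * N') hx
  refine ⟨castLevel (inertiaField A) (mul_comm p N') y, Subtype.ext ?_⟩
  rw [coe_levelHom, coe_castLevel]
  rfl

theorem coeff_levelHom_smul (l : LevelField (inertiaField A) (N' * p)) (c : ℚbar) (n : ℤ) :
    ((levelHom A p N' l * algebraMap ℚbar (𝐅 (p * N')) c : 𝐅 (p * N')) :
      LaurentSeries ℚbar).coeff n = (levelHom A p N' l : LaurentSeries ℚbar).coeff n * c := by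
  rw [MulMemClass.coe_mul, IntermediateField.coe_algebraMap_apply,
    algebraMap_laurentSeries_eq_single]
  simp

theorem coeff_sum_levelHom (l : ℕ → LevelField (inertiaField A) (N' * p)) (n : ℤ) :
    ((∑ i ∈ Finset.range B.idx, levelHom A p N' (l i) *
      algebraMap ℚbar (𝐅 (p * N')) B.unifQ ^ i : 𝐅 (p * N')) : LaurentSeries ℚbar).coeff n =
      ∑ i ∈ Finset.range B.idx, (levelHom A p N' (l i) : LaurentSeries ℚbar).coeff n *
        B.unifQ ^ i := by
  rw [AddSubmonoidClass.coe_finsetSum, HahnSeries.coeff_sum]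
  exact Finset.sum_congr rfl fun i _ => by rw [← map_pow, coeff_levelHom_smul]

/-- A coordinate is a combination of conjugates. -/
theorem exists_levelHom_coord {z : 𝐅 (p * N')} (hB : ∀ a ∈ inertiaField A, a ∈ B.S)
    (hz : z ∈ B.funField (p * N')) {i : ℕ} (hi : i < B.idx) :
    ∃ (s : Finset GQ) (a : GQ → ℚbar) (l : LevelField (inertiaField A) (N' * p)),
      levelHom A p N' l = ∑ σ ∈ s, a σ • (galN (p * N') σ • z) ∧
      ∀ (n : ℤ) (c : ℕ → ℚbar), (∀ j, c j ∈ inertiaField A) →
        (z : LaurentSeries ℚbar).coeff n = ∑ j ∈ Finset.range B.idx, c j * B.unifQ ^ j →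
        (levelHom A p N' l : LaurentSeries ℚbar).coeff n = c i := by
  obtain ⟨s, a, -, ha⟩ := B.exists_coord_functional hi
  set x : 𝐅 (p * N') := ∑ σ ∈ s, a σ • (galN (p * N') σ • z)
  have hcoeff : ∀ (n : ℤ) (c : ℕ → ℚbar), (∀ j, c j ∈ inertiaField A) →
      (z : LaurentSeries ℚbar).coeff n = ∑ j ∈ Finset.range B.idx, c j * B.unifQ ^ j →
      (x : LaurentSeries ℚbar).coeff n = c i := by
    intro n c hc hcz
    rw [← ha c hc, ← hcz, AddSubmonoidClass.coe_finsetSum, HahnSeries.coeff_sum]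
    refine Finset.sum_congr rfl fun σ _ => ?_
    rw [Algebra.smul_def, MulMemClass.coe_mul, IntermediateField.coe_algebraMap_apply,
      algebraMap_laurentSeries_eq_single, coe_galN_smul]
    simp
  have hfix : ∀ n : ℤ, (x : LaurentSeries ℚbar).coeff n ∈ inertiaField A := fun n => by
    obtain ⟨c, hc, hcz⟩ := B.inSpan_of_mem hB (mem_fixedFun_iff_coeff.mp hz n)
    rw [hcoeff n c hc hcz]
    exact hc i
  obtain ⟨l, hl⟩ := mem_range_levelHom (A := A) (x := x) fun σ hσ => Subtype.ext (by
    rw [coe_galN_smul]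
    ext n
    rw [coeffMap_coeff]
    exact mem_inertiaField.mp (hfix n) σ hσ)
  exact ⟨s, a, l, hl, fun n c hc hcz => by rw [hl]; exact hcoeff n c hc hcz⟩

theorem coord_unique {l l' : ℕ → LevelField (inertiaField A) (N' * p)}
    (h : ∑ i ∈ Finset.range B.idx, levelHom A p N' (l i) *
        algebraMap ℚbar (𝐅 (p * N')) B.unifQ ^ i =
      ∑ i ∈ Finset.range B.idx, levelHom A p N' (l' i) *
        algebraMap ℚbar (𝐅 (p * N')) B.unifQ ^ i) :
    ∀ i < B.idx, l i = l' i := by
  intro i hi
  refine (levelHom A p N').injective (Subtype.ext (HahnSeries.ext (funext fun n => ?_)))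
  have h' := congrArg (fun y : 𝐅 (p * N') => (y : LaurentSeries ℚbar).coeff n) h
  simp only [coeff_sum_levelHom] at h'
  rw [← sub_eq_zero]
  refine B.unif_indep (c := fun j => (levelHom A p N' (l j) : LaurentSeries ℚbar).coeff n -
    (levelHom A p N' (l' j) : LaurentSeries ℚbar).coeff n)
    (fun j => sub_mem (coeff_levelHom_mem _ n) (coeff_levelHom_mem _ n)) ?_ i hi
  simp_rw [sub_mul, Finset.sum_sub_distrib, sub_eq_zero]
  exact h'

/-- Functions over the local base are combinations of powers of the uniformiser. -/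
theorem mem_funField_iff (hB : ∀ a ∈ inertiaField A, a ∈ B.S) {z : 𝐅 (p * N')} :
    z ∈ B.funField (p * N') ↔ ∃ l : ℕ → LevelField (inertiaField A) (N' * p),
      z = ∑ i ∈ Finset.range B.idx, levelHom A p N' (l i) *
        algebraMap ℚbar (𝐅 (p * N')) B.unifQ ^ i := by
  constructor
  · intro hz
    choose s a l hl hc using fun i : Fin B.idx => exists_levelHom_coord B hB hz i.2
    refine ⟨fun i => if h : i < B.idx then l ⟨i, h⟩ else 0,
      Subtype.ext (HahnSeries.ext (funext fun n => ?_))⟩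
    obtain ⟨c, hcm, hcz⟩ := B.inSpan_of_mem hB (mem_fixedFun_iff_coeff.mp hz n)
    rw [coeff_sum_levelHom, hcz]
    refine Finset.sum_congr rfl fun i hi => ?_
    rw [dif_pos (Finset.mem_range.mp hi), hc ⟨i, Finset.mem_range.mp hi⟩ n c hcm hcz]
  · rintro ⟨l, rfl⟩
    refine mem_fixedFun_iff_coeff.mpr fun n => ?_
    rw [coeff_sum_levelHom]
    exact sum_mem fun i _ => mul_mem (hB _ (coeff_levelHom_mem _ n)) (pow_mem B.unifQ_mem i)

/-- Coordinates of a section are sections. -/
theorem coord_mem_rr (hB : ∀ a ∈ inertiaField A, a ∈ B.S) (n : ℕ)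
    {l : ℕ → LevelField (inertiaField A) (N' * p)}
    (h : ∑ i ∈ Finset.range B.idx, levelHom A p N' (l i) *
        algebraMap ℚbar (𝐅 (p * N')) B.unifQ ^ i ∈
      riemannRochSpace (n • poleDiv (K := ℚbar) (jBar ℚbar (p * N')))) :
    ∀ i < B.idx, levelHom A p N' (l i) ∈
      riemannRochSpace (n • poleDiv (K := ℚbar) (jBar ℚbar (p * N'))) := by
  intro i hi
  set z := ∑ i ∈ Finset.range B.idx, levelHom A p N' (l i) *
    algebraMap ℚbar (𝐅 (p * N')) B.unifQ ^ i with hzdef
  obtain ⟨s, a, l', hl', hc⟩ :=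
    exists_levelHom_coord B hB ((mem_funField_iff B hB).mpr ⟨l, rfl⟩) hi
  have e : levelHom A p N' (l i) = levelHom A p N' l' :=
    Subtype.ext (HahnSeries.ext (funext fun m =>
      (hc m (fun j => (levelHom A p N' (l j) : LaurentSeries ℚbar).coeff m)
        (fun j => coeff_levelHom_mem _ m) (coeff_sum_levelHom B l m)).symm))
  rw [e, hl']
  refine sum_mem fun σ _ => Submodule.smul_mem _ _ (mem_riemannRochSpace_iff.mpr fun v => ?_)
  set g := galN (p * N') σ
  rcases mem_riemannRochSpace_iff.mp h (g⁻¹ • v) with hy | hy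
  · exact Or.inl (by rw [← hzdef, hy, smul_zero])
  · refine Or.inr ?_
    have hj : g • jBar ℚbar (p * N') = jBar ℚbar (p * N') :=
      Subtype.ext (by rw [coe_galN_smul, coe_jBar, coeffMap_jqModC])
    have h1 : ∀ f : 𝐅 (p * N'), v.ord (g • f) = (g⁻¹ • v).ord f := fun f => by
      have := SemilinearAut.ord_smul g (g⁻¹ • v) f
      rwa [smul_inv_smul] at this
    have h2 : v.ord (jBar ℚbar (p * N')) = (g⁻¹ • v).ord (jBar ℚbar (p * N')) := by
      conv_lhs => rw [← hj]
      exact h1 _
    rw [Finsupp.smul_apply, poleDiv_apply] at hy ⊢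
    rw [h1, h2]
    exact hy

end FermatAgent.MazurPrinciple
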