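import Fermat.Agent.MazurPrinciple.LevelLink

/-!
# The components are reached by functions over the inertia field

The involution commutes with the extension of constants, and every residual function is the
reduction of a function over the inertia field.
-/

set_option autoImplicit false
set_option maxHeartbeats 800000

noncomputable section

namespace FermatAgent.MazurPrinciple

open AlgebraicCurve ModularCurve
open FermatAgent.Curve (IsFunctionField1 divisorOf)
open FermatAgent.BadRed.Semistable FermatAgent.BadRed.Carayol FermatAgent.BadRed.Carayol.Instance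
open FermatAgent.ModFun

local notation "ℚbar" => AlgebraicClosure ℚ
local notation "𝐅" N:max => laurentBaseChange ℚbar (modularFunctionFieldFull N)

attribute [local instance] ModCurveTorsion.isFunctionField1_laurent
attribute [local instance] isAlgClosed_residue

variable {p : ℕ} [Fact p.Prime] [NeZero p] {A : ValuationSubring ℚbar} (hA : A.LiesOverPrime p)
  {N' : ℕ} [NeZero N'] (hco : p.Coprime N')

theorem coeffMap_val_coeffEmb (y : LaurentSeries ℚ) :
    coeffMap ((inertiaField A).val : inertiaField A →+* ℚbar) (coeffEmb (inertiaField A) y) =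
      coeffEmb ℚbar y :=
  coeffMap_comp_coeffEmb _ y

/-- Extension of constants commutes with the involution. -/
theorem levelHom_swapQ (x : LevelField (inertiaField A) (N' * p)) :
    levelHom A p N' (swapQ (inertiaField A) N' hco x) =
      atkinLehnerBar hco ℚbar (levelHom A p N' x) := by
  let : Algebra (inertiaField A) (𝐅 (p * N')) :=
    ((algebraMap ℚbar (𝐅 (p * N'))).comp
      ((inertiaField A).val : inertiaField A →+* ℚbar)).toAlgebra
  let φ : LevelField (inertiaField A) (N' * p) →ₐ[inertiaField A] 𝐅 (p * N') :=
    { (levelHom A p N').comp (swapQ (inertiaField A) N' hco).toAlgHom.toRingHom with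
      commutes' := fun c => by
        show levelHom A p N' (swapQ (inertiaField A) N' hco (algebraMap _ _ c)) = _
        rw [AlgEquiv.commutes, levelHom_algebraMap]; rfl }
  let ψ : LevelField (inertiaField A) (N' * p) →ₐ[inertiaField A] 𝐅 (p * N') :=
    { (atkinLehnerBar hco ℚbar).toAlgHom.toRingHom.comp (levelHom A p N') with
      commutes' := fun c => by
        show atkinLehnerBar hco ℚbar (levelHom A p N' (algebraMap _ _ c)) = _
        rw [levelHom_algebraMap, AlgEquiv.commutes]; rfl }
  suffices h : φ = ψ from AlgHom.congr_fun h x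
  refine algHom_ext_toBaseChange (inertiaField A) fun y => ?_
  show levelHom A p N' (swapQ (inertiaField A) N' hco (toBaseChange _ _ y)) =
    atkinLehnerBar hco ℚbar (levelHom A p N' (toBaseChange _ _ y))
  let y' : modularFunctionFieldFull (p * N') :=
    ⟨(y : LaurentSeries ℚ), full_degeneracy_le (dvd_of_eq (mul_comm N' p)) y.2⟩
  have hL : levelHom A p N' (toBaseChange (inertiaField A) _ y) = toBaseChange ℚbar _ y' :=
    Subtype.ext (by
      rw [coe_levelHom, coe_toBaseChange, coe_toBaseChange]
      exact coeffMap_val_coeffEmb _)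
  rw [hL, atkinLehnerBar_toBaseChange]
  refine Subtype.ext ?_
  rw [coe_levelHom, coe_swapQ (inertiaField A) N' hco _
    (toBaseChange (inertiaField A) (modularFunctionFieldFull (p * N')) y')
    (by rw [coe_toBaseChange, coe_toBaseChange]), atkinLehnerBar_toBaseChange, coe_toBaseChange,
    coe_toBaseChange]
  exact coeffMap_val_coeffEmb _

/-- A reduction reaches the field generated by what it reaches. -/
theorem exists_red_eq_of_adjoin {K E k R F₁ : Type*} [Field K] [Field E] [Algebra K E] [Field k]
    [Field R] [Algebra k R] [Field F₁] {A : ValuationSubring K} {π : A →+* k}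
    {G : Set R} (g : GaussRed A π E (IntermediateField.adjoin k G))
    (hπ : Function.Surjective π) (θ : F₁ →+* E)
    (hconst : ∀ c : k, ∃ (f : F₁) (h : θ f ∈ g.integers), g.red ⟨θ f, h⟩ = algebraMap k _ c)
    (hgen : ∀ x ∈ G, ∃ (f : F₁) (h : θ f ∈ g.integers), (g.red ⟨θ f, h⟩ : R) = x)
    (φ : IntermediateField.adjoin k G) :
    ∃ (f : F₁) (h : θ f ∈ g.integers), g.red ⟨θ f, h⟩ = φ := by
  let S : IntermediateField k R :=
    { carrier := {x | ∃ (f : F₁) (h : θ f ∈ g.integers), (g.red ⟨θ f, h⟩ : R) = x}
      mul_mem' := by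
        rintro _ _ ⟨f, hf, rfl⟩ ⟨f', hf', rfl⟩
        refine ⟨f * f', by rw [map_mul]; exact mul_mem hf hf', ?_⟩
        rw [← MulMemClass.coe_mul, ← map_mul g.red]
        exact congrArg (fun z => (g.red z : R)) (Subtype.ext (map_mul θ f f'))
      one_mem' := ⟨1, by rw [map_one]; exact one_mem _, by
        rw [g.red_congr (map_one θ), show (⟨(1 : E), _⟩ : g.integers) = 1 from rfl, map_one]
        rfl⟩
      add_mem' := by
        rintro _ _ ⟨f, hf, rfl⟩ ⟨f', hf', rfl⟩
        refine ⟨f + f', by rw [map_add]; exact add_mem hf hf', ?_⟩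
        rw [← AddMemClass.coe_add, ← map_add g.red]
        exact congrArg (fun z => (g.red z : R)) (Subtype.ext (map_add θ f f'))
      zero_mem' := ⟨0, by rw [map_zero]; exact zero_mem _, by
        rw [g.red_congr (map_zero θ), show (⟨(0 : E), _⟩ : g.integers) = 0 from rfl, map_zero]
        rfl⟩
      algebraMap_mem' := fun c => by
        obtain ⟨f, hf, e⟩ := hconst c
        exact ⟨f, hf, by rw [e]; rfl⟩
      inv_mem' := by
        rintro _ ⟨f, hf, rfl⟩
        by_cases h0 : g.red ⟨_, hf⟩ = 0
        · refine ⟨0, by rw [map_zero]; exact zero_mem _, ?_⟩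
          rw [g.red_congr (map_zero θ), show (⟨(0 : E), _⟩ : g.integers) = 0 from rfl, map_zero, h0]
          simp
        · obtain ⟨hi, hie⟩ := g.inv_mem hπ hf h0
          refine ⟨f⁻¹, by rw [map_inv₀]; exact hi, ?_⟩
          rw [g.red_congr (map_inv₀ θ f), hie]
          rfl }
  have hle : IntermediateField.adjoin k G ≤ S :=
    IntermediateField.adjoin_le_iff.mpr fun x hx => hgen x hx
  obtain ⟨f, hf, e⟩ : (φ : R) ∈ S := hle φ.2
  exact ⟨f, hf, Subtype.ext e⟩

variable [IsFunctionField1 (IsLocalRing.ResidueField A) (FibField A N')]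

/-- Every residual function on the first component is a reduction over the inertia field. -/
theorem levelHom_surj₁ (φ : FibField A N') : ∃ (f : LevelField (inertiaField A) (N' * p))
    (h : levelHom A p N' f ∈ (levelData p A hA hco).g₁.integers),
      (levelData p A hA hco).g₁.red ⟨levelHom A p N' f, h⟩ = φ := by
  refine exists_red_eq_of_adjoin (levelData p A hA hco).g₁ IsLocalRing.residue_surjective
    (levelHom A p N') (fun c => ?_) ?_ φ
  · obtain ⟨a, ha, rfl⟩ := exists_lift_inertiaField Fact.out hA (IsLocalRing.residue A)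
      IsLocalRing.residue_surjective c
    have e : levelHom A p N' (algebraMap _ _ (⟨(a : ℚbar), ha⟩ : inertiaField A)) =
        algebraMap ℚbar (𝐅 (p * N')) (a : ℚbar) := levelHom_algebraMap _
    exact ⟨_, e.symm ▸ (levelData p A hA hco).g₁.algebraMap_mem a,
      (GaussRed.red_congr _ e _).trans ((levelData p A hA hco).g₁.red_algebraMap a)⟩
  · rintro _ ⟨m, hm, hmN, rfl⟩
    let f : LevelField (inertiaField A) (N' * p) := toBaseChange (inertiaField A) _
      ⟨qExpand ℚ m jq, jqd_mem_full _ (dvd_mul_of_dvd_left hmN p)⟩
    have hfs : (levelHom A p N' f : LaurentSeries ℚbar) =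
        coeffMap (Int.castRingHom ℚbar) (qExpand ℤ m (jqModC ℤ)) := by
      rw [coe_levelHom, coe_toBaseChange, coeffMap_val_coeffEmb, coeffEmb_qExpand, coeffMap_qExpand,
        coeffMap_jqModC]
    obtain ⟨h, e⟩ := levelData_red₁ hA hco _ hfs
    refine ⟨f, h, Eq.trans e ?_⟩
    rw [coeffMap_qExpand, coeffMap_jqModC]

/-- Every residual function on the second component is a reduction over the inertia field. -/
theorem levelHom_surj₂ (φ : FibField A N') : ∃ (f : LevelField (inertiaField A) (N' * p))
    (h : levelHom A p N' f ∈ (levelData p A hA hco).g₂.integers),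
      (levelData p A hA hco).g₂.red ⟨levelHom A p N' f, h⟩ = φ := by
  obtain ⟨f, hf, rfl⟩ := levelHom_surj₁ hA hco φ
  obtain ⟨h, e⟩ := levelData_red₂ hA hco (x := levelHom A p N' (swapQ (inertiaField A) N' hco f))
    (by rw [levelHom_swapQ, atkinLehnerBar_atkinLehnerBar]) hf
  exact ⟨_, h, e⟩

end FermatAgent.MazurPrinciple
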