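import Fermat.Agent.MazurPrinciple.NodeMake
import Fermat.Agent.MazurPrinciple.LevelRat
import Fermat.Agent.MazurPrinciple.LevelSurj
import Fermat.Agent.BadRed.Carayol.Instance.Chart

/-!
# The scalars of a local base at the chart of `X₀(p N')`
-/

set_option autoImplicit false
set_option linter.unusedSectionVars false
set_option maxHeartbeats 800000

noncomputable section

namespace FermatAgent.MazurPrinciple

open Polynomial AlgebraicCurve ModularCurve
open FermatAgent.Curve (IsFunctionField1 divisorOf)
open FermatAgent.BadRed.Semistable FermatAgent.BadRed.Carayol FermatAgent.BadRed.Carayol.Instance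
open FermatAgent.ModFun FermatAgent.ModCurveTorsion

local notation "ℚbar" => AlgebraicClosure ℚ
local notation "𝐅" N:max => laurentBaseChange ℚbar (modularFunctionFieldFull N)

attribute [local instance] ModCurveTorsion.isFunctionField1_laurent
attribute [local instance] isAlgClosed_residue

variable {p : ℕ} {A : ValuationSubring ℚbar} (B : LocalBase A p)

namespace LocalBase

variable (hB : ∀ a ∈ inertiaField A, a ∈ B.S)
include hB

/-- The integers of the inertia field among those of the local base. -/
def inertiaToInt : inertiaRing A →+* B.int :=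
  ((inertiaField A).val.toRingHom.comp (inertiaRing A).subtype).codRestrict B.int
    fun x => ⟨x.2, hB _ (x : inertiaField A).2⟩

theorem coe_inertiaToInt (x : inertiaRing A) :
    ((B.inertiaToInt hB x : B.int) : ℚbar) = ((x : inertiaField A) : ℚbar) := rfl

/-- The uniformiser satisfies an integral equation over the inertia field. -/
theorem exists_unif_rel : ∃ c : ℕ → inertiaRing A,
    B.unif ^ B.idx = ∑ i ∈ Finset.range B.idx, inertiaIncl A (c i) * B.unif ^ i := by
  classical
  obtain ⟨c, hc, he⟩ := B.inSpan_of_mem hB (pow_mem B.unifQ_mem B.idx)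
  have hcA := B.coord_mem_of_mem hc he (pow_mem B.unif.2 _)
  refine ⟨fun i => if h : i < B.idx then ⟨⟨c i, hc i⟩, hcA i h⟩ else 0, Subtype.ext ?_⟩
  rw [SubmonoidClass.coe_pow, AddSubmonoidClass.coe_finsetSum]
  refine he.trans (Finset.sum_congr rfl fun i hi => ?_)
  simp only [dif_pos (Finset.mem_range.mp hi)]
  rfl

/-- A constant of the local base has coordinates with a common denominator. -/
theorem exists_denom_coord {x : ℚbar} (hx : x ∈ B.S) : ∃ (m : ℕ) (a : ℕ → inertiaRing A),
    (p : ℚbar) ^ m * x = ∑ i ∈ Finset.range B.idx, (inertiaIncl A (a i) : ℚbar) * B.unifQ ^ i := by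
  classical
  obtain ⟨c, hc, he⟩ := B.inSpan_of_mem hB hx
  have hN : ∀ i, ∃ m : ℕ, (p : ℚbar) ^ m * c i ∈ A := fun i => by
    rcases eq_or_ne (c i) 0 with h | h
    · exact ⟨0, by rw [h, mul_zero]; exact zero_mem _⟩
    obtain ⟨k, hk⟩ := val_inertiaField B.prime B.liesOver _ (hc i) h
    have hv0 : A.valuation (p : ℚbar) ≠ 0 := TW.natCast_val_ne_zero A B.prime
    refine ⟨(-k).toNat, (A.valuation_le_one_iff _).mp ?_⟩
    rw [map_mul, map_pow, hk, ← zpow_natCast, ← zpow_add₀ hv0]
    exact le_of_le_of_eq (zpow_le_zpow_right_of_le_one₀ (zero_lt_iff.mpr hv0)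
      (le_of_lt B.liesOver) (show (0 : ℤ) ≤ _ by omega)) (zpow_zero _)
  choose f hf using hN
  set m := (Finset.range B.idx).sup f
  have hm : ∀ i < B.idx, (p : ℚbar) ^ m * c i ∈ A := fun i hi => by
    have hle : f i ≤ m := Finset.le_sup (f := f) (Finset.mem_range.mpr hi)
    rw [← Nat.sub_add_cancel hle, pow_add, mul_assoc]
    exact mul_mem (pow_mem (natCast_mem A p) _) (hf i)
  refine ⟨m, fun i => if h : i < B.idx then
    ⟨⟨(p : ℚbar) ^ m * c i, mul_mem (pow_mem (natCast_mem _ p) _) (hc i)⟩, hm i h⟩ else 0, ?_⟩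
  rw [he, Finset.mul_sum]
  refine Finset.sum_congr rfl fun i hi => ?_
  simp only [dif_pos (Finset.mem_range.mp hi)]
  rw [← mul_assoc]
  rfl

end LocalBase

/-- Integrality descends to a subfield over which the constants are algebraic. -/
theorem isIntegral_of_hom {K L F₁ E : Type*} [Field K] [Field L] [Field F₁] [Field E] [Algebra K L]
    [Algebra K F₁] [Algebra L E] [Algebra.IsAlgebraic K L] (θ : F₁ →+* E)
    (hθ : ∀ c : K, θ (algebraMap K F₁ c) = algebraMap L E (algebraMap K L c)) {t f : F₁}
    (h : IsIntegral (Algebra.adjoin L {θ t}) (θ f)) : IsIntegral (Algebra.adjoin K {t}) f := by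
  let : Algebra K E := ((algebraMap L E).comp (algebraMap K L)).toAlgebra
  have : IsScalarTower K L E := IsScalarTower.of_algebraMap_eq fun _ => rfl
  let θK : F₁ →ₐ[K] E := { θ with commutes' := hθ }
  let : Algebra (Algebra.adjoin K {t}) E :=
    (θ.comp (Algebra.adjoin K {t}).val.toRingHom).toAlgebra
  have : IsScalarTower (Algebra.adjoin K {t}) (Algebra.adjoin K {t}) E := inferInstance
  let C := integralClosure (Algebra.adjoin K {t}) E
  have hL : ∀ c : L, algebraMap L E c ∈ C := fun c => by
    obtain ⟨P, hP, hPc⟩ := (Algebra.IsAlgebraic.isAlgebraic (R := K) c).isIntegral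
    refine ⟨P.map (algebraMap K (Algebra.adjoin K {t})), hP.map _, ?_⟩
    rw [eval₂_map]
    have h0 := congrArg (algebraMap L E) hPc
    rw [map_zero, hom_eval₂] at h0
    rw [← h0]
    exact eval₂_congr (RingHom.ext fun a => hθ a) rfl rfl
  have ht : θ t ∈ C :=
    isIntegral_algebraMap (x := (⟨t, Algebra.self_mem_adjoin_singleton K t⟩ : Algebra.adjoin K {t}))
  have hsub : ∀ r : Algebra.adjoin L {θ t}, (r : E) ∈ C := fun r =>
    Algebra.adjoin_induction (p := fun y _ => y ∈ C) (by rintro _ rfl; exact ht) hL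
      (fun _ _ _ _ ha hb => add_mem ha hb) (fun _ _ _ _ ha hb => mul_mem ha hb) r.2
  have hC : IsIntegral C (θ f) := by
    obtain ⟨P, hP, hPf⟩ := h
    refine ⟨P.map ((algebraMap (Algebra.adjoin L {θ t}) E).codRestrict C.toSubring hsub), hP.map _, ?_⟩
    rw [eval₂_map]
    exact hPf
  obtain ⟨P, hP, hPf⟩ := isIntegral_trans (R := Algebra.adjoin K {t}) (A := C) (θ f) hC
  refine ⟨P, hP, θ.injective ?_⟩
  rw [map_zero, hom_eval₂]
  exact hPf

variable [Fact p.Prime] [NeZero p] (hA : A.LiesOverPrime p) {N' : ℕ} [NeZero N']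
  (hco : p.Coprime N') [IsFunctionField1 (IsLocalRing.ResidueField A) (FibField A N')]
  [IsDiscreteValuationRing (inertiaRing A)] (H : Hauptmodul p) (hN : H.L ∣ N')
  (hpN : ¬ p ∣ N') {R : ℤ[X]} (hR : IsCuspPoly H R) (hB : ∀ a ∈ inertiaField A, a ∈ B.S)

theorem algebraicInertia : Algebra.IsAlgebraic (inertiaField A) ℚbar :=
  haveI : Algebra.IsAlgebraic ℚ ℚbar := AlgebraicClosure.isAlgebraic ℚ
  ⟨fun x => ((Algebra.IsAlgebraic.isAlgebraic (R := ℚ) x).isIntegral.tower_top).isAlgebraic⟩

include hA hR in
theorem levelHom_aeval_cusp :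
    levelHom A p N' (aeval ((tower (inertiaField A) N' hpN).t (uElt (inertiaField A) H hN))
        (∏ a ∈ cuspSet R (inertiaRing A), (X - C a))) =
      aeval (tCoord H hN) (R.map (Int.castRingHom ℚbar)) := by
  rw [prod_cuspSet H hR (splits_inertiaRing Fact.out hA hR.monic hR.separable)
    (residue_natCast_inertiaRing hA)]
  rw [show Int.castRingHom (inertiaRing A) = algebraMap ℤ (inertiaRing A) from RingHom.ext_int _ _,
    aeval_map_algebraMap, show Int.castRingHom ℚbar = algebraMap ℤ ℚbar from RingHom.ext_int _ _,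
    aeval_map_algebraMap, aeval_def, hom_eval₂, aeval_def]
  exact eval₂_congr (RingHom.ext_int _ _) (levelHom_beta (A := A) H hN) rfl

/-- The scalars at the chart. -/
def levelScalars : NodeScalars (levelLink hA hco H hN hpN hR) (B.funField (p * N'))
    (cuspSet R (inertiaRing A)) B.unif B.unifW where
  irreducible := B.irreducible_unifW
  unif_ne_zero := B.unif_ne_zero
  pi_unif := B.pi_unif _ IsLocalRing.residue_surjective
  res := B.resW (IsLocalRing.residue A) IsLocalRing.residue_surjective
  res_unif := B.resW_unifW _ _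
  φ := (algebraMap B.int B.W).comp (B.inertiaToInt hB)
  res_φ c := B.resW_algebraMap _ _ _
  e := B.idx
  e_pos := B.idx_pos
  ω := algebraMap B.int B.W (B.exists_p_eq_idx.choose : B.int)
  isUnit_ω := B.exists_p_eq_idx.choose.isUnit.map _
  φ_q := by
    have h := congrArg (algebraMap B.int B.W) B.exists_p_eq_idx.choose_spec
    rw [map_natCast, map_mul, map_pow] at h
    rw [map_natCast, h, mul_comm]
    rfl
  q_eq := by
    obtain ⟨u, hu⟩ := B.exists_p_eq_idx
    refine ⟨⟨((u : B.int) : ℚbar), (u : B.int).2.1⟩, fun h => ?_, Subtype.ext ?_⟩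
    · rw [IsLocalRing.residue_eq_zero_iff] at h
      exact ((A.valuation_lt_one_iff _).1 h).ne (B.val_unit u)
    · have e := congrArg Subtype.val hu
      rw [show ((p : B.int) : ℚbar) = (p : ℚbar) from map_natCast B.int.subtype p] at e
      rw [show ((p : A) : ℚbar) = (p : ℚbar) from map_natCast A.subtype p, e]
      rfl
  c := (B.exists_unif_rel hB).choose
  rel := (B.exists_unif_rel hB).choose_spec
  relW := by
    have h : B.unifO ^ B.idx = ∑ i ∈ Finset.range B.idx,
        B.inertiaToInt hB ((B.exists_unif_rel hB).choose i) * B.unifO ^ i := Subtype.ext (by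
      have h' := congrArg Subtype.val (B.exists_unif_rel hB).choose_spec
      rw [SubmonoidClass.coe_pow, AddSubmonoidClass.coe_finsetSum] at h' ⊢
      exact h')
    have h' := congrArg (algebraMap B.int B.W) h
    simp only [map_pow, map_sum, map_mul] at h'
    exact h'
  mem_E _ := mem_funField_iff B hB
  indep l hl i hi := coord_unique B (l' := fun _ => 0)
    (hl.trans (Finset.sum_eq_zero fun j _ => by rw [map_zero, zero_mul]).symm) i hi
  coord_rr n _ h := coord_mem_rr B hB n h
  integral n f hf := by
    have := algebraicInertia (A := A)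
    obtain ⟨M, hM⟩ := exists_pow_mul_integral_tCoord hco H hN hR n hf
    refine ⟨M, isIntegral_of_hom (L := ℚbar) (levelHom A p N') (fun c => levelHom_algebraMap c) ?_⟩
    rw [map_mul, map_pow, levelHom_aeval_cusp hA H hN hpN hR,
      show levelHom A p N' ((tower (inertiaField A) N' hpN).t (uElt (inertiaField A) H hN)) =
        tCoord H hN from levelHom_beta (A := A) H hN]
    exact hM
  surj₁ := levelHom_surj₁ hA hco
  surj₂ := levelHom_surj₂ hA hco
  const_coord x hx := by
    obtain ⟨m, a, ha⟩ := B.exists_denom_coord hB (algebraMap_mem_fixedFun.mp hx)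
    refine ⟨(p : inertiaRing A) ^ m, pow_ne_zero _ (natCast_ne_zero_inertiaRing Fact.out), a, ?_⟩
    show ((inertiaIncl A ((p : inertiaRing A) ^ m) : A) : ℚbar) * x = _
    rw [map_pow, map_natCast, SubmonoidClass.coe_pow,
      show ((p : A) : ℚbar) = (p : ℚbar) from map_natCast A.subtype p]
    exact ha
  isIntegral_const := isIntegral_constants
  ord_one := exists_ord_one

end FermatAgent.MazurPrinciple
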