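import Fermat.Agent.MazurPrinciple.NodeTwist
import Fermat.Agent.MazurPrinciple.LevelScalars
import Fermat.Agent.MazurPrinciple.Invariant
import Fermat.Agent.BadRed.AtP.UpGalois

/-!
# Inertia as a twist of the nodal datum

An element of inertia stabilising the local base acts on the datum preserving both reductions,
and at the nodes through its action on the completed scalars.
-/

set_option autoImplicit false
set_option linter.unusedSectionVars false
set_option maxHeartbeats 800000

noncomputable section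

namespace FermatAgent.MazurPrinciple

open Polynomial AlgebraicCurve ModularCurve IsLocalRing
open FermatAgent.Curve (IsFunctionField1 divisorOf)
open FermatAgent.BadRed.Semistable FermatAgent.BadRed.Carayol FermatAgent.BadRed.Carayol.Instance
open FermatAgent.ModFun FermatAgent.ModCurveTorsion

local notation "ℚbar" => AlgebraicClosure ℚ
local notation "GQ" => AlgebraicClosure ℚ ≃ₐ[ℚ] AlgebraicClosure ℚ
local notation "𝐅" N:max => laurentBaseChange ℚbar (modularFunctionFieldFull N)

attribute [local instance] ModCurveTorsion.isFunctionField1_laurent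
attribute [local instance] isAlgClosed_residue

variable {p : ℕ} {A : ValuationSubring ℚbar}

theorem val_inertia {σ : GQ} (hσ : σ ∈ A.inertiaSubgroupIn ℚ) (x : ℚbar) :
    A.valuation (σ x) = A.valuation x :=
  haveI : Algebra.IsAlgebraic ℚ ℚbar := AlgebraicClosure.isAlgebraic ℚ
  Local.decomposition_val_eq (Local.mem_decomposition_of_inertia hσ) x

/-- Inertia on the integers of the place. -/
def inertiaInt {σ : GQ} (hσ : σ ∈ A.inertiaSubgroupIn ℚ) : A →+* A :=
  ((σ : ℚbar →+* ℚbar).comp A.subtype).codRestrict A.toSubring fun a =>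
    (Local.decomposition_mem_iff (Local.mem_decomposition_of_inertia hσ) _).mpr a.2

theorem residue_inertiaInt {σ : GQ} (hσ : σ ∈ A.inertiaSubgroupIn ℚ) (a : A) :
    residue A (inertiaInt hσ a) = residue A a := by
  rw [← sub_eq_zero, ← map_sub, residue_eq_zero_iff]
  exact (A.valuation_lt_one_iff _).2 (Local.inertia_val_sub_lt_one hσ a.2)

/-- A Gauss valuation of series is invariant under inertia, which does not move reductions. -/
theorem seriesGauss_inertia [Fact p.Prime] [CharP (ResidueField A) p] {σ : GQ}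
    (hσ : σ ∈ A.inertiaSubgroupIn ℚ) (M : ℕ) [NeZero M] {x : 𝐅 M}
    (h : x ∈ (seriesGauss p M (residue_surjective (R := A))).integers) :
    ∃ h' : galN M σ • x ∈ (seriesGauss p M (residue_surjective (R := A))).integers,
      (seriesGauss p M (residue_surjective (R := A))).red ⟨_, h'⟩ =
        (seriesGauss p M (residue_surjective (R := A))).red ⟨x, h⟩ := by
  obtain ⟨y, z, hyz⟩ := mem_fieldInt (A := A) (π := residue A) M h
  have hc : ∀ w : LaurentSeries A, coeffMap A.subtype (coeffMap (inertiaInt hσ) w) =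
      coeffMap (σ : ℚbar →+* ℚbar) (coeffMap A.subtype w) := fun w => by
    rw [coeffMap_coeffMap, coeffMap_coeffMap]
    exact coeffMap_congr (RingHom.ext fun _ => rfl) _
  have hr : ∀ w : LaurentSeries A,
      coeffMap (residue A) (coeffMap (inertiaInt hσ) w) = coeffMap (residue A) w := fun w => by
    rw [coeffMap_coeffMap]
    exact coeffMap_congr (RingHom.ext fun a => residue_inertiaInt hσ a) _
  have h' : IsSeriesRep A (residue A) ((galN M σ • x : 𝐅 M) : LaurentSeries ℚbar)
      (coeffMap (inertiaInt hσ) y) (coeffMap (inertiaInt hσ) z) :=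
    ⟨by rw [hr]; exact hyz.1, by
      rw [hc, hc, coe_galN_smul, ← map_mul, hyz.2]⟩
  obtain ⟨hf', e'⟩ := seriesGauss_red_of_rep (M := M) p (residue_surjective (R := A)) h'
  obtain ⟨hf, e⟩ := seriesGauss_red_of_rep (M := M) p (residue_surjective (R := A)) hyz
  exact ⟨hf', by rw [e', hr, hr, ← e]⟩

variable [Fact p.Prime] [NeZero p] (hA : A.LiesOverPrime p) {N' : ℕ} [NeZero N']
  (hco : p.Coprime N') [IsFunctionField1 (IsLocalRing.ResidueField A) (FibField A N')]
  {σ : GQ} (hσ : σ ∈ A.inertiaSubgroupIn ℚ)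

include hσ in
theorem levelData_inertia₁ {x : 𝐅 (p * N')} (h : x ∈ (levelData p A hA hco).g₁.integers) :
    ∃ h' : galN (p * N') σ • x ∈ (levelData p A hA hco).g₁.integers,
      (levelData p A hA hco).g₁.red ⟨_, h'⟩ = (levelData p A hA hco).g₁.red ⟨x, h⟩ := by
  have := charP_residue_place p A hA
  obtain ⟨h', e⟩ := seriesGauss_inertia (p := p) hσ (p * N') h
  exact ⟨h', Subtype.ext e⟩

include hσ in
theorem levelData_inertia₂ {x : 𝐅 (p * N')} (h : x ∈ (levelData p A hA hco).g₂.integers) :
    ∃ h' : galN (p * N') σ • x ∈ (levelData p A hA hco).g₂.integers,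
      (levelData p A hA hco).g₂.red ⟨_, h'⟩ = (levelData p A hA hco).g₂.red ⟨x, h⟩ := by
  have := charP_residue_place p A hA
  obtain ⟨h₁, e₁⟩ := levelData_inertia₁ hA hco hσ
    (x := atkinLehnerBar hco ℚbar x) h
  have e : atkinLehnerBar hco ℚbar (galN (p * N') σ • x) =
      galN (p * N') σ • atkinLehnerBar hco ℚbar x := BadRed.AtP.atkinLehnerBar_galN hco σ x
  obtain ⟨h₂, e₂⟩ := levelData_red₂ hA hco e h₁
  exact ⟨h₂, e₂.trans e₁⟩

variable (B : LocalBase A p) (hσS : ∀ x ∈ B.S, σ x ∈ B.S)

theorem galN_smul_jBar (σ : GQ) (M : ℕ) [NeZero M] :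
    galN M σ • jBar ℚbar M = jBar ℚbar M :=
  Subtype.ext (by rw [coe_galN_smul, coe_jBar, coeffMap_jqModC])

theorem ord_galN_smul (σ : GQ) {M : ℕ} [NeZero M] (P : Place ℚbar (𝐅 M)) (f : 𝐅 M) :
    P.ord (galN M σ • f) = ((galN M σ)⁻¹ • P).ord f := by
  have := SemilinearAut.ord_smul (galN M σ) ((galN M σ)⁻¹ • P) f
  rwa [smul_inv_smul] at this

include hσ hσS in
/-- Inertia as a twist. -/
def levelTwist : Twist (levelData p A hA hco) (B.funField (p * N')) B.unif where
  σ := σ.toRingEquiv
  τ := SemilinearAut.toRingAut (galN (p * N') σ)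
  map_smul c x := by
    rw [Algebra.smul_def, map_mul, SemilinearAut.commutes, Algebra.smul_def]
    rfl
  map_unif := by
    refine ⟨σ B.unifQ / B.unifQ, (A.valuation_le_one_iff _).mp ?_, ?_⟩
    · rw [map_div₀, val_inertia hσ, div_self ((_root_.map_ne_zero _).2 B.unifQ_ne_zero)]
    · exact (div_mul_cancel₀ _ B.unifQ_ne_zero).symm
  mem_E x hx := mem_fixedFun_iff_coeff.mpr fun n => by
    show ((galN (p * N') σ • x : 𝐅 (p * N')) : LaurentSeries ℚbar).coeff n ∈ B.base
    rw [coe_galN_smul, coeffMap_coeff]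
    exact hσS _ (mem_fixedFun_iff_coeff.mp hx n)
  mem₁ x h := by
    obtain ⟨h', e⟩ := levelData_inertia₁ hA hco hσ h
    exact ⟨h', fun hne he => hne (e.symm.trans he)⟩
  mem₂ x h := by
    obtain ⟨h', e⟩ := levelData_inertia₂ hA hco hσ h
    exact ⟨h', fun hne he => hne (e.symm.trans he)⟩
  place P := ⟨(galN (p * N') σ)⁻¹ • P, ord_galN_smul σ P⟩
  mem_rr n x hx := by
    show galN (p * N') σ • x ∈ riemannRochSpace (n • poleDiv (jBar ℚbar (p * N')))
    refine mem_riemannRochSpace_iff.mpr fun v => ?_
    rcases mem_riemannRochSpace_iff.mp hx ((galN (p * N') σ)⁻¹ • v) with h | h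
    · exact Or.inl (by rw [h, smul_zero])
    refine Or.inr ?_
    have hj := ord_galN_smul σ v (jBar ℚbar (p * N'))
    rw [galN_smul_jBar] at hj
    simp only [NodalDatum.D, levelData_z, Finsupp.smul_apply, poleDiv_apply] at h ⊢
    rw [ord_galN_smul σ v x, hj]
    exact h

/-! ### The action on the completed scalars -/

include hσ hσS

/-- Inertia on the integers of the local base. -/
def intTwist : B.int →+* B.int :=
  ((σ : ℚbar →+* ℚbar).comp B.int.subtype).codRestrict B.int fun a =>
    ⟨(Local.decomposition_mem_iff (Local.mem_decomposition_of_inertia hσ) _).mpr a.2.1,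
      hσS _ a.2.2⟩

theorem coe_intTwist (a : B.int) : ((intTwist hσ B hσS a : B.int) : ℚbar) = σ a := rfl

theorem exists_intTwist_unif : ∃ u : B.intˣ, intTwist hσ B hσS B.unifO = u * B.unifO := by
  have hne : intTwist hσ B hσS B.unifO ≠ 0 := fun h =>
    B.unifQ_ne_zero (σ.injective ((congrArg Subtype.val h).trans (map_zero σ).symm))
  obtain ⟨n, u, hu⟩ := B.exists_factor hne
  refine ⟨u, ?_⟩
  have hv := congrArg (fun y : B.int => A.valuation (y : ℚbar)) hu
  simp only [coe_intTwist, val_inertia hσ, Subring.coe_mul, SubmonoidClass.coe_pow, map_mul,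
    map_pow, B.val_unit u, mul_one] at hv
  have h1 : n = 1 := ((pow_right_strictAnti₀ (zero_lt_iff.mpr ((_root_.map_ne_zero _).2 B.unifQ_ne_zero))
    B.val_unifQ_lt_one).injective ((pow_one _).trans hv)).symm
  rw [hu, h1, pow_one, mul_comm]

theorem intTwist_mem_pow (n : ℕ) {x : B.int} (hx : x ∈ maximalIdeal B.int ^ n) :
    intTwist hσ B hσS x ∈ maximalIdeal B.int ^ n := by
  rw [B.maximalIdeal_eq, Ideal.span_singleton_pow, Ideal.mem_span_singleton] at hx ⊢
  obtain ⟨y, rfl⟩ := hx
  obtain ⟨u, hu⟩ := exists_intTwist_unif hσ B hσS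
  rw [map_mul, map_pow, hu, mul_pow]
  exact ⟨(u : B.int) ^ n * intTwist hσ B hσS y, by ring⟩

/-- Inertia modulo a power of the maximal ideal, from the completion. -/
def levTwist (n : ℕ) : B.W →+* B.int ⧸ maximalIdeal B.int ^ n :=
  (Ideal.Quotient.lift _ ((Ideal.Quotient.mk _).comp (intTwist hσ B hσS))
      fun _ hx => Ideal.Quotient.eq_zero_iff_mem.mpr (intTwist_mem_pow hσ B hσS n hx)).comp
    (AdicCompletion.evalₐ (maximalIdeal B.int) n).toRingHom

theorem levTwist_compat {m n : ℕ} (hle : m ≤ n) :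
    (Ideal.Quotient.factorPow (maximalIdeal B.int) hle).comp (levTwist hσ B hσS n) =
      levTwist hσ B hσS m := by
  refine RingHom.ext fun x => ?_
  induction x using AdicCompletion.induction_on with
  | _ a =>
    simp only [levTwist, RingHom.comp_apply, AlgHom.toRingHom_eq_coe, RingHom.coe_coe,
      AdicCompletion.evalₐ_mk, Ideal.Quotient.lift_mk, Ideal.Quotient.factor_mk]
    rw [Ideal.Quotient.eq, ← map_sub]
    refine intTwist_mem_pow hσ B hσS m (Ideal.Quotient.eq.mp ?_)
    exact AdicCompletion.Ideal.mk_eq_mk _ hle a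

/-- Inertia on the completion. -/
def wTwist : B.W →+* B.W :=
  AdicCompletion.liftRingHom (maximalIdeal B.int) (levTwist hσ B hσS)
    fun hle => levTwist_compat hσ B hσS hle

theorem wTwist_algebraMap (a : B.int) :
    wTwist hσ B hσS (algebraMap B.int B.W a) = algebraMap B.int B.W (intTwist hσ B hσS a) := by
  refine AdicCompletion.ext_evalₐ fun n => ?_
  refine (AdicCompletion.evalₐ_liftRingHom (maximalIdeal B.int) (levTwist hσ B hσS)
    (fun hle => levTwist_compat hσ B hσS hle) n _).trans ?_
  simp [levTwist, AlgHom.commutes, Ideal.Quotient.algebraMap_eq]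

/-- Inertia on the scalars. -/
def scalarTwist : ScalarTwist B.unifW where
  σ := wTwist hσ B hσS
  ε := Units.map (algebraMap B.int B.W).toMonoidHom (exists_intTwist_unif hσ B hσS).choose
  map_unif := by
    rw [LocalBase.unifW, wTwist_algebraMap]
    exact ((congrArg (algebraMap B.int B.W) (exists_intTwist_unif hσ B hσS).choose_spec)).trans
      (map_mul _ _ _)

theorem scalarTwist_algebraMap (a : B.int) :
    (scalarTwist hσ B hσS).σ (algebraMap B.int B.W a) =
      algebraMap B.int B.W (intTwist hσ B hσS a) :=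
  wTwist_algebraMap hσ B hσS a

end FermatAgent.MazurPrinciple
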