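import Fermat.Agent.MazurPrinciple.Residual
import Fermat.Agent.MazurPrinciple.Bridge
import Fermat.Agent.MazurPrinciple.LevelTwist
import Fermat.Agent.BadRed.AtP.UpLevel

/-!
# Eigen functions of level `p N` reduce to residual eigen functions of level `N`

If `T ℓ u` is a constant times `u ^ a` times a `p`-th power and `u` is a unit on the first
component of `X₀(p N)`, its reduction satisfies the residual eigen relation at level `N`.
-/

set_option autoImplicit false
set_option linter.unusedSectionVars false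

noncomputable section

namespace FermatAgent.MazurPrinciple

open AlgebraicCurve ModularCurve IsLocalRing
open FermatAgent.Curve (IsFunctionField1)
open FermatAgent.JacCharts (GoodReductionDatum)
open FermatAgent.BadRed.Semistable
open FermatAgent.BadRed (AtP.levelHecke₁)
open FermatAgent.BadRed.AtP (rootK twistProd' twistProd'_mul qShrink qExpand_heckeNorm rootK_primitive
  heckeRep coeffMap_qShrink_twistProd' exists_rootUnit qTwist_ne_zero)
open FermatAgent.ModFun FermatAgent.ES

local notation "Qb" => AlgebraicClosure ℚ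
local notation "𝐅" N:max => laurentBaseChange Qb (modularFunctionFieldFull N)

attribute [local instance] ModCurveTorsion.isFunctionField1_laurent
attribute [local instance] isAlgClosed_residue

/-- The residual norm of a Hecke correspondence on series. -/
def redHecke {k : Type*} [Field k] (ℓ : ℕ) [NeZero ℓ] (u : kˣ) (f : LaurentSeries k) :
    LaurentSeries k :=
  qExpand k ℓ (qExpand k ℓ f) * twistProd' ℓ u f

theorem redHecke_mul {k : Type*} [Field k] (ℓ : ℕ) [NeZero ℓ] (u : kˣ) (f g : LaurentSeries k) :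
    redHecke ℓ u (f * g) = redHecke ℓ u f * redHecke ℓ u g := by
  simp only [redHecke, map_mul, twistProd'_mul]
  ring

theorem redHecke_ne_zero {k : Type*} [Field k] (ℓ : ℕ) [NeZero ℓ] (u : kˣ) {f : LaurentSeries k}
    (hf : f ≠ 0) : redHecke ℓ u f ≠ 0 :=
  mul_ne_zero ((map_ne_zero_iff _ (qExpand_injective (R := k) ℓ)).mpr
      ((map_ne_zero_iff _ (qExpand_injective (R := k) ℓ)).mpr hf))
    (Finset.prod_ne_zero_iff.mpr fun _ _ => qTwist_ne_zero _ hf)

/-- The reduction of the norm is the residual norm of the reduction. -/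
theorem exists_rep_redHecke {K : Type*} [Field K] {A : ValuationSubring K} {k : Type*} [Field k]
    {π : A →+* k} {ℓ : ℕ} [Fact ℓ.Prime] [NeZero ℓ] {u : Aˣ} (hu : IsPrimitiveRoot u ℓ)
    {x n : LaurentSeries K}
    (hn : qExpand K ℓ n = qExpand K ℓ (qExpand K ℓ x) * twistProd' ℓ (rootK u) x)
    {y z : LaurentSeries A} (h : IsSeriesRep A π x y z) :
    ∃ Y Z, IsSeriesRep A π n Y Z ∧ qExpand k ℓ (coeffMap π Y / coeffMap π Z) =
      redHecke ℓ (Units.map π.toMonoidHom u) (coeffMap π y / coeffMap π z) := by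
  refine ⟨_, _, heckeRep hu hn h, ?_⟩
  have e : ∀ w : LaurentSeries A,
      qExpand k ℓ (coeffMap π (qExpand A ℓ w * qShrink ℓ (twistProd' ℓ u w))) =
        redHecke ℓ (Units.map π.toMonoidHom u) (coeffMap π w) := fun w => by
    rw [map_mul, map_mul, coeffMap_qShrink_twistProd' hu, coeffMap_qExpand]
    rfl
  rw [map_div₀, e, e, eq_comm, eq_div_iff (redHecke_ne_zero ℓ _ h.1), ← redHecke_mul,
    div_mul_cancel₀ _ h.1]

variable {p : ℕ} [hp : Fact p.Prime] {A : ValuationSubring Qb} (hA : A.LiesOverPrime p)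
  {N : ℕ} [NeZero N] [NeZero (p * N)] (hN : p.Coprime N)
  [IsFunctionField1 (ResidueField A) (FibField A N)]

/-- Reductions on the first component are computed by series. -/
theorem levelData_red_of_rep {x : 𝐅 (p * N)} {y z : LaurentSeries A}
    (h : IsSeriesRep A (residue A) (x : LaurentSeries Qb) y z) :
    ∃ hx : x ∈ (levelData p A hA hN).g₁.integers,
      (((levelData p A hA hN).g₁.red ⟨x, hx⟩ : FibField A N) : LaurentSeries (ResidueField A)) =
        coeffMap (residue A) y / coeffMap (residue A) z := by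
  have := charP_residue_place p A hA
  obtain ⟨hf, e⟩ := seriesGauss_red_of_rep (M := p * N) p (residue_surjective (R := A)) h
  exact ⟨hf, e⟩

/-- An integer of the first component has a series representation. -/
theorem exists_rep_of_mem {x : 𝐅 (p * N)} (h : x ∈ (levelData p A hA hN).g₁.integers) :
    ∃ y z, IsSeriesRep A (residue A) (x : LaurentSeries Qb) y z := by
  have := charP_residue_place p A hA
  exact mem_fieldInt (p * N) h

/-- Integral powers of units reduce to powers. -/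
theorem exists_red_zpow {K : Type*} [Field K] {B : ValuationSubring K} {k : Type*} [Field k]
    {π : B →+* k} {F : Type*} [Field F] [Algebra K F] {Fb : Type*} [Field Fb] [Algebra k Fb]
    (g : GaussRed B π F Fb) (hπ : Function.Surjective π) {x : F} (hx : IsUnitAt g x) (a : ℤ) :
    ∃ h : x ^ a ∈ g.integers, g.red ⟨x ^ a, h⟩ = g.red ⟨x, hx.1⟩ ^ a := by
  obtain ⟨n, rfl | rfl⟩ := a.eq_nat_or_neg
  · refine ⟨by rw [zpow_natCast]; exact pow_mem hx.1 n, ?_⟩
    rw [zpow_natCast (g.red ⟨x, hx.1⟩), ← map_pow]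
    exact congrArg g.red (Subtype.ext (zpow_natCast x n))
  · obtain ⟨hi, ei⟩ := g.inv_mem hπ hx.1 hx.2
    have key : x ^ (-(n : ℤ)) = x⁻¹ ^ n := by rw [zpow_neg, zpow_natCast, inv_pow]
    have hm : x ^ (-(n : ℤ)) ∈ g.integers := key ▸ pow_mem hi n
    refine ⟨hm, (g.red_congr key hm).trans ?_⟩
    rw [zpow_neg (g.red ⟨x, hx.1⟩), zpow_natCast, ← inv_pow, ← ei, ← map_pow]
    rfl

/-- **The residual eigen relation.** -/
theorem exists_residual_eigen {ℓ : ℕ} [hℓ : Fact ℓ.Prime] [NeZero ℓ] [NeZero (ℓ * N)]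
    [NeZero (ℓ * (p * N))] (hℓN : ℓ.Coprime (p * N)) {u g : 𝐅 (p * N)}
    (hu : IsUnitAt (levelData p A hA hN).g₁ u) {c : Qb} {a : ℤ}
    (hT : BadRed.AtP.heckeNorm Qb hℓN u = c • (u ^ a * g ^ p)) :
    ∃ (f : modularFunctionFieldBar N) (h : FibField A N),
      (Igusa.Down.datum N hp.out ((Nat.Prime.coprime_iff_not_dvd hp.out).mp hN) hA).RedsTo f
          ((levelData p A hA hN).g₁.red ⟨u, hu.1⟩) ∧
        (Igusa.Down.datum N hp.out ((Nat.Prime.coprime_iff_not_dvd hp.out).mp hN) hA).RedsTo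
          (Mazur.Step3.corrNorm N ℓ f)
          ((levelData p A hA hN).g₁.red ⟨u, hu.1⟩ ^ a * h ^ p) := by
  have := charP_residue_place p A hA
  have := Igusa.Down.isFunctionField1_bar N
  have hπ : Function.Surjective (residue A) := residue_surjective
  set g₁ := (levelData p A hA hN).g₁
  set φ := g₁.red ⟨u, hu.1⟩ with hφ
  set d := Igusa.Down.datum N hp.out ((Nat.Prime.coprime_iff_not_dvd hp.out).mp hN) hA
  have hd : d.IsLaurent :=
    Igusa.Down.isLaurent_datum N hp.out ((Nat.Prime.coprime_iff_not_dvd hp.out).mp hN) hA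
  obtain ⟨r, hr⟩ := exists_rootUnit A ℓ
  -- the norm of `u` is a unit
  have hTu : IsUnitAt g₁ (BadRed.AtP.heckeNorm Qb hℓN u) :=
    (AtP.levelHecke₁ p A hA hN ⊤ ⊤ (p : A) 1 (mul_one _).symm hℓN).isUnitAt u hu
  have hg : g ≠ 0 := fun e => hTu.ne_zero (by
    rw [hT, e, zero_pow hp.out.ne_zero, mul_zero, smul_zero])
  obtain ⟨s, hs, hs'⟩ := g₁.exists_normalize g hg
  have hs0 : s ≠ 0 := fun e => hs' (by
    rw [g₁.red_congr (show s • g = 0 by rw [e, zero_smul]) hs]; exact map_zero g₁.red)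
  obtain ⟨hua, hua'⟩ := exists_red_zpow g₁ hπ hu a
  have huaU : IsUnitAt g₁ (u ^ a) := ⟨hua, by rw [hua']; exact zpow_ne_zero _ hu.2⟩
  set c' := c * (s ^ p)⁻¹
  have hT' : BadRed.AtP.heckeNorm Qb hℓN u = c' • (u ^ a * (s • g) ^ p) := by
    rw [hT, smul_pow, mul_smul_comm, smul_smul, mul_assoc,
      inv_mul_cancel₀ (pow_ne_zero _ hs0), mul_one]
  have hvu : IsUnitAt g₁ (u ^ a * (s • g) ^ p) := huaU.mul (IsUnitAt.pow (g := g₁) ⟨hs, hs'⟩ p)
  have hc' : c' ∈ A := g₁.mem_of_smul_mem hπ hvu.1 hvu.2 (hT' ▸ hTu.1)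
  obtain ⟨ρ, hρ⟩ := IsAlgClosed.exists_pow_nat_eq (residue A ⟨c', hc'⟩) hp.out.pos
  set h := ρ • g₁.red ⟨s • g, hs⟩
  have hred : g₁.red ⟨BadRed.AtP.heckeNorm Qb hℓN u, hTu.1⟩ = φ ^ a * h ^ p := by
    rw [g₁.red_congr hT' hTu.1, g₁.red_smul hc' hvu.1, show (⟨u ^ a * (s • g) ^ p, hvu.1⟩ :
        g₁.integers) = ⟨u ^ a, hua⟩ * ⟨s • g, hs⟩ ^ p from rfl, map_mul, map_pow, hua', smul_pow,
      hρ, mul_smul_comm]
  -- a lift at level `N` with the same reduction
  have hne : φ ≠ 0 := hu.2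
  have : Nonempty (Place Qb (modularFunctionFieldBar N)) := ⟨Mazur.Step3.cInf N⟩
  obtain ⟨f, hf⟩ := exists_redsTo d hne
  obtain ⟨y', z', hy', hz', hz0', hxyz⟩ := hd.exists_fraction ⟨f, hf.mem⟩
  let Y : LaurentSeries A := ⟨fun n => ⟨_, hy' n⟩,
    ((y' : modularFunctionFieldBar N) : LaurentSeries Qb).isPWO_support.mono fun n hn e =>
      hn (Subtype.ext e)⟩
  let Z : LaurentSeries A := ⟨fun n => ⟨_, hz' n⟩,
    ((z' : modularFunctionFieldBar N) : LaurentSeries Qb).isPWO_support.mono fun n hn e =>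
      hn (Subtype.ext e)⟩
  have hY : coeffMap (residue A) Y = (d.red y' : LaurentSeries (ResidueField A)) :=
    HahnSeries.ext (funext fun n => (hd.coeff_red y' hy' n).symm)
  have hZ : coeffMap (residue A) Z = (d.red z' : LaurentSeries (ResidueField A)) :=
    HahnSeries.ext (funext fun n => (hd.coeff_red z' hz' n).symm)
  have hrep : IsSeriesRep A (residue A) (f : LaurentSeries Qb) Y Z := by
    refine ⟨fun e => hz0' (Subtype.ext (hZ ▸ e)), ?_⟩
    have e1 := congrArg (fun w : d.integers => ((w : modularFunctionFieldBar N) :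
      LaurentSeries Qb)) hxyz
    exact (congrArg _ (HahnSeries.ext rfl)).trans (e1.trans (HahnSeries.ext rfl))
  have hfφ : coeffMap (residue A) Y / coeffMap (residue A) Z =
      (φ : LaurentSeries (ResidueField A)) := by
    rw [hY, hZ, div_eq_iff (fun e => hz0' (Subtype.ext e)), ← MulMemClass.coe_mul, ← hf.2,
      ← map_mul, hxyz]
  obtain ⟨y₀, z₀, hrep₀⟩ := exists_rep_of_mem hA hN hu.1
  have hφ₀ : coeffMap (residue A) y₀ / coeffMap (residue A) z₀ =
      (φ : LaurentSeries (ResidueField A)) := by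
    obtain ⟨_, e⟩ := levelData_red_of_rep hA hN hrep₀
    exact e.symm
  obtain ⟨Y₀, Z₀, hrepT, eT⟩ := exists_rep_redHecke (π := residue A) hr
    (qExpand_heckeNorm hℓN (rootK_primitive hr) u) hrep₀
  obtain ⟨hTm, eTred⟩ := levelData_red_of_rep hA hN hrepT
  have hℓN' : ℓ.Coprime N := hℓN.coprime_dvd_right (dvd_mul_left N p)
  obtain ⟨Y₁, Z₁, hrep₁, e₁⟩ := exists_rep_redHecke (π := residue A) hr
    (qExpand_heckeNorm hℓN' (rootK_primitive hr) f) hrep
  rw [← torsion_heckeNorm_eq hℓN'] at hrep₁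
  obtain ⟨fb, hfb, efb⟩ := redsTo_of_seriesRep hd (f := Mazur.Step3.corrNorm N ℓ f) hrep₁
  refine ⟨f, h, hf, ?_⟩
  suffices fb = φ ^ a * h ^ p from this ▸ hfb
  rw [← hred]
  refine Subtype.ext (qExpand_injective (R := ResidueField A) ℓ ?_)
  rw [efb, eTred, eT, e₁, hfφ, hφ₀]

end FermatAgent.MazurPrinciple

end
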