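import Fermat.Agent.MazurPrinciple.Principle
import Fermat.Agent.MazurPrinciple.ResidualEigen

/-!
# Eigen classes vanish on the components

A representative whose reduction on a component has orders divisible by `p` reduces to a `p`-th
power there: the reduction comes from level `N`, where the orders stay divisible by `p` as the
degree is prime to `p`, and the system is absent at level `N`.
-/

set_option autoImplicit false
set_option linter.unusedSectionVars false
set_option maxHeartbeats 800000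

noncomputable section

namespace FermatAgent.MazurPrinciple

open AlgebraicCurve ModularCurve IsLocalRing IntermediateField
open FermatAgent.Curve (divisorOf IsFunctionField1)
open FermatAgent.BadRed.Semistable
open FermatAgent.BadRed
open FermatAgent.ModFun FermatAgent.ES

local notation "Qb" => AlgebraicClosure ℚ
local notation "𝐅" N:max => laurentBaseChange Qb (modularFunctionFieldFull N)

attribute [local instance] ModCurveTorsion.isFunctionField1_laurent
attribute [local instance] isAlgClosed_residue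

variable {p : ℕ} [hp : Fact p.Prime] {A : ValuationSubring Qb} (hA : A.LiesOverPrime p)
  {N M : ℕ} [NeZero N] [NeZero M] [NeZero (p * N)] [NeZero (p * M)] (hd : N ∣ M)
  (hN : p.Coprime N) (hM : p.Coprime M)

variable (A) in
/-- The inclusion of the fibres. -/
def fibBase : FibField A N →ₐ[ResidueField A] FibField A M :=
  IntermediateField.inclusion (full_degeneracyC_le (ResidueField A) hd)

theorem coe_fibBase (x : FibField A N) :
    (fibBase A hd x : LaurentSeries (ResidueField A)) = (x : LaurentSeries (ResidueField A)) :=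
  IntermediateField.coe_inclusion _ x

include hA hN hM in
/-- The degree of the fibres. -/
theorem dedekindPsi_mul_finrankAlong_fibBase :
    dedekindPsi N * finrankAlong (ResidueField A) (fibBase A hd) = dedekindPsi M := by
  have := charP_residue_place p A hA
  have h := ModCurveTorsion.finrankAlong_mul_finrank (fibBase A hd) (jFib (ResidueField A) N)
  rwa [show fibBase A hd (jFib (ResidueField A) N) = jFib (ResidueField A) M from
      Subtype.ext ((coe_fibBase hd _).trans rfl),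
    finrank_fib (q := p) hN hA, finrank_fib (q := p) hM hA] at h

variable [IsFunctionField1 (ResidueField A) (FibField A N)]
  [IsFunctionField1 (ResidueField A) (FibField A M)]

omit [NeZero (p * N)] [NeZero (p * M)] in
/-- Orders divisible by `p` upstairs are divisible by `p` below when the degree is prime to `p`. -/
theorem dvd_ord_of_fibBase (hdeg : ¬ p ∣ finrankAlong (ResidueField A) (fibBase A hd))
    {φ : FibField A N} (hφ : φ ≠ 0)
    (h : ∀ R : Place (ResidueField A) (FibField A M), (p : ℤ) ∣ R.ord (fibBase A hd φ))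
    (Q : Place (ResidueField A) (FibField A N)) : (p : ℤ) ∣ Q.ord φ := by
  set ι := fibBase A hd
  have hι : ι φ ≠ 0 := (map_ne_zero_iff _ ι.toRingHom.injective).mpr hφ
  let E : Divisor (ResidueField A) (FibField A M) :=
    Finsupp.mapRange (fun n : ℤ => n / (p : ℤ)) (Int.zero_ediv _) (divisorOf (ι φ))
  have hE : divisorOf (K := ResidueField A) (ι φ) = p • E := Finsupp.ext fun R => by
    rw [Finsupp.smul_apply, Finsupp.mapRange_apply, nsmul_eq_mul, Curve.divisorOf_apply,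
      Int.mul_ediv_cancel' (h R)]
  have hpush := DFunLike.congr_fun (Carayol.pushDiv_divisorOf ι hι) Q
  rw [hE, map_nsmul, Finsupp.smul_apply, Curve.divisorOf_apply, nsmul_eq_mul] at hpush
  have hnorm : Carayol.normAlongHom ι (ι φ) = φ ^ finrankAlong (ResidueField A) ι := by
    let := algebraAlong ι
    exact Algebra.norm_algebraMap φ
  rw [hnorm, Curve.ord_pow'] at hpush
  exact ((Nat.prime_iff_prime_int.mp hp.out).dvd_mul.mp ⟨_, hpush.symm⟩).resolve_left
    fun h' => hdeg (Int.natCast_dvd_natCast.mp h')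

/-- Raising the level keeps the reduction on the first component. -/
theorem exists_red_upLevel {u : 𝐅 (p * N)} (hu : u ∈ (levelData p A hA hN).g₁.integers) :
    ∃ h : AtP.upLevel hd Qb u ∈ (levelData p A hA hM).g₁.integers,
      (levelData p A hA hM).g₁.red ⟨_, h⟩ = fibBase A hd ((levelData p A hA hN).g₁.red ⟨u, hu⟩) := by
  obtain ⟨y, z, hrep⟩ := exists_rep_of_mem hA hN hu
  obtain ⟨_, e₁⟩ := levelData_red_of_rep hA hN hrep
  obtain ⟨h, e₂⟩ := levelData_red_of_rep hA hM (x := AtP.upLevel hd Qb u) (y := y) (z := z)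
    (by rwa [AtP.coe_upLevel])
  exact ⟨h, Subtype.ext (by rw [coe_fibBase, e₁, e₂])⟩

variable {S : Set ℕ} {a : ℕ → ℤ}

/-- An eigen function of level `p N`: `T ℓ f = c f ^ (a ℓ) g ^ p` outside `S`. -/
def IsEigenFun (S : Set ℕ) (a : ℕ → ℤ) (f : 𝐅 (p * N)) : Prop :=
  ∀ (ℓ : ℕ) [Fact ℓ.Prime] [NeZero (ℓ * (p * N))] (hℓ : ℓ.Coprime (p * N)), ℓ ∉ S →
    ∃ (c : Qb) (g : 𝐅 (p * N)), AtP.heckeNorm Qb hℓ f = c • (f ^ a ℓ * g ^ p)

/-- A representative of an eigen class is an eigen function. -/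
theorem isEigenFun_of_mem_eigenGroup {D : Divisor.degZero (K := Qb) (F := 𝐅 (p * N))}
    {f : 𝐅 (p * N)} (hf : f ≠ 0) (hfD : p • (D : Divisor Qb (𝐅 (p * N))) = divisorOf f)
    (hx : Pic0.mk D ∈ eigenGroup (p * N) S a p) : IsEigenFun S a f := by
  intro ℓ hℓ' _ hℓ hℓS
  have := FermatAgent.Curve.instHasPrincipalDivisors (K := Qb) (F := 𝐅 (p * N))
  have : NeZero ℓ := ⟨hℓ'.out.ne_zero⟩
  have h2 := hx.2 ℓ hℓ'.out (hℓ'.out.coprime_iff_not_dvd.mp hℓ) hℓS
  rw [heckeAt_prime _ hℓ'.out] at h2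
  replace h2 : heckeOperatorAlong Qb (p * N) ℓ (Pic0.mk D) = a ℓ • Pic0.mk D := h2
  rw [ModCurveTorsion.heckeOperatorAlong_mk] at h2
  have h3 : Pic0.mk ((⟨_, ModCurveTorsion.heckeDiv_mem_degZero Qb (p * N) ℓ D.2⟩ :
      Divisor.degZero (K := Qb) (F := 𝐅 (p * N))) - a ℓ • D) = 0 := by
    rw [AtP.pic0_mk_sub, h2, sub_eq_zero]
    exact (map_zsmul (QuotientAddGroup.mk' _) (a ℓ) D).symm
  obtain ⟨g, hg, hgD⟩ :=
    AddSubgroup.mem_addSubgroupOf.mp ((QuotientAddGroup.eq_zero_iff _).mp h3)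
  have hT0 : AtP.heckeNorm Qb hℓ f ≠ 0 := by
    rw [← torsion_heckeNorm_eq hℓ]; exact ModCurveTorsion.heckeNorm_ne_zero Qb (p * N) ℓ hf
  have hTdiv : p • ModCurveTorsion.heckeDiv Qb (p * N) ℓ D =
      divisorOf (AtP.heckeNorm Qb hℓ f) := by
    rw [← map_nsmul, hfD, ModCurveTorsion.heckeDiv_divisorOf Qb (p * N) ℓ hf,
      torsion_heckeNorm_eq hℓ]
  have hfg : f ^ a ℓ * g ^ p ≠ 0 := mul_ne_zero (zpow_ne_zero _ hf) (pow_ne_zero _ hg)
  obtain ⟨c, hc⟩ := AtP.exists_eq_smul_of_divisorOf_eq (K := Qb) hT0 hfg (Finsupp.ext fun v => by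
    have e1 := hgD v
    have e2 := DFunLike.congr_fun hTdiv v
    have e3 := DFunLike.congr_fun hfD v
    simp only [AddSubgroup.coe_sub, AddSubgroup.coe_zsmul, Finsupp.sub_apply, Finsupp.smul_apply,
      smul_eq_mul, nsmul_eq_mul, Curve.divisorOf_apply] at e1 e2 e3
    rw [Curve.divisorOf_apply, Curve.divisorOf_apply,
      v.ord_mul (zpow_ne_zero _ hf) (pow_ne_zero _ hg), v.ord_zpow, Curve.ord_pow', ← e1, ← e2,
      ← e3]
    ring)
  exact ⟨c, g, hc⟩

include hN in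
/-- The involution keeps eigen functions. -/
theorem IsEigenFun.atkinLehner (_hMS : ∀ q : ℕ, q.Prime → q ∣ p * N → q ∈ S) {f : 𝐅 (p * N)}
    (hf : IsEigenFun S a f) : IsEigenFun S a (atkinLehnerBar hN Qb f) := by
  intro ℓ hℓ' _ hℓ hℓS
  obtain ⟨c, g, e⟩ := hf ℓ hℓ hℓS
  have : NeZero (ℓ * N) := ⟨Nat.mul_ne_zero hℓ'.out.ne_zero (NeZero.ne N)⟩
  have : NeZero (p * (ℓ * N)) := ⟨Nat.mul_ne_zero hp.out.ne_zero (NeZero.ne _)⟩
  have hpl : p.Coprime (ℓ * N) :=
    Nat.Coprime.mul_right (Nat.Coprime.coprime_mul_right_right hℓ).symm hN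
  refine ⟨c, atkinLehnerBar hN Qb g, ?_⟩
  rw [AtP.heckeNorm_atkinLehnerBar hN hpl hℓ, e, Algebra.smul_def, map_mul, AlgEquiv.commutes,
    map_mul, map_zpow₀, map_pow, ← Algebra.smul_def]

/-- Orders divisible by `p` descend, for residual eigen functions with system `a`. -/
def Descends (S : Set ℕ) (a : ℕ → ℤ) : Prop :=
  ∀ φ : FibField A N, φ ≠ 0 →
    (∀ R : Place (ResidueField A) (FibField A M), (p : ℤ) ∣ R.ord (fibBase A hd φ)) →
    (∀ (ℓ : ℕ) [NeZero ℓ], ℓ.Prime → ¬ ℓ ∣ N → ℓ ∉ S → ∃ f h,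
      (Igusa.Down.datum N hp.out ((Nat.Prime.coprime_iff_not_dvd hp.out).mp hN) hA).RedsTo f φ ∧
        (Igusa.Down.datum N hp.out ((Nat.Prime.coprime_iff_not_dvd hp.out).mp hN) hA).RedsTo
          (Mazur.Step3.corrNorm N ℓ f) (φ ^ a ℓ * h ^ p)) →
    ∀ Q : Place (ResidueField A) (FibField A N), (p : ℤ) ∣ Q.ord φ

include hA hd hN in
/-- Orders descend when the degree is prime to `p`. -/
theorem descends_of_not_dvd (hdeg : ¬ p ∣ finrankAlong (ResidueField A) (fibBase A hd))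
    (S : Set ℕ) (a : ℕ → ℤ) : Descends hA hd hN S a :=
  fun _ hφ h _ => dvd_ord_of_fibBase hd hdeg hφ h

include hA hd hN hM in
/-- **Eigen functions reduce to powers on the first component.** -/
theorem exists_red_eq_pow (hdesc : Descends hA hd hN S a)
    (hMS : ∀ q : ℕ, q.Prime → q ∣ p * N → q ∈ S) (hno : ¬ HasCongruentForm a p N S)
    {f₀ : 𝐅 (p * N)} (hf₀ : f₀ ≠ 0) (heig : IsEigenFun S a f₀) {c : Qb} {G : 𝐅 (p * M)}
    {f : 𝐅 (p * M)} (hf : f = c • (AtP.upLevel hd Qb f₀ * G ^ p))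
    (h : IsUnitAt (levelData p A hA hM).g₁ f)
    (hord : ∀ Q : Place (ResidueField A) (FibField A M),
      (p : ℤ) ∣ Q.ord ((levelData p A hA hM).g₁.red ⟨f, h.1⟩)) :
    ∃ φ, (levelData p A hA hM).g₁.red ⟨f, h.1⟩ = φ ^ p := by
  have hπ : Function.Surjective (residue A) := residue_surjective
  set gN := (levelData p A hA hN).g₁
  set gM := (levelData p A hA hM).g₁
  have hG : G ≠ 0 := fun e => h.ne_zero (by rw [hf, e, zero_pow hp.out.ne_zero, mul_zero, smul_zero])
  obtain ⟨s, hs, hs'⟩ := gN.exists_normalize f₀ hf₀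
  have hs0 : s ≠ 0 := fun e => hs' (by
    rw [gN.red_congr (show s • f₀ = 0 by rw [e, zero_smul]) hs]; exact map_zero gN.red)
  obtain ⟨t, ht, ht'⟩ := gM.exists_normalize G hG
  have ht0 : t ≠ 0 := fun e => ht' (by
    rw [gM.red_congr (show t • G = 0 by rw [e, zero_smul]) ht]; exact map_zero gM.red)
  set φ₀ := gN.red ⟨s • f₀, hs⟩
  obtain ⟨hup, hupr⟩ := exists_red_upLevel hA hd hN hM hs
  have hι : fibBase A hd φ₀ ≠ 0 :=
    (map_ne_zero_iff _ (fibBase A hd).toRingHom.injective).mpr hs'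
  set c' := c * (s * t ^ p)⁻¹
  have hf' : f = c' • (AtP.upLevel hd Qb (s • f₀) * (t • G) ^ p) := by
    have hsm : AtP.upLevel (p := p) hd Qb (s • f₀) = s • AtP.upLevel hd Qb f₀ := by
      rw [Algebra.smul_def, map_mul, AlgHom.commutes, ← Algebra.smul_def]
    rw [hf, hsm, smul_pow, smul_mul_smul_comm, smul_smul, mul_assoc,
      inv_mul_cancel₀ (mul_ne_zero hs0 (pow_ne_zero _ ht0)), mul_one]
  have hU : IsUnitAt gM (AtP.upLevel hd Qb (s • f₀) * (t • G) ^ p) :=
    IsUnitAt.mul (g := gM) ⟨hup, by rw [hupr]; exact hι⟩ (IsUnitAt.pow (g := gM) ⟨ht, ht'⟩ p)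
  have hc' : c' ∈ A := gM.mem_of_smul_mem hπ hU.1 hU.2 (hf' ▸ h.1)
  obtain ⟨ρ, hρ⟩ := IsAlgClosed.exists_pow_nat_eq (residue A ⟨c', hc'⟩) hp.out.pos
  have hred : gM.red ⟨f, h.1⟩ = fibBase A hd φ₀ * (ρ • gM.red ⟨t • G, ht⟩) ^ p := by
    rw [gM.red_congr hf' h.1, gM.red_smul hc' hU.1,
      show (⟨_, hU.1⟩ : gM.integers) = ⟨_, hup⟩ * ⟨t • G, ht⟩ ^ p from rfl, map_mul, map_pow, hupr,
      smul_pow, hρ, mul_smul_comm]
  have hne : ρ • gM.red ⟨t • G, ht⟩ ≠ 0 := fun e => h.2 (by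
    rw [hred, e, zero_pow hp.out.ne_zero, mul_zero])
  have heig₀ : ∀ (ℓ : ℕ) [NeZero ℓ], ℓ.Prime → ¬ ℓ ∣ N → ℓ ∉ S → ∃ f h,
      (Igusa.Down.datum N hp.out ((Nat.Prime.coprime_iff_not_dvd hp.out).mp hN) hA).RedsTo f φ₀ ∧
        (Igusa.Down.datum N hp.out ((Nat.Prime.coprime_iff_not_dvd hp.out).mp hN) hA).RedsTo
          (Mazur.Step3.corrNorm N ℓ f) (φ₀ ^ a ℓ * h ^ p) := fun ℓ _ hℓ hℓN hℓS => by
      have hℓp : ¬ ℓ ∣ p * N := fun h => hℓS (hMS ℓ hℓ h)
      have : Fact ℓ.Prime := ⟨hℓ⟩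
      have : NeZero (ℓ * N) := ⟨Nat.mul_ne_zero hℓ.ne_zero (NeZero.ne N)⟩
      have : NeZero (ℓ * (p * N)) := ⟨Nat.mul_ne_zero hℓ.ne_zero (NeZero.ne _)⟩
      have hℓc : ℓ.Coprime (p * N) := hℓ.coprime_iff_not_dvd.mpr hℓp
      obtain ⟨d, g, e⟩ := heig ℓ hℓc hℓS
      obtain ⟨ζ, hζ⟩ := HasEnoughRootsOfUnity.exists_primitiveRoot Qb ℓ
      have hζu : IsPrimitiveRoot (hζ.isUnit hℓ.ne_zero).unit ℓ :=
        IsPrimitiveRoot.coe_units_iff.mp (by rw [IsUnit.unit_spec]; exact hζ)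
      have e' : AtP.heckeNorm Qb hℓc (s • f₀) =
          (s ^ (ℓ + 1) * d * (s ^ a ℓ)⁻¹) • ((s • f₀) ^ a ℓ * g ^ p) := by
        rw [Algebra.smul_def, map_mul, AtP.heckeNorm_algebraMap hℓc hζu, ← Algebra.smul_def, e,
          ← Algebra.smul_def, smul_smul]
        simp only [Algebra.smul_def, map_mul, map_inv₀, map_zpow₀, map_pow, mul_zpow]
        have hsz : algebraMap Qb (𝐅 (p * N)) s ^ a ℓ ≠ 0 :=
          zpow_ne_zero _ ((_root_.map_ne_zero _).mpr hs0)
        field_simp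
      exact exists_residual_eigen hA hN hℓc (⟨hs, hs'⟩ : IsUnitAt gN _) e'
  have hord₀ : ∀ Q : Place (ResidueField A) (FibField A N), (p : ℤ) ∣ Q.ord φ₀ :=
    hdesc φ₀ hs' (fun R => by
      have h1 := hord R
      rw [hred, R.ord_mul hι (pow_ne_zero _ hne), Curve.ord_pow'] at h1
      exact (dvd_add_left (dvd_mul_right (p : ℤ) _)).mp h1) heig₀
  obtain ⟨φ, hφ⟩ := exists_pow_eq_of_absent
    (Igusa.Down.isLaurent_datum N hp.out ((Nat.Prime.coprime_iff_not_dvd hp.out).mp hN) hA)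
    (fun q hq hqN => hMS q hq (hqN.mul_left p)) hno hs' hord₀ heig₀
  exact ⟨fibBase A hd φ * (ρ • gM.red ⟨t • G, ht⟩),
    by rw [hred, hφ, map_pow, mul_pow]⟩

include hA hd hN hM in
/-- Eigen classes vanish on both components when orders descend. -/
theorem eigenResidual_of_descends (hdesc : Descends hA hd hN S a)
    (hMS : ∀ q : ℕ, q.Prime → q ∣ p * N → q ∈ S) (hno : ¬ HasCongruentForm a p N S)
    (C : IntermediateField ℚ Qb) : EigenResidual hA hd hM S a C := by
  intro f hf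
  obtain ⟨D, f₀, c, G, -, hf₀, hfD, hx, -, -, -, -, e⟩ := hf
  have heig := isEigenFun_of_mem_eigenGroup hf₀ hfD hx
  refine ⟨fun h hord => exists_red_eq_pow hA hd hN hM hdesc hMS hno hf₀ heig e h hord,
    fun h hord => ?_⟩
  have e' : atkinLehnerBar hM Qb f =
      c • (AtP.upLevel hd Qb (atkinLehnerBar hN Qb f₀) * atkinLehnerBar hM Qb G ^ p) := by
    rw [e, Algebra.smul_def, map_mul, AlgEquiv.commutes, map_mul, map_pow,
      AtP.atkinLehnerBar_upLevel hN hM hd, ← Algebra.smul_def]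
  exact exists_red_eq_pow hA hd hN hM hdesc hMS hno
    ((map_ne_zero_iff _ (atkinLehnerBar hN Qb).injective).mpr hf₀)
    (heig.atkinLehner hN hMS) e' h hord

end FermatAgent.MazurPrinciple

end
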