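import Fermat.Agent.MazurPrinciple.PlaneRep
import Fermat.Agent.TW.Flat.Val

/-!
# The determinant of `E[p]` on inertia at `p`
-/

set_option autoImplicit false

noncomputable section

open Matrix
open FermatAgent.Ihara (torMat torMat_factors torMat_frobenius)

namespace FermatAgent.MazurPrinciple

local notation "Qb" => AlgebraicClosure ℚ
local notation "GQ" => AlgebraicClosure ℚ ≃ₐ[ℚ] AlgebraicClosure ℚ

variable {p : ℕ} [hp : Fact p.Prime] (W : WeierstrassCurve ℤ)
  (hΔ : (W.map (Int.castRingHom ℚ)).Δ ≠ 0)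

/-- The determinant is the cyclotomic character. -/
theorem det_torMat (hirr : W.ModRepIsIrreducible p) (σ : GQ) :
    (torMat W (p := p) hΔ σ).det = (ExtCitation.cycloChar p σ : ZMod p) := by
  have : NeZero p := ⟨hp.out.ne_zero⟩
  obtain ⟨ζ, hζ⟩ := TW.exists_primitiveRoot_qbar p
  have hfac : GaloisFactorsThroughFiniteLevel
      ((torMat W (p := p) hΔ).prod (ExtCitation.cycloChar p)) := by
    obtain ⟨L, hL, h⟩ := torMat_factors W (p := p) hΔ
    have : FiniteDimensional ℚ (IntermediateField.adjoin ℚ ({ζ} : Set Qb)) :=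
      IntermediateField.adjoin.finiteDimensional
        ((hζ.isIntegral (NeZero.pos p)).tower_top)
    exact ⟨L ⊔ IntermediateField.adjoin ℚ {ζ}, IntermediateField.finiteDimensional_sup L _,
      fun τ hτ => Prod.ext
        (h τ fun x hx => hτ x (le_sup_left (α := IntermediateField ℚ Qb) hx))
        (TW.cycloChar_eq_one_of_apply hζ (hτ ζ (le_sup_right (α := IntermediateField ℚ Qb)
          (IntermediateField.mem_adjoin_simple_self ℚ ζ))))⟩
  have hbad : {l : ℕ | (l : ℤ) ∣ W.Δ}.Finite := by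
    refine Set.Finite.subset (Set.finite_Iic W.Δ.natAbs) fun l hl => ?_
    refine Nat.le_of_dvd (Int.natAbs_pos.mpr fun h0 => hΔ ?_) (Int.natCast_dvd.mp hl)
    rw [WeierstrassCurve.map_Δ, h0, map_zero]
  refine GalRep.forall_of_frobenius _ hfac (hbad.union (Set.finite_singleton p))
    (fun z => z.1.det = (z.2 : ZMod p))
    (fun z m hz => by simp [Matrix.det_pow, hz]) (fun l hl hlS A hA τ hτ => ?_) σ
  simp only [Set.mem_union, Set.mem_ofPred_eq, Set.mem_singleton_iff, not_or] at hlS
  obtain ⟨-, hd⟩ := torMat_frobenius W hΔ hirr hl hlS.1 hlS.2 hA hτ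
  show (torMat W hΔ τ).det = _
  rw [hd, MonoidHom.prod_apply,
    TW.cycloChar_eq_of_apply hζ (Ihara.frobenius_root_of_unity hp.out.ne_zero
      ((Nat.coprime_primes hl hp.out).mpr hlS.2) hA hτ hζ.pow_eq_one)]

/-- An inertia element with nontrivial determinant. -/
theorem exists_inertia_det_ne_one (hirr : W.ModRepIsIrreducible p) (hp2 : p ≠ 2)
    {A : ValuationSubring Qb} (hA : A.LiesOverPrime p) :
    ∃ σ ∈ A.inertiaSubgroupIn ℚ, (torMat W (p := p) hΔ σ).det ≠ 1 := by
  have : Nontrivial (ZMod p)ˣ := by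
    have : 1 < Nat.card (ZMod p)ˣ := by
      rw [Nat.card_eq_fintype_card, ZMod.card_units]
      have := hp.out.two_le
      omega
    exact Finite.one_lt_card_iff_nontrivial.mp this
  obtain ⟨c, hc⟩ := exists_ne (1 : (ZMod p)ˣ)
  obtain ⟨σ, hσ, hσc⟩ := TW.Flat.exists_inertia_cycloChar (p := p) hA c
  refine ⟨σ, hσ, fun h => hc (Units.ext ?_)⟩
  rw [← hσc, ← det_torMat W hΔ hirr, h, Units.val_one]

end FermatAgent.MazurPrinciple

end
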