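import Fermat.Agent.MazurPrinciple.Discrepancy
import Fermat.Agent.BadRed.Semistable.Inject
import Mathlib.Algebra.CharP.Basic

/-!
# Approximate roots over the disc of a smooth point

If `Φ + ϖ ^ j z` is an approximate `p`-th root of `t`, where `t` has no zeros or poles over a
smooth point beyond those prescribed, the reduction of `z` has at most the prescribed poles there.
-/

set_option autoImplicit false
set_option linter.unusedSectionVars false

noncomputable section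

open AlgebraicCurve WithZero

namespace FermatAgent.MazurPrinciple

open FermatAgent.Curve FermatAgent.Curve.RR BadRed.Semistable
open scoped Classical

variable {K : Type*} [Field K] [IsAlgClosed K] {A : ValuationSubring K} {k : Type*}
    [Field k] [IsAlgClosed k] {π : A →+* k} {F F₁ F₂ : Type*} [Field F] [Field F₁] [Field F₂]
    [Algebra K F] [Algebra k F₁] [Algebra k F₂] [IsFunctionField1 K F] [IsFunctionField1 k F₁]
    [IsFunctionField1 k F₂] [RRSetting K F] [RRSetting k F₁] [RRSetting k F₂] [Infinite k]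
variable {d : NodalDatum A π F F₁ F₂} {G : Type*} [Field G] [Algebra k G] [IsFunctionField1 k G]
  [RRSetting k G] (σ : d.Side G)

/-- Integral with non-zero reductions on both components. -/
def IsDiscUnit (d : NodalDatum A π F F₁ F₂) (h : F) : Prop :=
  ∃ hi : h ∈ d.int, (d.red ⟨h, hi⟩).1 ≠ 0 ∧ (d.red ⟨h, hi⟩).2 ≠ 0

theorem IsDiscUnit.ne_zero {h : F} (hh : IsDiscUnit d h) : h ≠ 0 :=
  d.ne_zero_of_red_fst hh.1 hh.2.1

theorem isDiscUnit_one : IsDiscUnit d (1 : F) :=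
  ⟨one_mem _, by rw [show (⟨1, one_mem _⟩ : d.int) = 1 from rfl, map_one]; simp,
    by rw [show (⟨1, one_mem _⟩ : d.int) = 1 from rfl, map_one]; simp⟩

theorem IsDiscUnit.mul {g h : F} (hg : IsDiscUnit d g) (hh : IsDiscUnit d h) :
    IsDiscUnit d (g * h) := by
  obtain ⟨gi, g1, g2⟩ := hg
  obtain ⟨hi, h1, h2⟩ := hh
  refine ⟨mul_mem gi hi, ?_, ?_⟩ <;> rw [d.red_mul gi hi]
  exacts [mul_ne_zero g1 h1, mul_ne_zero g2 h2]

theorem IsDiscUnit.inv {h : F} (hh : IsDiscUnit d h) : IsDiscUnit d h⁻¹ := by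
  obtain ⟨hi, h1, h2⟩ := hh
  obtain ⟨m₁, r₁⟩ := d.g₁.inv_mem d.residue_surjective hi.1 (show d.g₁.red ⟨h, hi.1⟩ ≠ 0 from h1)
  obtain ⟨m₂, r₂⟩ := d.g₂.inv_mem d.residue_surjective hi.2 (show d.g₂.red ⟨h, hi.2⟩ ≠ 0 from h2)
  exact ⟨⟨m₁, m₂⟩, by rw [d.red_mk, r₁]; exact inv_ne_zero h1,
    by rw [d.red_mk, r₂]; exact inv_ne_zero h2⟩

theorem IsDiscUnit.pow {h : F} (hh : IsDiscUnit d h) (m : ℕ) : IsDiscUnit d (h ^ m) := by
  induction m with
  | zero => rw [pow_zero]; exact isDiscUnit_one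
  | succ m ih => rw [pow_succ]; exact ih.mul hh

theorem IsDiscUnit.zpow {h : F} (hh : IsDiscUnit d h) : ∀ m : ℤ, IsDiscUnit d (h ^ m)
  | .ofNat m => by simpa using hh.pow m
  | .negSucc m => by rw [zpow_negSucc]; exact (hh.pow _).inv

theorem ord_zpow' {L : Type*} [Field L] [Algebra k L] [IsFunctionField1 k L] (v : Place k L)
    (f : L) : ∀ m : ℤ, v.ord (f ^ m) = m * v.ord f
  | .ofNat m => by simpa using Curve.ord_pow' v f m
  | .negSucc m => by rw [zpow_negSucc, v.ord_inv, Curve.ord_pow', Int.negSucc_eq]; push_cast; ring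

theorem mapDomain_eq_of_forall {E E' : Divisor K F} {ω : d.C.Pt}
    (h : ∀ P, d.place P = ω → E P = E' P) :
    Finsupp.mapDomain d.place E ω = Finsupp.mapDomain d.place E' ω := by
  rw [← sub_eq_zero, ← Finsupp.sub_apply,
    ← show Finsupp.mapDomain d.place (E - E') =
      Finsupp.mapDomain d.place E - Finsupp.mapDomain d.place E' from map_sub d.redDiv E E',
    d.mapDomain_place_apply]
  refine Finset.sum_eq_zero fun P _ => ?_
  split_ifs with hP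
  · rw [Finsupp.sub_apply, h P hP, sub_self]
  · rfl

/-- A unit at both components with prescribed orders over a smooth point. -/
theorem exists_disc_unit {T : F} (hT : σ.IsCoord T) (E : Divisor K F) :
    ∃ h : F, IsDiscUnit d h ∧ ∀ P, d.place P = σ.ω → P.ord h = E P := by
  induction E using Finsupp.induction with
  | zero => exact ⟨1, isDiscUnit_one, fun P _ => by simp⟩
  | @single_add P₀ m E _ _ ih =>
    obtain ⟨h, hh, ho⟩ := ih
    by_cases hP₀ : d.place P₀ = σ.ω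
    · obtain ⟨hc, -, hi, hTi, hr, ho₀⟩ := σ.exists_centred hT P₀ hP₀
      obtain ⟨hi', h1, h2, -, -⟩ := hT
      have hu : IsDiscUnit d (T - algebraMap K F (valueAt P₀ T)) :=
        ⟨hi, by rw [hr]; exact h1, by rw [hr]; exact h2⟩
      refine ⟨_, (hu.zpow m).mul hh, fun P hP => ?_⟩
      rw [P.ord_mul (zpow_ne_zero _ hu.ne_zero) hh.ne_zero, ord_zpow', ho₀ P hP, ho P hP,
        Finsupp.add_apply, Finsupp.single_apply]
      by_cases e : P = P₀
      · subst e; simp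
      · rw [if_neg e, if_neg (Ne.symm e)]; simp
    · refine ⟨h, hh, fun P hP => ?_⟩
      rw [ho P hP, Finsupp.add_apply, Finsupp.single_eq_of_ne (fun e : P = P₀ => hP₀ (e ▸ hP)),
        zero_add]

theorem ord_pr_red {h : F} (hh : IsDiscUnit d h) :
    σ.pr (d.red ⟨h, hh.1⟩) ≠ 0 ∧
      σ.Q.ord (σ.pr (d.red ⟨h, hh.1⟩)) = Finsupp.mapDomain d.place (divisorOf h) σ.ω := by
  refine ⟨σ.ne_zero _ hh.2.1 hh.2.2, ?_⟩
  rw [d.mapDomain_divisorOf hh.1 hh.2.1 hh.2.2, σ.secDiv_zero]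

/-- Regular functions on the disc reduce to functions regular at the point. -/
theorem le_one_of_regular {f : F} (hf : f ∈ d.int) (hr : ∀ P, d.place P = σ.ω → 0 ≤ P.ord f) :
    σ.Q.adicValuation (σ.pr (d.red ⟨f, hf⟩)) ≤ 1 := by
  rcases eq_or_ne (σ.pr (d.red ⟨f, hf⟩)) 0 with h0 | h0
  · simp [h0]
  obtain ⟨P₀, hP₀⟩ := d.exists_place σ.ω
  exact σ.Q.adicValuation_le_one_iff.mpr (Or.inr
    (((hr P₀ hP₀).trans (d.le_mapDomain_fibre hr P₀ hP₀)).trans (σ.le_ord f hf h0)))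

/-- Lower bounds on the orders over the disc bound the reduction. -/
theorem le_exp_of_ord_ge {T : F} (hT : σ.IsCoord T) {f : F} (hf : f ∈ d.int) (E : Divisor K F)
    (hE : ∀ P, d.place P = σ.ω → f = 0 ∨ E P ≤ P.ord f) :
    σ.Q.adicValuation (σ.pr (d.red ⟨f, hf⟩)) ≤ exp (-Finsupp.mapDomain d.place E σ.ω) := by
  obtain ⟨h, hh, ho⟩ := exists_disc_unit σ hT E
  obtain ⟨hne, hord⟩ := ord_pr_red σ hh
  rw [mapDomain_eq_of_forall (E' := E) fun P hP => by rw [divisorOf_apply, ho P hP]] at hord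
  have hq := le_one_of_regular σ (mul_mem hf hh.inv.1) fun P hP => by
    rcases eq_or_ne f 0 with rfl | hf0
    · simp
    · rw [P.ord_mul hf0 (inv_ne_zero hh.ne_zero), P.ord_inv, ho P hP]
      have := (hE P hP).resolve_left hf0
      omega
  have e : (⟨f, hf⟩ : d.int) = ⟨f * h⁻¹, mul_mem hf hh.inv.1⟩ * ⟨h, hh.1⟩ :=
    Subtype.ext (by simp [hh.ne_zero])
  rw [e, map_mul, map_mul, map_mul, σ.Q.adicValuation_eq_exp_neg_ord hne, hord]
  exact mul_le_of_le_one_left' hq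

theorem red_inv {h : F} (hh : IsDiscUnit d h) :
    d.red ⟨h⁻¹, hh.inv.1⟩ * d.red ⟨h, hh.1⟩ = 1 := by
  rw [← map_mul, show (⟨h⁻¹, hh.inv.1⟩ * ⟨h, hh.1⟩ : d.int) = 1 from
    Subtype.ext (inv_mul_cancel₀ hh.ne_zero), map_one]

/-- The leading discrepancy of an approximate root has no more poles than prescribed. -/
theorem le_exp_of_root {T : F} (hT : σ.IsCoord T) {p : ℕ} [CharP k p] (hp : p.Prime) {ϖ : A}
    (hϖ0 : (ϖ : K) ≠ 0) (hπϖ : π ϖ = 0) {v : ℕ} (hv : 1 ≤ v) {u : A} (hu : (p : A) = ϖ ^ v * u)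
    (hu0 : π u ≠ 0) {t Φ : F} (ht : IsDiscUnit d t) (hΦ : Φ ∈ d.int) (E : Divisor K F)
    (hΦE : ∀ P, d.place P = σ.ω → Φ = 0 ∨ E P ≤ P.ord Φ)
    (htE : ∀ P, d.place P = σ.ω → (p : ℤ) * E P ≤ P.ord t)
    (hσ : Finsupp.mapDomain d.place (divisorOf t) σ.ω = p * Finsupp.mapDomain d.place E σ.ω)
    {j R : ℕ} (hR : j + v < R) {z₁ z₂ w₁ w₂ : F} (hz₁ : z₁ ∈ d.g₁.integers)
    (hz₂ : z₂ ∈ d.g₂.integers) (hw₁ : w₁ ∈ d.g₁.integers) (hw₂ : w₂ ∈ d.g₂.integers)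
    (h₁ : (Φ + (ϖ : K) ^ j • z₁) ^ p - t = (ϖ : K) ^ R • w₁)
    (h₂ : (Φ + (ϖ : K) ^ j • z₂) ^ p - t = (ϖ : K) ^ R • w₂) :
    σ.Q.adicValuation (σ.pr (d.g₁.red ⟨z₁, hz₁⟩, d.g₂.red ⟨z₂, hz₂⟩)) ≤
      exp (-Finsupp.mapDomain d.place E σ.ω) := by
  obtain ⟨h, hh, ho⟩ := exists_disc_unit σ hT E
  obtain ⟨hne, hord⟩ := ord_pr_red σ hh
  rw [mapDomain_eq_of_forall (E' := E) fun P hP => by rw [divisorOf_apply, ho P hP]] at hord
  have hI := hh.inv
  set ψ := Φ * h⁻¹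
  set U := t * (h⁻¹) ^ p
  have hψi : ψ ∈ d.int := mul_mem hΦ hI.1
  have hU : IsDiscUnit d U := ht.mul (hI.pow p)
  have hp1 : ∀ {g : Subring F} (_ : h⁻¹ ∈ g) {z w : F} (_ : z ∈ g) (_ : w ∈ g)
      (_ : (Φ + (ϖ : K) ^ j • z) ^ p - t = (ϖ : K) ^ R • w),
      (ψ + (ϖ : K) ^ j • (z * h⁻¹)) ^ p - U = (ϖ : K) ^ R • (w * h⁻¹ ^ p) := by
    intro g _ z w _ _ e
    rw [← smul_mul_assoc, ← smul_mul_assoc, ← e, show ψ = Φ * h⁻¹ from rfl,
      show U = t * h⁻¹ ^ p from rfl, ← add_mul, mul_pow, sub_mul]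
  obtain ⟨hy₁, r₁⟩ := exists_discrepancy d.g₁ hp hϖ0 hπϖ hv hu hR hψi.1 (mul_mem hz₁ hI.1.1)
    (mul_mem hw₁ (pow_mem hI.1.1 p)) (hp1 hI.1.1 hz₁ hw₁ h₁)
  obtain ⟨hy₂, r₂⟩ := exists_discrepancy d.g₂ hp hϖ0 hπϖ hv hu hR hψi.2 (mul_mem hz₂ hI.1.2)
    (mul_mem hw₂ (pow_mem hI.1.2 p)) (hp1 hI.1.2 hz₂ hw₂ h₂)
  set e := min (p * j) (v + j) with he
  set α := (0 : k) ^ (p * j - e) with hα
  set β := (0 : k) ^ (v + j - e) * π u with hβ
  set zb : F₁ × F₂ := (d.g₁.red ⟨z₁, hz₁⟩, d.g₂.red ⟨z₂, hz₂⟩) with hzb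
  set z' : F₁ × F₂ := zb * d.red ⟨h⁻¹, hI.1⟩ with hz'
  have hred : d.red ⟨((ϖ : K) ^ e)⁻¹ • (ψ ^ p - U), hy₁, hy₂⟩ =
      -(α • z' ^ p + β • (d.red ⟨ψ, hψi⟩ ^ (p - 1) * z')) := by
    refine Prod.ext (r₁.trans ?_) (r₂.trans ?_)
    · rw [show (⟨z₁ * h⁻¹, _⟩ : d.g₁.integers) = ⟨z₁, hz₁⟩ * ⟨h⁻¹, hI.1.1⟩ from rfl, map_mul]
      rfl
    · rw [show (⟨z₂ * h⁻¹, _⟩ : d.g₂.integers) = ⟨z₂, hz₂⟩ * ⟨h⁻¹, hI.1.2⟩ from rfl, map_mul]
      rfl
  -- regularity over the disc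
  have hψreg : ∀ P, d.place P = σ.ω → 0 ≤ P.ord ψ := fun P hP => by
    rcases eq_or_ne Φ 0 with e0 | e0
    · simp [ψ, e0]
    · rw [P.ord_mul e0 (inv_ne_zero hh.ne_zero), P.ord_inv, ho P hP]
      have := (hΦE P hP).resolve_left e0
      omega
  have hUreg : ∀ P, d.place P = σ.ω → 0 ≤ P.ord U := fun P hP => by
    rw [P.ord_mul ht.ne_zero (pow_ne_zero _ (inv_ne_zero hh.ne_zero)), Curve.ord_pow', P.ord_inv,
      ho P hP]
    have := htE P hP
    linarith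
  set x := σ.Q.adicValuation (σ.pr z') with hx
  have hψ1 : σ.Q.adicValuation (σ.pr (d.red ⟨ψ, hψi⟩)) ≤ 1 := le_one_of_regular σ hψi hψreg
  have hq : σ.Q.adicValuation (σ.pr (α • z' ^ p + β • (d.red ⟨ψ, hψi⟩ ^ (p - 1) * z'))) ≤ 1 := by
    have := le_one_of_regular σ (f := ((ϖ : K) ^ e)⁻¹ • (ψ ^ p - U)) ⟨hy₁, hy₂⟩ fun P hP => by
      refine ord_nonneg_of_mem' P ?_
      rw [Algebra.smul_def]
      exact mul_mem (P.algebraMap_mem' _) (sub_mem
        (pow_mem ((mem_iff_ord_nonneg' P).mpr (hψreg P hP)) _)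
        ((mem_iff_ord_nonneg' P).mpr (hUreg P hP)))
    rw [hred, map_neg, Valuation.map_neg] at this
    exact this
  have hx1 : x ≤ 1 := by
    by_contra hgt
    rw [not_le] at hgt
    have hsmul : ∀ (c : k) (g : G), c ≠ 0 → σ.Q.adicValuation (c • g) = σ.Q.adicValuation g := by
      intro c g hc
      rw [Algebra.smul_def, map_mul, σ.Q.adicValuation_eq_exp_neg_ord (by simpa using hc),
        Curve.ord_algebraMap_const, neg_zero, exp_zero, one_mul]
    have hle : σ.Q.adicValuation (σ.pr (β • (d.red ⟨ψ, hψi⟩ ^ (p - 1) * z'))) ≤ x := by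
      rw [map_smul]
      rcases eq_or_ne β 0 with hb | hb
      · simp [hb]
      · rw [hsmul _ _ hb, map_mul, map_pow, map_mul, map_pow]
        exact mul_le_of_le_one_left' (pow_le_one' hψ1 _)
    rcases zero_pow_cases (k := k) p v j with ⟨-, ha⟩ | ⟨hlt, hj, ha, hb⟩
    · rw [hα, ha, one_smul, map_add] at hq
      have hxp : σ.Q.adicValuation (σ.pr (z' ^ p)) = x ^ p := by rw [map_pow, map_pow]
      have hlt' : σ.Q.adicValuation (σ.pr (β • (d.red ⟨ψ, hψi⟩ ^ (p - 1) * z'))) <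
          σ.Q.adicValuation (σ.pr (z' ^ p)) := by
        rw [hxp]
        refine hle.trans_lt ?_
        calc x = x ^ 1 := (pow_one x).symm
          _ < x ^ p := pow_lt_pow_right₀ hgt hp.one_lt
      rw [Valuation.map_add_eq_of_lt_left _ hlt', hxp] at hq
      exact absurd hq (not_le.mpr (one_lt_pow₀ hgt hp.pos.ne'))
    · rw [hα, ha, zero_smul, zero_add] at hq
      have hb0 : β ≠ 0 := by rw [hβ, hb, one_mul]; exact hu0
      -- `ψ ^ p` reduces to `U`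
      have he0 : 0 < e := by omega
      have hψU : d.red ⟨ψ, hψi⟩ ^ p = d.red ⟨U, hU.1⟩ := by
        rw [← map_pow, ← sub_eq_zero, ← map_sub]
        have hmem : (((ϖ ^ e : A) : K)) • (((ϖ : K) ^ e)⁻¹ • (ψ ^ p - U)) = ψ ^ p - U := by
          rw [SubmonoidClass.coe_pow, smul_inv_smul₀ (pow_ne_zero _ hϖ0)]
        refine (congrArg d.red (Subtype.ext hmem.symm :
          (⟨ψ, hψi⟩ ^ p - ⟨U, hU.1⟩ : d.int) =
            ⟨_, d.smul_mem (ϖ ^ e : A).2 ⟨hy₁, hy₂⟩⟩)).trans ?_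
        rw [d.red_smul (ϖ ^ e : A).2 ⟨hy₁, hy₂⟩, Subtype.coe_eta, map_pow, hπϖ, zero_pow he0.ne',
          zero_smul]
      obtain ⟨hUne, hUord⟩ := ord_pr_red σ hU
      have hU0 : σ.Q.adicValuation (σ.pr (d.red ⟨U, hU.1⟩)) = 1 := by
        have hUd : Finsupp.mapDomain d.place (divisorOf U) σ.ω = 0 := by
          rw [mapDomain_eq_of_forall (E' := divisorOf t - (p : ℤ) • E) fun P hP => by
              simp only [Finsupp.sub_apply, Finsupp.smul_apply, divisorOf_apply, smul_eq_mul]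
              rw [P.ord_mul ht.ne_zero (pow_ne_zero _ (inv_ne_zero hh.ne_zero)), Curve.ord_pow',
                P.ord_inv, ho P hP]
              ring,
            show Finsupp.mapDomain d.place (divisorOf t - (p : ℤ) • E) =
              d.redDiv (divisorOf t - (p : ℤ) • E) from rfl, map_sub, map_zsmul,
            Finsupp.sub_apply, Finsupp.smul_apply, smul_eq_mul, d.redDiv_apply, d.redDiv_apply,
            hσ, sub_self]
        rw [σ.Q.adicValuation_eq_exp_neg_ord hUne, hUord, hUd, neg_zero, exp_zero]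
      rw [← hψU, map_pow, map_pow, pow_eq_one_iff_left hp.ne_zero] at hU0
      rw [map_smul, hsmul _ _ hb0, map_mul, map_pow, map_mul, map_pow, hU0, one_pow, one_mul] at hq
      exact absurd hq (not_le.mpr hgt)
  have hzb' : zb = z' * d.red ⟨h, hh.1⟩ := by rw [hz', mul_assoc, red_inv hh, mul_one]
  rw [hzb', map_mul, map_mul, σ.Q.adicValuation_eq_exp_neg_ord hne, hord]
  exact mul_le_of_le_one_left' hx1

end FermatAgent.MazurPrinciple
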