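import Fermat.Agent.JacCharts.Basic
import Fermat.Agent.Curve.Basics

/-!
# Correspondences and reduction of places

An operator on divisors that is effective of bounded degree and compatible with an operator on
functions that commutes with reduction, commutes with the reduction of places. An eigen-class of
`p`-torsion on the reduced curve is killed by every polynomial in such operators killing the
Jacobian in characteristic zero.
-/

set_option autoImplicit false
set_option linter.unusedSectionVars false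

noncomputable section

open AlgebraicCurve FermatAgent.Curve.RR

namespace FermatAgent.MazurPrinciple

open FermatAgent.JacCharts

variable {K : Type*} [Field K] {A : ValuationSubring K} {k : Type*} [Field k] {π : A →+* k}
  {F : Type*} [Field F] [Algebra K F] {Fb : Type*} [Field Fb] [Algebra k Fb]
  [RRSetting K F] [RRSetting k Fb]

theorem place_surjective (d : GoodReductionDatum A π F Fb) [Nonempty (Place K F)] :
    Function.Surjective d.place := by
  classical
  intro Q
  obtain ⟨O⟩ := ‹Nonempty (Place K F)›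
  set g := genusFF K F
  set G : Divisor K F := Finsupp.single O ((2 * g + 1 : ℕ) : ℤ) with hG
  have hdG : Divisor.degree G = (2 * g + 1 : ℕ) := by
    rw [hG, Divisor.degree_single, RRSetting.deg_eq_one]; simp
  have hl := ell_eq_of_degree_ge (K := k) (F := Fb)
    (D := d.redDiv G - Finsupp.single Q 1) (by
      rw [map_sub, GoodReductionDatum.degree_redDiv, hdG, Divisor.degree_single,
        RRSetting.deg_eq_one, d.genus_eq]
      push_cast; omega)
  rw [map_sub, GoodReductionDatum.degree_redDiv, hdG, Divisor.degree_single, RRSetting.deg_eq_one,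
    d.genus_eq] at hl
  have hpos : (riemannRochSpace (d.redDiv G - Finsupp.single Q 1) : Submodule k Fb) ≠ ⊥ := fun e => by
    have h0 : ell (d.redDiv G - Finsupp.single Q 1) = 0 := by
      show Module.finrank k _ = 0
      rw [e, finrank_bot]
    rw [h0] at hl
    push_cast at hl
    omega
  obtain ⟨fb, hfb, hfb0⟩ := Submodule.exists_mem_ne_zero_of_ne_bot hpos
  obtain ⟨f, hf, hr⟩ := d.exists_redsTo_of_mem_L (G := G) (by rw [hdG]; push_cast; omega)
    (L_mono (sub_le_self _ (by simp)) hfb)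
  have hnn := (mem_L_iff_divOf hfb0).mp hfb
  rw [← hr.redDiv_divOf hfb0] at hnn
  have hQ : 0 < d.redDiv (divOf (K := K) f + G) Q := by
    have := Finsupp.le_def.mp hnn Q
    simp only [Finsupp.coe_zero, Pi.zero_apply, Finsupp.add_apply, Finsupp.sub_apply,
      Finsupp.single_eq_same] at this
    rw [map_add, Finsupp.add_apply]
    omega
  obtain ⟨P, -, hP⟩ := Finset.mem_image.mp
    (Finsupp.mapDomain_support (Finsupp.mem_support_iff.mpr hQ.ne'))
  exact ⟨P, hP⟩

theorem apply_le_degree {D : Divisor K F} (hD : 0 ≤ D) (P : Place K F) :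
    D P ≤ Divisor.degree D := by
  have h := FermatAgent.JacCharts.degree_nonneg (D := D - Finsupp.single P (D P)) (Finsupp.le_def.mpr fun Q => by
    rcases eq_or_ne Q P with rfl | hQ
    · simp
    · simpa [Finsupp.single_eq_of_ne hQ] using Finsupp.le_def.mp hD Q)
  rw [map_sub, Divisor.degree_single, RRSetting.deg_eq_one] at h
  simpa using h

/-- An operator on divisors with a compatible operator on functions. -/
structure PairedOperator (d : GoodReductionDatum A π F Fb) where
  Td : Divisor K F →+ Divisor K F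
  Tf : F → F
  bound : ℕ
  nonneg : ∀ P, 0 ≤ Td (Finsupp.single P 1)
  degree_le : ∀ P, Divisor.degree (Td (Finsupp.single P 1)) ≤ bound
  map_divOf : ∀ f : F, f ≠ 0 → Tf f ≠ 0 ∧ Td (divOf (K := K) f) = divOf (K := K) (Tf f)
  red : ∀ (f g : F) (fb : Fb), fb ≠ 0 → d.RedsTo f fb → d.RedsTo g fb →
    ∃ hb : Fb, hb ≠ 0 ∧ d.RedsTo (Tf f) hb ∧ d.RedsTo (Tf g) hb

variable {d : GoodReductionDatum A π F Fb}

theorem PairedOperator.nonneg' (T : PairedOperator d) {E : Divisor K F} (hE : 0 ≤ E) :
    0 ≤ T.Td E ∧ Divisor.degree (T.Td E) ≤ T.bound * Divisor.degree E := by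
  induction E using Finsupp.induction with
  | zero => simp
  | @single_add P n E hP _ ih =>
    have hn : 0 ≤ n := by
      have := Finsupp.le_def.mp hE P
      simpa [Finsupp.notMem_support_iff.mp hP] using this
    have hE' : 0 ≤ E := Finsupp.le_def.mpr fun Q => by
      rcases eq_or_ne Q P with rfl | hQ
      · simp [Finsupp.notMem_support_iff.mp hP]
      · simpa [Finsupp.single_eq_of_ne hQ] using Finsupp.le_def.mp hE Q
    obtain ⟨h1, h2⟩ := ih hE'
    have e : (Finsupp.single P n : Divisor K F) = n • Finsupp.single P 1 := by simp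
    rw [e, map_add, map_zsmul]
    refine ⟨add_nonneg (zsmul_nonneg (T.nonneg P) hn) h1, ?_⟩
    rw [map_add, map_zsmul, map_add, map_zsmul, Divisor.degree_single, RRSetting.deg_eq_one,
      smul_eq_mul, smul_eq_mul, mul_add]
    have := mul_le_mul_of_nonneg_left (T.degree_le P) hn
    push_cast
    linarith

/-- The reduction of the image of a place depends only on the reduction of the place. -/
theorem PairedOperator.redDiv_single_congr (T : PairedOperator d) {P P' : Place K F}
    (h : d.place P = d.place P') :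
    d.redDiv (T.Td (Finsupp.single P 1)) = d.redDiv (T.Td (Finsupp.single P' 1)) := by
  classical
  set g := genusFF K F
  set N : ℕ := 2 * g * T.bound + 1 with hN
  set G : Place K F → Divisor K F := fun R =>
    Finsupp.single P ((N + 2 * g : ℕ) : ℤ) - N • Finsupp.single R 1 with hG
  have hr : d.redDiv (G P') = d.redDiv (G P) := by
    simp only [hG, map_sub, map_nsmul]
    rw [show d.redDiv (Finsupp.single P' (1 : ℤ)) = d.redDiv (Finsupp.single P 1) from
      (Finsupp.mapDomain_single).trans ((congrArg (fun Q => Finsupp.single Q (1 : ℤ)) h.symm).trans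
        Finsupp.mapDomain_single.symm)]
  have hdeg : ∀ R, Divisor.degree (G R) = 2 * g := fun R => by
    simp only [hG, map_sub, map_nsmul, Divisor.degree_single, RRSetting.deg_eq_one, nsmul_eq_mul]
    push_cast; ring
  have hpos : (riemannRochSpace (d.redDiv (G P)) : Submodule k Fb) ≠ ⊥ := fun e => by
    have hl := ell_eq_of_degree_ge (K := k) (F := Fb) (D := d.redDiv (G P))
      (by rw [GoodReductionDatum.degree_redDiv, hdeg, d.genus_eq]; omega)
    have h0 : ell (d.redDiv (G P)) = 0 := by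
      show Module.finrank k _ = 0
      rw [e, finrank_bot]
    rw [GoodReductionDatum.degree_redDiv, hdeg, d.genus_eq, h0] at hl
    push_cast at hl
    omega
  obtain ⟨fb, hfb, hfb0⟩ := Submodule.exists_mem_ne_zero_of_ne_bot hpos
  obtain ⟨f, hf, hfr⟩ := d.exists_redsTo_of_mem_L (G := G P) (by rw [hdeg]; omega) hfb
  obtain ⟨f', hf', hfr'⟩ := d.exists_redsTo_of_mem_L (G := G P') (by rw [hdeg]; omega)
    (hr.symm ▸ hfb)
  obtain ⟨hb, hb0, hb1, hb2⟩ := T.red f f' fb hfb0 hfr hfr'
  have hf0 := hfr.ne_zero hfb0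
  have hf0' := hfr'.ne_zero hfb0
  set E := divOf (K := K) f + G P with hE
  set E' := divOf (K := K) f' + G P' with hE'
  have e1 : d.redDiv (T.Td (E - G P)) = d.redDiv (T.Td (E' - G P')) := by
    rw [hE, hE', add_sub_cancel_right, add_sub_cancel_right, (T.map_divOf f hf0).2,
      (T.map_divOf f' hf0').2, hb1.redDiv_divOf hb0, hb2.redDiv_divOf hb0]
  have hbd : ∀ (D : Divisor K F), 0 ≤ D → Divisor.degree D = 2 * g → ∀ Q,
      0 ≤ d.redDiv (T.Td D) Q ∧ d.redDiv (T.Td D) Q ≤ 2 * g * T.bound := by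
    intro D hD hdD Q
    obtain ⟨h1, h2⟩ := T.nonneg' hD
    have h3 := GoodReductionDatum.redDiv_nonneg (d := d) h1
    refine ⟨Finsupp.le_def.mp h3 Q, (apply_le_degree (K := k) h3 Q).trans ?_⟩
    rw [GoodReductionDatum.degree_redDiv]
    rw [hdD] at h2
    linarith
  have hEd : ∀ (u : F) (R : Place K F), u ≠ 0 →
      Divisor.degree (divOf (K := K) u + G R) = 2 * g := fun u R hu => by
    rw [map_add, degree_divOf hu, hdeg, zero_add]
  refine Finsupp.ext fun Q => ?_
  have b1 := hbd E ((mem_L_iff_divOf hf0).mp hf) (hEd f P hf0) Q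
  have b2 := hbd E' ((mem_L_iff_divOf hf0').mp hf') (hEd f' P' hf0') Q
  have := congrArg (fun D : Divisor k Fb => D Q) e1
  simp only [hG, map_sub, map_nsmul, Finsupp.sub_apply, Finsupp.smul_apply,
    nsmul_eq_mul] at this
  set x := d.redDiv (T.Td (Finsupp.single P 1)) Q with hx
  set y := d.redDiv (T.Td (Finsupp.single P' 1)) Q with hy
  rcases lt_trichotomy x y with hlt | heq | hlt
  · have h4 := mul_le_mul_of_nonneg_left (show (1 : ℤ) ≤ y - x by omega)
      (show (0 : ℤ) ≤ (N : ℤ) by positivity)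
    rw [hN] at h4 this; push_cast at h4 this; linarith
  · exact heq
  · have h4 := mul_le_mul_of_nonneg_left (show (1 : ℤ) ≤ x - y by omega)
      (show (0 : ℤ) ≤ (N : ℤ) by positivity)
    rw [hN] at h4 this; push_cast at h4 this; linarith

theorem PairedOperator.redDiv_eq_zero (T : PairedOperator d) [Nonempty (Place K F)]
    (D : Divisor K F) (hD : d.redDiv D = 0) : d.redDiv (T.Td D) = 0 := by
  classical
  obtain ⟨s, hs⟩ := (place_surjective d).hasRightInverse
  let Tb : Divisor k Fb →+ Divisor k Fb :=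
    Finsupp.liftAddHom fun Q => (zmultiplesHom _) (d.redDiv (T.Td (Finsupp.single (s Q) 1)))
  have key : d.redDiv.comp T.Td = Tb.comp d.redDiv := by
    refine Finsupp.addHom_ext fun P n => ?_
    show d.redDiv (T.Td (Finsupp.single P n)) = Tb (d.redDiv (Finsupp.single P n))
    rw [show (Finsupp.single P n : Divisor K F) = n • Finsupp.single P 1 by simp, map_zsmul,
      map_zsmul, map_zsmul, map_zsmul, T.redDiv_single_congr (P' := s (d.place P)) (hs _).symm]
    congr 1
    rw [show d.redDiv (Finsupp.single P (1 : ℤ)) = Finsupp.single (d.place P) 1 from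
      Finsupp.mapDomain_single]
    show _ = Finsupp.liftAddHom _ (Finsupp.single (d.place P) 1)
    rw [Finsupp.liftAddHom_apply_single]
    simp
  have := DFunLike.congr_fun key D
  simpa [hD] using this

/-- Principal divisors on the reduced curve lift. -/
theorem exists_redsTo (d : GoodReductionDatum A π F Fb) [Nonempty (Place K F)] {φ : Fb}
    (hφ : φ ≠ 0) : ∃ f : F, d.RedsTo f φ := by
  classical
  obtain ⟨O⟩ := ‹Nonempty (Place K F)›
  set g := genusFF K F
  -- write `φ` as a quotient of two sections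
  set G : Divisor K F := Finsupp.single O ((2 * g + (Divisor.degree
    (Finsupp.mapRange (max 0) (by simp) (-divOf (K := k) φ))).toNat : ℕ) : ℤ) with hG
  set Pp : Divisor k Fb := Finsupp.mapRange (max 0) (by simp) (-divOf (K := k) φ) with hPp
  have hP0 : 0 ≤ Pp := Finsupp.le_def.mpr fun Q => by simp [hPp]
  have hdP := FermatAgent.JacCharts.degree_nonneg hP0
  have hdG : Divisor.degree G = (2 * g + (Divisor.degree Pp).toNat : ℕ) := by
    rw [hG, Divisor.degree_single, RRSetting.deg_eq_one]; simp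
  have hl := ell_eq_of_degree_ge (K := k) (F := Fb) (D := d.redDiv G - Pp)
    (by rw [map_sub, GoodReductionDatum.degree_redDiv, hdG, d.genus_eq]; push_cast; omega)
  have hpos : (riemannRochSpace (d.redDiv G - Pp) : Submodule k Fb) ≠ ⊥ := fun e => by
    have h0 : ell (d.redDiv G - Pp) = 0 := by
      show Module.finrank k _ = 0
      rw [e, finrank_bot]
    rw [map_sub, GoodReductionDatum.degree_redDiv, hdG, d.genus_eq, h0] at hl
    push_cast at hl
    omega
  obtain ⟨s, hs, hs0⟩ := Submodule.exists_mem_ne_zero_of_ne_bot hpos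
  have hsG := L_mono (sub_le_self _ hP0) hs
  have hφs : φ * s ∈ riemannRochSpace (d.redDiv G) := by
    refine (mem_L_iff_divOf (mul_ne_zero hφ hs0)).mpr (Finsupp.le_def.mpr fun Q => ?_)
    have h1 := Finsupp.le_def.mp ((mem_L_iff_divOf hs0).mp hs) Q
    simp only [hPp, Finsupp.coe_zero, Pi.zero_apply, Finsupp.add_apply, Finsupp.sub_apply,
      Finsupp.mapRange_apply, Finsupp.neg_apply, divOf_apply hs0, divOf_apply hφ,
      divOf_apply (mul_ne_zero hφ hs0), Q.ord_mul hφ hs0] at h1 ⊢
    have := le_max_right (0 : ℤ) (-Q.ord φ)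
    linarith
  obtain ⟨a₁, -, r₁⟩ := d.exists_redsTo_of_mem_L (G := G) (by rw [hdG]; push_cast; omega) hφs
  obtain ⟨a₂, -, r₂⟩ := d.exists_redsTo_of_mem_L (G := G) (by rw [hdG]; push_cast; omega) hsG
  obtain ⟨c, hc, fb, hfb, hcf⟩ := d.exists_scale
    (div_ne_zero (r₁.ne_zero (mul_ne_zero hφ hs0)) (r₂.ne_zero hs0))
  have hm := hcf.mul r₂
  rw [smul_mul_assoc, div_mul_cancel₀ _ (r₂.ne_zero hs0)] at hm
  have hcA : c ∈ A := by
    by_contra hcA
    obtain ⟨b, hb, hb0⟩ := GoodReductionDatum.inv_mem_of_notMem (d := d) hcA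
    have h2 := hm.smul b
    rw [hb, smul_smul, inv_mul_cancel₀ hc, one_smul, hb0] at h2
    exact mul_ne_zero hφ hs0 (r₁.unique (by simpa using h2))
  have hu : π ⟨c, hcA⟩ ≠ 0 := fun e => mul_ne_zero hfb hs0 (by
    have := hm.unique (r₁.smul ⟨c, hcA⟩)
    rw [this, e, zero_smul])
  obtain ⟨cu, hcu⟩ := (GoodReductionDatum.isUnit_iff_pi_ne_zero (d := d) _).mpr hu
  have h2 := hcf.smul (↑cu⁻¹ : A)
  have hcinv : ((↑cu⁻¹ : A) : K) * c = 1 := by
    rw [show c = ((cu : A) : K) by rw [hcu], ← MulMemClass.coe_mul, Units.inv_mul]; rfl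
  rw [smul_smul, hcinv, one_smul] at h2
  refine ⟨a₁ / a₂, ?_⟩
  have h3 := h2.mul r₂
  rw [div_mul_cancel₀ _ (r₂.ne_zero hs0)] at h3
  rwa [mul_right_cancel₀ hs0 (h3.unique r₁)] at h2

/-- Pairs `(Φ, λ)` with `Φ` compatible with reduction and principal divisors, acting by `λ` on
the class of `Db`. -/
def eigenRing (d : GoodReductionDatum A π F Fb) (Db : Divisor k Fb) :
    Subring (AddMonoid.End (Divisor K F) × ℤ) where
  carrier := {x | (∀ D : Divisor K F, d.redDiv D = 0 → d.redDiv (x.1 D) = 0) ∧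
    (∀ D ∈ Divisor.principal (K := K) (F := F), x.1 D ∈ Divisor.principal (K := K) (F := F)) ∧
    ∀ D : Divisor K F, d.redDiv D = Db →
      ∃ D' ∈ Divisor.principal (K := K) (F := F),
        d.redDiv (x.1 D) = x.2 • Db + d.redDiv D'}
  zero_mem' := ⟨fun D _ => by simp, fun D _ => by simp,
    fun D _ => ⟨0, zero_mem _, by simp⟩⟩
  one_mem' := ⟨fun D h => by simpa using h, fun D h => by simpa using h,
    fun D h => ⟨0, zero_mem _, by simpa using h⟩⟩
  add_mem' := by
    rintro ⟨Φ, a⟩ ⟨Ψ, b⟩ ⟨h1, h2, h3⟩ ⟨g1, g2, g3⟩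
    refine ⟨fun D h => ?_, fun D h => ?_, fun D h => ?_⟩
    · show d.redDiv (Φ D + Ψ D) = 0
      rw [map_add, h1 D h, g1 D h, add_zero]
    · show Φ D + Ψ D ∈ _
      exact add_mem (h2 D h) (g2 D h)
    · obtain ⟨X, hX, eX⟩ := h3 D h
      obtain ⟨Y, hY, eY⟩ := g3 D h
      refine ⟨X + Y, add_mem hX hY, ?_⟩
      show d.redDiv (Φ D + Ψ D) = (a + b) • Db + _
      rw [map_add, eX, eY, add_smul, map_add]; abel
  neg_mem' := by
    rintro ⟨Φ, a⟩ ⟨h1, h2, h3⟩
    refine ⟨fun D h => ?_, fun D h => ?_, fun D h => ?_⟩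
    · show d.redDiv (-Φ D) = 0
      rw [map_neg, h1 D h, neg_zero]
    · exact neg_mem (h2 D h)
    · obtain ⟨X, hX, eX⟩ := h3 D h
      refine ⟨-X, neg_mem hX, ?_⟩
      show d.redDiv (-Φ D) = (-a) • Db + _
      rw [map_neg, eX, neg_smul, map_neg]; abel
  mul_mem' := by
    rintro ⟨Φ, a⟩ ⟨Ψ, b⟩ ⟨h1, h2, h3⟩ ⟨g1, g2, g3⟩
    refine ⟨fun D h => h1 _ (g1 D h), fun D h => h2 _ (g2 D h), fun D h => ?_⟩
    obtain ⟨Y, hY, eY⟩ := g3 D h
    obtain ⟨X, hX, eX⟩ := h3 D h
    show ∃ D' ∈ _, d.redDiv (Φ (Ψ D)) = (a * b) • Db + d.redDiv D'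
    have hz := h1 (Ψ D - (b • D + Y)) (by rw [map_sub, map_add, map_zsmul, eY, h, sub_self])
    rw [map_sub, map_sub, sub_eq_zero, map_add, map_zsmul, map_add, map_zsmul] at hz
    refine ⟨b • X + Φ Y, add_mem (zsmul_mem hX b) (h2 Y hY), ?_⟩
    rw [hz, eX, map_add, map_zsmul, smul_add, smul_smul, mul_comm b a]; abel

/-- A paired operator with eigenvalue `a` on a function with divisor `p Db`. -/
theorem PairedOperator.mem_eigenRing (T : PairedOperator d) [Nonempty (Place K F)] {p : ℕ}
    (hp : p ≠ 0) {φ : Fb} (hφ : φ ≠ 0) {Db : Divisor k Fb} (hDb : divOf (K := k) φ = p • Db)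
    {a : ℤ} (heig : ∀ f, d.RedsTo f φ → ∃ hb h : Fb, h ≠ 0 ∧ hb ≠ 0 ∧ d.RedsTo (T.Tf f) hb ∧
      divOf (K := k) hb = a • divOf (K := k) φ + p • divOf (K := k) h) :
    ((T.Td : AddMonoid.End (Divisor K F)), a) ∈ eigenRing d Db := by
  classical
  refine ⟨fun D h => T.redDiv_eq_zero D h, ?_, fun D hD => ?_⟩
  · rintro D ⟨f, hf, hDf⟩
    have e : D = divOf (K := K) f := Finsupp.ext fun v => by rw [hDf, divOf_apply hf]
    obtain ⟨h0, h1⟩ := T.map_divOf f hf
    show T.Td D ∈ _
    rw [e, h1]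
    exact divOf_mem_principal h0
  obtain ⟨f, hfr⟩ := exists_redsTo d hφ
  obtain ⟨hb, h, hh, hb0, hbr, hdiv⟩ := heig f hfr
  have hf0 := hfr.ne_zero hφ
  have hz := T.redDiv_eq_zero (divOf (K := K) f - p • D)
    (by rw [map_sub, map_nsmul, hfr.redDiv_divOf hφ, hDb, hD, sub_self])
  rw [map_sub, map_nsmul, map_sub, map_nsmul, (T.map_divOf f hf0).2, hbr.redDiv_divOf hb0, hdiv,
    hDb, sub_eq_zero] at hz
  obtain ⟨D', hD', eD'⟩ : ∃ D' ∈ Divisor.principal (K := K) (F := F),
      d.redDiv D' = divOf (K := k) h := by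
    obtain ⟨u, hu⟩ := exists_redsTo d hh
    exact ⟨_, divOf_mem_principal (hu.ne_zero hh), hu.redDiv_divOf hh⟩
  refine ⟨D', hD', ?_⟩
  rw [eD']
  refine nsmul_right_injective hp ?_
  show p • d.redDiv (T.Td D) = p • (a • Db + divOf (K := k) h)
  rw [smul_add, ← smul_comm a p, hz]

/-- A class on which a killing operator has eigenvalue prime to `p` vanishes. -/
theorem exists_pow_eq_of_eigenRing [IsAlgClosed k] [FermatAgent.Curve.IsFunctionField1 k Fb]
    [Nonempty (Place K F)] {p : ℕ} (hp : p.Prime) {φ : Fb} (hφ : φ ≠ 0) {Db : Divisor k Fb}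
    (hDb : divOf (K := k) φ = p • Db) {Φ : AddMonoid.End (Divisor K F)} {a : ℤ}
    (ha : ¬ (p : ℤ) ∣ a) (h : (Φ, a) ∈ eigenRing d Db)
    (hkill : ∀ D : Divisor K F, Divisor.degree D = 0 →
      Φ D ∈ Divisor.principal (K := K) (F := F)) :
    ∃ h : Fb, φ = h ^ p := by
  classical
  obtain ⟨s, hs⟩ := (place_surjective d).hasRightInverse
  set D : Divisor K F := Finsupp.mapDomain s Db with hD
  have hrD : d.redDiv D = Db := by
    show Finsupp.mapDomain d.place D = Db
    rw [hD, ← Finsupp.mapDomain_comp,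
      show d.place ∘ s = id from funext hs, Finsupp.mapDomain_id]
  have hdeg : Divisor.degree Db = 0 := by
    have := degree_divOf (K := k) hφ
    rw [hDb, map_nsmul, nsmul_eq_mul] at this
    exact (mul_eq_zero.mp this).resolve_left (by exact_mod_cast hp.ne_zero)
  obtain ⟨-, -, h3⟩ := h
  obtain ⟨D', hD', e⟩ := h3 D hrD
  have hP := hkill D (by rw [← GoodReductionDatum.degree_redDiv (d := d), hrD, hdeg])
  have ha' : a • Db ∈ Divisor.principal (K := k) (F := Fb) := by
    have h1 := GoodReductionDatum.redDiv_mem_principal (d := d) hP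
    rw [e] at h1
    simpa using sub_mem h1 (GoodReductionDatum.redDiv_mem_principal (d := d) hD')
  have hp' : (p : ℤ) • Db ∈ Divisor.principal (K := k) (F := Fb) := by
    rw [natCast_zsmul, ← hDb]
    exact divOf_mem_principal hφ
  obtain ⟨x, y, hxy⟩ : IsCoprime a (p : ℤ) :=
    ((Nat.prime_iff_prime_int.mp hp).coprime_iff_not_dvd.mpr ha).symm
  have hmem : Db ∈ Divisor.principal (K := k) (F := Fb) := by
    have := add_mem (zsmul_mem ha' x) (zsmul_mem hp' y)
    rwa [smul_smul, smul_smul, ← add_smul, hxy, one_smul] at this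
  obtain ⟨u, hu, hDu⟩ := hmem
  obtain ⟨c, hc⟩ := FermatAgent.Curve.forall_ord_eq_zero_iff.mp fun v : Place k Fb => show v.ord (φ / u ^ p) = 0 by
    have := congrArg (fun E : Divisor k Fb => E v) hDb
    simp only [divOf_apply hφ, Finsupp.smul_apply, nsmul_eq_mul, hDu] at this
    rw [div_eq_mul_inv, v.ord_mul hφ (inv_ne_zero (pow_ne_zero _ hu)), v.ord_inv,
      FermatAgent.Curve.ord_pow', this]
    ring
  obtain ⟨r, hr⟩ := IsAlgClosed.exists_pow_nat_eq c hp.pos
  refine ⟨algebraMap k Fb r * u, ?_⟩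
  rw [mul_pow, ← map_pow, hr, hc, div_mul_cancel₀ _ (pow_ne_zero _ hu)]

end FermatAgent.MazurPrinciple
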