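import Fermat.Agent.Mazur.Step3.HeckeNorm
import Fermat.Agent.ES.Main
import Fermat.Agent.MazurPrinciple.DivisorOperator
import Fermat.Agent.BadRed.Semistable.Series

/-!
# Hecke correspondences at a good reduction datum

For a Laurent good reduction datum of `X₀(M)` (any residue characteristic) and a prime `l ∤ M`,
the reduction of `corrNorm M l f` depends only on that of `f`, through the twisted product of its
series; the correspondence is a `PairedOperator`.
-/

set_option autoImplicit false
set_option linter.unusedSectionVars false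

noncomputable section

open AlgebraicCurve ModularCurve
open FermatAgent.JacCharts (GoodReductionDatum divOf)
open FermatAgent.ES (qTwist normAlong)
open FermatAgent.Mazur.Step3 (corrNorm heckeDiv twistProd root_of_unity_mem)

namespace FermatAgent.MazurPrinciple

local notation "Qb" => AlgebraicClosure ℚ

/-- The twisted product commutes with changes of coefficients. -/
theorem coeffMap_heckeTwist {R S : Type*} [CommRing R] [CommRing S] (φ : R →+* S) (l : ℕ)
    [NeZero l] (u : Rˣ) (y : LaurentSeries R) :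
    coeffMap φ (twistProd l u y) = twistProd l (Units.map φ.toMonoidHom u) (coeffMap φ y) := by
  rw [twistProd, twistProd, map_mul, map_prod, ModularCurve.coeffMap_qExpand]
  refine congrArg₂ _ rfl (Finset.prod_congr rfl fun b _ => ?_)
  rw [FermatAgent.ES.coeffMap_qTwist, map_pow]

/-- The twisted product is multiplicative. -/
theorem heckeTwist_mul {R : Type*} [CommRing R] (l : ℕ) [NeZero l] (u : Rˣ)
    (f g : LaurentSeries R) : twistProd l u (f * g) = twistProd l u f * twistProd l u g := by
  simp only [twistProd, map_mul, Finset.prod_mul_distrib]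
  ring

/-- The twisted product of a nonzero series over a field is nonzero. -/
theorem heckeTwist_ne_zero {k : Type*} [Field k] (l : ℕ) [NeZero l] (u : kˣ) {y : LaurentSeries k}
    (hy : y ≠ 0) : twistProd l u y ≠ 0 :=
  mul_ne_zero ((map_ne_zero_iff _ (qExpand_injective (R := k) (l * l))).mpr hy)
    (Finset.prod_ne_zero_iff.mpr fun _ _ =>
      (map_ne_zero_iff _ (FermatAgent.ES.qTwist_injective _)).mpr hy)

variable {M : ℕ} [NeZero M] {A : ValuationSubring Qb} {k : Type*} [Field k] {π : A →+* k}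
variable {d : GoodReductionDatum A π (modularFunctionFieldBar M) (modularFunctionFieldFullC k M)}

/-- The norm of a function with integral series, away from the level. -/
theorem exists_series_corrNorm_away {l : ℕ} [NeZero l] (hl : l.Prime) (hlM : ¬ l ∣ M) :
    ∃ u : Aˣ, u ^ l = 1 ∧ ∀ (y : LaurentSeries A)
      (hy : coeffMap A.subtype y ∈ modularFunctionFieldBar M),
      ∃ w : LaurentSeries A, coeffMap A.subtype w = (corrNorm M l ⟨_, hy⟩ : LaurentSeries Qb) ∧
        qExpand A l w = twistProd l u y := by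
  obtain ⟨ζ, hζ, hform⟩ := FermatAgent.ES.heckeNormFormula M l hl hlM
  have hζ' : (ζ : Qb) ^ l = 1 := by rw [← Units.val_pow_eq_pow_val, hζ, Units.val_one]
  let z : A := ⟨ζ, root_of_unity_mem hl.ne_zero hζ'⟩
  have hz : z ^ l = 1 := Subtype.ext (by simpa [z] using hζ')
  let zu : Aˣ := Units.ofPowEqOne z l hz hl.ne_zero
  have hzu : Units.map A.subtype.toMonoidHom zu = ζ := Units.ext rfl
  refine ⟨zu, Units.ext (by simp [zu]), fun y hy => ?_⟩
  set g := corrNorm M l ⟨_, hy⟩ with hg
  have hw : coeffMap A.subtype (twistProd l zu y) = qExpand Qb l (g : LaurentSeries Qb) := by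
    rw [coeffMap_heckeTwist, hzu, hg, corrNorm, hform]
    rfl
  have hgA : ∀ n : ℤ, (g : LaurentSeries Qb).coeff n ∈ A := fun n => by
    rw [← qExpand_coeff_mul l (g : LaurentSeries Qb) n, ← hw]
    exact ((twistProd l zu y).coeff _).2
  let gA : LaurentSeries A :=
    { coeff := fun n => ⟨(g : LaurentSeries Qb).coeff n, hgA n⟩
      isPWO_support' := (g : LaurentSeries Qb).isPWO_support.mono fun n hn h => hn (Subtype.ext h) }
  have hgA' : coeffMap A.subtype gA = (g : LaurentSeries Qb) := HahnSeries.ext rfl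
  refine ⟨gA, hgA', ?_⟩
  refine (FermatAgent.Igusa.coeffMap_injective A.subtype_injective) ?_
  rw [ModularCurve.coeffMap_qExpand, hgA', hw]

/-- **Residual Hecke norm.** The reduction of the norm is the twisted product of the reduction. -/
theorem exists_resid_corrNorm (hd : d.IsLaurent) {l : ℕ} [NeZero l] (hl : l.Prime)
    (hlM : ¬ l ∣ M) :
    ∃ u : Aˣ, u ^ l = 1 ∧ ∀ f fb, d.RedsTo f fb →
      ∃ hb : modularFunctionFieldFullC k M, d.RedsTo (corrNorm M l f) hb ∧
        qExpand k l (hb : LaurentSeries k) =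
          twistProd l (Units.map π.toMonoidHom u) (fb : LaurentSeries k) := by
  obtain ⟨u, hul, hu⟩ := exists_series_corrNorm_away (A := A) hl hlM
  refine ⟨u, hul, fun f fb hf => ?_⟩
  obtain ⟨y, z, hy, hz, hz0, hxyz⟩ := hd.exists_fraction ⟨f, hf.mem⟩
  obtain ⟨Y, hY, rfl⟩ := hd.exists_series y hy
  obtain ⟨Z, hZ, rfl⟩ := hd.exists_series z hz
  have hyz : f * (⟨_, hZ⟩ : modularFunctionFieldBar M) = ⟨_, hY⟩ := congrArg Subtype.val hxyz
  have hfb : (fb : LaurentSeries k) * coeffMap π Z = coeffMap π Y := by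
    rw [← hd.coe_red_intOfSeries Z hZ, ← hd.coe_red_intOfSeries Y hY, ← hxyz, map_mul,
      MulMemClass.coe_mul, show d.red ⟨f, hf.mem⟩ = fb from hf.2]
  have hZk : coeffMap π Z ≠ 0 := by
    rw [← hd.coe_red_intOfSeries Z hZ]
    exact fun h => hz0 (Subtype.ext h)
  obtain ⟨wy, hwy, hwy'⟩ := hu Y hY
  obtain ⟨wz, hwz, hwz'⟩ := hu Z hZ
  obtain ⟨yb, hyb, hyb'⟩ := FermatAgent.Mazur.Step3.redsTo_series hd wy (hwy ▸ (corrNorm M l _).2)
  obtain ⟨zb, hzb, hzb'⟩ := FermatAgent.Mazur.Step3.redsTo_series hd wz (hwz ▸ (corrNorm M l _).2)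
  rw [show (⟨coeffMap A.subtype wy, _⟩ : modularFunctionFieldBar M) =
    corrNorm M l ⟨_, hY⟩ from Subtype.ext hwy, ← hyz, FermatAgent.Mazur.Step3.corrNorm_mul] at hyb
  rw [show (⟨coeffMap A.subtype wz, _⟩ : modularFunctionFieldBar M) =
    corrNorm M l ⟨_, hZ⟩ from Subtype.ext hwz] at hzb
  have ez : qExpand k l (zb : LaurentSeries k) =
      twistProd l (Units.map π.toMonoidHom u) (coeffMap π Z) := by
    rw [hzb', ← ModularCurve.coeffMap_qExpand, hwz', coeffMap_heckeTwist]
  have ey : qExpand k l (yb : LaurentSeries k) =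
      twistProd l (Units.map π.toMonoidHom u) (coeffMap π Y) := by
    rw [hyb', ← ModularCurve.coeffMap_qExpand, hwy', coeffMap_heckeTwist]
  have hzb0 : zb ≠ 0 := fun h => heckeTwist_ne_zero l _ hZk (by
    rw [← ez, h, ZeroMemClass.coe_zero, map_zero])
  have h := FermatAgent.Mazur.Step3.redsTo_div hyb hzb hzb0
  rw [mul_div_assoc, div_self (hzb.ne_zero hzb0), mul_one] at h
  refine ⟨_, h, ?_⟩
  refine mul_right_cancel₀ (heckeTwist_ne_zero l (Units.map π.toMonoidHom u) hZk) ?_
  rw [← heckeTwist_mul, hfb, ← ey, ← ez, ← map_mul, ← MulMemClass.coe_mul,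
    div_mul_cancel₀ _ hzb0]

/-- A series representation gives the reduction. -/
theorem redsTo_of_seriesRep (hd : d.IsLaurent) {f : modularFunctionFieldBar M}
    {y z : LaurentSeries A}
    (h : FermatAgent.BadRed.Semistable.IsSeriesRep A π (f : LaurentSeries Qb) y z) :
    ∃ fb : modularFunctionFieldFullC k M, d.RedsTo f fb ∧
      (fb : LaurentSeries k) = coeffMap π y / coeffMap π z := by
  rcases eq_or_ne f 0 with rfl | hf
  · have hy : y = 0 := FermatAgent.Igusa.coeffMap_injective A.subtype_injective (by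
      rw [← h.2, ZeroMemClass.coe_zero, zero_mul, map_zero])
    exact ⟨0, GoodReductionDatum.redsTo_zero, by rw [hy, map_zero, zero_div]; rfl⟩
  obtain ⟨c, hc, gb, hgb, hg⟩ := d.exists_scale hf
  obtain ⟨y', z', hy', hz', hz0', hxyz⟩ := hd.exists_fraction ⟨c • f, hg.mem⟩
  obtain ⟨Y, hY, rfl⟩ := hd.exists_series y' hy'
  obtain ⟨Z, hZ, rfl⟩ := hd.exists_series z' hz'
  have hgbY : (gb : LaurentSeries k) * coeffMap π Z = coeffMap π Y := by
    rw [← hd.coe_red_intOfSeries Z hZ, ← hd.coe_red_intOfSeries Y hY, ← hxyz, map_mul,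
      MulMemClass.coe_mul, show d.red ⟨c • f, hg.mem⟩ = gb from hg.2]
  have hZk : coeffMap π Z ≠ 0 := by
    rw [← hd.coe_red_intOfSeries Z hZ]
    exact fun h => hz0' (Subtype.ext h)
  have e1 : algebraMap Qb (LaurentSeries Qb) c * (f : LaurentSeries Qb) * coeffMap A.subtype Z =
      coeffMap A.subtype Y := by
    have h2 := congrArg (fun x : modularFunctionFieldBar M => (x : LaurentSeries Qb))
      (congrArg Subtype.val hxyz : (c • f) * (⟨_, hZ⟩ : modularFunctionFieldBar M) = ⟨_, hY⟩)
    simp [Algebra.smul_def] at h2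
    exact h2
  rw [algebraMap_laurentSeries_eq_single, ← HahnSeries.C_apply] at e1
  by_cases hcA : c ∈ A
  · have e2 : HahnSeries.C (⟨c, hcA⟩ : A) * (y * Z) = Y * z := by
      refine FermatAgent.Igusa.coeffMap_injective A.subtype_injective ?_
      rw [map_mul, map_mul, map_mul, FermatAgent.BadRed.Semistable.coeffMap_const', ← e1, ← h.2,
        ValuationSubring.subtype_apply]
      ring
    have e3 := congrArg (coeffMap π) e2
    rw [map_mul, map_mul, map_mul, FermatAgent.BadRed.Semistable.coeffMap_const', ← hgbY] at e3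
    have hcu : π ⟨c, hcA⟩ ≠ 0 := fun h0 => by
      rw [h0, map_zero, zero_mul] at e3
      exact mul_ne_zero (mul_ne_zero (fun e => hgb (Subtype.ext e)) hZk) h.1 e3.symm
    obtain ⟨cu, hcu'⟩ := (GoodReductionDatum.isUnit_iff_pi_ne_zero (d := d) _).mpr hcu
    have h2 := hg.smul (↑cu⁻¹ : A)
    have hci : ((↑cu⁻¹ : A) : Qb) * c = 1 := by
      rw [show c = ((cu : A) : Qb) by rw [hcu'], ← MulMemClass.coe_mul, Units.inv_mul]; rfl
    rw [smul_smul, hci, one_smul] at h2
    refine ⟨_, h2, ?_⟩
    rw [eq_div_iff h.1, IntermediateField.coe_smul, Algebra.smul_def,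
      algebraMap_laurentSeries_eq_single, ← HahnSeries.C_apply]
    refine mul_left_cancel₀ (mul_ne_zero ((map_ne_zero HahnSeries.C).mpr hcu) hZk) ?_
    rw [show HahnSeries.C (π ⟨c, hcA⟩) * coeffMap π Z * coeffMap π y =
      HahnSeries.C (π ⟨c, hcA⟩) * (coeffMap π y * coeffMap π Z) by ring, e3]
    have hone : HahnSeries.C (π ⟨c, hcA⟩) * HahnSeries.C (π (↑cu⁻¹ : A)) = (1 : LaurentSeries k) := by
      rw [← map_mul, ← map_mul, ← hcu', Units.mul_inv, map_one, map_one]
    linear_combination (gb : LaurentSeries k) * coeffMap π Z * coeffMap π z * hone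
  · obtain ⟨a, ha, ha0⟩ := d.inv_mem_of_notMem hcA
    have h2 := hg.smul a
    rw [ha, smul_smul, inv_mul_cancel₀ hc, one_smul, ha0, zero_smul] at h2
    refine ⟨0, h2, ?_⟩
    have e2 : y * Z = HahnSeries.C a * (Y * z) := by
      refine FermatAgent.Igusa.coeffMap_injective A.subtype_injective ?_
      rw [map_mul, map_mul, map_mul, FermatAgent.BadRed.Semistable.coeffMap_const', ← e1, ← h.2,
        ValuationSubring.subtype_apply, ha]
      have : HahnSeries.C c⁻¹ * HahnSeries.C c = (1 : LaurentSeries Qb) := by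
        rw [← map_mul, inv_mul_cancel₀ hc, map_one]
      linear_combination -((f : LaurentSeries Qb) * coeffMap A.subtype Z * coeffMap A.subtype z) * this
    have e3 := congrArg (coeffMap π) e2
    rw [map_mul, map_mul, FermatAgent.BadRed.Semistable.coeffMap_const', ha0, map_zero, zero_mul]
      at e3
    rw [(mul_eq_zero.mp e3).resolve_right hZk, zero_div]
    rfl

variable [IsAlgClosed k] [FermatAgent.Curve.IsFunctionField1 k (modularFunctionFieldFullC k M)]

/-- The Hecke correspondence as a paired operator. -/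
def heckePaired (hd : d.IsLaurent) {l : ℕ} [NeZero l] (hl : l.Prime) (hlM : ¬ l ∣ M) :
    PairedOperator d where
  Td := heckeDiv M l
  Tf := corrNorm M l
  bound := finrankAlong Qb (heckeBetaBar Qb M l)
  nonneg P := FermatAgent.Mazur.Step3.correspondence_nonneg _ _ _ _ (Finsupp.single_nonneg.mpr zero_le_one)
  degree_le P := le_of_eq ((Divisor.degree_correspondence _ _ _ _
    (FermatAgent.Curve.fundamentalIdentityAlong _ _) _).trans (by
      rw [Divisor.degree_single, FermatAgent.Curve.RR.RRSetting.deg_eq_one]; simp))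
  map_divOf f hf := by
    refine ⟨FermatAgent.Mazur.Step3.corrNorm_ne_zero M l hf, Finsupp.ext fun v => ?_⟩
    rw [FermatAgent.JacCharts.divOf_apply (FermatAgent.Mazur.Step3.corrNorm_ne_zero M l hf)]
    exact FermatAgent.ES.correspondence_apply_principal _ _ _ _
      (FermatAgent.ES.finiteAlong_heckeAlphaBar M l)
      (FermatAgent.Curve.normFormulaAlong _ _) hf (FermatAgent.JacCharts.divOf_apply hf) v
  red f g fb hfb hf hg := by
    obtain ⟨u, -, hu⟩ := exists_resid_corrNorm hd hl hlM
    obtain ⟨hb, h1, e1⟩ := hu f fb hf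
    obtain ⟨hb', h2, e2⟩ := hu g fb hg
    have e : hb' = hb := Subtype.ext (qExpand_injective (R := k) l (e2.trans e1.symm))
    refine ⟨hb, fun h0 => ?_, h1, e ▸ h2⟩
    refine heckeTwist_ne_zero l (Units.map π.toMonoidHom u)
      (fun h' : (fb : LaurentSeries k) = 0 => hfb (Subtype.ext h')) ?_
    rw [← e1, h0, ZeroMemClass.coe_zero, map_zero]

end FermatAgent.MazurPrinciple

end
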