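import Fermat.Agent.MazurPrinciple.Setup

/-!
# Mazur's principle, abstract core

For functions `f` representing classes of an eigen-line: `f = κ H ^ p N (N f)` on both components
and triviality of eigen-classes on the reduced components force `τ t * t ^ (p - w)` to be a `p`-th
power for a function `t` representing the class of `T f / f ^ e`.
-/

set_option autoImplicit false
set_option linter.unusedSectionVars false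

noncomputable section

open AlgebraicCurve WithZero

namespace FermatAgent.MazurPrinciple

open FermatAgent.Curve FermatAgent.Curve.RR BadRed.Semistable
open scoped Classical

variable {K : Type*} [Field K] [IsAlgClosed K] {A : ValuationSubring K} {k : Type*}
    [Field k] [IsAlgClosed k] {π : A →+* k} {F F₁ F₂ : Type*} [Field F] [Field F₁] [Field F₂]
    [Algebra K F] [Algebra k F₁] [Algebra k F₂] [IsFunctionField1 K F] [IsFunctionField1 k F₁]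
    [IsFunctionField1 k F₂] [RRSetting K F] [RRSetting k F₁] [RRSetting k F₂] [Infinite k]
variable {W : Type*} [CommRing W] [IsDomain W] [IsDiscreteValuationRing W]

/-- What the principle needs about the functions representing the eigen-classes. -/
structure Inputs (d : NodalDatum A π F F₁ F₂) (E E₀ : Subfield F) (ϖ : A) (ϖW : W) (p : ℕ)
    (L : Setup d E E₀ ϖ ϖW p) where
  N₁ : ContractOp d.g₁ E E₀ ϖ p
  N₂ : ContractOp d.g₂ E E₀ ϖ p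
  e : ℕ
  T₁ : HeckeOp d.g₁ E E₀ ϖ e
  T₂ : HeckeOp d.g₂ E E₀ ϖ e
  hecke_eq : T₂.T = T₁.T
  Rep : Set F
  rep_mem : ∀ f ∈ Rep, f ∈ E ∧ f ≠ 0 ∧ ∀ P : Place K F, (p : ℤ) ∣ P.ord f
  rep_hecke : ∀ f ∈ Rep, T₁.T f / f ^ e ∈ Rep
  rep_pow : ∀ f ∈ Rep, ∀ G ∈ E, G ≠ 0 → f * G ^ p ∈ Rep
  rep_smul : ∀ f ∈ Rep, ∀ c : K, c ≠ 0 → algebraMap K F c ∈ E → c • f ∈ Rep
  ident₁ : ∀ f ∈ Rep, ∃ κ : K, ∃ H ∈ E, H ≠ 0 ∧ f = κ • (H ^ p * N₁.N (N₁.N f))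
  ident₂ : ∀ f ∈ Rep, ∃ κ : K, ∃ H ∈ E, H ≠ 0 ∧ f = κ • (H ^ p * N₂.N (N₂.N f))
  slope : ∃ R₀ : ℕ, ∀ (i : d.C.ι) (R : ℕ), R₀ ≤ R → ∀ (G₁ G₂ : F) (h₁ : G₁ ∈ E₀) (h₂ : G₂ ∈ E₀)
    (u₁ : IsUnitAt d.g₁ G₁) (u₂ : IsUnitAt d.g₂ G₂) (d₁ d₂ : (modPow ϖW R)ˣ) (n₁ n₂ : ℤ),
    IsDecomp ((L.node i).end₁ R ⟨G₁, L.le h₁, u₁.1⟩) d₁ n₁ →
    IsDecomp ((L.node i).end₂ R ⟨G₂, L.le h₂, u₂.1⟩) d₂ n₂ →
    (p : ℤ) ∣ n₁ → (p : ℤ) ∣ n₂ → (∃ η : (modPow ϖW R)ˣ, d₂ = d₁ * η ^ p) →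
    (p : ℤ) ∣ (d.C.x i).ord (d.g₁.red ⟨G₁, u₁.1⟩) + (d.C.y i).ord (d.g₂.red ⟨G₂, u₂.1⟩) →
      (p : ℤ) ∣ (d.C.x i).ord (d.g₁.red ⟨G₁, u₁.1⟩) ∧
        (p : ℤ) ∣ (d.C.y i).ord (d.g₂.red ⟨G₂, u₂.1⟩)
  residual₁ : ∀ f ∈ Rep, ∀ h : IsUnitAt d.g₁ f,
    (∀ Q : Place k F₁, (p : ℤ) ∣ Q.ord (d.g₁.red ⟨f, h.1⟩)) →
      ∃ φ : F₁, d.g₁.red ⟨f, h.1⟩ = φ ^ p
  residual₂ : ∀ f ∈ Rep, ∀ h : IsUnitAt d.g₂ f,
    (∀ Q : Place k F₂, (p : ℤ) ∣ Q.ord (d.g₂.red ⟨f, h.1⟩)) →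
      ∃ φ : F₂, d.g₂.red ⟨f, h.1⟩ = φ ^ p

/-- A fixed point equation normalised for one valuation. -/
theorem exists_normalised {Fb : Type*} [Field Fb] [Algebra k Fb] (g : GaussRed A π F Fb)
    (hπ : Function.Surjective π) {E E₀ : Subfield F} {ϖ : A} {p : ℕ}
    (C : ContractOp g E E₀ ϖ p)
    (hnorm : ∀ x ∈ E, x ≠ 0 → ∃ c : K, algebraMap K F c ∈ E ∧ IsUnitAt g (c • x))
    {f H : F} {κ : K} (hfE : f ∈ E) (hf : IsUnitAt g f) (hHE : H ∈ E) (hH : H ≠ 0)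
    (hid : f = κ • (H ^ p * C.N (C.N f))) :
    ∃ (κ' : K) (H' : F), κ' ∈ A ∧ algebraMap K F κ' ∈ E ∧ IsUnitAt g H' ∧ H' ∈ E ∧
      f = κ' • (H' ^ p * C.N (C.N f)) := by
  obtain ⟨c, hcE, hu⟩ := hnorm H hHE hH
  have hc0 : c ≠ 0 := fun e => hu.ne_zero (by rw [e, zero_smul])
  have hu' : IsUnitAt g ((c • H) ^ p * C.N (C.N f)) :=
    (hu.pow p).mul (C.isUnitAt _ (C.isUnitAt _ hf))
  have hcne : algebraMap K F c ≠ 0 := by simpa using hc0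
  have hid' : f = (κ * (c ^ p)⁻¹) • ((c • H) ^ p * C.N (C.N f)) := by
    conv_lhs => rw [hid]
    rw [Algebra.smul_def, Algebra.smul_def, Algebra.smul_def, map_mul, map_inv₀, map_pow,
      mul_pow]
    field_simp
  refine ⟨κ * (c ^ p)⁻¹, c • H, ?_, ?_, hu, ?_, hid'⟩
  · exact g.mem_of_smul_mem hπ hu'.1 hu'.2 (hid' ▸ hf.1)
  · have hHE' : c • H ∈ E := by rw [Algebra.smul_def]; exact E.mul_mem hcE hHE
    have e : algebraMap K F (κ * (c ^ p)⁻¹) = f / ((c • H) ^ p * C.N (C.N f)) := by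
      rw [eq_div_iff hu'.ne_zero, ← Algebra.smul_def, ← hid']
    rw [e]
    exact E.div_mem hfE (E.mul_mem (pow_mem hHE' p) (C.mem_E _ (C.mem_E _ hfE)))
  · rw [Algebra.smul_def]; exact E.mul_mem hcE hHE

/-- Shapes of `T f / f ^ e`. -/
theorem exists_hecke_shape {Fb : Type*} [Field Fb] [Algebra k Fb] (g : GaussRed A π F Fb)
    (hπ : Function.Surjective π) {E E₀ : Subfield F} {ϖ : A} {p e : ℕ} (hπϖ : π ϖ = 0)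
    (hle : E₀ ≤ E) (C : ContractOp g E E₀ ϖ p) (O : HeckeOp g E E₀ ϖ e)
    (hdiv : ∀ x ∈ E, ∀ (h : x ∈ g.integers), g.red ⟨x, h⟩ = 0 → CongMod g ϖ 1 x 0)
    (hnorm : ∀ x ∈ E, x ≠ 0 → ∃ c : K, algebraMap K F c ∈ E ∧ IsUnitAt g (c • x))
    (hlift : ∀ φ : Fb, φ ≠ 0 → ∃ h ∈ E₀, ∃ hu : IsUnitAt g h, g.red ⟨h, hu.1⟩ = φ)
    {Rep : Set F} (hrep : ∀ f ∈ Rep, f ∈ E ∧ f ≠ 0)
    (hsmul : ∀ f ∈ Rep, ∀ c : K, c ≠ 0 → algebraMap K F c ∈ E → c • f ∈ Rep)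
    (hid : ∀ f ∈ Rep, ∃ κ : K, ∃ H ∈ E, H ≠ 0 ∧ f = κ • (H ^ p * C.N (C.N f)))
    {f : F} (hf : f ∈ Rep) :
    IsUnitAt g (O.T f / f ^ e) ∧ ∀ R, 1 ≤ R → HasShape g E E₀ ϖ p R (O.T f / f ^ e) := by
  obtain ⟨hfE, hf0⟩ := hrep f hf
  obtain ⟨c, hcE, hu⟩ := hnorm f hfE hf0
  have hc0 : c ≠ 0 := fun h => hu.ne_zero (by rw [h, zero_smul])
  have e1 : O.T (c • f) / (c • f) ^ e = O.T f / f ^ e := by
    rw [Algebra.smul_def, map_mul, O.const, map_pow, mul_pow, mul_div_mul_left]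
    exact pow_ne_zero _ (by simpa using hc0)
  have hcf := hsmul f hf c hc0 hcE
  obtain ⟨hcfE, -⟩ := hrep _ hcf
  obtain ⟨κ₀, H₀, hH₀E, hH₀, hid₀⟩ := hid _ hcf
  obtain ⟨κ, H, hκA, hκE, hH, hHE, hid'⟩ :=
    exists_normalised g hπ C hnorm hcfE hu hH₀E hH₀ hid₀
  obtain ⟨f₀, hf₀E, hf₀, he⟩ := hlift _ hu.2
  have key : ∀ R, 1 ≤ R → IsUnitAt g (O.T f / f ^ e) ∧ HasShape g E E₀ ϖ p R (O.T f / f ^ e) := by
    intro R hR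
    obtain ⟨m, T, hTE, hT, hc⟩ := C.exists_shape hπ hdiv hκA hκE hu hH hHE hid' hf₀ hcfE (hle hf₀E) he.symm R
    rw [← e1]
    exact O.exists_shape hπ hu hκA hTE (C.mem_E₀_iterate hf₀E m) hT (C.isUnitAt_iterate hf₀ m)
      hc hR hπϖ
  exact ⟨(key 1 le_rfl).1, fun R hR => (key R hR).2⟩

/-- A reduction that is a `p`-th power gives approximate roots up to a constant. -/
theorem exists_roots {Fb : Type*} [Field Fb] [Algebra k Fb] (g : GaussRed A π F Fb)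
    (hπ : Function.Surjective π) {E E₀ : Subfield F} (hle : E₀ ≤ E) {ϖ : A} {p : ℕ}
    (hp : p ≠ 0) (C : ContractOp g E E₀ ϖ p)
    (hdiv : ∀ x ∈ E, ∀ (h : x ∈ g.integers), g.red ⟨x, h⟩ = 0 → CongMod g ϖ 1 x 0)
    (hnorm : ∀ x ∈ E, x ≠ 0 → ∃ c : K, algebraMap K F c ∈ E ∧ IsUnitAt g (c • x))
    (hlift : ∀ φ : Fb, φ ≠ 0 → ∃ h ∈ E₀, ∃ hu : IsUnitAt g h, g.red ⟨h, hu.1⟩ = φ)
    {t : F} (htE : t ∈ E) (ht : IsUnitAt g t) {H : F} {κ₀ : K} (hHE : H ∈ E) (hH : H ≠ 0)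
    (hid : t = κ₀ • (H ^ p * C.N (C.N t))) {φ : Fb} (hφ : g.red ⟨t, ht.1⟩ = φ ^ p) :
    ∃ (κ : A), π κ ≠ 0 ∧ algebraMap K F (κ : K) ∈ E ∧
      ∀ R, ∃ T ∈ E, IsUnitAt g T ∧ CongMod g ϖ R t ((κ : K) • T ^ p) := by
  obtain ⟨κ, H', hκA, hκE, hH', hH'E, hid'⟩ := exists_normalised g hπ C hnorm htE ht hHE hH hid
  have hκ0 : π ⟨κ, hκA⟩ ≠ 0 := fun h0 => by
    apply ht.2
    have hm : H' ^ p * C.N (C.N t) ∈ g.integers :=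
      mul_mem (pow_mem hH'.1 p) (C.isUnitAt _ (C.isUnitAt _ ht)).1
    rw [g.red_congr hid' ht.1, g.red_smul hκA hm, h0, zero_smul]
  refine ⟨⟨κ, hκA⟩, hκ0, hκE, fun R => ?_⟩
  have hφ0 : φ ≠ 0 := fun h => ht.2 (by rw [hφ, h, zero_pow hp])
  obtain ⟨h₀, hh₀E, hh₀, he⟩ := hlift φ hφ0
  have he' : g.red ⟨t, ht.1⟩ = g.red ⟨h₀ ^ p, (hh₀.pow p).1⟩ := by
    rw [hφ, ← he, ← map_pow]; rfl
  obtain ⟨m, T, hTE, hT, hc⟩ :=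
    C.exists_shape hπ hdiv hκA hκE ht hH' hH'E hid' (hh₀.pow p) htE (pow_mem (hle hh₀E) p)
      he' R
  refine ⟨T * C.N^[m] h₀, E.mul_mem hTE (hle (C.mem_E₀_iterate hh₀E m)),
    hT.mul (C.isUnitAt_iterate hh₀ m), ?_⟩
  rwa [mul_pow, ← C.iterate_pow]

variable {d : NodalDatum A π F F₁ F₂} {E E₀ : Subfield F} {ϖ : A} {ϖW : W} {p : ℕ}
  [IsAdicComplete (Ideal.span {ϖW}) W] [CharP k p]
variable {L : Setup d E E₀ ϖ ϖW p}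

/-- The reductions of a representative with rational shapes have orders divisible by `p`. -/
theorem Inputs.dvd_ord_red (I : Inputs d E E₀ ϖ ϖW p L) {t : F} (htE : t ∈ E)
    (ht : IsDiscUnit d t) {n : ℕ} (htn : t ∈ riemannRochSpace (n • d.D))
    (hdiv : ∀ P : Place K F, (p : ℤ) ∣ P.ord t)
    (hs₁ : ∀ R, 1 ≤ R → HasShape d.g₁ E E₀ ϖ p R t)
    (hs₂ : ∀ R, 1 ≤ R → HasShape d.g₂ E E₀ ϖ p R t) :
    (∀ Q : Place k F₁, (p : ℤ) ∣ Q.ord (d.g₁.red ⟨t, ht.1.1⟩)) ∧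
      (∀ Q : Place k F₂, (p : ℤ) ∣ Q.ord (d.g₂.red ⟨t, ht.1.2⟩)) := by
  have hsum : ∀ ω, (p : ℤ) ∣ d.C.secDiv 0 (d.red ⟨t, ht.1⟩) ω := fun ω => by
    rw [← d.mapDomain_divisorOf ht.1 ht.2.1 ht.2.2, d.mapDomain_place_apply]
    refine Finset.dvd_sum fun P _ => ?_
    split_ifs
    · rw [divisorOf_apply]; exact hdiv P
    · exact dvd_zero _
  obtain ⟨R₀, hslope⟩ := I.slope
  set R := max R₀ 1
  obtain ⟨T₁, G₁, hT₁E, hG₁E, hT₁, hG₁, c₁⟩ := hs₁ R (le_max_right _ _)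
  obtain ⟨T₂, G₂, hT₂E, hG₂E, hT₂, hG₂, c₂⟩ := hs₂ R (le_max_right _ _)
  have hred : ∀ {Fb : Type _} [Field Fb] [Algebra k Fb] {g : GaussRed A π F Fb} {T G : F}
      (_ : IsUnitAt g T) (_ : IsUnitAt g G) (hg : t ∈ g.integers),
      CongMod g ϖ R t (T ^ p * G) → ∀ hT' : T ∈ g.integers, ∀ hG' : G ∈ g.integers,
      g.red ⟨t, hg⟩ = g.red ⟨T, hT'⟩ ^ p * g.red ⟨G, hG'⟩ := by
    intro Fb _ _ g T G hT hG hg hc hT' hG'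
    obtain ⟨w, hw, ew⟩ := hc.mono (le_max_right R₀ 1)
    rw [pow_one] at ew
    have hz := g.red_smul ϖ.2 hw
    rw [Subtype.coe_eta, L.pi_unif, zero_smul] at hz
    rw [← map_pow, ← map_mul, show (⟨t, hg⟩ : g.integers) =
      ⟨T, hT'⟩ ^ p * ⟨G, hG'⟩ + ⟨_, g.smul_mem ϖ.2 hw⟩ from Subtype.ext (by simp [← ew]),
      map_add, hz, add_zero]
  have r₁ : d.g₁.red ⟨t, ht.1.1⟩ = d.g₁.red ⟨T₁, hT₁.1⟩ ^ p * d.g₁.red ⟨G₁, hG₁.1⟩ :=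
    hred hT₁ hG₁ ht.1.1 c₁ hT₁.1 hG₁.1
  have r₂ : d.g₂.red ⟨t, ht.1.2⟩ = d.g₂.red ⟨T₂, hT₂.1⟩ ^ p * d.g₂.red ⟨G₂, hG₂.1⟩ := by
    obtain ⟨w, hw, ew⟩ := c₂.mono (le_max_right R₀ 1)
    rw [pow_one] at ew
    have hz := d.g₂.red_smul ϖ.2 hw
    rw [Subtype.coe_eta, L.pi_unif, zero_smul] at hz
    rw [← map_pow, ← map_mul, show (⟨t, ht.1.2⟩ : d.g₂.integers) =
      ⟨T₂, hT₂.1⟩ ^ p * ⟨G₂, hG₂.1⟩ + ⟨_, d.g₂.smul_mem ϖ.2 hw⟩ from Subtype.ext (by simp [← ew]),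
      map_add, hz, add_zero]
  have ho₁ : ∀ Q : Place k F₁, Q.ord (d.g₁.red ⟨t, ht.1.1⟩) =
      p * Q.ord (d.g₁.red ⟨T₁, hT₁.1⟩) + Q.ord (d.g₁.red ⟨G₁, hG₁.1⟩) := fun Q => by
    rw [r₁, Q.ord_mul (pow_ne_zero _ hT₁.2) hG₁.2, Curve.ord_pow']
  have ho₂ : ∀ Q : Place k F₂, Q.ord (d.g₂.red ⟨t, ht.1.2⟩) =
      p * Q.ord (d.g₂.red ⟨T₂, hT₂.1⟩) + Q.ord (d.g₂.red ⟨G₂, hG₂.1⟩) := fun Q => by
    rw [r₂, Q.ord_mul (pow_ne_zero _ hT₂.2) hG₂.2, Curve.ord_pow']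
  have hnode : ∀ i, (p : ℤ) ∣ (d.C.x i).ord (d.g₁.red ⟨G₁, hG₁.1⟩) ∧
      (p : ℤ) ∣ (d.C.y i).ord (d.g₂.red ⟨G₂, hG₂.1⟩) := by
    intro i
    obtain ⟨d₁, d₂, n₁, n₂, hd₁, hd₂, hn₁, hn₂, hη⟩ := L.node_rel i (le_max_right R₀ 1) htE ht htn
      hdiv hT₁ hT₁E hT₂ hT₂E hG₁ (L.le hG₁E) hG₂ (L.le hG₂E) c₁ c₂
    refine hslope i R (le_max_left _ _) G₁ G₂ hG₁E hG₂E hG₁ hG₂ d₁ d₂ n₁ n₂ hd₁ hd₂ hn₁ hn₂ hη ?_
    have h := hsum (.node i)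
    rw [Glued.secDiv_node, d.red_mk ht.1, ho₁, ho₂] at h
    obtain ⟨c, hc⟩ := h
    exact ⟨c - (d.C.x i).ord (d.g₁.red ⟨T₁, hT₁.1⟩) - (d.C.y i).ord (d.g₂.red ⟨T₂, hT₂.1⟩),
      by rw [mul_sub, mul_sub]; linarith⟩
  refine ⟨fun Q => ?_, fun Q => ?_⟩
  · by_cases hQ : ∃ i, d.C.x i = Q
    · obtain ⟨i, rfl⟩ := hQ
      rw [ho₁]
      exact dvd_add (dvd_mul_right _ _) (hnode i).1
    · push Not at hQ
      simpa [Glued.secDiv_left, d.red_mk ht.1] using hsum (.left Q hQ)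
  · by_cases hQ : ∃ i, d.C.y i = Q
    · obtain ⟨i, rfl⟩ := hQ
      rw [ho₂]
      exact dvd_add (dvd_mul_right _ _) (hnode i).2
    · push Not at hQ
      simpa [Glued.secDiv_right, d.red_mk ht.1] using hsum (.right Q hQ)

/-- The class of `T f / f ^ e` has a representative with approximate roots on both components. -/
theorem Inputs.exists_rep_with_roots (I : Inputs d E E₀ ϖ ϖW p L) {f' : F} (hf' : f' ∈ I.Rep) :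
    ∃ (t : F) (n : ℕ), t ∈ I.Rep ∧ IsDiscUnit d t ∧ t ∈ riemannRochSpace ((p * n) • d.D) ∧
      (∃ (c : K) (G : F), c ≠ 0 ∧ G ≠ 0 ∧ t = c • (I.T₁.T f' / f' ^ I.e * G ^ p)) ∧
      ∀ R : ℕ, ∃ (T₁ : (E.toSubring ⊓ d.g₁.integers : Subring F))
        (T₂ : (E.toSubring ⊓ d.g₂.integers : Subring F))
        (u₁ : (E.toSubring ⊓ d.g₁.integers : Subring F))
        (u₂ : (E.toSubring ⊓ d.g₂.integers : Subring F)),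
        (T₁ : F) ^ p - t = (ϖ : K) ^ R • (u₁ : F) ∧ (T₂ : F) ^ p - t = (ϖ : K) ^ R • (u₂ : F) := by
  have hπ := d.residue_surjective
  have hrep : ∀ f ∈ I.Rep, f ∈ E ∧ f ≠ 0 := fun f hf => ⟨(I.rep_mem f hf).1, (I.rep_mem f hf).2.1⟩
  obtain ⟨hu₁, hsh₁⟩ := exists_hecke_shape d.g₁ hπ L.pi_unif L.le I.N₁ I.T₁ L.div₁ L.norm₁ L.lift₁
    hrep I.rep_smul I.ident₁ hf'
  obtain ⟨hu₂, hsh₂⟩ := exists_hecke_shape d.g₂ hπ L.pi_unif L.le I.N₂ I.T₂ L.div₂ L.norm₂ L.lift₂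
    hrep I.rep_smul I.ident₂ hf'
  rw [I.hecke_eq] at hu₂ hsh₂
  set f := I.T₁.T f' / f' ^ I.e with hf
  obtain ⟨hfE, hf0, -⟩ := I.rep_mem f (I.rep_hecke f' hf')
  obtain ⟨G, hGE, hG, n, hn⟩ := L.regularise f hfE hf0
  obtain ⟨hG₁, hG₂⟩ := isDiscUnit_iff.mp hG
  set t₀ := f * G ^ p with ht₀
  have hrep₀ : t₀ ∈ I.Rep := I.rep_pow f (I.rep_hecke f' hf') G hGE hG.ne_zero
  obtain ⟨ht₀E, ht₀0, hdiv₀⟩ := I.rep_mem t₀ hrep₀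
  have ht₀u : IsDiscUnit d t₀ :=
    (isDiscUnit_iff.mpr ⟨hu₁, hu₂⟩).mul (hG.pow p)
  obtain ⟨ho₁, ho₂⟩ := I.dvd_ord_red ht₀E ht₀u hn hdiv₀
    (fun R hR => (hsh₁ R hR).mul_pow hGE hG₁) (fun R hR => (hsh₂ R hR).mul_pow hGE hG₂)
  obtain ⟨a₁, a₂⟩ := isDiscUnit_iff.mp ht₀u
  obtain ⟨φ₁, hφ₁⟩ := I.residual₁ t₀ hrep₀ a₁ ho₁
  obtain ⟨φ₂, hφ₂⟩ := I.residual₂ t₀ hrep₀ a₂ ho₂
  obtain ⟨k₁, H₁, hH₁E, hH₁, e₁⟩ := I.ident₁ t₀ hrep₀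
  obtain ⟨k₂, H₂, hH₂E, hH₂, e₂⟩ := I.ident₂ t₀ hrep₀
  obtain ⟨κ₁, hκ₁, hκ₁E, r₁⟩ := exists_roots d.g₁ hπ L.le L.prime.ne_zero I.N₁ L.div₁ L.norm₁
    L.lift₁ ht₀E a₁ hH₁E hH₁ e₁ hφ₁
  obtain ⟨κ₂, hκ₂, hκ₂E, r₂⟩ := exists_roots d.g₂ hπ L.le L.prime.ne_zero I.N₂ L.div₂ L.norm₂
    L.lift₂ ht₀E a₂ hH₂E hH₂ e₂ hφ₂
  obtain ⟨i₀⟩ := d.C.nonempty
  have hκ₁0 : (κ₁ : K) ≠ 0 := fun e => hκ₁ (by rw [show κ₁ = 0 from Subtype.ext e, map_zero])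
  obtain ⟨uinv, huinv⟩ := isUnit_iff_exists_inv.mp ((isUnit_iff_pi_ne_zero hπ).mpr hκ₁)
  have huinv' : ((κ₁ : A) : K)⁻¹ = (uinv : K) := by
    exact inv_eq_of_mul_eq_one_right (congrArg Subtype.val huinv)
  have hinvE : algebraMap K F ((κ₁ : K)⁻¹) ∈ E := by rw [map_inv₀]; exact E.inv_mem hκ₁E
  set t := (κ₁ : K)⁻¹ • t₀ with ht
  have htE : t ∈ E := by rw [ht, Algebra.smul_def]; exact E.mul_mem hinvE ht₀E
  have hscal : ∀ {g : GaussRed A π F F₁} {x y : F} {R : ℕ}, CongMod g ϖ R x y →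
      CongMod g ϖ R ((κ₁ : K)⁻¹ • x) ((κ₁ : K)⁻¹ • y) := by
    rintro g x y R ⟨w, hw, ew⟩
    exact ⟨(κ₁ : K)⁻¹ • w, huinv' ▸ g.smul_mem uinv.2 hw,
      by rw [← smul_sub, ew, smul_comm]⟩
  refine ⟨t, n, I.rep_smul t₀ hrep₀ _ (inv_ne_zero hκ₁0) hinvE, ?_, ?_,
    ⟨(κ₁ : K)⁻¹, G, inv_ne_zero hκ₁0, hG.ne_zero, rfl⟩, fun R => ?_⟩
  · rw [isDiscUnit_iff]
    have hu : ∀ {Fb : Type _} [Field Fb] [Algebra k Fb] (g : GaussRed A π F Fb),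
        IsUnitAt g (algebraMap K F ((κ₁ : K)⁻¹)) := fun g => by
      refine ⟨huinv' ▸ g.algebraMap_mem uinv, ?_⟩
      rw [g.red_congr (show algebraMap K F ((κ₁ : K)⁻¹) = algebraMap K F (uinv : K) by rw [huinv'])
        _, g.red_algebraMap]
      have : π κ₁ * π uinv = 1 := by rw [← map_mul, huinv, map_one]
      simpa using right_ne_zero_of_mul_eq_one this
    rw [ht, Algebra.smul_def]
    refine ⟨(hu d.g₁).mul a₁, ?_⟩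
    refine IsUnitAt.mul ⟨huinv' ▸ d.g₂.algebraMap_mem uinv, ?_⟩ a₂
    rw [d.g₂.red_congr (show algebraMap K F ((κ₁ : K)⁻¹) = algebraMap K F (uinv : K) by
      rw [huinv']) _, d.g₂.red_algebraMap]
    have : π κ₁ * π uinv = 1 := by rw [← map_mul, huinv, map_one]
    simpa using right_ne_zero_of_mul_eq_one this
  · rw [ht, Algebra.smul_def]
    rw [← Algebra.smul_def]
    exact Submodule.smul_mem _ _ hn
  -- the constants differ by a `p`-th power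
  set R' := max R 1
  obtain ⟨T₁, hT₁E, hT₁, c₁⟩ := r₁ R'
  obtain ⟨T₂, hT₂E, hT₂, c₂⟩ := r₂ R'
  have hC : ∀ {Fb : Type _} [Field Fb] [Algebra k Fb] (g : GaussRed A π F Fb) (κ : A),
      π κ ≠ 0 → IsUnitAt g (algebraMap K F (κ : K)) := fun g κ hκ =>
    ⟨g.algebraMap_mem κ, by rw [g.red_algebraMap]; simpa using hκ⟩
  have hC₂ : IsUnitAt d.g₂ (algebraMap K F (κ₂ : K)) :=
    ⟨d.g₂.algebraMap_mem κ₂, by rw [d.g₂.red_algebraMap]; simpa using hκ₂⟩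
  obtain ⟨d₁, d₂, n₁, n₂, hd₁, hd₂, -, -, η, hη⟩ := L.node_rel i₀ (le_max_right R 1) ht₀E ht₀u hn
    hdiv₀ hT₁ hT₁E hT₂ hT₂E (hC d.g₁ κ₁ hκ₁) hκ₁E hC₂ hκ₂E
    (by rwa [Algebra.smul_def, mul_comm] at c₁) (by rwa [Algebra.smul_def, mul_comm] at c₂)
  have u₁ := (L.isUnit_toW ⟨κ₁, hκ₁E⟩ hκ₁)
  have u₂ := (L.isUnit_toW ⟨κ₂, hκ₂E⟩ hκ₂)
  let := Ann.isLocalRing_modPow ϖW L.irreducible (show R' ≠ 0 by omega)
  rw [L.end_scalar₁ ⟨κ₁, hκ₁E⟩ i₀ R'] at hd₁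
  rw [L.end_scalar₂ ⟨κ₂, hκ₂E⟩ i₀ R'] at hd₂
  have eu₁ := (hd₁.unique (isDecomp_C (Units.map (modPowMk ϖW R').toMonoidHom u₁.unit))).1
  have eu₂ := (hd₂.unique (isDecomp_C (Units.map (modPowMk ϖW R').toMonoidHom u₂.unit))).1
  obtain ⟨w, hw⟩ := Ideal.Quotient.mk_surjective (η : modPow ϖW R')
  have hwu : IsUnit w := by
    by_contra hnu
    have hmem : ϖW ∣ w := by
      rw [← Ideal.mem_span_singleton, ← L.irreducible.maximalIdeal_eq]; exact hnu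
    have := Ann.isLocalRing_modPow ϖW L.irreducible one_ne_zero
    have h1 := η.isUnit.map (modPowFactor ϖW (le_max_right R 1))
    rw [← hw, modPowFactor_mk, (modPowMk_eq_zero_iff ϖW 1 w).mpr (by rwa [pow_one])] at h1
    exact not_isUnit_zero h1
  obtain ⟨c, hc0, hcw⟩ := L.dense R' w hwu
  have hdvd : ϖW ^ R' ∣ L.toW ⟨κ₂, hκ₂E⟩ - L.toW (⟨κ₁, hκ₁E⟩ * c ^ p) := by
    have h2 : modPowMk ϖW R' (L.toW ⟨κ₂, hκ₂E⟩) =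
        modPowMk ϖW R' (L.toW ⟨κ₁, hκ₁E⟩) * modPowMk ϖW R' w ^ p := by
      have := congrArg Units.val hη
      rw [eu₁, eu₂] at this
      rw [show modPowMk ϖW R' w = (η : modPow ϖW R') from hw]
      simpa using this
    rw [← modPowMk_eq_zero_iff, map_sub, h2, map_mul L.toW, map_pow L.toW, map_mul, map_pow,
      show modPowMk ϖW R' (L.toW c) = modPowMk ϖW R' w by
        rw [← sub_eq_zero, ← map_sub, modPowMk_eq_zero_iff]; exact hcw, sub_self]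
  obtain ⟨a, ha⟩ := L.reflect _ _ R' hdvd
  have hinv := hinvE
  have e₂' : CongMod d.g₂ ϖ R' t ((algebraMap K F ((c : A) : K) * T₂) ^ p) := by
    obtain ⟨b, hb, eb⟩ := c₂
    refine ⟨(uinv : K) • (b + (a : K) • T₂ ^ p), d.g₂.smul_mem uinv.2
      (add_mem hb (d.g₂.smul_mem a.2 (pow_mem hT₂.1 p))), ?_⟩
    have ha' : (κ₂ : K) - κ₁ * (c : A) ^ p = (ϖ : K) ^ R' * a := by
      have := congrArg Subtype.val ha
      simpa using this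
    have ha'' := congrArg (algebraMap K F) ha'
    have hne : algebraMap K F (κ₁ : K) ≠ 0 := by simpa using hκ₁0
    rw [ht, ← huinv']
    simp only [map_sub, map_mul, map_pow, map_inv₀, Algebra.smul_def, mul_pow] at eb ha'' ⊢
    field_simp
    linear_combination eb + T₂ ^ p * ha''
  have e₁' : CongMod d.g₁ ϖ R' t (T₁ ^ p) := by
    have := hscal c₁
    rwa [smul_smul, inv_mul_cancel₀ hκ₁0, one_smul] at this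
  have hcE : algebraMap K F ((c : A) : K) ∈ E := c.2
  obtain ⟨w₁, hw₁, hw₁E, x₁⟩ := (e₁'.mono (le_max_left R 1)).mem_E L.unif_ne_zero L.smul_mem htE
    (pow_mem hT₁E p)
  obtain ⟨w₂, hw₂, hw₂E, x₂⟩ := (e₂'.mono (le_max_left R 1)).mem_E L.unif_ne_zero L.smul_mem htE
    (pow_mem (E.mul_mem hcE hT₂E) p)
  exact ⟨⟨T₁, hT₁E, hT₁.1⟩, ⟨_, E.mul_mem hcE hT₂E, mul_mem (d.g₂.algebraMap_mem c) hT₂.1⟩,
    ⟨-w₁, E.neg_mem hw₁E, neg_mem hw₁⟩, ⟨-w₂, E.neg_mem hw₂E, neg_mem hw₂⟩,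
    by rw [smul_neg, ← x₁, neg_sub], by rw [smul_neg, ← x₂, neg_sub]⟩

/-- Mazur's principle, abstract form. -/
theorem Inputs.exists_twist_root (I : Inputs d E E₀ ϖ ϖW p L) (τ : Twist d E ϖ) {w : ℕ}
    (hw : w ≤ p)
    (hτν : ∀ (i : d.C.ι) (R c : ℕ) (r : Ann ϖW)
      (T₁ : (E.toSubring ⊓ d.g₁.integers : Subring F))
      (T₂ : (E.toSubring ⊓ d.g₂.integers : Subring F)),
      Ann.toX ϖW R r = (L.node i).end₁ R T₁ →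
      Ann.toY ϖW R r = HahnSeries.C (modPowMk ϖW R (L.ζ ^ c)) * (L.node i).end₂ R T₂ →
      ∃ r', Ann.toX ϖW R r' =
          (L.node i).end₁ R ⟨τ.τ T₁, τ.mem_E _ T₁.2.1, (τ.mem₁ _ T₁.2.2).1⟩ ∧
        Ann.toY ϖW R r' = HahnSeries.C (modPowMk ϖW R (L.ζ ^ (w * c))) *
          (L.node i).end₂ R ⟨τ.τ T₂, τ.mem_E _ T₂.2.1, (τ.mem₂ _ T₂.2.2).1⟩)
    {f' : F} (hf' : f' ∈ I.Rep) :
    ∃ (t Φ : F), t ∈ I.Rep ∧
      (∃ (c : K) (G : F), c ≠ 0 ∧ G ≠ 0 ∧ t = c • (I.T₁.T f' / f' ^ I.e * G ^ p)) ∧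
      Φ ^ p = τ.τ t * t ^ (p - w) := by
  obtain ⟨t, n, hrep, ht, htn, hG, happ⟩ := I.exists_rep_with_roots hf'
  obtain ⟨htE, -, hdiv⟩ := I.rep_mem t hrep
  obtain ⟨u, hu, hu0⟩ := L.p_eq
  obtain ⟨Φ, hΦ⟩ := exists_root_twist L.irreducible L.unif_ne_zero L.pi_unif L.arch L.smul_mem
    L.prime L.one_le hu hu0 L.p_eqW L.isPrimitiveRoot L.node L.sec_mem L.sec_unit L.one_le_secDeg
    L.sec_rr L.sec_div τ hw hτν htE ht htn hdiv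
    (fun m n' => L.rational _ (E.mul_mem (τ.mem_E t htE) (pow_mem htE _)) m n') happ
  exact ⟨t, Φ, hrep, hG, hΦ⟩

end FermatAgent.MazurPrinciple
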