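import Fermat.Agent.MazurPrinciple.NodeBuild

/-!
# Embeddings at the nodes from a chart

`NodeScalars.nodeEmb`: regular elements lie in the annulus ring, constants stay constants, and the
two ends are those of the branches.
-/

set_option autoImplicit false
set_option linter.unusedSectionVars false
set_option maxHeartbeats 800000

noncomputable section

namespace FermatAgent.MazurPrinciple

open IsLocalRing AlgebraicCurve
open FermatAgent.Curve FermatAgent.Curve.RR FermatAgent.BadRed.Semistable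
open FermatAgent.BadRed.Carayol

variable {q : ℕ} [Fact q.Prime] {W K F F₁ F₂ : Type*}
  [CommRing W] [IsDomain W] [IsDiscreteValuationRing W] [IsAlgClosed (IsLocalRing.ResidueField W)]
  [Field K] [CharZero K] [Algebra W K] [IsFractionRing W K]
  [Field F] [Field F₁] [Field F₂] [Algebra K F] [Algebra K F₁] [Algebra K F₂]
  [Algebra W F] [Algebra W F₁] [Algebra W F₂]
  [IsScalarTower W K F] [IsScalarTower W K F₁] [IsScalarTower W K F₂]
  {T : QTower q K F F₁ F₂} {u : F}
variable {L : Type*} [Field L] [IsAlgClosed L] {A : ValuationSubring L} {k : Type*} [Field k]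
  [IsAlgClosed k] {π : A →+* k} {E G₁ G₂ : Type*} [Field E] [Field G₁] [Field G₂]
  [Algebra L E] [Algebra k G₁] [Algebra k G₂] [IsFunctionField1 L E] [IsFunctionField1 k G₁]
  [IsFunctionField1 k G₂] [RRSetting L E] [RRSetting k G₁] [RRSetting k G₂]
variable {d : NodalDatum A π E G₁ G₂}
variable {Wc : Type*} [CommRing Wc] [IsDomain Wc] [IsDiscreteValuationRing Wc]
variable {C : ChartLink W T u d} {i : d.C.ι} {cs : Finset W} {E' : Subfield E} {ϖ : A} {ϖW : Wc}

/-- The reduction of the local ring at a branch. -/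
def NodeChart.redHom (NC : NodeChart C i cs) {Gb : Type*} [Field Gb] [Algebra k Gb]
    (g : GaussRed A π E Gb) (mem : ∀ r : locRing NC.P, C.hom r ∈ g.integers) :
    locRing NC.P →+* Gb :=
  g.red.comp (NC.incHom.codRestrict g.integers mem)

theorem NodeChart.redHom_apply (NC : NodeChart C i cs) {Gb : Type*} [Field Gb] [Algebra k Gb]
    (g : GaussRed A π E Gb) (mem : ∀ r : locRing NC.P, C.hom r ∈ g.integers) (r : locRing NC.P) :
    NC.redHom g mem r = g.red ⟨C.hom r, mem r⟩ := rfl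

theorem NodeChart.redHom_surj (NC : NodeChart C i cs) {Gb : Type*} [Field Gb] [Algebra k Gb]
    (g : GaussRed A π E Gb) (mem : ∀ r : locRing NC.P, C.hom r ∈ g.integers) {P : locRing NC.P}
    (surj : ∀ φ : Gb, ∃ (f : F₁) (h : C.hom f ∈ g.integers), g.red ⟨C.hom f, h⟩ = φ)
    (frac : ∀ f : F₁, C.hom f ∈ g.integers → ∃ a b : locRing NC.P, ¬ P ∣ b ∧ f * b = a)
    (φ : Gb) : ∃ a b, ¬ P ∣ b ∧ φ * NC.redHom g mem b = NC.redHom g mem a := by
  obtain ⟨f, hf, rfl⟩ := surj φ
  obtain ⟨a, b, hb, hab⟩ := frac f hf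
  refine ⟨a, b, hb, ?_⟩
  rw [NC.redHom_apply, NC.redHom_apply, ← map_mul]
  exact congrArg g.red (Subtype.ext (by
    show C.hom f * C.hom (b : F₁) = C.hom (a : F₁)
    rw [← map_mul, hab]))

variable (S : NodeScalars C E' cs ϖ ϖW) (NC : NodeChart C i cs)
  (hq : maximalIdeal W = Ideal.span {(q : W)}) (D : ChartData W T u)
  [IsAdicComplete (Ideal.span {ϖW}) Wc]

namespace NodeScalars

include D in
theorem mem_field {z : E} (hz : z ∈ E') : z ∈ (S.nodeExt NC hq).field :=
  (S.mem_field_iff NC hq D z).mpr hz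

/-- The embedding of the field of definition. -/
def embE : E' →+* Localization (nonZeroDivisors (Ann ϖW)) :=
  ((S.nodeExt NC hq).emb S.irreducible).comp
    (E'.subtype.codRestrict (S.nodeExt NC hq).field fun z => S.mem_field NC hq D z.2)

theorem gauss₁ : (S.nodeExt NC hq).GaussHyp d.g₁ :=
  S.gaussHyp NC hq d.g₁ (P := NC.Y) (P' := NC.X) (by rw [mul_comm]; exact NC.mul_eq) NC.prime_Y
    NC.not_dvd_Y NC.ker₁

theorem gauss₂ : (S.nodeExt NC hq).GaussHyp d.g₂ :=
  S.gaussHyp NC hq d.g₂ (P := NC.X) (P' := NC.Y) NC.mul_eq NC.prime_X NC.not_dvd_X NC.ker₂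

include S NC hq D in
theorem div₁ {z : E} (hzE : z ∈ E') (hz : z ∈ d.g₁.integers) (h0 : d.g₁.red ⟨z, hz⟩ = 0) :
    ∃ y ∈ d.g₁.integers, z = (ϖ : L) • y :=
  S.exists_div NC hq d.g₁ (P := NC.Y) (P' := NC.X) (by rw [mul_comm]; exact NC.mul_eq) NC.prime_Y
    NC.not_dvd_Y NC.ker₁ NC.frac₁ z (S.mem_field NC hq D hzE) hz h0

include S NC hq D in
theorem div₂ {z : E} (hzE : z ∈ E') (hz : z ∈ d.g₂.integers) (h0 : d.g₂.red ⟨z, hz⟩ = 0) :
    ∃ y ∈ d.g₂.integers, z = (ϖ : L) • y :=
  S.exists_div NC hq d.g₂ (P := NC.X) (P' := NC.Y) NC.mul_eq NC.prime_X NC.not_dvd_X NC.ker₂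
    NC.frac₂ z (S.mem_field NC hq D hzE) hz h0

include S hq D in
/-- A function integral on both components with poles in the cusps is in the local ring. -/
theorem mem_locRing_of_rr {n : ℕ} {f : F₁} (hf : C.hom f ∈ riemannRochSpace (n • d.D))
    (h₁ : C.hom f ∈ d.g₁.integers) (h₂ : C.hom f ∈ d.g₂.integers) : f ∈ locRing NC.P := by
  obtain ⟨M, hM⟩ := S.integral n f hf
  obtain ⟨r, hr, hre⟩ := NC.cusp_unit
  have := D.finite_over₁
  have : CharZero F₁ := charZero_of_injective_algebraMap (algebraMap K F₁).injective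
  set y := Polynomial.aeval (T.t u) (∏ a ∈ cs, (Polynomial.X - Polynomial.C a)) ^ M * f
  have hy : y ∈ chartRing W (T.t u) := by
    refine mem_chartRing_of_vertical hq D.transcendental_t hM fun V hV => ?_
    have hR : Polynomial.aeval (T.t u) (∏ a ∈ cs, (Polynomial.X - Polynomial.C a)) ∈ V :=
      hV.chartRing_le (aeval_mem_chartRing _)
    refine mul_mem (pow_mem hR M) ?_
    rcases level1_cases hq D hV with h | h
    · rw [can_unique hq D hV h (C.isVertical₂ hq) C.res₂]; exact h₂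
    · rw [oth_unique hq D hV h (C.isVertical₁ hq) C.res₁]; exact h₁
  obtain ⟨v, hv⟩ := (hr.pow M).exists_right_inv
  have hfy : f = (v : F₁) * y := by
    have := congrArg (fun z : locRing NC.P => (z : F₁)) hv
    simp only [Subring.coe_mul, SubmonoidClass.coe_pow, Subring.coe_one, hre] at this
    simp only [y]
    linear_combination (norm := ring) (-f) * this
  rw [hfy]
  exact mul_mem v.2 (NC.mem_of_chart y hy)

theorem embE_smul (z : E') (h : (ϖ : L) • (z : E) ∈ E') :
    S.embE NC hq D ⟨_, h⟩ = algebraMap _ _ (Ann.const ϖW ϖW) * S.embE NC hq D z := by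
  have e := (S.nodeExt NC hq).emb_θ_mul S.irreducible ⟨(z : E), S.mem_field NC hq D z.2⟩
    (by
      show algebraMap L E (ϖ : L) * (z : E) ∈ _
      rw [← Algebra.smul_def]; exact S.mem_field NC hq D h)
  refine Eq.trans (congrArg ((S.nodeExt NC hq).emb S.irreducible) (Subtype.ext ?_)) e
  exact Algebra.smul_def _ _

theorem embE_reg (z : E') (n : ℕ) (hz : (z : E) ∈ d.int) (hzn : (z : E) ∈ riemannRochSpace (n • d.D)) :
    ∃ a : Ann ϖW, S.embE NC hq D z = algebraMap _ _ a := by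
  set X := S.nodeExt NC hq with hX
  set z' : X.field := ⟨z, S.mem_field NC hq D z.2⟩
  obtain ⟨l, hl, hle⟩ := X.exists_coords S.irreducible z'
  refine X.emb_mem_range S.irreducible hle fun j hj => ?_
  have hθ : X.θ ≠ 0 := (map_ne_zero _).mpr S.unif_ne_zero
  have h₁ := X.coord_mem (S.gauss₁ NC hq) hθ hl hz.1 j hj
  have h₂ := X.coord_mem (S.gauss₂ NC hq) hθ hl hz.2 j hj
  rw [S.inc_eq NC hq] at h₁ h₂
  have hrr : C.hom (NC.fracField (l j)) ∈ riemannRochSpace (n • d.D) := by
    refine S.coord_rr n (fun i => NC.fracField (l i)) ?_ j hj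
    have e : ∑ i ∈ Finset.range S.e, C.hom (NC.fracField (l i)) * algebraMap L E (ϖ : L) ^ i =
        (z : E) := by
      rw [show (z : E) = (z' : E) from rfl, hl]
      exact Finset.sum_congr rfl fun i _ => by rw [S.inc_eq NC hq]; rfl
    rw [e]; exact hzn
  exact ⟨⟨_, S.mem_locRing_of_rr NC hq D hrr h₁ h₂⟩, NC.fracField.injective
    (NC.fracField_algebraMap _)⟩

theorem embE_const (x : L) (hx : algebraMap L E x ∈ E') : ∃ a b : Wc, b ≠ 0 ∧
    S.embE NC hq D ⟨_, hx⟩ * algebraMap _ _ (Ann.const ϖW b) = algebraMap _ _ (Ann.const ϖW a) := by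
  obtain ⟨b, hb, a, hab⟩ := S.const_coord x hx
  set X := S.nodeExt NC hq with hX
  refine ⟨∑ i ∈ Finset.range S.e, S.φ (a i) * ϖW ^ i, S.φ b, fun h => ?_, ?_⟩
  · obtain ⟨m, v, rfl⟩ := IsDiscreteValuationRing.eq_unit_mul_pow_irreducible hb
      ((IsDiscreteValuationRing.irreducible_iff_uniformizer _).mpr hq)
    rw [map_mul, map_pow, S.φ_q, mul_eq_zero] at h
    rcases h with h | h
    · exact (v.isUnit.map S.φ).ne_zero h
    · exact pow_ne_zero _ (mul_ne_zero S.isUnit_ω.ne_zero (pow_ne_zero _ S.irreducible.ne_zero)) h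
  set bF : X.field := ⟨X.inc (algebraMap _ _ (locConst NC.P b)), X.inc_mem _⟩
  have hb' : X.emb S.irreducible bF = algebraMap _ _ (Ann.const ϖW (S.φ b)) := by
    rw [X.emb_eq S.irreducible (P := Polynomial.C (algebraMap _ _ (locConst NC.P b)))
      (by rw [NodeExt.evF, Polynomial.coe_eval₂RingHom, Polynomial.eval₂_C])]
    show Polynomial.eval₂ _ _ _ = _
    rw [Polynomial.eval₂_C, NodeData.fracMap_algebraMap]
    exact congrArg _ ((S.nodeData NC hq).expansion_a S.irreducible b)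
  show X.emb S.irreducible _ * _ = _
  rw [← hb', ← map_mul, X.emb_eq S.irreducible (P := ∑ i ∈ Finset.range S.e,
    Polynomial.C (algebraMap _ _ (locConst NC.P (a i))) * Polynomial.X ^ i)]
  · simp only [map_sum, map_mul, map_pow, NodeExt.evW, Polynomial.coe_eval₂RingHom,
      Polynomial.eval₂_C, Polynomial.eval₂_X, NodeData.fracMap_algebraMap]
    refine Finset.sum_congr rfl fun i _ => ?_
    congr 2
    exact (S.nodeData NC hq).expansion_a S.irreducible (a i)
  · simp only [map_sum, map_mul, map_pow, NodeExt.evF, Polynomial.coe_eval₂RingHom,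
      Polynomial.eval₂_C, Polynomial.eval₂_X, NodeExt.inc_algebraMap, bF]
    show ∑ i ∈ Finset.range S.e, C.hom (algebraMap W F₁ (a i)) * algebraMap L E (ϖ : L) ^ i =
      algebraMap L E x * C.hom (algebraMap W F₁ b)
    simp only [C.commutes, ← map_pow, ← map_mul, ← map_sum]
    rw [← hab, mul_comm]

theorem fracHyp {Gb : Type*} [Field Gb] [Algebra k Gb] {g : GaussRed A π E Gb}
    (H : (S.nodeExt NC hq).GaussHyp g) {SS : NodeSide (S.nodeData NC hq) S.res}
    (hP : Prime SS.P) (ker : ∀ r : locRing NC.P, ∃ h : C.hom r ∈ g.integers,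
      g.red ⟨C.hom r, h⟩ = 0 ↔ SS.P ∣ r)
    (frac : ∀ f : F₁, C.hom f ∈ g.integers → ∃ a b : locRing NC.P, ¬ SS.P ∣ b ∧ f * b = a)
    (R : SS.Red Gb) (hR : ∀ r, R.ρ r = NC.redHom g (fun r => (ker r).choose) r) :
    R.FracHyp (E'.toSubring ⊓ g.integers : Subring E)
      ((S.embE NC hq D).comp (Subring.inclusion inf_le_left))
      (g.red.comp (Subring.inclusion inf_le_right)) := fun z => by
  obtain ⟨a, b, a₁, hb, e, hr⟩ := (S.nodeExt NC hq).exists_frac S.irreducible H
    ((map_ne_zero _).mpr S.unif_ne_zero) SS.P hP ker (S.frac_local NC hq g frac)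
    ⟨z, S.mem_field NC hq D z.2.1⟩ z.2.2
  exact ⟨a, b, a₁, hb, e, by rw [hR, hR]; exact hr⟩

/-- The branch of the first component. -/
def red₁ : ((S.nodeData NC hq).sideX S.res S.irreducible S.res_unif NC.prime_Y NC.not_dvd_Y).Red G₁
    where
  ρ := NC.redHom d.g₁ fun r => (NC.ker₁ r).choose
  ker r := (NC.ker₁ r).choose_spec
  surj φ := NC.redHom_surj d.g₁ _ S.surj₁ NC.frac₁ φ

/-- The branch of the second component. -/
def red₂ : ((S.nodeData NC hq).sideY S.res S.irreducible S.res_unif).Red G₂ where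
  ρ := NC.redHom d.g₂ fun r => (NC.ker₂ r).choose
  ker r := (NC.ker₂ r).choose_spec
  surj φ := NC.redHom_surj d.g₂ _ S.surj₂ NC.frac₂ φ

theorem fracHyp₁ : (S.red₁ NC hq).FracHyp (E'.toSubring ⊓ d.g₁.integers : Subring E)
    ((S.embE NC hq D).comp (Subring.inclusion inf_le_left))
    (d.g₁.red.comp (Subring.inclusion inf_le_right)) :=
  S.fracHyp NC hq D (S.gauss₁ NC hq) NC.prime_Y NC.ker₁ NC.frac₁ _ fun _ => rfl

theorem fracHyp₂ : (S.red₂ NC hq).FracHyp (E'.toSubring ⊓ d.g₂.integers : Subring E)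
    ((S.embE NC hq D).comp (Subring.inclusion inf_le_left))
    (d.g₂.red.comp (Subring.inclusion inf_le_right)) :=
  S.fracHyp NC hq D (S.gauss₂ NC hq) NC.prime_X NC.ker₂ NC.frac₂ _ fun _ => rfl

/-- The embedding at a node. -/
def nodeEmb : NodeEmb d E' i ϖ ϖW where
  res := S.res
  res_unif := S.res_unif
  emb := S.embE NC hq D
  emb_smul := S.embE_smul NC hq D
  reg := S.embE_reg NC hq D
  place_of_prime q' hq' hd := exists_place_of_prime S.irreducible (S.embE NC hq D) hq' hd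
    (S.embE_const NC hq D) S.isIntegral_const S.ord_one
  end₁ n := (S.red₁ NC hq).endHom (S.fracHyp₁ NC hq D) n
  end₂ n := (S.red₂ NC hq).endHom (S.fracHyp₂ NC hq D) n
  end₁_spec n z a b h := (S.red₁ NC hq).endHom_spec (S.fracHyp₁ NC hq D) n z a b h
  end₂_spec n z a b h := (S.red₂ NC hq).endHom_spec (S.fracHyp₂ NC hq D) n z a b h
  end₁_level m n h z := (S.red₁ NC hq).endHom_level (S.fracHyp₁ NC hq D) m n h z
  end₂_level m n h z := (S.red₂ NC hq).endHom_level (S.fracHyp₂ NC hq D) m n h z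
  loc₁ := (S.red₁ NC hq).loc
  loc₂ := (S.red₂ NC hq).loc
  end₁_res z n := (S.red₁ NC hq).endHom_res (S.fracHyp₁ NC hq D) z n
  end₂_res z n := (S.red₂ NC hq).endHom_res (S.fracHyp₂ NC hq D) z n
  loc₁_val φ hφ := (S.red₁ NC hq).loc_val (d.C.x i) (fun r c hc => by
    obtain ⟨h1, h2⟩ := NC.value₁ r c hc (NC.ker₁ r).choose
    exact ⟨h1, h2.trans (S.res_φ c).symm⟩) φ hφ
  loc₂_val φ hφ := (S.red₂ NC hq).loc_val (d.C.y i) (fun r c hc => by
    obtain ⟨h1, h2⟩ := NC.value₂ r c hc (NC.ker₂ r).choose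
    exact ⟨h1, h2.trans (S.res_φ c).symm⟩) φ hφ

end NodeScalars

end FermatAgent.MazurPrinciple
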