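import Fermat.Agent.MazurPrinciple.NodeScale
import Fermat.Agent.MazurPrinciple.NodeMake

/-!
# Shapes of the ends of functions over the base of the chart

The end of a function of the chart is a series in `x ^ e` on the first branch, in `ω y ^ e` on the
second one, with coefficients from the chart's base; the exponent is the order at the node.
-/

set_option autoImplicit false
set_option linter.unusedSectionVars false
set_option maxHeartbeats 800000

noncomputable section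

namespace FermatAgent.MazurPrinciple

open IsLocalRing AlgebraicCurve ModularCurve
open FermatAgent.Curve FermatAgent.Curve.RR FermatAgent.BadRed.Semistable
open FermatAgent.BadRed.Carayol

/-- An expansion at a place with orders in `e ℤ`, reaching `e`, multiplies orders by `e`. -/
theorem order_eq_mul_ord {k G : Type*} [Field k] [IsAlgClosed k] [Field G] [Algebra k G]
    [IsFunctionField1 k G] {v : Place k G} (loc : G →+* LaurentSeries k)
    (hloc : ∀ g : G, (∀ n : ℤ, n < 0 → (loc g).coeff n = 0) →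
      v.adicValuation g ≤ 1 ∧ valueAt v g = (loc g).coeff 0)
    {e : ℕ} (he : 0 < e) (hdvd : ∀ φ : G, φ ≠ 0 → (e : ℤ) ∣ (loc φ).order)
    {φe : G} (h0 : φe ≠ 0) (h1 : (loc φe).order = e) {φ : G} (hφ : φ ≠ 0) :
    (loc φ).order = e * v.ord φ := by
  let f : Additive Gˣ →+ ℤ :=
    { toFun := fun u => (loc ((Additive.toMul u : Gˣ) : G)).order
      map_zero' := by simp
      map_add' := fun a b => by
        show (loc (((Additive.toMul a : Gˣ) : G) * ((Additive.toMul b : Gˣ) : G))).order = _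
        rw [map_mul]
        exact HahnSeries.order_mul ((map_ne_zero loc).mpr (Units.ne_zero _))
          ((map_ne_zero loc).mpr (Units.ne_zero _)) }
  have hinv : ∀ φ : G, φ ≠ 0 → (loc φ⁻¹).order = -(loc φ).order := fun φ hφ => by
    have := HahnSeries.order_mul ((map_ne_zero loc).mpr hφ)
      ((map_ne_zero loc).mpr (inv_ne_zero hφ))
    rw [← map_mul, mul_inv_cancel₀ hφ, map_one, HahnSeries.order_one] at this
    omega
  have hval : ∀ φ : G, φ ≠ 0 → 0 ≤ (loc φ).order →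
      0 ≤ v.ord φ ∧ (v.ord φ = 0 ↔ (loc φ).order = 0) := by
    intro φ hφ h
    obtain ⟨hle, hv⟩ := hloc φ fun n hn =>
      HahnSeries.coeff_eq_zero_of_lt_order (lt_of_lt_of_le hn h)
    have hm := mem_of_le_one hle
    have hnn := ord_nonneg_of_mem' v hm
    refine ⟨hnn, fun ho => ?_, fun ho => ?_⟩
    · by_contra hne
      rw [HahnSeries.coeff_eq_zero_of_lt_order (lt_of_le_of_ne h (Ne.symm hne)),
        valueAt_eq_zero_iff v hm] at hv
      rcases hv with hv | hv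
      · exact hφ hv
      · omega
    · by_contra hne
      have hc := HahnSeries.coeff_order_eq_zero.not.mpr ((map_ne_zero loc).mpr hφ)
      rw [ho, ← hv, valueAt_eq_zero_iff v hm] at hc
      exact hc (Or.inr (lt_of_le_of_ne hnn (Ne.symm hne)))
  have hiff : ∀ φ : G, φ ≠ 0 → v.ord φ = 0 → (loc φ).order = 0 := by
    intro φ hφ ho
    rcases le_total 0 (loc φ).order with h | h
    · exact (hval φ hφ h).2.mp ho
    · have := (hval φ⁻¹ (inv_ne_zero hφ) (by rw [hinv φ hφ]; omega)).2.mp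
        (by rw [v.ord_inv, ho, neg_zero])
      rw [hinv φ hφ] at this
      omega
  obtain ⟨φ₁, hφ₁, ho₁⟩ := FermatAgent.Curve.exists_ord_eq v 1
  have key : ∀ φ : G, φ ≠ 0 → (loc φ).order = v.ord φ * (loc φ₁).order := by
    intro φ hφ
    have h := hiff (φ * φ₁ ^ (-v.ord φ)) (mul_ne_zero hφ (zpow_ne_zero _ hφ₁))
      (by rw [v.ord_mul hφ (zpow_ne_zero _ hφ₁), v.ord_zpow, ho₁]; ring)
    rw [map_mul, HahnSeries.order_mul ((map_ne_zero loc).mpr hφ)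
      ((map_ne_zero loc).mpr (zpow_ne_zero _ hφ₁))] at h
    have hz : (loc (φ₁ ^ (-v.ord φ))).order = (-v.ord φ) * (loc φ₁).order := by
      have := map_zsmul f (-v.ord φ) (Additive.ofMul (Units.mk0 φ₁ hφ₁))
      simpa [f] using this
    rw [hz] at h
    linarith
  obtain ⟨a, ha⟩ := hdvd φ₁ hφ₁
  have hX := key φe h0
  rw [h1, ha] at hX
  have h01 : 0 ≤ v.ord φe := (hval φe h0 (by rw [h1]; positivity)).1
  have ha1 : a = 1 := by
    have : v.ord φe * a = 1 := mul_left_cancel₀ (Int.natCast_ne_zero.mpr he.ne')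
      (show (e : ℤ) * (v.ord φe * a) = e * 1 by rw [mul_one]; linarith [hX])
    rcases Int.mul_eq_one_iff_eq_one_or_neg_one.mp this with ⟨-, h⟩ | ⟨h, -⟩
    · exact h
    · omega
  rw [key φ hφ, ha, ha1]
  ring

section Order

variable {K k F F₁ F₂ W : Type*} [Field K] [IsAlgClosed K] {A : ValuationSubring K} [Field k]
  [IsAlgClosed k] {π : A →+* k} [Field F] [Field F₁] [Field F₂] [Algebra K F] [Algebra k F₁]
  [Algebra k F₂] [IsFunctionField1 K F] [IsFunctionField1 k F₁] [IsFunctionField1 k F₂]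
  [CommRing W] [IsDomain W] [IsDiscreteValuationRing W]
  {d : NodalDatum A π F F₁ F₂} {E : Subfield F} {i : d.C.ι} {ϖA : A} {ϖ : W}
  (ν : NodeEmb d E i ϖA ϖ)

theorem NodeEmb.exists_resOne : ∃ r : modPow ϖ 1 →+* k, ∀ w, r (modPowMk ϖ 1 w) = ν.res w :=
  ⟨Ideal.Quotient.lift _ ν.res fun x hx => by
    rw [Ideal.mem_span_singleton, pow_one] at hx
    obtain ⟨y, rfl⟩ := hx
    rw [map_mul, ν.res_unif, zero_mul], fun _ => rfl⟩

theorem NodeEmb.order_loc₁ {z : (E.toSubring ⊓ d.g₁.integers : Subring F)}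
    {c : (modPow ϖ 1)ˣ} {n : ℤ} (h : IsDecomp (ν.end₁ 1 z) c n) :
    (ν.loc₁ (d.g₁.red ⟨z, z.2.2⟩)).order = n := by
  obtain ⟨r, hr⟩ := ν.exists_resOne
  rw [show ν.loc₁ (d.g₁.red ⟨z, z.2.2⟩) = coeffMap r (ν.end₁ 1 z) from
    HahnSeries.ext (funext fun l => by
      obtain ⟨w, hw, hres⟩ := ν.end₁_res z l
      rw [coeffMap_coeff, hw, hr, hres])]
  exact (h.map r).order_eq

theorem NodeEmb.order_loc₂ {z : (E.toSubring ⊓ d.g₂.integers : Subring F)}
    {c : (modPow ϖ 1)ˣ} {n : ℤ} (h : IsDecomp (ν.end₂ 1 z) c n) :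
    (ν.loc₂ (d.g₂.red ⟨z, z.2.2⟩)).order = n := by
  obtain ⟨r, hr⟩ := ν.exists_resOne
  rw [show ν.loc₂ (d.g₂.red ⟨z, z.2.2⟩) = coeffMap r (ν.end₂ 1 z) from
    HahnSeries.ext (funext fun l => by
      obtain ⟨w, hw, hres⟩ := ν.end₂_res z l
      rw [coeffMap_coeff, hw, hr, hres])]
  exact (h.map r).order_eq

theorem NodeEmb.exponent₁ {e : ℕ} (he : 0 < e)
    (hdvd : ∀ φ : F₁, φ ≠ 0 → ∃ (z : (E.toSubring ⊓ d.g₁.integers : Subring F))
      (c : (modPow ϖ 1)ˣ) (m : ℤ), d.g₁.red ⟨z, z.2.2⟩ = φ ∧ IsDecomp (ν.end₁ 1 z) c (e * m))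
    {X : (E.toSubring ⊓ d.g₁.integers : Subring F)} (hX0 : d.g₁.red ⟨X, X.2.2⟩ ≠ 0)
    {cX : (modPow ϖ 1)ˣ} (hX : IsDecomp (ν.end₁ 1 X) cX e)
    {R : ℕ} (hR : 1 ≤ R) {z : (E.toSubring ⊓ d.g₁.integers : Subring F)}
    (hz : d.g₁.red ⟨z, z.2.2⟩ ≠ 0) {c : (modPow ϖ R)ˣ} {n : ℤ} (h : IsDecomp (ν.end₁ R z) c n) :
    n = e * (d.C.x i).ord (d.g₁.red ⟨z, z.2.2⟩) := by
  have h1 := h.map (modPowFactor ϖ hR)
  rw [show coeffMap (modPowFactor ϖ hR) (ν.end₁ R z) = _ from ν.end₁_level 1 R hR z] at h1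
  rw [← ν.order_loc₁ h1]
  refine order_eq_mul_ord ν.loc₁ ν.loc₁_val he (fun φ hφ => ?_) hX0 (ν.order_loc₁ hX) hz
  obtain ⟨z', c', m, rfl, hm⟩ := hdvd φ hφ
  exact ⟨m, ν.order_loc₁ hm⟩

theorem NodeEmb.exponent₂ {e : ℕ} (he : 0 < e)
    (hdvd : ∀ φ : F₂, φ ≠ 0 → ∃ (z : (E.toSubring ⊓ d.g₂.integers : Subring F))
      (c : (modPow ϖ 1)ˣ) (m : ℤ), d.g₂.red ⟨z, z.2.2⟩ = φ ∧ IsDecomp (ν.end₂ 1 z) c (e * m))
    {X : (E.toSubring ⊓ d.g₂.integers : Subring F)} (hX0 : d.g₂.red ⟨X, X.2.2⟩ ≠ 0)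
    {cX : (modPow ϖ 1)ˣ} (hX : IsDecomp (ν.end₂ 1 X) cX e)
    {R : ℕ} (hR : 1 ≤ R) {z : (E.toSubring ⊓ d.g₂.integers : Subring F)}
    (hz : d.g₂.red ⟨z, z.2.2⟩ ≠ 0) {c : (modPow ϖ R)ˣ} {n : ℤ} (h : IsDecomp (ν.end₂ R z) c n) :
    n = e * (d.C.y i).ord (d.g₂.red ⟨z, z.2.2⟩) := by
  have h1 := h.map (modPowFactor ϖ hR)
  rw [show coeffMap (modPowFactor ϖ hR) (ν.end₂ R z) = _ from ν.end₂_level 1 R hR z] at h1
  rw [← ν.order_loc₂ h1]
  refine order_eq_mul_ord ν.loc₂ ν.loc₂_val he (fun φ hφ => ?_) hX0 (ν.order_loc₂ hX) hz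
  obtain ⟨z', c', m, rfl, hm⟩ := hdvd φ hφ
  exact ⟨m, ν.order_loc₂ hm⟩

end Order

section Expansion

variable {W : Type*} [CommRing W] {ϖ : W} {W₀ R₀ : Type*} [CommRing W₀] [CommRing R₀]
  [IsDomain R₀] [IsLocalRing R₀] [IsNoetherianRing R₀] (N : NodeData ϖ W₀ R₀)
  [IsDomain W] [IsDiscreteValuationRing W] [IsAdicComplete (Ideal.span {ϖ}) W]
  (hϖ : Irreducible ϖ)

theorem NodeData.ω_term (R : ℕ) (w : (modPow ϖ R)ˣ) (hw : (w : modPow ϖ R) = modPowMk ϖ R N.ω)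
    {k : ℤ} {m j : ℕ} (hm : (m : ℤ) = k + j) (a : W₀) :
    modPowMk ϖ R (N.ω ^ m * N.φ a * ϖ ^ (N.e * j)) =
      ((w ^ k : (modPow ϖ R)ˣ) : modPow ϖ R) * modPowMk ϖ R (N.φ (a * N.q ^ j)) := by
  rw [map_mul N.φ, map_pow N.φ, N.φ_q, mul_pow, ← pow_mul]
  simp only [map_mul, map_pow]
  rw [← hw, ← Units.val_pow_eq_pow_val w m, ← zpow_natCast w m, hm, zpow_add, zpow_natCast,
    Units.val_mul, Units.val_pow_eq_pow_val]
  ring

include hϖ in
theorem NodeData.coeff_toX_expansion (R : ℕ) (r : R₀) :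
    (∀ l : ℤ, ¬ (N.e : ℤ) ∣ l → (Ann.toX ϖ R (N.expansion hϖ r)).coeff l = 0) ∧
      ∀ k : ℤ, ∃ s : W₀, (Ann.toX ϖ R (N.expansion hϖ r)).coeff (N.e * k) =
        modPowMk ϖ R (N.φ s) := by
  obtain ⟨f, hf⟩ := N.exists_rep r
  have he' : (N.e : ℤ) ≠ 0 := Int.natCast_ne_zero.mpr N.e_pos.ne'
  rw [N.expansion_eq hϖ hf]
  refine ⟨fun l hl => ?_, fun k => ?_⟩
  · rw [Ann.toX_mk, coeff_endX_eq_sum, Finset.sum_eq_zero fun j _ => ?_, map_zero]
    split_ifs with h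
    · rfl
    rw [N.bcoeff_subst, if_neg, zero_mul]
    rintro ⟨h1, h2⟩
    have h1' := Int.natCast_dvd_natCast.mpr h1
    rw [Int.toNat_of_nonneg (not_lt.mp h)] at h1'
    exact hl ((dvd_add_left (Int.natCast_dvd_natCast.mpr h2)).mp h1')
  · rw [Ann.toX_mk, coeff_endX_eq_sum, map_sum]
    obtain ⟨s, hs⟩ := sum_mem (t := Finset.range R) (f := fun j => modPowMk ϖ R
        (if (N.e : ℤ) * k + j < 0 then 0
          else bcoeff ((N.e : ℤ) * k + j).toNat j (N.subst f) * ϖ ^ j))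
      (S := ((modPowMk ϖ R).comp N.φ).range) fun j _ => by
        split_ifs with h
        · rw [map_zero]; exact zero_mem _
        rw [N.bcoeff_subst]
        split_ifs with hd
        · obtain ⟨-, j', rfl⟩ := hd
          refine ⟨_, (?_ : modPowMk ϖ R (N.φ (bcoeff
            (((N.e : ℤ) * k + (N.e * j' : ℕ)).toNat / N.e) j' f * N.q ^ j')) = _)⟩
          rw [Nat.mul_div_cancel_left _ N.e_pos]
          simp only [map_mul, map_pow, N.φ_q, pow_mul]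
          ring
        · rw [zero_mul, map_zero]; exact zero_mem _
    exact ⟨s, hs.symm⟩

include hϖ in
theorem NodeData.coeff_toY_expansion (R : ℕ) (w : (modPow ϖ R)ˣ)
    (hw : (w : modPow ϖ R) = modPowMk ϖ R N.ω) (r : R₀) :
    (∀ l : ℤ, ¬ (N.e : ℤ) ∣ l → (Ann.toY ϖ R (N.expansion hϖ r)).coeff l = 0) ∧
      ∀ k : ℤ, ∃ s : W₀, (Ann.toY ϖ R (N.expansion hϖ r)).coeff (N.e * k) =
        ((w ^ k : (modPow ϖ R)ˣ) : modPow ϖ R) * modPowMk ϖ R (N.φ s) := by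
  obtain ⟨f, hf⟩ := N.exists_rep r
  have he' : (N.e : ℤ) ≠ 0 := Int.natCast_ne_zero.mpr N.e_pos.ne'
  rw [N.expansion_eq hϖ hf]
  refine ⟨fun l hl => ?_, fun k => ?_⟩
  · rw [Ann.toY_mk, endY, RingHom.comp_apply, coeff_endX_eq_sum,
      Finset.sum_eq_zero fun j _ => ?_, map_zero]
    split_ifs with h
    · rfl
    rw [bcoeff_biSwap, N.bcoeff_subst, if_neg, zero_mul]
    rintro ⟨h2, h1⟩
    have h1' := Int.natCast_dvd_natCast.mpr h1
    rw [Int.toNat_of_nonneg (not_lt.mp h)] at h1'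
    exact hl ((dvd_add_left (Int.natCast_dvd_natCast.mpr h2)).mp h1')
  · rw [Ann.toY_mk, endY, RingHom.comp_apply, coeff_endX_eq_sum, map_sum]
    obtain ⟨s, hs⟩ := sum_mem (t := Finset.range R) (f := fun j =>
        ((w ^ (-k) : (modPow ϖ R)ˣ) : modPow ϖ R) * modPowMk ϖ R
          (if (N.e : ℤ) * k + j < 0 then 0
            else bcoeff ((N.e : ℤ) * k + j).toNat j (biSwap (N.subst f)) * ϖ ^ j))
      (S := ((modPowMk ϖ R).comp N.φ).range) fun j _ => by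
        split_ifs with h
        · rw [map_zero, mul_zero]; exact zero_mem _
        rw [bcoeff_biSwap, N.bcoeff_subst]
        split_ifs with hd
        · obtain ⟨⟨j', rfl⟩, m, hm⟩ := hd
          rw [hm, Nat.mul_div_cancel_left _ N.e_pos, Nat.mul_div_cancel_left _ N.e_pos]
          refine ⟨bcoeff j' m f * N.q ^ j', ?_⟩
          have hk : (m : ℤ) = k + j' := mul_left_cancel₀ he' (by
            rw [mul_add, ← Nat.cast_mul N.e m, ← hm, Int.toNat_of_nonneg (not_lt.mp h)]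
            push_cast; ring)
          rw [N.ω_term R w hw hk, ← mul_assoc, ← Units.val_mul, ← zpow_add, neg_add_cancel,
            zpow_zero, Units.val_one, one_mul]
          rfl
        · rw [zero_mul, map_zero, mul_zero]; exact zero_mem _
    refine ⟨s, ?_⟩
    rw [← Finset.mul_sum] at hs
    rw [show modPowMk ϖ R (N.φ s) = _ from hs, ← mul_assoc, ← Units.val_mul, ← zpow_add,
      add_neg_cancel, zpow_zero, Units.val_one, one_mul]

end Expansion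

variable {q : ℕ} [Fact q.Prime] {W K F F₁ F₂ : Type*}
  [CommRing W] [IsDomain W] [IsDiscreteValuationRing W] [IsAlgClosed (IsLocalRing.ResidueField W)]
  [Field K] [CharZero K] [Algebra W K] [IsFractionRing W K]
  [Field F] [Field F₁] [Field F₂] [Algebra K F] [Algebra K F₁] [Algebra K F₂]
  [Algebra W F] [Algebra W F₁] [Algebra W F₂]
  [IsScalarTower W K F] [IsScalarTower W K F₁] [IsScalarTower W K F₂]
  {T : QTower q K F F₁ F₂} {u : F}
variable {L : Type*} [Field L] [IsAlgClosed L] {A : ValuationSubring L} {k : Type*} [Field k]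
  [IsAlgClosed k] {π : A →+* k} {E G₁ G₂ : Type*} [Field E] [Field G₁] [Field G₂]
  [Algebra L E] [Algebra k G₁] [Algebra k G₂] [IsFunctionField1 L E] [IsFunctionField1 k G₁]
  [IsFunctionField1 k G₂] [RRSetting L E] [RRSetting k G₁] [RRSetting k G₂]
variable {d : NodalDatum A π E G₁ G₂}
variable {Wc : Type*} [CommRing Wc] [IsDomain Wc] [IsDiscreteValuationRing Wc]
variable {C : ChartLink W T u d} {i : d.C.ι} {cs : Finset W} {E' : Subfield E} {ϖ : A} {ϖW : Wc}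
  [IsAdicComplete (Ideal.span {ϖW}) Wc]
variable (S : NodeScalars C E' cs ϖ ϖW) (NC : NodeChart C i cs)
  (hq : maximalIdeal W = Ideal.span {(q : W)}) (D : ChartData W T u)

namespace NodeScalars

include S in
theorem mem_E_hom (f : F₁) : C.hom f ∈ E' := by
  classical
  refine (S.mem_E _).mpr ⟨fun j => if j = 0 then f else 0, ?_⟩
  rw [Finset.sum_eq_single 0 (fun j _ hj => by simp only [if_neg hj, map_zero, zero_mul])
    (fun h => absurd (Finset.mem_range.mpr S.e_pos) h)]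
  simp

theorem embE_locRing (r : locRing NC.P) :
    S.embE NC hq D ⟨C.hom (r : F₁), S.mem_E_hom _⟩ =
      algebraMap _ _ ((S.nodeData NC hq).expansion S.irreducible r) := by
  show (S.nodeExt NC hq).emb S.irreducible _ = _
  rw [(S.nodeExt NC hq).emb_eq S.irreducible (P := Polynomial.C (algebraMap _ _ r))]
  · show Polynomial.eval₂ _ _ _ = _
    rw [Polynomial.eval₂_C, NodeData.fracMap_algebraMap]
  · rw [NodeExt.evF, Polynomial.coe_eval₂RingHom, Polynomial.eval₂_C, NodeExt.inc_algebraMap]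
    rfl

theorem end₁_locRing (r : locRing NC.P) (hr : C.hom (r : F₁) ∈ d.g₁.integers) (R : ℕ) :
    (S.nodeEmb NC hq D).end₁ R ⟨C.hom (r : F₁), S.mem_E_hom _, hr⟩ =
      Ann.toX ϖW R ((S.nodeData NC hq).expansion S.irreducible r) :=
  (S.nodeEmb NC hq D).end₁_eq_toX S.irreducible R ⟨C.hom (r : F₁), S.mem_E_hom _, hr⟩
    (a := (S.nodeData NC hq).expansion S.irreducible r) (S.embE_locRing NC hq D r)

theorem end₂_locRing (r : locRing NC.P) (hr : C.hom (r : F₁) ∈ d.g₂.integers) (R : ℕ) :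
    (S.nodeEmb NC hq D).end₂ R ⟨C.hom (r : F₁), S.mem_E_hom _, hr⟩ =
      Ann.toY ϖW R ((S.nodeData NC hq).expansion S.irreducible r) :=
  (S.nodeEmb NC hq D).end₂_eq_toY S.irreducible R ⟨C.hom (r : F₁), S.mem_E_hom _, hr⟩
    (a := (S.nodeData NC hq).expansion S.irreducible r) (S.embE_locRing NC hq D r)

include S hq in
theorem irreducible_q : Irreducible (q : W) :=
  (IsDiscreteValuationRing.irreducible_iff_uniformizer _).mpr hq

theorem unif_dvd_φ_q : ϖW ∣ S.φ (q : W) := by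
  rw [S.φ_q]
  exact (dvd_pow_self _ S.e_pos.ne').mul_left _

/-- The image in `Wc / ϖ ^ R` of a unit of the base. -/
def baseUnit (R : ℕ) : Wˣ →* (modPow ϖW R)ˣ :=
  Units.map ((modPowMk ϖW R).comp S.φ).toMonoidHom

/-- `ω` in `Wc / ϖ ^ R`. -/
def ωUnit (R : ℕ) : (modPow ϖW R)ˣ := Units.map (modPowMk ϖW R).toMonoidHom S.isUnit_ω.unit

/-- The exponent of a decomposition at the first branch is `e` times the order at the node. -/
theorem end₁_decomp {f : F₁} (hu : IsUnitAt d.g₁ (C.hom f)) {R : ℕ} (hR : 1 ≤ R) :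
    ∃ (c : Wˣ) (m : ℤ),
      IsDecomp ((S.nodeEmb NC hq D).end₁ R ⟨C.hom f, S.mem_E_hom f, hu.1⟩) (S.baseUnit R c)
        (S.e * m) := by
  let := Ann.isLocalRing_modPow ϖW S.irreducible (show R ≠ 0 by omega)
  set ν := S.nodeEmb NC hq D with hν
  obtain ⟨a, b, hb, hab⟩ := NC.frac₁ f hu.1
  obtain ⟨hbm, hb'⟩ := NC.ker₁ b
  obtain ⟨ham, -⟩ := NC.ker₁ a
  have hbu : IsUnitAt d.g₁ (C.hom (b : F₁)) := ⟨hbm, fun h => hb (hb'.mp h)⟩
  have hau : IsUnitAt d.g₁ (C.hom (a : F₁)) := by rw [← hab, map_mul]; exact hu.mul hbu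
  have key : ∀ (r : locRing NC.P) (hr : IsUnitAt d.g₁ (C.hom (r : F₁))),
      ∃ (c : Wˣ) (m : ℤ),
        IsDecomp (ν.end₁ R ⟨C.hom (r : F₁), S.mem_E_hom _, hr.1⟩) (S.baseUnit R c) (S.e * m) := by
    intro r hr
    have hU := ν.isUnit_end₁ S.irreducible hR (S.mem_E_hom (r : F₁)) hr.1 hr.2
    rw [hν, S.end₁_locRing NC hq D r hr.1] at hU ⊢
    obtain ⟨h0, h1⟩ := (S.nodeData NC hq).coeff_toX_expansion S.irreducible R r
    obtain ⟨c, m, h⟩ := exists_decomp_of_scaled (S.irreducible_q hq) S.irreducible S.φ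
      S.unif_dvd_φ_q S.e_pos hR 1 hU h0 fun k => by
        obtain ⟨s, hs⟩ := h1 k
        exact ⟨s, by rw [one_zpow, Units.val_one, one_mul]; exact hs⟩
    exact ⟨c, m, by rwa [one_zpow, mul_one] at h⟩
  obtain ⟨ca, ma, ha⟩ := key a hau
  obtain ⟨cb, mb, hb⟩ := key b hbu
  have hU := ν.isUnit_end₁ S.irreducible hR (S.mem_E_hom f) hu.1 hu.2
  obtain ⟨c, n, hc⟩ := exists_decomp
    (Ann.isNilpotent_maximalIdeal_modPow ϖW S.irreducible (show R ≠ 0 by omega)) hU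
  have hmul := hc.mul hb
  rw [← map_mul, show ((⟨C.hom f, S.mem_E_hom f, hu.1⟩ : (E'.toSubring ⊓ d.g₁.integers : Subring E))
    * ⟨C.hom (b : F₁), S.mem_E_hom _, hbu.1⟩) = ⟨C.hom (a : F₁), S.mem_E_hom _, hau.1⟩ from
      Subtype.ext (by simp [← hab])] at hmul
  obtain ⟨e1, e2⟩ := hmul.unique ha
  refine ⟨ca / cb, ma - mb, ?_⟩
  rwa [map_div, ← e1, mul_div_cancel_right, show (S.e : ℤ) * (ma - mb) = n by linarith]

/-- The exponent of a decomposition at the second branch; `ω` enters the constant. -/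
theorem end₂_decomp {f : F₁} (hu : IsUnitAt d.g₂ (C.hom f)) {R : ℕ} (hR : 1 ≤ R) :
    ∃ (c : Wˣ) (m : ℤ),
      IsDecomp ((S.nodeEmb NC hq D).end₂ R ⟨C.hom f, S.mem_E_hom f, hu.1⟩)
        (S.baseUnit R c * S.ωUnit R ^ m) (S.e * m) := by
  let := Ann.isLocalRing_modPow ϖW S.irreducible (show R ≠ 0 by omega)
  set ν := S.nodeEmb NC hq D with hν
  obtain ⟨a, b, hb, hab⟩ := NC.frac₂ f hu.1
  obtain ⟨hbm, hb'⟩ := NC.ker₂ b
  have hbu : IsUnitAt d.g₂ (C.hom (b : F₁)) := ⟨hbm, fun h => hb (hb'.mp h)⟩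
  have hau : IsUnitAt d.g₂ (C.hom (a : F₁)) := by rw [← hab, map_mul]; exact hu.mul hbu
  have key : ∀ (r : locRing NC.P) (hr : IsUnitAt d.g₂ (C.hom (r : F₁))),
      ∃ (c : Wˣ) (m : ℤ), IsDecomp (ν.end₂ R ⟨C.hom (r : F₁), S.mem_E_hom _, hr.1⟩)
        (S.baseUnit R c * S.ωUnit R ^ m) (S.e * m) := by
    intro r hr
    have hU := ν.isUnit_end₂ S.irreducible hR (S.mem_E_hom (r : F₁)) hr.1 hr.2
    rw [hν, S.end₂_locRing NC hq D r hr.1] at hU ⊢
    obtain ⟨h0, h1⟩ := (S.nodeData NC hq).coeff_toY_expansion S.irreducible R (S.ωUnit R) rfl r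
    exact exists_decomp_of_scaled (S.irreducible_q hq) S.irreducible S.φ S.unif_dvd_φ_q S.e_pos hR
      _ hU h0 h1
  obtain ⟨ca, ma, ha⟩ := key a hau
  obtain ⟨cb, mb, hb⟩ := key b hbu
  have hU := ν.isUnit_end₂ S.irreducible hR (S.mem_E_hom f) hu.1 hu.2
  obtain ⟨c, n, hc⟩ := exists_decomp
    (Ann.isNilpotent_maximalIdeal_modPow ϖW S.irreducible (show R ≠ 0 by omega)) hU
  have hmul := hc.mul hb
  rw [← map_mul, show ((⟨C.hom f, S.mem_E_hom f, hu.1⟩ : (E'.toSubring ⊓ d.g₂.integers : Subring E))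
    * ⟨C.hom (b : F₁), S.mem_E_hom _, hbu.1⟩) = ⟨C.hom (a : F₁), S.mem_E_hom _, hau.1⟩ from
      Subtype.ext (by simp [← hab])] at hmul
  obtain ⟨e1, e2⟩ := hmul.unique ha
  refine ⟨ca / cb, ma - mb, ?_⟩
  have hcc : c = S.baseUnit R ca * S.ωUnit R ^ ma / (S.baseUnit R cb * S.ωUnit R ^ mb) := by
    rw [← e1, mul_div_cancel_right]
  rwa [map_div, zpow_sub, ← div_eq_mul_inv, div_mul_div_comm, ← hcc,
    show (S.e : ℤ) * (ma - mb) = n by linarith]

theorem end₁_exponent {f : F₁} (hu : IsUnitAt d.g₁ (C.hom f)) {R : ℕ} (hR : 1 ≤ R)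
    {c : (modPow ϖW R)ˣ} {n : ℤ}
    (h : IsDecomp ((S.nodeEmb NC hq D).end₁ R ⟨C.hom f, S.mem_E_hom f, hu.1⟩) c n) :
    n = S.e * (d.C.x i).ord (d.g₁.red ⟨C.hom f, hu.1⟩) := by
  obtain ⟨hm, hiff⟩ := NC.ker₁ NC.X
  have hd : IsDecomp ((S.nodeEmb NC hq D).end₁ 1 ⟨C.hom (NC.X : F₁), S.mem_E_hom _, hm⟩) 1
      S.e := by
    rw [S.end₁_locRing NC hq D NC.X hm]
    rw [show (S.nodeData NC hq).expansion S.irreducible NC.X = Ann.x ϖW ^ S.e from
      (S.nodeData NC hq).expansion_X S.irreducible, map_pow, Ann.toX_x, HahnSeries.single_pow,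
      one_pow, nsmul_eq_mul, mul_one]
    exact isDecomp_single _
  refine NodeEmb.exponent₁ (S.nodeEmb NC hq D) S.e_pos (fun φ hφ => ?_)
    (X := ⟨C.hom (NC.X : F₁), S.mem_E_hom _, hm⟩) (fun h0 => NC.not_dvd_Y (hiff.mp h0)) hd hR
    (z := ⟨C.hom f, S.mem_E_hom f, hu.1⟩) hu.2 h
  obtain ⟨g, hg, rfl⟩ := S.surj₁ φ
  obtain ⟨c, m, hc⟩ := S.end₁_decomp NC hq D (f := g) ⟨hg, hφ⟩ le_rfl
  exact ⟨⟨C.hom g, S.mem_E_hom g, hg⟩, (S.baseUnit 1 c), m, rfl, hc⟩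

theorem end₂_exponent {f : F₁} (hu : IsUnitAt d.g₂ (C.hom f)) {R : ℕ} (hR : 1 ≤ R)
    {c : (modPow ϖW R)ˣ} {n : ℤ}
    (h : IsDecomp ((S.nodeEmb NC hq D).end₂ R ⟨C.hom f, S.mem_E_hom f, hu.1⟩) c n) :
    n = S.e * (d.C.y i).ord (d.g₂.red ⟨C.hom f, hu.1⟩) := by
  obtain ⟨hm, hiff⟩ := NC.ker₂ NC.Y
  have hd : IsDecomp ((S.nodeEmb NC hq D).end₂ 1 ⟨C.hom (NC.Y : F₁), S.mem_E_hom _, hm⟩) (S.ωUnit 1)
      S.e := by
    rw [S.end₂_locRing NC hq D NC.Y hm]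
    rw [show (S.nodeData NC hq).expansion S.irreducible NC.Y =
        Ann.const ϖW S.ω * Ann.y ϖW ^ S.e from (S.nodeData NC hq).expansion_Y S.irreducible,
      map_mul, map_pow, Ann.toY_const, Ann.toY_y, HahnSeries.single_pow, one_pow, nsmul_eq_mul,
      mul_one]
    have := (isDecomp_C (S.ωUnit 1)).mul (isDecomp_single (S.e : ℤ))
    rwa [mul_one, zero_add] at this
  refine NodeEmb.exponent₂ (S.nodeEmb NC hq D) S.e_pos (fun φ hφ => ?_)
    (X := ⟨C.hom (NC.Y : F₁), S.mem_E_hom _, hm⟩) (fun h0 => NC.not_dvd_X (hiff.mp h0)) hd hR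
    (z := ⟨C.hom f, S.mem_E_hom f, hu.1⟩) hu.2 h
  obtain ⟨g, hg, rfl⟩ := S.surj₂ φ
  obtain ⟨c, m, hc⟩ := S.end₂_decomp NC hq D (f := g) ⟨hg, hφ⟩ le_rfl
  exact ⟨⟨C.hom g, S.mem_E_hom g, hg⟩, (S.baseUnit 1 c * S.ωUnit 1 ^ m), m, rfl, hc⟩

end NodeScalars

end FermatAgent.MazurPrinciple
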