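import Fermat.Agent.MazurPrinciple.LevelSetup
import Fermat.Agent.MazurPrinciple.NodeShape
import Fermat.Agent.MazurPrinciple.Core
import Fermat.Agent.MazurPrinciple.InertiaClosed
import Mathlib.FieldTheory.KummerExtension

/-!
# The slope condition at `X₀(p N')`

When `p` times a unit of the inertia field has no `p`-th root in the local base, the orders at a
node of shapes with glued constants are divisible by `p`.
-/

set_option autoImplicit false
set_option linter.unusedSectionVars false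

noncomputable section

namespace FermatAgent.MazurPrinciple

open Polynomial AlgebraicCurve ModularCurve IsLocalRing
open FermatAgent.Curve (IsFunctionField1 divisorOf)
open FermatAgent.BadRed.Semistable FermatAgent.BadRed.Carayol FermatAgent.BadRed.Carayol.Instance
open FermatAgent.ModFun FermatAgent.ModCurveTorsion

local notation "ℚbar" => AlgebraicClosure ℚ
local notation "GQ" => AlgebraicClosure ℚ ≃ₐ[ℚ] AlgebraicClosure ℚ
local notation "𝐅" N:max => laurentBaseChange ℚbar (modularFunctionFieldFull N)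

attribute [local instance] ModCurveTorsion.isFunctionField1_laurent RT.isGalois_algClosureRat
attribute [local instance] isAlgClosed_residue

variable {p : ℕ} {A : ValuationSubring ℚbar} (B : LocalBase A p)

/-- Roots of unity of order `p` are separated by the value of `p`. -/
theorem val_p_le_one_sub {ξ : ℚbar} (hp : p ≠ 0) (hξ : ξ ^ p = 1) (hne : ξ ≠ 1) :
    A.valuation (p : ℚbar) ≤ A.valuation (1 - ξ) := by
  have h0 : ∑ i ∈ Finset.range p, ξ ^ i = 0 := by
    have := geom_sum_mul ξ p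
    rw [hξ, sub_self, mul_eq_zero] at this
    exact this.resolve_right (sub_ne_zero.mpr hne)
  have hA : ξ ∈ A := mem_of_pow_eq_one hp hξ
  have e : (p : ℚbar) = (1 - ξ) * ∑ i ∈ Finset.range p, ∑ j ∈ Finset.range i, ξ ^ j := by
    rw [Finset.mul_sum]
    simp only [mul_neg_geom_sum]
    rw [Finset.sum_sub_distrib, h0, sub_zero, Finset.sum_const, Finset.card_range, nsmul_one]
  calc A.valuation (p : ℚbar) = A.valuation (1 - ξ) *
      A.valuation (∑ i ∈ Finset.range p, ∑ j ∈ Finset.range i, ξ ^ j) := by rw [← map_mul, ← e]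
    _ ≤ A.valuation (1 - ξ) := mul_le_of_le_one_right'
      ((A.valuation_le_one_iff _).mpr (sum_mem fun i _ => sum_mem fun j _ => pow_mem hA j))

/-- An approximate root of `p` times a unit over the inertia field gives an exact one. -/
theorem LocalBase.exists_root_of_approx (hB : ∀ a ∈ inertiaField A, a ∈ B.S) {r₀ : ℚbar}
    (hr₀ : r₀ ∈ B.S) {c : ℚbar} (hcS : c ∈ inertiaField A) (hc : A.valuation c = 1)
    (h : A.valuation (r₀ ^ p - p * c) < A.valuation (p : ℚbar) ^ (2 * p)) :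
    ∃ r ∈ B.S, r ^ p = p * c := by
  obtain ⟨α, hα⟩ := IsAlgClosed.exists_pow_nat_eq ((p : ℚbar) * c) B.prime.pos
  have : NeZero (p : ℚbar) := ⟨Nat.cast_ne_zero.mpr B.prime.ne_zero⟩
  obtain ⟨ζ, hζ⟩ := HasEnoughRootsOfUnity.exists_primitiveRoot ℚbar p
  have hprod := congrArg (eval r₀) (X_pow_sub_C_eq_prod hζ B.prime.pos hα)
  rw [eval_sub, eval_pow, eval_X, eval_C, eval_prod] at hprod
  simp only [eval_sub, eval_X, eval_C] at hprod
  obtain ⟨i, -, hi⟩ : ∃ i ∈ Finset.range p,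
      A.valuation (r₀ - ζ ^ i * α) < A.valuation (p : ℚbar) ^ 2 := by
    by_contra! hno
    refine absurd h (not_lt.mpr ?_)
    rw [hprod, map_prod, pow_mul]
    refine le_of_eq_of_le ?_ (Finset.prod_le_prod' hno)
    rw [Finset.prod_const, Finset.card_range]
  set r := ζ ^ i * α
  have hr : r ^ p = p * c := by
    rw [mul_pow, ← pow_mul, mul_comm i p, pow_mul, hζ.pow_eq_one, one_pow, one_mul, hα]
  refine ⟨r, ?_, hr⟩
  rw [← B.mem_base, ← InfiniteGalois.fixedField_fixingSubgroup B.base]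
  rintro ⟨σ, hσ⟩
  show σ r = r
  have hσB := (IntermediateField.mem_fixingSubgroup_iff _ σ).mp hσ
  have hσI : σ ∈ A.inertiaSubgroupIn ℚ := mem_inertia_of_fixes fun x hx => hσB x (hB x hx)
  have hd := Local.mem_decomposition_of_inertia hσI
  have hv : A.valuation (r₀ - σ r) = A.valuation (r₀ - r) := by
    rw [← Local.val_galois_eq hd (r₀ - r), map_sub σ, hσB r₀ hr₀]
  have hp0 : (p : ℚbar) ≠ 0 := Nat.cast_ne_zero.mpr B.prime.ne_zero
  have hr0 : r ≠ 0 := fun h0 => by
    rw [h0, zero_pow B.prime.ne_zero, eq_comm, mul_eq_zero] at hr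
    rcases hr with hr | hr
    · exact hp0 hr
    · rw [hr, map_zero] at hc; exact zero_ne_one hc
  by_contra hne
  have hξ : (σ r / r) ^ p = 1 := by
    rw [div_pow, ← map_pow, hr, map_mul, map_natCast, mem_inertiaField.mp hcS σ hσI,
      div_self (mul_ne_zero hp0 (by rintro rfl; rw [map_zero] at hc; exact zero_ne_one hc))]
  have hsep := val_p_le_one_sub (A := A) B.prime.ne_zero hξ
    (fun e => hne ((div_eq_one_iff_eq hr0).mp e))
  have hvr : A.valuation (p : ℚbar) ≤ A.valuation r := by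
    have hrp : A.valuation r ^ p = A.valuation (p : ℚbar) := by
      rw [← map_pow, hr, map_mul, hc, mul_one]
    have h1 : A.valuation r ≤ 1 :=
      (pow_le_one_iff B.prime.ne_zero).mp (hrp.le.trans (le_of_lt B.liesOver))
    rw [← hrp]
    exact pow_le_of_le_one zero_le h1 B.prime.ne_zero
  have hlt : A.valuation (r - σ r) < A.valuation (p : ℚbar) ^ 2 := by
    rw [show r - σ r = (r₀ - σ r) - (r₀ - r) by ring]
    exact lt_of_le_of_lt (Valuation.map_sub _ _ _) (max_lt (hv ▸ hi) hi)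
  refine absurd hlt (not_lt.mpr ?_)
  rw [show r - σ r = r * (1 - σ r / r) by rw [mul_sub, mul_one, mul_div_cancel₀ _ hr0], map_mul,
    pow_two]
  exact mul_le_mul' hvr hsep

/-- No unit of the inertia field times `p` is close to a `p`-th power. -/
theorem LocalBase.not_approx_root (hB : ∀ a ∈ inertiaField A, a ∈ B.S)
    (hpeu : ∀ r ∈ B.S, ∀ c : inertiaRing A, IsUnit c →
      r ^ p ≠ (p : ℚbar) * ((c : inertiaField A) : ℚbar))
    (c : (inertiaRing A)ˣ) (b : B.int) {R : ℕ} (hR : 2 * p * B.idx < R) :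
    ¬ B.unifO ^ R ∣ (p : B.int) - B.inertiaToInt hB c * b ^ p := by
  rintro ⟨y, hy⟩
  have hc : A.valuation (((c : inertiaRing A) : inertiaField A) : ℚbar) = 1 := by
    refine le_antisymm ((A.valuation_le_one_iff _).mpr (c : inertiaRing A).2) ?_
    have h := congrArg (fun z : inertiaRing A => A.valuation ((z : inertiaField A) : ℚbar)) c.mul_inv
    simp only [MulMemClass.coe_mul, map_mul, OneMemClass.coe_one, map_one] at h
    rw [← h]
    exact mul_le_of_le_one_right' ((A.valuation_le_one_iff _).mpr (↑c⁻¹ : inertiaRing A).2)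
  set cq := (((c : inertiaRing A) : inertiaField A) : ℚbar) with hcq
  have hci : (((↑c⁻¹ : inertiaRing A) : inertiaField A) : ℚbar) = cq⁻¹ := by
    refine eq_inv_of_mul_eq_one_left ?_
    exact congrArg (fun z : inertiaRing A => ((z : inertiaField A) : ℚbar)) c.inv_mul
  obtain ⟨r, hr, e⟩ := B.exists_root_of_approx hB b.2.2 (c := cq⁻¹)
    (inv_mem ((c : inertiaRing A) : inertiaField A).2) (by rw [map_inv₀, hc, inv_one]) (by
      have h := congrArg (fun z : B.int => (z : ℚbar)) hy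
      simp only [AddSubgroupClass.coe_sub, Subring.coe_mul, SubmonoidClass.coe_pow,
        B.coe_inertiaToInt hB, ← hcq] at h
      rw [show ((p : B.int) : ℚbar) = (p : ℚbar) from map_natCast B.int.subtype p] at h
      have hc0 : cq ≠ 0 := fun h0 => by rw [h0, map_zero] at hc; exact zero_ne_one hc
      rw [show (b : ℚbar) ^ p - p * cq⁻¹ = -(cq⁻¹ * (B.unifQ ^ R * (y : ℚbar))) by
        rw [show (B.unifQ : ℚbar) = ((B.unifO : B.int) : ℚbar) from rfl, ← h]
        field_simp; ring]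
      rw [Valuation.map_neg, map_mul, map_inv₀, hc, inv_one, one_mul, map_mul, map_pow,
        B.val_natCast_p, ← pow_mul]
      refine lt_of_le_of_lt (mul_le_of_le_one_right' ((A.valuation_le_one_iff _).mpr y.2.1)) ?_
      exact pow_lt_pow_right_of_lt_one₀ (zero_lt_iff.mpr ((_root_.map_ne_zero _).2 B.unifQ_ne_zero))
        B.val_unifQ_lt_one (by rw [mul_comm]; exact hR))
  exact hpeu r hr (↑c⁻¹ : inertiaRing A) (Units.isUnit _) (by rw [hci]; exact e)

variable [Fact p.Prime] [NeZero p] (hA : A.LiesOverPrime p) {N' : ℕ} [NeZero N']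
  (hco : p.Coprime N') [IsFunctionField1 (IsLocalRing.ResidueField A) (FibField A N')]
  [Infinite (IsLocalRing.ResidueField A)]
  [IsDiscreteValuationRing (inertiaRing A)] [IsAlgClosed (ResidueField (inertiaRing A))]
  (H : Hauptmodul p) (hN : H.L ∣ N')
  (hpN : ¬ p ∣ N') {R : ℤ[X]} (hR : IsCuspPoly H R) (hB : ∀ a ∈ inertiaField A, a ∈ B.S)
  (D : ChartData (inertiaRing A) (tower (inertiaField A) N' hpN) (uElt (inertiaField A) H hN))
  (hDc : D.cusps = cuspSet R (inertiaRing A))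

theorem exists_levelHom_eq {G : 𝐅 (p * N')} (hG : G ∈ inertiaFun A (p * N')) :
    ∃ l, levelHom A p N' l = G :=
  mem_range_levelHom fun σ hσ => hG σ ((IntermediateField.mem_fixingSubgroup_iff _ σ).mpr
    fun _ hx => mem_inertiaField.mp hx σ hσ)

include hB in
/-- Constants `c ω ^ m` of the second branch glue with the first only for `p ∣ m`. -/
theorem dvd_of_glued (hpeu : ∀ r ∈ B.S, ∀ c : inertiaRing A, IsUnit c →
      r ^ p ≠ (p : ℚbar) * ((c : inertiaField A) : ℚbar))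
    {e : ℕ} (hpe : p ∣ e) {ω : B.W} (hω : IsUnit ω)
    (hωe : algebraMap B.int B.W (p : B.int) = ω * B.unifW ^ e)
    {n : ℕ} (hn : 2 * p * B.idx < n) (c₁ c₂ : (inertiaRing A)ˣ) {m : ℤ}
    (η : (modPow B.unifW n)ˣ)
    (h : Units.map ((modPowMk B.unifW n).comp
          ((algebraMap B.int B.W).comp (B.inertiaToInt hB))).toMonoidHom c₂ *
        Units.map (modPowMk B.unifW n).toMonoidHom hω.unit ^ m =
      Units.map ((modPowMk B.unifW n).comp
          ((algebraMap B.int B.W).comp (B.inertiaToInt hB))).toMonoidHom c₁ * η ^ p) :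
    (p : ℤ) ∣ m := by
  set Φ := Units.map ((modPowMk B.unifW n).comp
    ((algebraMap B.int B.W).comp (B.inertiaToInt hB))).toMonoidHom
  set o := Units.map (modPowMk B.unifW n).toMonoidHom hω.unit
  by_contra hm
  obtain ⟨s, t, hst⟩ : IsCoprime m (p : ℤ) :=
    ((Nat.prime_iff_prime_int.mp B.prime).irreducible.coprime_iff_not_dvd.mpr hm).symm
  have ho : o = Φ ((c₁ / c₂) ^ s) * (η ^ s * o ^ t) ^ p := by
    conv_lhs => rw [← zpow_one o, ← hst, zpow_add, mul_comm s m, zpow_mul,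
      eq_inv_mul_iff_mul_eq.mpr h]
    rw [map_zpow, _root_.map_div, mul_pow, ← zpow_natCast (η ^ s), ← zpow_natCast (o ^ t), ← zpow_mul,
      ← zpow_mul, ← mul_assoc, ← mul_assoc, mul_comm (Φ c₂)⁻¹, ← div_eq_mul_inv, mul_zpow,
      ← zpow_natCast η p, ← zpow_mul, mul_comm (p : ℤ) s]
  obtain ⟨e', rfl⟩ := hpe
  obtain ⟨w, hw⟩ := Ideal.Quotient.mk_surjective ((η ^ s * o ^ t : (modPow B.unifW n)ˣ) : modPow B.unifW n)
  obtain ⟨b, hb⟩ := B.exists_approx n (w * B.unifW ^ e')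
  refine B.not_approx_root hB hpeu ((c₁ / c₂) ^ s) b hn (B.dvd_reflect ?_)
  rw [← modPowMk_eq_zero_iff, map_sub (algebraMap B.int B.W), map_mul (algebraMap B.int B.W),
    map_pow (algebraMap B.int B.W), hωe, map_sub, sub_eq_zero, map_mul, map_mul,
    map_pow (modPowMk B.unifW n) (algebraMap B.int B.W b),
    sub_eq_zero.mp ((map_sub (modPowMk B.unifW n) _ _).symm.trans
      ((modPowMk_eq_zero_iff B.unifW n _).mpr hb))]
  have ho' := congrArg Units.val ho
  rw [Units.val_mul, Units.val_pow_eq_pow_val, ← hw] at ho'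
  show (o : modPow B.unifW n) * _ = _
  rw [ho', map_mul, map_pow, map_pow, mul_pow, ← pow_mul, mul_comm e' p]
  simp only [Φ, Units.coe_map]
  exact mul_assoc _ _ _

include hDc in
/-- The slope condition. -/
theorem levelSetup_slope (hpeu : ∀ r ∈ B.S, ∀ c : inertiaRing A, IsUnit c →
      r ^ p ≠ (p : ℚbar) * ((c : inertiaField A) : ℚbar))
    (ζ : B.int) (hζ : IsPrimitiveRoot (ζ : ℚbar) p) :
    let L := levelSetup B hA hco H hN hpN hR hB D hDc ζ hζ
    ∃ R₀ : ℕ, ∀ (i : (levelData p A hA hco).C.ι) (n : ℕ), R₀ ≤ n →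
    ∀ (G₁ G₂ : 𝐅 (p * N')) (h₁ : G₁ ∈ inertiaFun A (p * N')) (h₂ : G₂ ∈ inertiaFun A (p * N'))
    (u₁ : IsUnitAt (levelData p A hA hco).g₁ G₁) (u₂ : IsUnitAt (levelData p A hA hco).g₂ G₂)
    (d₁ d₂ : (modPow B.unifW n)ˣ) (n₁ n₂ : ℤ),
    IsDecomp ((L.node i).end₁ n ⟨G₁, L.le h₁, u₁.1⟩) d₁ n₁ →
    IsDecomp ((L.node i).end₂ n ⟨G₂, L.le h₂, u₂.1⟩) d₂ n₂ →
    (p : ℤ) ∣ n₁ → (p : ℤ) ∣ n₂ → (∃ η : (modPow B.unifW n)ˣ, d₂ = d₁ * η ^ p) →
    (p : ℤ) ∣ ((levelData p A hA hco).C.x i).ord ((levelData p A hA hco).g₁.red ⟨G₁, u₁.1⟩) +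
      ((levelData p A hA hco).C.y i).ord ((levelData p A hA hco).g₂.red ⟨G₂, u₂.1⟩) →
      (p : ℤ) ∣ ((levelData p A hA hco).C.x i).ord ((levelData p A hA hco).g₁.red ⟨G₁, u₁.1⟩) ∧
      (p : ℤ) ∣ ((levelData p A hA hco).C.y i).ord ((levelData p A hA hco).g₂.red ⟨G₂, u₂.1⟩) := by
  intro L
  refine ⟨2 * p * B.idx + 1, fun i n hn G₁ G₂ h₁ h₂ u₁ u₂ d₁ d₂ n₁ n₂ e₁ e₂ hn₁ hn₂ hη hsum => ?_⟩
  obtain ⟨f₁, rfl⟩ := exists_levelHom_eq h₁
  obtain ⟨f₂, rfl⟩ := exists_levelHom_eq h₂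
  obtain ⟨η, hη⟩ := hη
  set S := levelScalars B hA hco H hN hpN hR hB with hS
  set NC := (exists_levelChart hA hco H hN hpN hR D hDc i).some with hNC
  have hq := maximalIdeal_inertiaRing (Fact.out : p.Prime) hA
  have hn1 : 1 ≤ n := by omega
  let := Ann.isLocalRing_modPow B.unifW B.irreducible_unifW (show n ≠ 0 by omega)
  obtain ⟨c₁, m₁, k₁⟩ := S.end₁_decomp NC hq D (f := f₁) u₁ hn1
  obtain ⟨c₂, m₂, k₂⟩ := S.end₂_decomp NC hq D (f := f₂) u₂ hn1
  have o₁ := S.end₁_exponent NC hq D (f := f₁) u₁ hn1 k₁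
  have o₂ := S.end₂_exponent NC hq D (f := f₂) u₂ hn1 k₂
  obtain ⟨hd₁, hm₁⟩ := IsDecomp.unique e₁ k₁
  obtain ⟨hd₂, hm₂⟩ := IsDecomp.unique e₂ k₂
  have he : (S.e : ℤ) ≠ 0 := Int.natCast_ne_zero.mpr S.e_pos.ne'
  have hx := mul_left_cancel₀ he o₁
  have hy := mul_left_cancel₀ he o₂
  subst hx hy
  by_cases hpe : p ∣ B.idx
  · have h2 := dvd_of_glued B hB hpeu (show p ∣ B.idx from hpe) S.isUnit_ω
      (show algebraMap B.int B.W (p : B.int) = S.ω * B.unifW ^ B.idx by
        rw [map_natCast, ← map_natCast S.φ, S.φ_q]; rfl)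
      (show 2 * p * B.idx < n by omega) c₁ c₂ η (hd₂.symm.trans (hη.trans (by rw [hd₁]; rfl)))
    exact ⟨(dvd_add_left h2).mp hsum, h2⟩
  · have hcop : IsCoprime (p : ℤ) (S.e : ℤ) :=
      (Nat.prime_iff_prime_int.mp B.prime).irreducible.coprime_iff_not_dvd.mpr
        (fun h => hpe (Int.natCast_dvd_natCast.mp h))
    exact ⟨hcop.dvd_of_dvd_mul_left (hm₁ ▸ hn₁), hcop.dvd_of_dvd_mul_left (hm₂ ▸ hn₂)⟩

end FermatAgent.MazurPrinciple
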