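import Fermat.Agent.MazurPrinciple.LevelBase
import Fermat.Agent.MazurPrinciple.LevelSlope

/-!
# The slope condition over the base of a peu ramifiée `E[p]`
-/

set_option autoImplicit false

noncomputable section

namespace FermatAgent.MazurPrinciple

open FermatAgent.BadRed.Carayol.Instance

local notation "ℚbar" => AlgebraicClosure ℚ

variable {W : WeierstrassCurve ℤ} {p : ℕ} [Fact p.Prime] {A : ValuationSubring ℚbar}
  (hΔ : (W.map (Int.castRingHom ℚ)).Δ ≠ 0) (hA : A.LiesOverPrime p)

/-- The hypothesis of `levelSetup_slope` at the base of `E[p]`. -/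
theorem LocalBase.ofTorsion_hpeu (hp2 : p ≠ 2) (hirr : W.ModRepIsIrreducible p)
    (hss : (p : ℤ) ∣ W.Δ → ¬ (p : ℤ) ∣ W.c₄)
    (hflat : (W.map (Int.castRingHom ℚ)).IsPeuRamifieeAt p p) :
    ∀ r ∈ (LocalBase.ofTorsion hΔ hA).S, ∀ c : inertiaRing A, IsUnit c →
      r ^ p ≠ (p : ℚbar) * ((c : inertiaField A) : ℚbar) := fun r hr c hc => by
  refine LocalBase.ofTorsion_not_root hΔ hA hp2 hirr hss hflat hr (c : inertiaField A).2 ?_
  obtain ⟨d, hd⟩ := isUnit_iff_exists_inv.1 hc
  refine le_antisymm ((A.valuation_le_one_iff _).mpr c.2) ?_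
  have h := congrArg (fun z : inertiaRing A => A.valuation ((z : inertiaField A) : ℚbar)) hd
  simp only [MulMemClass.coe_mul, map_mul, OneMemClass.coe_one, map_one] at h
  rw [← h]
  exact mul_le_of_le_one_right' ((A.valuation_le_one_iff _).mpr d.2)

end FermatAgent.MazurPrinciple
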