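import Fermat.Agent.MazurPrinciple.PLowering
import Fermat.Agent.MazurPrinciple.LevelPeu

/-!
# The local base of a flat curve
-/

set_option autoImplicit false

noncomputable section

open WeierstrassCurve WeierstrassCurve.Affine
open scoped WeierstrassCurve.Affine

namespace FermatAgent.MazurPrinciple

open FermatAgent.Local FermatAgent.RTLift.Setup

local notation "Qb" => AlgebraicClosure ℚ

/-- The base of `E[p]` kills `E[p]`. -/
theorem torMat_eq_one_of_fixing_ofTorsion {W : WeierstrassCurve ℤ} {p : ℕ} [Fact p.Prime]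
    {A : ValuationSubring Qb} (hΔ : (W.map (Int.castRingHom ℚ)).Δ ≠ 0) (hA : A.LiesOverPrime p)
    {σ : Qb ≃ₐ[ℚ] Qb} (hσ : σ ∈ (LocalBase.ofTorsion hΔ hA).base.fixingSubgroup) :
    Ihara.torMat W (p := p) hΔ σ = 1 := by
  have hfix : ∀ z ∈ torsionSet (p := p) hΔ, σ z = z := fun z hz =>
    (IntermediateField.mem_fixingSubgroup_iff _ σ).mp hσ z
      (LocalBase.mem_ofField_right Fact.out hA _ (IntermediateField.subset_adjoin ℚ _ hz))
  rw [torMat_eq_one_iff]
  intro P
  obtain ⟨x, hx⟩ := exists_torPt_eq (p := p) hΔ (P := (P : (qbarCurve W).Point)) (by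
    rw [← natCast_zsmul]; exact (Submodule.mem_torsionBy_iff _ _).mp P.2)
  refine Subtype.ext ?_
  show σ • (P : (qbarCurve W).Point) = P
  rw [← hx]
  have hX := hfix _ (Or.inl (Or.inl ⟨x, rfl⟩))
  have hY := hfix _ (Or.inl (Or.inr ⟨x, rfl⟩))
  rw [galois_smul_eq_conjPoint]
  cases hP : torPt (p := p) hΔ x with
  | zero => rfl
  | some a b h =>
    simp only at hX hY
    rw [hP] at hX hY
    exact Point.some.injEq .. |>.mpr ⟨hX, hY⟩

/-- Flat curves have local bases. -/
theorem baseInput : BaseInput := fun _ p _ hΔ hp2 hss hflat hirr _ hA =>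
  ⟨LocalBase.ofTorsion hΔ hA, fun _ ha => LocalBase.inertia_mem_ofTorsion hΔ hA ha,
    LocalBase.ofTorsion_hpeu hΔ hA hp2 hirr (fun h => hss p Fact.out h) hflat,
    fun _ hx => LocalBase.root_mem_ofTorsion hΔ hA hx,
    fun _ hσ _ hx => LocalBase.map_mem_ofTorsion hΔ hA hσ hx,
    fun _ hσ => torMat_eq_one_of_fixing_ofTorsion hΔ hA hσ⟩

end FermatAgent.MazurPrinciple

end
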