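import Fermat.Agent.MazurPrinciple.Rep
import Fermat.Agent.MazurPrinciple.InertiaDet

/-!
# From twisted roots to the action on eigen classes

A `p`-th root at level `p M` of `σ t * t ^ (p - w)`, `t` representing `y`, gives `σ y = w y` when
the pullback is injective; then no element of Galois with that behaviour has `det ≠ 1` on `E[p]`.
-/

set_option autoImplicit false

noncomputable section

namespace FermatAgent.MazurPrinciple

open AlgebraicCurve ModularCurve IntermediateField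
open FermatAgent.Curve (divisorOf IsFunctionField1)
open FermatAgent.ModCurveTorsion (galN coe_galN_smul)
open FermatAgent.Ihara (torMat)
open FermatAgent.BadRed
open FermatAgent.ModFun FermatAgent.ES

local notation "Qb" => AlgebraicClosure ℚ
local notation "GQ" => AlgebraicClosure ℚ ≃ₐ[ℚ] AlgebraicClosure ℚ
local notation "𝐅" N:max => laurentBaseChange Qb (modularFunctionFieldFull N)

attribute [local instance] ModCurveTorsion.isFunctionField1_laurent RT.isGalois_algClosureRat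

variable {p : ℕ} [hp : Fact p.Prime] {N M : ℕ} [NeZero N] [NeZero M] [NeZero (p * N)]
  [NeZero (p * M)] (hd : N ∣ M)

theorem galN_smul_algebraMap_const {L : ℕ} [NeZero L] (σ : GQ) (c : Qb) :
    galN L σ • algebraMap Qb (𝐅 L) c = algebraMap Qb (𝐅 L) (σ c) := by
  refine Subtype.ext ?_
  rw [coe_galN_smul, IntermediateField.coe_algebraMap_apply, IntermediateField.coe_algebraMap_apply,
    algebraMap_laurentSeries_eq_single, algebraMap_laurentSeries_eq_single, coeffMap_single]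
  rfl

/-- Separating the root of the constant and the power from a root. -/
theorem root_identity {F : Type*} [Field F] {p n : ℕ} {Φ R V U Gs G a b : F} (hR0 : R ≠ 0)
    (he : Gs * G ^ n ≠ 0) (hR : R ^ p = a * b ^ n)
    (hΦ : Φ ^ p = a * (V * Gs ^ p) * (b * (U * G ^ p)) ^ n) :
    (Φ / (R * (Gs * G ^ n))) ^ p = V * U ^ n := by
  rw [div_pow, hΦ, div_eq_iff (pow_ne_zero _ (mul_ne_zero hR0 he)), mul_pow R, hR, mul_pow Gs,
    ← pow_mul, mul_comm n p, pow_mul, mul_pow b, mul_pow U]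
  ring

/-- Galois moves divisors of degree zero with their classes. -/
theorem exists_galois_divisor {L : ℕ} [NeZero L] (σ : GQ)
    (D : Divisor.degZero (K := Qb) (F := 𝐅 L)) :
    haveI := FermatAgent.Curve.instHasPrincipalDivisors (K := Qb) (F := 𝐅 L)
    ∃ D' : Divisor.degZero (K := Qb) (F := 𝐅 L),
      (D' : Divisor Qb (𝐅 L)) = galN L σ • (D : Divisor Qb (𝐅 L)) ∧
        Pic0.mk D' = σ • (Pic0.mk D : JZero L) := by
  have := FermatAgent.Curve.instHasPrincipalDivisors (K := Qb) (F := 𝐅 L)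
  rw [galois_smul_pic0_def, SemilinearAut.pic0_smul_mk]
  exact ⟨_, rfl, rfl⟩

/-- A class of order `p` at level `p N` killed by raising the level is zero. -/
def PullbackInjective : Prop :=
  haveI := FermatAgent.Curve.instHasPrincipalDivisors (K := Qb) (F := 𝐅 (p * N))
  ∀ (D : Divisor.degZero (K := Qb) (F := 𝐅 (p * N))) (u : 𝐅 (p * N)), u ≠ 0 →
    p • (D : Divisor Qb (𝐅 (p * N))) = divisorOf u →
    ∀ Φ : 𝐅 (p * M), Φ ^ p = AtP.upLevel hd Qb u → Pic0.mk D = 0

/-- Pulling back is injective when the degree is prime to `p`. -/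
theorem pullbackInjective_of_not_dvd
    (hdeg : ¬ p ∣ finrankAlong Qb (AtP.upLevel (p := p) hd Qb)) :
    PullbackInjective (p := p) hd := by
  have := FermatAgent.Curve.instHasPrincipalDivisors (K := Qb) (F := 𝐅 (p * N))
  intro D u hu hD Φ hΦ
  have h := AtP.finrankAlong_smul_mk_eq_zero (AtP.upLevel (p := p) hd Qb) hp.out.pos hu hD hΦ
  have h' : p • (Pic0.mk D : JZero (p * N)) = 0 := by
    rw [← AtP.pic0_mk_nsmul]
    exact (QuotientAddGroup.eq_zero_iff _).mpr (AddSubgroup.mem_addSubgroupOf.mpr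
      ⟨u, hu, fun v => by
        rw [AddSubmonoidClass.coe_nsmul, hD, Curve.divisorOf_apply]⟩)
  refine AddMonoid.addOrderOf_eq_one_iff.mp ?_
  exact Nat.eq_one_of_dvd_coprimes (hp.out.coprime_iff_not_dvd.mpr hdeg)
    (addOrderOf_dvd_of_nsmul_eq_zero h') (addOrderOf_dvd_of_nsmul_eq_zero h)

set_option maxHeartbeats 800000 in
-- typeclass search over `laurentBaseChange` is slow
/-- **The twisted class vanishes.** -/
theorem smul_eq_nsmul_of_root (hker : PullbackInjective (p := p) hd)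
    {D : Divisor.degZero (K := Qb) (F := 𝐅 (p * N))} {u : 𝐅 (p * N)} (hu : u ≠ 0)
    (hD : p • (D : Divisor Qb (𝐅 (p * N))) = divisorOf u) (hpy : p • Pic0.mk D = 0)
    {σ : GQ} {w : ℕ} (hw : w ≤ p) {c : Qb} {G t Φ : 𝐅 (p * M)} (hc : c ≠ 0) (hG : G ≠ 0)
    (ht : t = c • (AtP.upLevel hd Qb u * G ^ p))
    (hΦ : Φ ^ p = galN (p * M) σ • t * t ^ (p - w)) :
    σ • Pic0.mk D = w • Pic0.mk D := by
  have := FermatAgent.Curve.instHasPrincipalDivisors (K := Qb) (F := 𝐅 (p * N))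
  obtain ⟨r, hr⟩ := IsAlgClosed.exists_pow_nat_eq (σ c * c ^ (p - w)) hp.out.pos
  set e := galN (p * M) σ • G * G ^ (p - w)
  have hσc : σ c ≠ 0 := (map_ne_zero σ).mpr hc
  have hr0 : r ≠ 0 := fun h => by
    rw [h, zero_pow hp.out.ne_zero] at hr
    exact mul_ne_zero hσc (pow_ne_zero _ hc) hr.symm
  have he : e ≠ 0 := mul_ne_zero ((smul_ne_zero_iff_ne _).mpr hG) (pow_ne_zero _ hG)
  set u' := galN (p * N) σ • u * u ^ (p - w)
  have hu' : u' ≠ 0 := mul_ne_zero ((smul_ne_zero_iff_ne _).mpr hu) (pow_ne_zero _ hu)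
  have hgt : galN (p * M) σ • t = algebraMap Qb (𝐅 (p * M)) (σ c) *
      (AtP.upLevel hd Qb (galN (p * N) σ • u) * (galN (p * M) σ • G) ^ p) := by
    rw [ht, Algebra.smul_def, smul_mul', smul_mul', smul_pow', galN_smul_algebraMap_const,
      AtP.upLevel_galN]
  have ht' : t = algebraMap Qb (𝐅 (p * M)) c * (AtP.upLevel hd Qb u * G ^ p) := by
    rw [ht, Algebra.smul_def]
  have hR : algebraMap Qb (𝐅 (p * M)) r ^ p =
      algebraMap Qb (𝐅 (p * M)) (σ c) * algebraMap Qb (𝐅 (p * M)) c ^ (p - w) := by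
    rw [← map_pow, hr, map_mul, map_pow]
  have hup : AtP.upLevel hd Qb u' =
      AtP.upLevel hd Qb (galN (p * N) σ • u) * AtP.upLevel hd Qb u ^ (p - w) :=
    (map_mul (AtP.upLevel (p := p) hd Qb) _ _).trans
      (congrArg _ (map_pow (AtP.upLevel (p := p) hd Qb) _ _))
  have hroot : (Φ / (algebraMap Qb (𝐅 (p * M)) r * e)) ^ p = AtP.upLevel hd Qb u' := by
    rw [hup]
    exact root_identity ((map_ne_zero _).mpr hr0) he hR (hΦ.trans (by rw [hgt, ht']))
  obtain ⟨D₂, hD₂, hD₂'⟩ := exists_galois_divisor σ D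
  have hdiv : p • ((D₂ + (p - w) • D : Divisor.degZero (K := Qb) (F := 𝐅 (p * N))) :
      Divisor Qb (𝐅 (p * N))) = divisorOf u' := by
    rw [AddSubgroup.coe_add, AddSubmonoidClass.coe_nsmul, smul_add, hD₂, smul_comm p, hD,
      smul_comm p (p - w), hD, ModCurveTorsion.smul_divisorOf]
    ext v
    rw [Finsupp.add_apply, Finsupp.smul_apply, Curve.divisorOf_apply, Curve.divisorOf_apply,
      Curve.divisorOf_apply, nsmul_eq_mul, show u' = galN (p * N) σ • u * u ^ (p - w) from rfl,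
      v.ord_mul ((smul_ne_zero_iff_ne _).mpr hu) (pow_ne_zero _ hu), Curve.ord_pow']
  have h := hker _ u' hu' hdiv _ hroot
  rw [Pic0.mk_add, AtP.pic0_mk_nsmul, hD₂',
    show (p - w) • Pic0.mk D = -(w • Pic0.mk D) by
      rw [eq_neg_iff_add_eq_zero, ← add_smul, Nat.sub_add_cancel hw, hpy], ← sub_eq_add_neg] at h
  exact sub_eq_zero.mp h

variable {S : Set ℕ} (W : WeierstrassCurve ℤ) (hΔ : (W.map (Int.castRingHom ℚ)).Δ ≠ 0)

/-- The roots demanded of an element of Galois `σ` with exponent `w`, for `T ℓ`. -/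
def TwistRoots {ℓ : ℕ} [Fact ℓ.Prime] [NeZero (ℓ * (p * M))] (hℓ : ℓ.Coprime (p * M))
    (C : IntermediateField ℚ Qb) (σ : GQ) (w : ℕ) : Prop :=
  ∀ f, IsRep hd C S W.apOfModel f → ∃ (t Φ : 𝐅 (p * M)),
    (∃ (c : Qb) (G : 𝐅 (p * M)), c ≠ 0 ∧ G ≠ 0 ∧
      t = c • (AtP.heckeNorm Qb hℓ f / f ^ (ℓ + 1) * G ^ p)) ∧
      Φ ^ p = galN (p * M) σ • t * t ^ (p - w)

variable (hirr : W.ModRepIsIrreducible p) (hp2 : p ≠ 2) (hS : S.Finite)
  (hgood : ∀ l, l.Prime → l ∉ S → W.IsGoodPrimeFor l)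
  (hMS : ∀ q : ℕ, q.Prime → q ∣ p * N → q ∈ S)
  (C : IntermediateField ℚ Qb) (hC : ∀ σ ∈ C.fixingSubgroup, torMat W (p := p) hΔ σ = 1)

include hd hirr hp2 hS hgood hMS hC in
set_option maxHeartbeats 800000 in
-- typeclass search over `laurentBaseChange` is slow
/-- No eigen system at level `p N` survives the twisted roots, when pulling back is injective. -/
theorem false_of_twistRoots' (hker : PullbackInjective (p := p) hd)
    (hcong : HasCongruentForm W.apOfModel p (p * N) S) {ℓ : ℕ} [Fact ℓ.Prime]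
    [NeZero (ℓ * (p * N))] [NeZero (ℓ * (p * M))] (hℓM : ℓ.Coprime (p * M)) (hℓS : ℓ ∉ S)
    (hℓa : (W.apOfModel ℓ : ZMod p) ≠ (ℓ : ZMod p) + 1)
    {σ : GQ} (hσ : (torMat W (p := p) hΔ σ).det ≠ 1)
    (hroots : TwistRoots (S := S) hd W hℓM C σ (ExtCitation.cycloChar p σ : ZMod p).val) :
    False := by
  have := FermatAgent.Curve.instHasPrincipalDivisors (K := Qb) (F := 𝐅 (p * N))
  have hℓN : ℓ.Coprime (p * N) := hℓM.coprime_dvd_right (Nat.mul_dvd_mul_left p hd)
  have : NeZero ℓ := ⟨(Fact.out : ℓ.Prime).ne_zero⟩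
  have : NeZero p := ⟨hp.out.ne_zero⟩
  set w := (ExtCitation.cycloChar p σ : ZMod p).val
  obtain ⟨x₁, hx₁, hx₁0⟩ := exists_mem_eigenGroup_ne_zero hMS hcong
  refine hσ (det_eq_one_of_scalar W hΔ hirr hS hgood hp2 (x₀ := ⟨x₁, hx₁⟩)
    (fun e => hx₁0 (congrArg Subtype.val e)) fun x hx => Subtype.ext ?_)
  have hxfix : ∀ g ∈ C.fixingSubgroup, g • (x : JZero (p * N)) = x := fun g hg => by
    rw [← coe_galOn, hx g (hC g hg)]
  obtain ⟨D, f₀, hDx, hf₀, hf₀0, hfD⟩ := exists_fixed_rep N x.2.1 hxfix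
  have hxe : Pic0.mk D ∈ eigenGroup (p * N) S W.apOfModel p := by rw [hDx]; exact x.2
  obtain ⟨D', -, hu0, hD', hcl⟩ := exists_hecke_divisor hℓN hℓS hf₀ hf₀0 hfD hxe
  obtain ⟨t, Φ, ⟨c, G, hc, hG, ht⟩, hΦ⟩ :=
    hroots _ (isRep_upLevel hd hf₀ hf₀0 hfD hxe)
  obtain ⟨ζ, hζ⟩ := HasEnoughRootsOfUnity.exists_primitiveRoot Qb ℓ
  have hζu : IsPrimitiveRoot (hζ.isUnit (Fact.out : ℓ.Prime).ne_zero).unit ℓ :=
    IsPrimitiveRoot.coe_units_iff.mp (by rw [IsUnit.unit_spec]; exact hζ)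
  have ht' : t = c • (AtP.upLevel hd Qb (AtP.heckeNorm Qb hℓN f₀ / f₀ ^ (ℓ + 1)) * G ^ p) := by
    rw [ht, map_div₀ (AtP.upLevel (p := p) hd Qb), map_pow (AtP.upLevel (p := p) hd Qb),
      upLevel_eq_upBase hd (AtP.heckeNorm Qb hℓN f₀), upLevel_eq_upBase hd f₀,
      heckeNorm_upBase hℓN hℓM (Nat.mul_dvd_mul_left p hd) hζu]
  have hmem : (W.apOfModel ℓ - ((ℓ : ℤ) + 1)) • (x : JZero (p * N)) ∈
      eigenGroup (p * N) S W.apOfModel p := zsmul_mem x.2 _
  rw [hDx] at hcl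
  have hy : σ • Pic0.mk D' = w • Pic0.mk D' :=
    smul_eq_nsmul_of_root hd hker hu0 hD' (by rw [hcl]; exact hmem.1) (ZMod.val_lt _).le hc hG ht' hΦ
  rw [hcl] at hy
  set b : ℤ := W.apOfModel ℓ - ((ℓ : ℤ) + 1)
  have hb : ¬ (p : ℤ) ∣ b := fun h => hℓa (by
    rw [← sub_eq_zero]
    have := (ZMod.intCast_zmod_eq_zero_iff_dvd b p).mpr h
    simpa [b] using this)
  obtain ⟨u, v, huv⟩ : IsCoprime b (p : ℤ) :=
    ((Nat.prime_iff_prime_int.mp hp.out).coprime_iff_not_dvd.mpr hb).symm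
  have hux : u • (b • (x : JZero (p * N))) = x := by
    rw [smul_smul, show u * b = 1 - v * p by linarith, sub_zsmul, one_zsmul, mul_zsmul,
      natCast_zsmul, x.2.1, zsmul_zero, neg_zero, add_zero]
  have hfin : σ • (x : JZero (p * N)) = w • (x : JZero (p * N)) := by
    conv_lhs => rw [← hux, show σ • (u • (b • (x : JZero (p * N)))) = u • (σ • (b • (x : JZero (p * N))))
      from map_zsmul (DistribSMul.toAddMonoidHom (JZero (p * N)) σ) u _, hy,
      ← natCast_zsmul, smul_smul, mul_comm u, ← smul_smul, hux, natCast_zsmul]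
  rw [coe_galOn, hfin, det_torMat W hΔ hirr]
  conv_rhs => rw [← ZMod.natCast_zmod_val (ExtCitation.cycloChar p σ : ZMod p),
    Nat.cast_smul_eq_nsmul]
  rfl

end FermatAgent.MazurPrinciple

end
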