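import Fermat.Agent.BadRed.Semistable.Gauss
import Mathlib.Algebra.CharP.Lemmas
import Mathlib.RingTheory.Ideal.Operations

/-!
# The first discrepancy of an approximate `p`-th root

If `(ψ + ϖ ^ j z) ^ p ≡ U` to high precision, the reduction of the first non-zero term of
`ψ ^ p - U` is a combination of `z ^ p` and `ψ ^ (p - 1) z`.
-/

set_option autoImplicit false

noncomputable section

namespace FermatAgent.MazurPrinciple

open BadRed.Semistable

/-- The binomial formula for a prime exponent, to second order. -/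
theorem exists_add_pow_prime {R : Type*} [CommRing R] {p : ℕ} (hp : p.Prime) (x y : R) :
    ∃ r, (x + y) ^ p = x ^ p + y ^ p + p * (x ^ (p - 1) * y) + p * (y ^ 2 * r) := by
  classical
  have hmem : p - 1 ∈ Finset.Ioo 0 p := by
    have := hp.two_le
    simp; omega
  have h1 : p.choose (p - 1) / p = 1 := by
    have := hp.two_le
    rw [Nat.choose_symm (by omega : 1 ≤ p), Nat.choose_one_right, Nat.div_self (by omega)]
  refine ⟨∑ k ∈ (Finset.Ioo 0 p).erase (p - 1),
    x ^ k * y ^ (p - k - 2) * ((p.choose k / p : ℕ) : R), ?_⟩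
  rw [add_pow_prime_eq' hp x y, ← Finset.add_sum_erase _ _ hmem, h1,
    show p - (p - 1) = 1 by have := hp.two_le; omega, pow_one, Nat.cast_one, mul_one, Finset.mul_sum]
  rw [mul_add, ← add_assoc]
  congr 2
  refine Finset.sum_congr rfl fun k hk => ?_
  have hk' := Finset.mem_erase.mp hk
  have := Finset.mem_Ioo.mp hk'.2
  rw [show p - k = p - k - 2 + 2 by omega, pow_add]
  simp only [show p - k - 2 + 2 - 2 = p - k - 2 by omega]
  ring

variable {K : Type*} [Field K] {A : ValuationSubring K} {k : Type*} [Field k] {π : A →+* k}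
  {F : Type*} [Field F] [Algebra K F] {Fb : Type*} [Field Fb] [Algebra k Fb]

theorem red_pow_smul (g : GaussRed A π F Fb) (ϖ : A) (m : ℕ) {x : F} (hx : x ∈ g.integers) :
    g.red ⟨((ϖ ^ m : A) : K) • x, g.smul_mem (ϖ ^ m : A).2 hx⟩ = π ϖ ^ m • g.red ⟨x, hx⟩ := by
  rw [g.red_smul (ϖ ^ m : A).2 hx, ← map_pow]

/-- The discrepancy term: its integrality and its reduction. -/
theorem exists_discrepancy (g : GaussRed A π F Fb) {p : ℕ} (hp : p.Prime) {ϖ : A}
    (hϖ0 : (ϖ : K) ≠ 0) (hπϖ : π ϖ = 0) {v : ℕ} (hv : 1 ≤ v) {u : A}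
    (hu : (p : A) = ϖ ^ v * u) {j R : ℕ} (hR : j + v < R) {ψ U z w : F}
    (hψ : ψ ∈ g.integers) (hz : z ∈ g.integers) (hw : w ∈ g.integers)
    (h : (ψ + (ϖ : K) ^ j • z) ^ p - U = (ϖ : K) ^ R • w) :
    ∃ hy : ((ϖ : K) ^ min (p * j) (v + j))⁻¹ • (ψ ^ p - U) ∈ g.integers,
      g.red ⟨_, hy⟩ = -(((0 : k) ^ (p * j - min (p * j) (v + j))) • g.red ⟨z, hz⟩ ^ p +
        ((0 : k) ^ (v + j - min (p * j) (v + j)) * π u) •
          (g.red ⟨ψ, hψ⟩ ^ (p - 1) * g.red ⟨z, hz⟩)) := by
  classical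
  set e := min (p * j) (v + j) with he
  have he1 : e ≤ p * j := min_le_left _ _
  have he2 : e ≤ v + j := min_le_right _ _
  have heR : e < R := by omega
  have he3 : e < v + 2 * j := by
    rcases Nat.eq_zero_or_pos j with rfl | hj
    · simp only [mul_zero, zero_le, min_eq_left, he]; omega
    · omega
  let x' : g.integers := ⟨ψ, hψ⟩
  let z' : g.integers := ⟨z, hz⟩
  let c : g.integers := ⟨algebraMap K F (ϖ : K), g.algebraMap_mem ϖ⟩
  obtain ⟨r, hr⟩ := exists_add_pow_prime hp x' (c ^ j * z')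
  let a : A → g.integers := fun b => ⟨algebraMap K F (b : K), g.algebraMap_mem b⟩
  let y : g.integers := a (ϖ ^ (R - e)) * ⟨w, hw⟩ - (a (ϖ ^ (p * j - e)) * z' ^ p +
    a (ϖ ^ (v + j - e) * u) * (x' ^ (p - 1) * z') + a (ϖ ^ (v + 2 * j - e) * u) * (z' ^ 2 * r))
  have hy' : ((ϖ : K) ^ e)⁻¹ • (ψ ^ p - U) = (y : F) := by
    rw [inv_smul_eq_iff₀ (pow_ne_zero _ hϖ0)]
    have hr' := congrArg Subtype.val hr
    have hu' : (p : F) = algebraMap K F (ϖ : K) ^ v * algebraMap K F (u : K) := by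
      have := congrArg (fun b : A => algebraMap K F (b : K)) hu
      simpa using this
    simp only [x', z', c, y, a, Subring.coe_add, SubmonoidClass.coe_pow,
      AddSubgroupClass.coe_sub, MulMemClass.coe_mul, map_pow, map_mul, Algebra.smul_def,
      SubringClass.coe_natCast] at hr' h ⊢
    set P := algebraMap K F (ϖ : K)
    have e1 : P ^ e * P ^ (R - e) = P ^ R := by rw [← pow_add]; congr 1; omega
    have e2 : P ^ e * P ^ (p * j - e) = (P ^ j) ^ p := by
      rw [← pow_add, ← pow_mul]; congr 1; rw [mul_comm j p]; omega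
    have e3 : P ^ e * P ^ (v + j - e) = P ^ v * P ^ j := by
      rw [← pow_add, ← pow_add]; congr 1; omega
    have e4 : P ^ e * P ^ (v + 2 * j - e) = P ^ v * (P ^ j) ^ 2 := by
      rw [← pow_add, ← pow_mul, ← pow_add]; congr 1; omega
    rw [hu'] at hr'
    linear_combination -(1 : F) * hr' - (w * e1) + (z ^ p * e2) +
      (algebraMap K F (u : K) * (ψ ^ (p - 1) * z) * e3) +
      (algebraMap K F (u : K) * (z ^ 2 * (r : F)) * e4) + h
  refine ⟨hy' ▸ y.2, ?_⟩
  rw [g.red_congr hy']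
  have ha : ∀ b : A, g.red (a b) = algebraMap k Fb (π b) := g.red_algebraMap
  simp only [Subtype.coe_eta, y, map_sub, map_add, map_mul, map_pow, ha]
  have z1 : π ϖ ^ (R - e) = 0 := by rw [hπϖ, zero_pow (by omega)]
  have z2 : π ϖ ^ (v + 2 * j - e) = 0 := by rw [hπϖ, zero_pow (by omega)]
  rw [← map_pow, ← map_pow (algebraMap k Fb), ← map_pow (algebraMap k Fb),
    ← map_pow (algebraMap k Fb), z1, z2, hπϖ, map_zero, Algebra.smul_def, Algebra.smul_def, map_mul]
  simp only [x', z']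
  ring

/-- The case distinction behind the exponents. -/
theorem zero_pow_cases {k : Type*} [Field k] (p v j : ℕ) :
    (p * j ≤ v + j ∧ (0 : k) ^ (p * j - min (p * j) (v + j)) = 1) ∨
      (v + j < p * j ∧ 1 ≤ j ∧ (0 : k) ^ (p * j - min (p * j) (v + j)) = 0 ∧
        (0 : k) ^ (v + j - min (p * j) (v + j)) = 1) := by
  rcases le_or_gt (p * j) (v + j) with h | h
  · left; exact ⟨h, by rw [min_eq_left h, Nat.sub_self, pow_zero]⟩
  · right
    refine ⟨h, ?_, ?_, ?_⟩
    · rcases Nat.eq_zero_or_pos j with rfl | hj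
      · simp at h
      · exact hj
    · rw [min_eq_right h.le, zero_pow (by omega)]
    · rw [min_eq_right h.le, Nat.sub_self, pow_zero]

end FermatAgent.MazurPrinciple
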