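import Fermat.Agent.MazurPrinciple.ResidualDescend
import Fermat.Agent.MazurPrinciple.LevelSlope
import Fermat.Agent.BadRed.Carayol.Instance.Final
import Fermat.Agent.ExtVanish.Cocycle
import Fermat.Agent.RT.Frobenius

/-!
# Mazur's principle

An eigen system of level `p N` congruent to `E[p]`, with a local base over which `E[p]` is
trivial and `p` times no unit is a `p`-th power, occurs at level `N`.
-/

set_option autoImplicit false
set_option maxHeartbeats 800000
set_option maxRecDepth 4000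

noncomputable section

namespace FermatAgent.MazurPrinciple

open Polynomial AlgebraicCurve ModularCurve IsLocalRing
open FermatAgent.Curve (IsFunctionField1)
open FermatAgent.BadRed.Semistable FermatAgent.BadRed.Carayol FermatAgent.BadRed.Carayol.Instance
open FermatAgent.BadRed
open FermatAgent.Ihara (torMat)
open FermatAgent.ModFun FermatAgent.ES FermatAgent.ModCurveTorsion

local notation "Qb" => AlgebraicClosure ℚ
local notation "GQ" => AlgebraicClosure ℚ ≃ₐ[ℚ] AlgebraicClosure ℚ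
local notation "𝐅" N:max => laurentBaseChange Qb (modularFunctionFieldFull N)

attribute [local instance] ModCurveTorsion.isFunctionField1_laurent
attribute [local instance] isAlgClosed_residue

/-- Adding `4` to the level multiplies the index by a number prime to `p`. -/
theorem exists_dedekindPsi_lcm_four {p N : ℕ} (hp : p.Prime) (hp2 : p ≠ 2) (hN : N ≠ 0)
    (h : 5 ≤ p ∨ 2 ∣ N) :
    ∃ k, dedekindPsi (Nat.lcm 4 N) = k * dedekindPsi N ∧ ¬ p ∣ k := by
  have hp3 : 3 ≤ p := by have := hp.two_le; omega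
  by_cases h4 : 4 ∣ N
  · exact ⟨1, by rw [Nat.lcm_eq_right h4, one_mul],
      fun hk => hp.ne_one (Nat.dvd_one.mp hk)⟩
  by_cases h2 : 2 ∣ N
  · refine ⟨2, ?_, fun hk => by have := Nat.le_of_dvd two_pos hk; omega⟩
    obtain ⟨m, rfl⟩ := h2
    have hm : Nat.Coprime 2 m :=
      Nat.prime_two.coprime_iff_not_dvd.mpr fun ⟨c, hc⟩ => h4 ⟨c, by omega⟩
    rw [show Nat.lcm 4 (2 * m) = 2 * m * 2 by
      rw [show (4 : ℕ) = 2 * 2 from rfl, Nat.lcm_mul_left, hm.lcm_eq_mul]; ring,
      dedekindPsi_mul_of_dvd hN Nat.prime_two (dvd_mul_right 2 m)]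
  · refine ⟨6, ?_, fun hk => ?_⟩
    · have hm : Nat.Coprime 4 N :=
        (Nat.prime_two.coprime_iff_not_dvd.mpr h2).pow_left 2
      rw [hm.lcm_eq_mul, show 4 * N = N * 2 * 2 by ring,
        dedekindPsi_mul_of_dvd (mul_ne_zero hN two_ne_zero) Nat.prime_two (dvd_mul_left 2 N),
        dedekindPsi_mul_of_not_dvd hN Nat.prime_two h2]
      ring
    · rcases (hp.dvd_mul (m := 2) (n := 3)).mp hk with hk | hk
      · have := Nat.le_of_dvd two_pos hk; omega
      · rcases h with h | h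
        · have := Nat.le_of_dvd three_pos hk; omega
        · exact h2 h

variable {p : ℕ} [hp : Fact p.Prime]

/-- The degree of the change of level at `p N`. -/
theorem dedekindPsi_mul_finrankAlong_upLevel {N M : ℕ} [NeZero N] [NeZero M] [NeZero (p * N)]
    [NeZero (p * M)] (hN : p.Coprime N) (hM : p.Coprime M) (hd : N ∣ M) :
    dedekindPsi N * finrankAlong Qb (AtP.upLevel (p := p) hd Qb) = dedekindPsi M := by
  have h := finrankAlong_mul_finrank (AtP.upLevel (p := p) hd Qb) (jBar Qb (p * N))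
  rw [show AtP.upLevel (p := p) hd Qb (jBar Qb (p * N)) = jBar Qb (p * M) from
      Subtype.ext ((AtP.coe_upLevel hd Qb _).trans rfl),
    finrank_adjoin_jBar_eq_dedekindPsi, finrank_adjoin_jBar_eq_dedekindPsi] at h
  have hψ : ∀ {L : ℕ}, L ≠ 0 → p.Coprime L → dedekindPsi (p * L) = (p + 1) * dedekindPsi L :=
    fun h0 hL => by
      rw [mul_comm p]
      exact dedekindPsi_mul_of_not_dvd h0 hp.out (hp.out.coprime_iff_not_dvd.mp hL)
  rw [hψ (NeZero.ne N) hN, hψ (NeZero.ne M) hM, mul_assoc] at h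
  exact Nat.eq_of_mul_eq_mul_left (Nat.succ_pos p) h

variable (W : WeierstrassCurve ℤ) (hΔ : (W.map (Int.castRingHom ℚ)).Δ ≠ 0)

/-- A local base on which `E[p]` is trivial and over which `p` stays far from `p`-th powers. -/
def HasBase (A : ValuationSubring Qb) : Prop :=
  ∃ B : LocalBase A p, (∀ a ∈ inertiaField A, a ∈ B.S) ∧
    (∀ r ∈ B.S, ∀ c : inertiaRing A, IsUnit c →
      r ^ p ≠ (p : Qb) * ((c : inertiaField A) : Qb)) ∧
    (∀ x : Qb, x ^ p = 1 → x ∈ B.S) ∧
    (∀ σ ∈ A.inertiaSubgroupIn ℚ, ∀ x ∈ B.S, σ x ∈ B.S) ∧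
    ∀ σ ∈ B.base.fixingSubgroup, torMat W (p := p) hΔ σ = 1

/-- Mazur's principle, given that orders descend from the auxiliary level and that pulling back
to it is injective on classes of order `p`. -/
theorem hasCongruentForm_of_descends (hirr : W.ModRepIsIrreducible p) (hp2 : p ≠ 2) {S : Set ℕ}
    (hS : S.Finite) (hgood : ∀ l, l.Prime → l ∉ S → W.IsGoodPrimeFor l) {N : ℕ} [NeZero N]
    (hN : p.Coprime N) (hMS : ∀ q : ℕ, q.Prime → q ∣ p * N → q ∈ S) 
    {A : ValuationSubring Qb} (hA : A.LiesOverPrime p) (hbase : HasBase (p := p) W hΔ A)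
    (hcong : HasCongruentForm W.apOfModel p (p * N) S) {M : ℕ} [NeZero M] [NeZero (p * N)]
    [NeZero (p * M)] (hd : N ∣ M) (h4M : 4 ∣ M) (hM : p.Coprime M)
    [IsFunctionField1 (ResidueField A) (FibField A N)]
    [IsFunctionField1 (ResidueField A) (FibField A M)]
    (hdesc : Descends hA hd hN S W.apOfModel) (hker : PullbackInjective (p := p) hd) :
    HasCongruentForm W.apOfModel p N S := by
  by_contra hno
  obtain ⟨B, hB, hpeu, hμ, hstab, hC⟩ := hbase
  have : NeZero p := ⟨hp.out.ne_zero⟩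
  have hodd : ¬ 2 ∣ p := fun h =>
    hp2 ((Nat.prime_dvd_prime_iff_eq Nat.prime_two hp.out).mp h).symm
  have hc : (hauptmodul4 p hodd).L ∣ M := h4M
  have hpM : ¬ p ∣ M := hp.out.coprime_iff_not_dvd.mp hM
  have := charP_residue_place p A hA
  have : Infinite (ResidueField A) := IsAlgClosed.instInfinite
  have := isDiscreteValuationRing_inertiaRing hp.out hA
  have : IsAlgClosed (ResidueField (inertiaRing A)) :=
    isAlgClosed_residue_inertiaRing hp.out hA
  -- the auxiliary prime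
  obtain ⟨ℓ, hℓ, hℓS', -, hℓp, -, hℓa⟩ := Ihara.exists_ne_succ W hΔ hp2 hirr
    (hS.union (Set.finite_Iic M)) one_pos
  simp only [Set.mem_union, Set.mem_Iic, not_or, not_le] at hℓS'
  obtain ⟨hℓS, hℓM'⟩ := hℓS'
  have : Fact ℓ.Prime := ⟨hℓ⟩
  have hℓM : ℓ.Coprime (p * M) :=
    Nat.Coprime.mul_right ((Nat.coprime_primes hℓ hp.out).mpr hℓp)
      (hℓ.coprime_iff_not_dvd.mpr fun h => hℓM'.not_ge (Nat.le_of_dvd (NeZero.pos M) h))
  have : NeZero (ℓ * M) := ⟨mul_ne_zero hℓ.ne_zero (NeZero.ne M)⟩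
  have : NeZero (p * (ℓ * M)) := ⟨mul_ne_zero hp.out.ne_zero (NeZero.ne _)⟩
  have : NeZero (ℓ * (p * N)) := ⟨mul_ne_zero hℓ.ne_zero (NeZero.ne _)⟩
  have : NeZero (ℓ * (p * M)) := ⟨mul_ne_zero hℓ.ne_zero (NeZero.ne _)⟩
  -- inertia
  obtain ⟨σ, hσ, hσdet⟩ := exists_inertia_det_ne_one W hΔ hirr hp2 hA
  obtain ⟨z, hz⟩ := HasEnoughRootsOfUnity.exists_primitiveRoot Qb p
  set ζ : B.int := ⟨z, mem_of_pow_eq_one hp.out.ne_zero hz.pow_eq_one, hμ z hz.pow_eq_one⟩
  have hζ : IsPrimitiveRoot (ζ : Qb) p := hz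
  have hR := hauptmodul4_isCuspPoly hodd
  have hH := hauptmodul4_isCoord p hodd
  set D := uChartData hpM _ hc hR (by simp) hA hH
    (etaleAway_uElt hA hpM _ hc hR (by simp) hH) with hD
  have hslope : SlopeRelation B hA hM _ hc hpM hR hB D rfl ζ hζ :=
    levelSetup_slope B hA hM _ hc hpM hR hB D rfl hpeu ζ hζ
  have hroots := twistRoots_of B hA hd hN hM _ hc hpM hR hB D rfl ζ hζ hslope W hMS hno
    (eigenResidual_of_descends hA hd hN hM hdesc hMS hno B.base) hℓM hℓS hσ (hstab σ hσ)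
    (w := (ExtCitation.cycloChar p σ : ZMod p).val) (ZMod.val_lt _).le
    (ExtVanish.apply_rootOfUnity_cycloExp σ hz.pow_eq_one)
  exact false_of_twistRoots' hd W hΔ hirr hp2 hS hgood hMS B.base hC hker hcong hℓM hℓS hℓa hσdet
    hroots

/-- **Mazur's principle.** -/
theorem hasCongruentForm_of_hasBase (hirr : W.ModRepIsIrreducible p) (hp2 : p ≠ 2) {S : Set ℕ}
    (hS : S.Finite) (hgood : ∀ l, l.Prime → l ∉ S → W.IsGoodPrimeFor l) {N : ℕ} [NeZero N]
    (hN : p.Coprime N) (hMS : ∀ q : ℕ, q.Prime → q ∣ p * N → q ∈ S) (h4 : 5 ≤ p ∨ 2 ∣ N)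
    {A : ValuationSubring Qb} (hA : A.LiesOverPrime p) (hbase : HasBase (p := p) W hΔ A)
    (hcong : HasCongruentForm W.apOfModel p (p * N) S) :
    HasCongruentForm W.apOfModel p N S := by
  have : NeZero p := ⟨hp.out.ne_zero⟩
  set M := Nat.lcm 4 N with hMdef
  have : NeZero M := ⟨Nat.lcm_ne_zero four_ne_zero (NeZero.ne N)⟩
  have : NeZero (p * N) := ⟨mul_ne_zero hp.out.ne_zero (NeZero.ne N)⟩
  have : NeZero (p * M) := ⟨mul_ne_zero hp.out.ne_zero (NeZero.ne M)⟩
  have hd : N ∣ M := Nat.dvd_lcm_right 4 N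
  have hM : p.Coprime M := hp.out.coprime_iff_not_dvd.mpr fun h => by
    rcases (hp.out.dvd_mul).mp (h.trans (Nat.lcm_dvd_mul 4 N)) with h' | h'
    · exact hp2 ((Nat.prime_dvd_prime_iff_eq hp.out Nat.prime_two).mp
        (hp.out.dvd_of_dvd_pow (show p ∣ 2 ^ 2 from h')))
    · exact hp.out.coprime_iff_not_dvd.mp hN h'
  have := charP_residue_place p A hA
  have := isFunctionField1_fib p A hA hM
  have := isFunctionField1_fib p A hA hN
  obtain ⟨k, hk, hpk⟩ := exists_dedekindPsi_lcm_four hp.out hp2 (NeZero.ne N) h4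
  have hψ : 0 < dedekindPsi N := dedekindPsi_pos (NeZero.ne N)
  have hdeg : ¬ p ∣ finrankAlong Qb (AtP.upLevel (p := p) hd Qb) := by
    rwa [Nat.eq_of_mul_eq_mul_left hψ
      ((dedekindPsi_mul_finrankAlong_upLevel hN hM hd).trans (hk.trans (mul_comm _ _)))]
  have hdeg' : ¬ p ∣ finrankAlong (ResidueField A) (fibBase A hd) := by
    rwa [Nat.eq_of_mul_eq_mul_left hψ
      ((dedekindPsi_mul_finrankAlong_fibBase hA hd hN hM).trans (hk.trans (mul_comm _ _)))]
  exact hasCongruentForm_of_descends W hΔ hirr hp2 hS hgood hN hMS hA hbase hcong hd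
    (Nat.dvd_lcm_left 4 N) hM (descends_of_not_dvd hA hd hN hdeg' S W.apOfModel)
    (pullbackInjective_of_not_dvd hd hdeg)

end FermatAgent.MazurPrinciple

end
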