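import Fermat.Agent.BadRed.Semistable.Reduce
import Fermat.Agent.BadRed.Semistable.Inject

/-!
# Reduction of sections vanishing on a divisor away from the nodes

For an effective divisor `Z` reducing to smooth points, the sections of `n D` vanishing on `Z`
reduce onto the glued sections vanishing on the reduction of `Z`.
-/

set_option autoImplicit false
set_option linter.unusedSectionVars false

noncomputable section

open AlgebraicCurve WithZero

namespace FermatAgent.MazurPrinciple

open FermatAgent.Curve FermatAgent.Curve.RR BadRed.Semistable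

variable {K : Type*} [Field K] [IsAlgClosed K] {A : ValuationSubring K} {k : Type*}
    [Field k] [IsAlgClosed k] {π : A →+* k} {F F₁ F₂ : Type*} [Field F] [Field F₁] [Field F₂]
    [Algebra K F] [Algebra k F₁] [Algebra k F₂] [IsFunctionField1 K F] [IsFunctionField1 k F₁]
    [IsFunctionField1 k F₂] [RRSetting K F] [RRSetting k F₁] [RRSetting k F₂] [Infinite k]
variable (d : NodalDatum A π F F₁ F₂)

/-- Glued sections vanishing on the reduction of `Z`. -/
def condSub (n : ℕ) (Z : Divisor K F) : Submodule k (F₁ × F₂) :=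
  d.C.glue n ⊓ (riemannRochSpace (n • d.C.D₁ - d.C.part₁ (d.redDiv Z))).prod
    (riemannRochSpace (n • d.C.D₂ - d.C.part₂ (d.redDiv Z)))

theorem mem_condSub {n : ℕ} {Z : Divisor K F} {p : F₁ × F₂} :
    p ∈ condSub d n Z ↔ p ∈ d.C.glue n ∧
      p.1 ∈ riemannRochSpace (n • d.C.D₁ - d.C.part₁ (d.redDiv Z)) ∧
      p.2 ∈ riemannRochSpace (n • d.C.D₂ - d.C.part₂ (d.redDiv Z)) := by
  simp [condSub, Submodule.mem_prod]

theorem redDiv_nsmul_D {n : ℕ} (hn : d.n₀ ≤ n) :
    d.redDiv (n • d.D) = d.C.secDiv n 1 := by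
  have h1 : (1 : F) ∈ d.int := one_mem _
  have hD : (0 : Divisor K F) ≤ n • d.D := nsmul_nonneg (poleDiv_nonneg _) n
  have hr : d.red ⟨1, h1⟩ = 1 := map_one d.red
  have := d.mapDomain_secDivF hn h1 (one_mem_rrSpace hD) (by rw [hr]; simp) (by rw [hr]; simp)
  rw [hr] at this
  rw [d.redDiv_apply, ← this]
  congr 1
  simp only [NodalDatum.secDivF]
  ext P
  simp

/-- Sections vanishing on `Z` reduce to sections vanishing on its reduction. -/
theorem redImage_sub_le {n : ℕ} (hn : d.N₀ ≤ n) {Z : Divisor K F} (hZ : 0 ≤ Z)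
    (hgood : d.IsGood Z) : d.redImage (d.sub n Z) ≤ condSub d n Z := by
  classical
  have hn0 : d.n₀ ≤ n := by unfold NodalDatum.N₀ at hn; omega
  rintro _ ⟨f, hf, hfV, rfl⟩
  have hg : d.red ⟨f, hf⟩ ∈ d.C.glue n := d.red_mem_glue hn0 hf (d.sub_le hZ hfV)
  rw [mem_condSub]
  refine ⟨hg, ?_, ?_⟩
  all_goals intro Q
  · set p := d.red ⟨f, hf⟩
    by_cases h1 : p.1 = 0
    · rw [h1, map_zero]; exact zero_le
    by_cases hQ : ∃ i, d.C.x i = Q
    · obtain ⟨i, rfl⟩ := hQ
      have hx := hg.1 (d.C.x i)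
      rwa [Finsupp.sub_apply, Glued.part₁_apply, Glued.toPt₁_x, hgood.redDiv_node, sub_zero]
    push Not at hQ
    have hf0 : f ≠ 0 := d.ne_zero_of_red_fst hf h1
    have hle := d.mapDomain_le_left hf h1 Q hQ
    have hnn : (0 : d.C.Pt →₀ ℤ) ≤ d.redDiv (divisorOf f + n • d.D - Z) := by
      refine d.redDiv_nonneg (Finsupp.le_def.mpr fun P => ?_)
      have := neg_le_ord_of_le_exp hf0 (hfV P)
      simp only [Finsupp.coe_zero, Pi.zero_apply, Finsupp.sub_apply, Finsupp.add_apply,
        divisorOf_apply] at this ⊢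
      omega
    have h2 := Finsupp.le_def.mp hnn (.left Q hQ)
    rw [map_sub, map_add, redDiv_nsmul_D d hn0, Finsupp.sub_apply, Finsupp.add_apply,
      d.redDiv_apply (divisorOf f), Glued.secDiv_left] at h2
    refine adicValuation_le_exp_of_ord ?_
    rw [Finsupp.sub_apply, Glued.part₁_apply, d.C.toPt₁_of_ne Q hQ]
    simp at h2 ⊢
    linarith
  · set p := d.red ⟨f, hf⟩
    by_cases h1 : p.2 = 0
    · rw [h1, map_zero]; exact zero_le
    by_cases hQ : ∃ i, d.C.y i = Q
    · obtain ⟨i, rfl⟩ := hQ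
      have hx := hg.2.1 (d.C.y i)
      rwa [Finsupp.sub_apply, Glued.part₂_apply, Glued.toPt₂_y, hgood.redDiv_node, sub_zero]
    push Not at hQ
    have hf0 : f ≠ 0 := d.ne_zero_of_red_snd hf h1
    have hle := d.mapDomain_le_right hf h1 Q hQ
    have hnn : (0 : d.C.Pt →₀ ℤ) ≤ d.redDiv (divisorOf f + n • d.D - Z) := by
      refine d.redDiv_nonneg (Finsupp.le_def.mpr fun P => ?_)
      have := neg_le_ord_of_le_exp hf0 (hfV P)
      simp only [Finsupp.coe_zero, Pi.zero_apply, Finsupp.sub_apply, Finsupp.add_apply,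
        divisorOf_apply] at this ⊢
      omega
    have h2 := Finsupp.le_def.mp hnn (.right Q hQ)
    rw [map_sub, map_add, redDiv_nsmul_D d hn0, Finsupp.sub_apply, Finsupp.add_apply,
      d.redDiv_apply (divisorOf f), Glued.secDiv_right] at h2
    refine adicValuation_le_exp_of_ord ?_
    rw [Finsupp.sub_apply, Glued.part₂_apply, d.C.toPt₂_of_ne Q hQ]
    simp at h2 ⊢
    linarith

theorem degree_part_add {E : d.C.Pt →₀ ℤ} (h : ∀ i, E (.node i) = 0) :
    Divisor.degree (d.C.part₁ E) + Divisor.degree (d.C.part₂ E) = E.sum fun _ m => m := by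
  classical
  induction E using Finsupp.induction with
  | zero => simp
  | single_add ω m E hω _ ih =>
    have hω' : ∀ i, ω ≠ .node i := fun i e => by
      have := h i
      subst e
      rw [Finsupp.add_apply, Finsupp.single_eq_same, Finsupp.notMem_support_iff.mp hω] at this
      simp_all
    have hE : ∀ i, E (.node i) = 0 := fun i => by
      have := h i
      rwa [Finsupp.add_apply, Finsupp.single_eq_of_ne (fun e => hω' i e.symm), zero_add] at this
    rw [map_add, map_add, map_add, map_add, Finsupp.sum_add_index' (fun _ => rfl) (fun _ _ _ => rfl),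
      Finsupp.sum_single_index rfl, ← ih hE]
    have key : Divisor.degree (d.C.part₁ (Finsupp.single ω m)) +
        Divisor.degree (d.C.part₂ (Finsupp.single ω m)) = m := by
      match ω, hω' with
      | .node i, h' => exact absurd rfl (h' i)
      | .left Q hQ, _ =>
        have e1 : d.C.part₁ (Finsupp.single (.left Q hQ) m) = Finsupp.single Q m := by
          ext a
          rw [Glued.part₁_apply, Finsupp.single_apply, Finsupp.single_apply]
          by_cases ha : Q = a
          · subst ha; rw [d.C.toPt₁_of_ne Q hQ, if_pos rfl, if_pos rfl]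
          · rw [if_neg ha, if_neg (fun e => ha ((d.C.toPt₁_eq_left_iff hQ).mp e.symm).symm)]
        have e2 : d.C.part₂ (Finsupp.single (.left Q hQ) m) = 0 := by
          ext a
          rw [Glued.part₂_apply, Finsupp.single_apply, if_neg fun e => d.C.toPt₂_ne_left a Q hQ e.symm]
          rfl
        rw [e1, e2, map_zero, add_zero, Divisor.degree_single, Curve.deg_eq_one]; simp
      | .right Q hQ, _ =>
        have e1 : d.C.part₁ (Finsupp.single (.right Q hQ) m) = 0 := by
          ext a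
          rw [Glued.part₁_apply, Finsupp.single_apply, if_neg fun e => d.C.toPt₁_ne_right a Q hQ e.symm]
          rfl
        have e2 : d.C.part₂ (Finsupp.single (.right Q hQ) m) = Finsupp.single Q m := by
          ext a
          rw [Glued.part₂_apply, Finsupp.single_apply, Finsupp.single_apply]
          by_cases ha : Q = a
          · subst ha; rw [d.C.toPt₂_of_ne Q hQ, if_pos rfl, if_pos rfl]
          · rw [if_neg ha, if_neg (fun e => ha ((d.C.toPt₂_eq_right_iff hQ).mp e.symm).symm)]
        rw [e1, e2, map_zero, zero_add, Divisor.degree_single, Curve.deg_eq_one]; simp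
    linarith

/-- Sections vanishing on `Z` reduce onto the glued sections vanishing on its reduction. -/
theorem redImage_sub_eq {Z : Divisor K F} (hZ : 0 ≤ Z) (hgood : d.IsGood Z) {n : ℕ}
    (hn : d.N₀ + (Divisor.degree Z).toNat ≤ n) : d.redImage (d.sub n Z) = condSub d n Z := by
  classical
  have hn' : d.N₀ ≤ n := le_trans (Nat.le_add_right _ _) hn
  have : Module.Finite k (condSub d n Z) := Submodule.finiteDimensional_inf_left _ _
  refine Submodule.eq_of_le_of_finrank_le (redImage_sub_le d hn' hZ hgood) ?_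
  set E := d.redDiv Z with hE
  set Z₁ := d.C.part₁ E
  set Z₂ := d.C.part₂ E
  have hEn : ∀ i, E (.node i) = 0 := fun i => hgood.redDiv_node d i
  have hEnn : (0 : d.C.Pt →₀ ℤ) ≤ E := d.redDiv_nonneg hZ
  have hZ₁ : (0 : Divisor k F₁) ≤ Z₁ := Finsupp.le_def.mpr fun Q => Finsupp.le_def.mp hEnn _
  have hZ₂ : (0 : Divisor k F₂) ≤ Z₂ := Finsupp.le_def.mpr fun Q => Finsupp.le_def.mp hEnn _
  have hsum : Divisor.degree Z₁ + Divisor.degree Z₂ = Divisor.degree Z := by
    rw [degree_part_add d hEn, hE, d.redDiv_apply,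
      Finsupp.sum_mapDomain_index (fun _ => rfl) (fun _ _ _ => rfl), degree_eq_sum]
  have hz1 := degree_nonneg_of_nonneg hZ₁
  have hz2 := degree_nonneg_of_nonneg hZ₂
  set L₁ := riemannRochSpace (n • d.C.D₁ - Z₁)
  set L₂ := riemannRochSpace (n • d.C.D₂ - Z₂)
  have hL₁ : ∀ (g : L₁) (i : d.C.ι), (d.C.x i).adicValuation (g : F₁) ≤ 1 := fun g i =>
    d.C.le_one_x (rrSpace_mono (sub_le_self _ hZ₁) g.2) i
  have hL₂ : ∀ (g : L₂) (i : d.C.ι), (d.C.y i).adicValuation (g : F₂) ≤ 1 := fun g i =>
    d.C.le_one_y (rrSpace_mono (sub_le_self _ hZ₂) g.2) i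
  let φ : (L₁ × L₂) →ₗ[k] (d.C.ι → k) :=
    { toFun := fun p i => valueAt (d.C.x i) (p.1 : F₁) - valueAt (d.C.y i) (p.2 : F₂)
      map_add' := fun p q => funext fun i => by
        simp only [Prod.fst_add, Prod.snd_add, Submodule.coe_add, Pi.add_apply]
        rw [valueAt_add _ (mem_of_le_one (hL₁ p.1 i)) (mem_of_le_one (hL₁ q.1 i)),
          valueAt_add _ (mem_of_le_one (hL₂ p.2 i)) (mem_of_le_one (hL₂ q.2 i))]
        ring
      map_smul' := fun c p => funext fun i => by
        simp only [Prod.smul_fst, Prod.smul_snd, Submodule.coe_smul, Pi.smul_apply, smul_eq_mul,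
          RingHom.id_apply]
        rw [valueAt_smul (hL₁ p.1 i), valueAt_smul (hL₂ p.2 i)]
        ring }
  have hker : Module.finrank k (LinearMap.ker φ) = Module.finrank k (condSub d n Z) :=
    LinearEquiv.finrank_eq
      { toFun := fun p => ⟨((p.1.1 : F₁), (p.1.2 : F₂)), (mem_condSub d).mpr
          ⟨⟨rrSpace_mono (sub_le_self _ hZ₁) p.1.1.2, rrSpace_mono (sub_le_self _ hZ₂) p.1.2.2,
            fun i => sub_eq_zero.mp (congrFun (LinearMap.mem_ker.mp p.2) i)⟩, p.1.1.2, p.1.2.2⟩⟩
        map_add' := fun _ _ => rfl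
        map_smul' := fun _ _ => rfl
        invFun := fun p => ⟨(⟨p.1.1, ((mem_condSub d).mp p.2).2.1⟩,
          ⟨p.1.2, ((mem_condSub d).mp p.2).2.2⟩), funext fun i =>
          sub_eq_zero.mpr (((mem_condSub d).mp p.2).1.2.2 i)⟩
        left_inv := fun _ => rfl
        right_inv := fun _ => rfl }
  have hdeg₁ : (n : ℤ) ≤ n * Divisor.degree d.C.D₁ :=
    le_mul_of_one_le_right (Int.natCast_nonneg n) (degree_poleDiv_pos (K := k) d.C.transcendental₁)
  have hdeg₂ : (n : ℤ) ≤ n * Divisor.degree d.C.D₂ :=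
    le_mul_of_one_le_right (Int.natCast_nonneg n) (degree_poleDiv_pos (K := k) d.C.transcendental₂)
  have hbd : (d.N₀ : ℤ) + Divisor.degree Z ≤ n := by
    have := degree_nonneg_of_nonneg hZ
    omega
  have hN₀ : 2 * genusFF k F₁ + 2 * genusFF k F₂ + Fintype.card d.C.ι + 1 ≤ d.N₀ := by
    unfold NodalDatum.N₀ Glued.bound
    show _ ≤ d.n₀ + (2 * genusFF k F₁ + 2 * genusFF k F₂ + Fintype.card d.C.ι + 1) + _ + 1
    omega
  have hsurj : Function.Surjective φ := by
    intro c
    let E₁ : Divisor k F₁ := ∑ i, Finsupp.single (d.C.x i) (1 : ℤ)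
    have hE₁ : 0 ≤ E₁ := Finset.sum_nonneg fun i _ => by simp
    have hdE : Divisor.degree E₁ = (Fintype.card d.C.ι : ℤ) := by simp [E₁, deg_eq_one]
    have hd : 2 * (genusFF k F₁ : ℤ) - 1 ≤ Divisor.degree (n • d.C.D₁ - Z₁ - E₁) := by
      rw [map_sub, map_sub, hdE, map_nsmul, nsmul_eq_mul]
      omega
    let T : Place k F₁ → F₁ := fun v =>
      if h : ∃ i, d.C.x i = v then algebraMap k F₁ (c h.choose) else 0
    obtain ⟨g, hg, hgv⟩ := exists_interpolate hE₁ hd (Finset.univ.image d.C.x) T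
    refine ⟨(⟨g, hg⟩, 0), funext fun i => ?_⟩
    have hT : T (d.C.x i) = algebraMap k F₁ (c i) := by
      have h : ∃ j, d.C.x j = d.C.x i := ⟨i, rfl⟩
      simp only [T, dif_pos h]
      rw [d.C.x_injective h.choose_spec]
    have hTle : (d.C.x i).adicValuation (T (d.C.x i)) ≤ 1 := by
      rw [hT]; exact (d.C.x i).adicValuation_algebraMap_le_one _
    have hx0 : (n • d.C.D₁ - Z₁) (d.C.x i) = 0 := by
      rw [Finsupp.sub_apply, Glued.part₁_apply, Glued.toPt₁_x, hEn, sub_zero]
      simp
    have h1 := hgv (d.C.x i) (Finset.mem_image_of_mem _ (Finset.mem_univ i))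
      (by rw [hx0]; simpa using hTle)
    have hEi : E₁ (d.C.x i) = 1 := by
      simp [E₁, Finsupp.finsetSum_apply, Finsupp.single_apply, d.C.x_injective.eq_iff]
    have h2 : (d.C.x i).adicValuation (g - T (d.C.x i)) < 1 :=
      lt_one_of_le_exp_neg (by rw [hx0, hEi]; norm_num) h1
    show valueAt (d.C.x i) g - valueAt (d.C.y i) ((0 : L₂) : F₂) = c i
    rw [valueAt_eq_of_sub_lt_one hTle h2, hT, valueAt_algebraMap, Submodule.coe_zero,
      show (0 : F₂) = algebraMap k F₂ 0 by simp, valueAt_algebraMap, sub_zero]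
  have hrk := LinearMap.finrank_range_add_finrank_ker φ
  rw [LinearMap.range_eq_top.mpr hsurj, finrank_top, Module.finrank_pi, hker,
    Module.finrank_prod] at hrk
  have hb1 : 2 * (genusFF k F₁ : ℤ) - 1 ≤ Divisor.degree (n • d.C.D₁ - Z₁) := by
    rw [map_sub, map_nsmul, nsmul_eq_mul]; omega
  have hb2 : 2 * (genusFF k F₂ : ℤ) - 1 ≤ Divisor.degree (n • d.C.D₂ - Z₂) := by
    rw [map_sub, map_nsmul, nsmul_eq_mul]; omega
  have e1 := finrank_rrSpace_of_degree_ge hb1
  have e2 := finrank_rrSpace_of_degree_ge hb2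
  rw [map_sub, map_nsmul, nsmul_eq_mul] at e1 e2
  have h4 := d.finrank_sub hZ hn
  have h5 := d.C.finrank_glue (n := n) (by unfold NodalDatum.N₀ at hn'; omega)
  change Fintype.card d.C.ι + Module.finrank k (condSub d n Z) =
    Module.finrank k L₁ + Module.finrank k L₂ at hrk
  simp only [L₁, L₂] at hrk
  rw [mul_add] at h5
  omega

end FermatAgent.MazurPrinciple
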