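import Fermat.Agent.MazurPrinciple.Approx
import Fermat.Agent.BadRed.Semistable.Datum

/-!
# Roots by lifting through the glued curve

For a nodal datum and a subspace `V ≤ L(n D)`: if on each component approximate roots of `t` are
given to every precision, and the leading discrepancy between an approximate root and an element
of `V` always lies in the reduction of `V`, then `t` has a root in `V`.
-/

set_option autoImplicit false
set_option linter.unusedSectionVars false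

noncomputable section

open AlgebraicCurve

namespace FermatAgent.MazurPrinciple

open FermatAgent.Curve FermatAgent.Curve.RR BadRed.Semistable

variable {K : Type*} [Field K] [IsAlgClosed K] {A : ValuationSubring K} {k : Type*}
    [Field k] [IsAlgClosed k] {π : A →+* k} {F F₁ F₂ : Type*} [Field F] [Field F₁] [Field F₂]
    [Algebra K F] [Algebra k F₁] [Algebra k F₂] [IsFunctionField1 K F] [IsFunctionField1 k F₁]
    [IsFunctionField1 k F₂] [RRSetting K F] [RRSetting k F₁] [RRSetting k F₂]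

/-- Rational elements: stable under `ϖ` and division by `ϖ`, with lifts of reduced sections. -/
structure RationalStructure (d : NodalDatum A π F F₁ F₂) (ϖ : A) (V : Submodule K F) where
  carrier : AddSubgroup F
  smul_mem : ∀ x ∈ carrier, (ϖ : K) • x ∈ carrier
  div₁ : ∀ x ∈ carrier, ∀ h : x ∈ d.g₁.integers, d.g₁.red ⟨x, h⟩ = 0 →
    ∃ y ∈ carrier, y ∈ d.g₁.integers ∧ x = (ϖ : K) • y
  div₂ : ∀ x ∈ carrier, ∀ h : x ∈ d.g₂.integers, d.g₂.red ⟨x, h⟩ = 0 →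
    ∃ y ∈ carrier, y ∈ d.g₂.integers ∧ x = (ϖ : K) • y
  lift : ∀ p ∈ d.redImage V, ∃ (f : F) (h : f ∈ d.int), f ∈ carrier ∧
    f ∈ V ∧ d.red ⟨f, h⟩ = p

theorem RationalStructure.pow_smul_mem {d : NodalDatum A π F F₁ F₂} {ϖ : A} {V : Submodule K F}
    (S : RationalStructure d ϖ V) {x : F} (hx : x ∈ S.carrier) (j : ℕ) :
    (ϖ : K) ^ j • x ∈ S.carrier := by
  induction j with
  | zero => simpa using hx
  | succ j ih => rw [pow_succ', mul_smul]; exact S.smul_mem _ ih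

theorem exists_root_of_lifting (d : NodalDatum A π F F₁ F₂) {n : ℕ} (hn : d.N₀ ≤ n) (e : ℕ)
    (he : 1 ≤ e) {t : F} (ht : t ∈ riemannRochSpace ((e * n) • d.D)) {ϖ : A} (hϖ0 : (ϖ : K) ≠ 0)
    (hc : ∀ δ : K, δ ≠ 0 → ∃ R : ℕ, δ / (ϖ : K) ^ R ∉ A)
    {V : Submodule K F} (hVle : V ≤ riemannRochSpace (n • d.D))
    (S : RationalStructure d ϖ V)
    {ι : Type*} (i₀ : ι)
    (happ : ∀ R : ℕ, ∃ T₁ T₂ : ι → F,
      (∀ l, T₁ l ∈ d.g₁.integers ∧ T₂ l ∈ d.g₂.integers ∧ T₁ l ∈ S.carrier ∧ T₂ l ∈ S.carrier) ∧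
      (∃ w ∈ d.g₁.integers, T₁ i₀ ^ e - t = (ϖ : K) ^ R • w) ∧
      (∃ w ∈ d.g₂.integers, T₂ i₀ ^ e - t = (ϖ : K) ^ R • w) ∧
      ∀ j < R, ∀ Φ : ι → F, (∀ l, Φ l ∈ S.carrier ∧ Φ l ∈ d.int ∧ Φ l ∈ V) →
        ∀ (z₁ z₂ : ι → F) (h₁ : ∀ l, z₁ l ∈ d.g₁.integers) (h₂ : ∀ l, z₂ l ∈ d.g₂.integers),
          (∀ l, z₁ l ∈ S.carrier ∧ z₂ l ∈ S.carrier ∧ T₁ l - Φ l = (ϖ : K) ^ j • z₁ l ∧
            T₂ l - Φ l = (ϖ : K) ^ j • z₂ l) →
            ∀ l, (d.g₁.red ⟨z₁ l, h₁ l⟩, d.g₂.red ⟨z₂ l, h₂ l⟩) ∈ d.redImage V) :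
    ∃ Φ ∈ V, Φ ^ e = t := by
  classical
  have hn' : d.N₀ ≤ e * n := hn.trans (Nat.le_mul_of_pos_left n he)
  set U := riemannRochSpace ((e * n) • d.D) with hU
  have : Module.Finite K V := d.finite_of_le hVle
  have : Module.Finite K U := d.finite_of_le (le_refl U)
  obtain ⟨b, hb, hbV, hbli, hbK⟩ := d.exists_basis_of_le hn V hVle
  obtain ⟨B, hB, hBU, hBli, hBK⟩ := d.exists_basis_of_le hn' U le_rfl
  have hspanV : Submodule.span K (Set.range b) = V :=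
    Submodule.eq_of_le_of_finrank_le (Submodule.span_le.mpr (by rintro _ ⟨i, rfl⟩; exact hbV i))
      (by rw [finrank_span_eq_card hbK, Fintype.card_fin])
  have hspanU : Submodule.span K (Set.range B) = U :=
    Submodule.eq_of_le_of_finrank_le (Submodule.span_le.mpr (by rintro _ ⟨i, rfl⟩; exact hBU i))
      (by rw [finrank_span_eq_card hBK, Fintype.card_fin])
  have hpow : ∀ x ∈ V, ∀ a : ℕ, x ^ a ∈ riemannRochSpace ((a * n) • d.D) := by
    intro x hx a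
    induction a with
    | zero => simpa using one_mem_rrSpace (le_refl (0 : Divisor K F))
    | succ a ih => rw [pow_succ, Nat.succ_mul, add_smul]; exact mul_mem_rrSpace ih (hVle hx)
  obtain ⟨z, hz⟩ := exists_pow_eq_of_approx A b B hBK e t (fun z => by
    rw [hspanU]
    exact sub_mem (hpow _ (sum_mem fun i _ => Submodule.smul_mem _ _ (hbV i)) e) ht)
    (fun R => (ϖ : K) ^ R) hc fun R => by
      obtain ⟨T₁s, T₂s, hT, ⟨w₁, hw₁, e₁⟩, ⟨w₂, hw₂, e₂⟩, horacle⟩ := happ R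
      have key : ∀ j ≤ R, ∀ l, ∃ Φ : F, Φ ∈ S.carrier ∧ Φ ∈ d.int ∧ Φ ∈ V ∧
          (∃ z ∈ d.g₁.integers, z ∈ S.carrier ∧ T₁s l - Φ = (ϖ : K) ^ j • z) ∧
          (∃ z ∈ d.g₂.integers, z ∈ S.carrier ∧ T₂s l - Φ = (ϖ : K) ^ j • z) := by
        intro j hj
        induction j with
        | zero =>
          exact fun l => ⟨0, zero_mem _, zero_mem _, zero_mem _,
            ⟨T₁s l, (hT l).1, (hT l).2.2.1, by simp⟩, ⟨T₂s l, (hT l).2.1, (hT l).2.2.2, by simp⟩⟩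
        | succ j ih =>
          choose Φ hΦS hΦi hΦV z₁ z₂ using ih (by omega)
          choose z₁ hz₁ hz₁S f₁ using z₁
          choose z₂ hz₂ hz₂S f₂ using z₂
          intro l
          have hg := horacle j (by omega) Φ (fun l => ⟨hΦS l, hΦi l, hΦV l⟩) z₁ z₂ hz₁ hz₂
            (fun l => ⟨hz₁S l, hz₂S l, f₁ l, f₂ l⟩) l
          obtain ⟨w, hwi, hwS, hwV, hwr⟩ := S.lift _ hg
          rw [d.red_mk hwi] at hwr
          have r₁ : d.g₁.red ⟨z₁ l - w, sub_mem (hz₁ l) hwi.1⟩ = 0 := by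
            rw [show (⟨z₁ l - w, sub_mem (hz₁ l) hwi.1⟩ : d.g₁.integers) =
              ⟨z₁ l, hz₁ l⟩ - ⟨w, hwi.1⟩ from rfl, map_sub,
              show d.g₁.red ⟨w, hwi.1⟩ = _ from congrArg Prod.fst hwr, sub_self]
          have r₂ : d.g₂.red ⟨z₂ l - w, sub_mem (hz₂ l) hwi.2⟩ = 0 := by
            rw [show (⟨z₂ l - w, sub_mem (hz₂ l) hwi.2⟩ : d.g₂.integers) =
              ⟨z₂ l, hz₂ l⟩ - ⟨w, hwi.2⟩ from rfl, map_sub,
              show d.g₂.red ⟨w, hwi.2⟩ = _ from congrArg Prod.snd hwr, sub_self]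
          obtain ⟨y₁, hy₁S, hy₁, g₁'⟩ := S.div₁ _ (sub_mem (hz₁S l) hwS) _ r₁
          obtain ⟨y₂, hy₂S, hy₂, g₂'⟩ := S.div₂ _ (sub_mem (hz₂S l) hwS) _ r₂
          refine ⟨Φ l + (ϖ : K) ^ j • w, add_mem (hΦS l) (S.pow_smul_mem hwS j),
            add_mem (hΦi l) (d.smul_mem (pow_mem ϖ.2 j) hwi),
            add_mem (hΦV l) (Submodule.smul_mem _ _ hwV),
            ⟨y₁, hy₁, hy₁S, ?_⟩, ⟨y₂, hy₂, hy₂S, ?_⟩⟩
          · rw [sub_add_eq_sub_sub, f₁ l, ← smul_sub, g₁', smul_smul, ← pow_succ]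
          · rw [sub_add_eq_sub_sub, f₂ l, ← smul_sub, g₂', smul_smul, ← pow_succ]
      obtain ⟨Φ, -, hΦi, hΦV, ⟨z₁, hz₁, -, f₁⟩, ⟨z₂, hz₂, -, f₂⟩⟩ := key R le_rfl i₀
      obtain ⟨hT₁, hT₂, -, -⟩ := hT i₀
      set T₁ := T₁s i₀
      set T₂ := T₂s i₀
      have hgeom : ∀ (g : Subring F) (T z w : F), Φ ∈ g → T ∈ g → z ∈ g → w ∈ g →
          T - Φ = (ϖ : K) ^ R • z → T ^ e - t = (ϖ : K) ^ R • w →
          ∃ u ∈ g, Φ ^ e - t = (ϖ : K) ^ R • u := by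
        intro g T z w hΦ hT hz hw f e'
        refine ⟨w - z * ∑ i ∈ Finset.range e, T ^ i * Φ ^ (e - 1 - i),
          sub_mem hw (mul_mem hz (sum_mem fun i _ =>
            mul_mem (pow_mem hT _) (pow_mem hΦ _))), ?_⟩
        rw [smul_sub, ← smul_mul_assoc, ← f, ← e']
        linear_combination geom_sum₂_mul T Φ e
      obtain ⟨u₁, hu₁, q₁⟩ := hgeom d.g₁.integers T₁ z₁ w₁ hΦi.1 hT₁ hz₁ hw₁ f₁ e₁
      obtain ⟨u₂, hu₂, q₂⟩ := hgeom d.g₂.integers T₂ z₂ w₂ hΦi.2 hT₂ hz₂ hw₂ f₂ e₂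
      have hϖR : (ϖ : K) ^ R ≠ 0 := pow_ne_zero _ hϖ0
      have hu : u₁ = u₂ := smul_right_injective F hϖR (q₁.symm.trans q₂)
      obtain ⟨c, hc'⟩ := (Submodule.mem_span_range_iff_exists_fun K).mp (hspanV.symm ▸ hΦV)
      have hcA := d.coeff_mem b hb hbli c (hc'.symm ▸ hΦi)
      have huU : u₁ ∈ U := by
        have : u₁ = ((ϖ : K) ^ R)⁻¹ • (Φ ^ e - t) := by rw [q₁, smul_smul, inv_mul_cancel₀ hϖR,
          one_smul]
        rw [this]
        exact Submodule.smul_mem _ _ (sub_mem (hpow _ hΦV e) ht)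
      obtain ⟨w, hw'⟩ := (Submodule.mem_span_range_iff_exists_fun K).mp (hspanU.symm ▸ huU)
      have hwA := d.coeff_mem B hB hBli w (hw'.symm ▸ (⟨hu₁, hu.symm ▸ hu₂⟩ : u₁ ∈ d.int))
      exact ⟨c, hcA, w, hwA, by rw [hc', hw', q₁]⟩
  exact ⟨_, sum_mem fun i _ => Submodule.smul_mem _ _ (hbV i), hz⟩

end FermatAgent.MazurPrinciple
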