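import Fermat.Agent.MazurPrinciple.LaurentRoots
import Fermat.Agent.BadRed.Semistable.Datum
import Mathlib.RingTheory.Localization.FractionRing

/-!
# Nodes of a nodal datum seen through the annulus ring

`NodeEmb d E i ϖA ϖ`: the rational functions `E` embed in the fractions of the annulus ring at the
node `i`, compatibly with the expansions at the two branches. Functions with approximate roots on
both components have an approximate root in the annulus ring, and this forces the leading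
discrepancies of approximations to glue.
-/

set_option autoImplicit false
set_option linter.style.haveILetI false
set_option linter.unusedSectionVars false

noncomputable section

open AlgebraicCurve ModularCurve

namespace FermatAgent.MazurPrinciple

/-- A series over `W / ϖ ^ R` with nonzero reduction is a unit. -/
theorem isUnit_of_levelMap_ne_zero {W : Type*} [CommRing W] [IsDomain W]
    [IsDiscreteValuationRing W] {ϖ : W} (hϖ : Irreducible ϖ) {R : ℕ} (hR : 1 ≤ R)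
    {z : LaurentSeries (modPow ϖ R)} (hz : levelMap ϖ hR z ≠ 0) : IsUnit z := by
  classical
  haveI hmax : (Ideal.span {ϖ ^ 1} : Ideal W).IsMaximal := by
    rw [pow_one, ← hϖ.maximalIdeal_eq]
    exact IsLocalRing.maximalIdeal.isMaximal W
  letI : Field (modPow ϖ 1) := Ideal.Quotient.field _
  obtain ⟨w, hw⟩ := isUnit_iff_exists_inv.mp (isUnit_iff_ne_zero.mpr hz)
  have hsurj : Function.Surjective (modPowFactor ϖ hR) := Ideal.Quotient.factor_surjective _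
  let c : ℤ → modPow ϖ R := fun n => if w.coeff n = 0 then 0 else (hsurj (w.coeff n)).choose
  have hc : ∀ n, modPowFactor ϖ hR (c n) = w.coeff n := fun n => by
    simp only [c]
    split_ifs with h
    · rw [h, map_zero]
    · exact (hsurj (w.coeff n)).choose_spec
  let w' : LaurentSeries (modPow ϖ R) := HahnSeries.ofSuppBddBelow c ⟨w.order, fun n hn =>
    le_of_not_gt fun hlt => hn (by
      simp [c, HahnSeries.coeff_eq_zero_of_lt_order hlt])⟩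
  have hw' : levelMap ϖ hR w' = w := HahnSeries.ext (funext fun n => hc n)
  refine isUnit_of_mul_isUnit_left (y := w') ?_
  letI := Ann.isLocalRing_modPow ϖ hϖ (show R ≠ 0 by omega)
  obtain ⟨N, hN⟩ := Ann.isNilpotent_maximalIdeal_modPow ϖ hϖ (show R ≠ 0 by omega)
  have hmem : z * w' - 1 ∈ coeffIdeal (IsLocalRing.maximalIdeal (modPow ϖ R)) := by
    rw [mem_coeffIdeal]
    intro n
    by_contra hu
    have h1 : modPowFactor ϖ hR ((z * w' - 1).coeff n) = 0 := by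
      rw [← coeffMap_coeff]
      show (levelMap ϖ hR (z * w' - 1)).coeff n = 0
      rw [map_sub, map_mul, hw', hw, map_one, sub_self, HahnSeries.coeff_zero]
    rw [IsLocalRing.mem_maximalIdeal, mem_nonunits_iff, not_not] at hu
    exact (hu.map (modPowFactor ϖ hR)).ne_zero h1
  have hnil : IsNilpotent (z * w' - 1) := by
    refine ⟨N + 1, ?_⟩
    have key : ∀ m, 1 ≤ m → (z * w' - 1) ^ m ∈
        coeffIdeal (IsLocalRing.maximalIdeal (modPow ϖ R) ^ m) := by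
      intro m hm
      induction m, hm using Nat.le_induction with
      | base => simpa using hmem
      | succ m _ ih => rw [pow_succ, pow_succ]; exact mul_mem_coeffIdeal ih hmem
    have h := mem_coeffIdeal.mp (key (N + 1) (by omega))
    refine HahnSeries.ext (funext fun i => ?_)
    have := h i
    rw [pow_succ _ N, hN, Ideal.zero_eq_bot, Ideal.bot_mul, Ideal.mem_bot] at this
    rw [pow_succ] at this ⊢
    simpa using this
  simpa using hnil.isUnit_one_add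

open FermatAgent.Curve FermatAgent.Curve.RR BadRed.Semistable

variable {K : Type*} [Field K] [IsAlgClosed K] {A : ValuationSubring K} {k : Type*}
    [Field k] [IsAlgClosed k] {π : A →+* k} {F F₁ F₂ : Type*} [Field F] [Field F₁] [Field F₂]
    [Algebra K F] [Algebra k F₁] [Algebra k F₂] [IsFunctionField1 K F] [IsFunctionField1 k F₁]
    [IsFunctionField1 k F₂]
variable {W : Type*} [CommRing W] [IsDomain W] [IsDiscreteValuationRing W]

local notation "Q(" R ")" => FractionRing R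

/-- Rational functions seen at one node through the annulus ring. -/
structure NodeEmb (d : NodalDatum A π F F₁ F₂) (E : Subfield F) (i : d.C.ι) (ϖA : A) (ϖ : W) where
  res : W →+* k
  res_unif : res ϖ = 0
  emb : E →+* Localization (nonZeroDivisors (Ann ϖ))
  emb_smul : ∀ (z : E) (h : (ϖA : K) • (z : F) ∈ E),
    emb ⟨_, h⟩ = algebraMap _ _ (Ann.const ϖ ϖ) * emb z
  reg : ∀ (z : E) (n : ℕ), (z : F) ∈ d.int → (z : F) ∈ riemannRochSpace (n • d.D) →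
    ∃ a : Ann ϖ, emb z = algebraMap _ _ a
  place_of_prime : ∀ q : Ann ϖ, Prime q → ¬ q ∣ Ann.const ϖ ϖ →
    ∃ (P : Place K F) (e : ℕ), ∀ (z : E) (a : Ann ϖ), (z : F) ≠ 0 → emb z = algebraMap _ _ a →
      (multiplicity q a : ℤ) = e * P.ord (z : F)
  end₁ : ∀ R : ℕ, (E.toSubring ⊓ d.g₁.integers : Subring F) →+* LaurentSeries (modPow ϖ R)
  end₂ : ∀ R : ℕ, (E.toSubring ⊓ d.g₂.integers : Subring F) →+* LaurentSeries (modPow ϖ R)
  end₁_spec : ∀ (R : ℕ) (z : (E.toSubring ⊓ d.g₁.integers : Subring F)) (a b : Ann ϖ),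
    emb ⟨z, z.2.1⟩ * algebraMap _ _ b = algebraMap _ _ a →
      end₁ R z * Ann.toX ϖ R b = Ann.toX ϖ R a
  end₂_spec : ∀ (R : ℕ) (z : (E.toSubring ⊓ d.g₂.integers : Subring F)) (a b : Ann ϖ),
    emb ⟨z, z.2.1⟩ * algebraMap _ _ b = algebraMap _ _ a →
      end₂ R z * Ann.toY ϖ R b = Ann.toY ϖ R a
  end₁_level : ∀ (R' R : ℕ) (h : R' ≤ R) (z : (E.toSubring ⊓ d.g₁.integers : Subring F)),
    levelMap ϖ h (end₁ R z) = end₁ R' z
  end₂_level : ∀ (R' R : ℕ) (h : R' ≤ R) (z : (E.toSubring ⊓ d.g₂.integers : Subring F)),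
    levelMap ϖ h (end₂ R z) = end₂ R' z
  loc₁ : F₁ →+* LaurentSeries k
  loc₂ : F₂ →+* LaurentSeries k
  end₁_res : ∀ (z : (E.toSubring ⊓ d.g₁.integers : Subring F)) (n : ℤ), ∃ w : W,
    (end₁ 1 z).coeff n = modPowMk ϖ 1 w ∧ res w = (loc₁ (d.g₁.red ⟨z, z.2.2⟩)).coeff n
  end₂_res : ∀ (z : (E.toSubring ⊓ d.g₂.integers : Subring F)) (n : ℤ), ∃ w : W,
    (end₂ 1 z).coeff n = modPowMk ϖ 1 w ∧ res w = (loc₂ (d.g₂.red ⟨z, z.2.2⟩)).coeff n
  loc₁_val : ∀ g : F₁, (∀ n : ℤ, n < 0 → (loc₁ g).coeff n = 0) →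
    (d.C.x i).adicValuation g ≤ 1 ∧ valueAt (d.C.x i) g = (loc₁ g).coeff 0
  loc₂_val : ∀ g : F₂, (∀ n : ℤ, n < 0 → (loc₂ g).coeff n = 0) →
    (d.C.y i).adicValuation g ≤ 1 ∧ valueAt (d.C.y i) g = (loc₂ g).coeff 0

namespace NodeEmb

variable {d : NodalDatum A π F F₁ F₂} {E : Subfield F} {i : d.C.ι} {ϖA : A} {ϖ : W}
variable (ν : NodeEmb d E i ϖA ϖ)

theorem emb_pow_smul (z : E) (hϖE : ∀ y : E, (ϖA : K) • (y : F) ∈ E) (j : ℕ) :
    ∃ h : (ϖA : K) ^ j • (z : F) ∈ E,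
      ν.emb ⟨_, h⟩ = algebraMap _ _ (Ann.const ϖ (ϖ ^ j)) * ν.emb z := by
  induction j with
  | zero => exact ⟨by simp, by simp⟩
  | succ j ih =>
    obtain ⟨h, e⟩ := ih
    refine ⟨by rw [pow_succ', mul_smul]; exact hϖE ⟨_, h⟩, ?_⟩
    have := ν.emb_smul ⟨_, h⟩ (hϖE ⟨_, h⟩)
    rw [e, ← mul_assoc, ← map_mul, ← map_mul, ← pow_succ'] at this
    convert this using 3
    rw [pow_succ', mul_smul]

variable [IsAdicComplete (Ideal.span {ϖ}) W] (hϖ : Irreducible ϖ)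
include hϖ

theorem isUnit_end₁ {R : ℕ} (hR : 1 ≤ R) {T : F} (hTE : T ∈ E) (hT : T ∈ d.g₁.integers)
    (h0 : d.g₁.red ⟨T, hT⟩ ≠ 0) : IsUnit (ν.end₁ R ⟨T, hTE, hT⟩) := by
  refine isUnit_of_levelMap_ne_zero hϖ hR ?_
  rw [ν.end₁_level]
  intro he
  apply h0
  have hloc : ν.loc₁ (d.g₁.red ⟨T, hT⟩) = 0 := by
    refine HahnSeries.ext (funext fun n => ?_)
    obtain ⟨w, hw, hres⟩ := ν.end₁_res ⟨T, hTE, hT⟩ n
    rw [he, HahnSeries.coeff_zero, eq_comm, modPowMk_eq_zero_iff, pow_one] at hw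
    obtain ⟨c, rfl⟩ := hw
    rw [← hres, map_mul, ν.res_unif, zero_mul, HahnSeries.coeff_zero]
  exact (map_eq_zero ν.loc₁).mp hloc

theorem isUnit_end₂ {R : ℕ} (hR : 1 ≤ R) {T : F} (hTE : T ∈ E) (hT : T ∈ d.g₂.integers)
    (h0 : d.g₂.red ⟨T, hT⟩ ≠ 0) : IsUnit (ν.end₂ R ⟨T, hTE, hT⟩) := by
  refine isUnit_of_levelMap_ne_zero hϖ hR ?_
  rw [ν.end₂_level]
  intro he
  apply h0
  have hloc : ν.loc₂ (d.g₂.red ⟨T, hT⟩) = 0 := by
    refine HahnSeries.ext (funext fun n => ?_)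
    obtain ⟨w, hw, hres⟩ := ν.end₂_res ⟨T, hTE, hT⟩ n
    rw [he, HahnSeries.coeff_zero, eq_comm, modPowMk_eq_zero_iff, pow_one] at hw
    obtain ⟨c, rfl⟩ := hw
    rw [← hres, map_mul, ν.res_unif, zero_mul, HahnSeries.coeff_zero]
  exact (map_eq_zero ν.loc₂).mp hloc

/-- Cancellation of a denominator in a compatible family. -/
theorem eq_of_mul_toX_eq {b : Ann ϖ} (hb : b ≠ 0) {X Y : ∀ R, LaurentSeries (modPow ϖ R)}
    (hX : ∀ R' R (h : R' ≤ R), levelMap ϖ h (X R) = X R')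
    (hY : ∀ R' R (h : R' ≤ R), levelMap ϖ h (Y R) = Y R')
    (h : ∀ R, X R * Ann.toX ϖ R b = Y R * Ann.toX ϖ R b) (R : ℕ) : X R = Y R := by
  obtain ⟨m, hm⟩ := Ann.exists_leading ϖ hϖ hb
  obtain ⟨G, hG, n, w, hn, hw⟩ := hm (R + m + 1) (by omega)
  have hGu : IsUnit G := isUnit_of_levelMap_ne_zero hϖ (show 1 ≤ R + m + 1 by omega) fun e => by
    have := congrArg (fun s => HahnSeries.coeff s n) e
    simp only [levelMap, coeffMap_coeff, hn, modPowFactor_mk, HahnSeries.coeff_zero] at this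
    rw [modPowMk_eq_zero_iff, pow_one] at this
    exact hw this
  have h1 := h (R + m + 1)
  rw [hG, ← mul_assoc, ← mul_assoc] at h1
  have h2 := hGu.mul_right_cancel h1
  rw [← hX R (R + m + 1) (by omega), ← hY R (R + m + 1) (by omega)]
  refine HahnSeries.ext (funext fun l => ?_)
  obtain ⟨x, hx⟩ := Ideal.Quotient.mk_surjective ((X (R + m + 1)).coeff l)
  obtain ⟨y, hy⟩ := Ideal.Quotient.mk_surjective ((Y (R + m + 1)).coeff l)
  have h3 := congrArg (fun s => HahnSeries.coeff s l) h2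
  rw [mul_comm (X _), mul_comm (Y _)] at h3
  simp only [HahnSeries.C_apply, HahnSeries.coeff_single_mul, sub_zero, ← hx, ← hy] at h3
  rw [← map_mul, ← map_mul, ← sub_eq_zero, ← map_sub, Ideal.Quotient.eq_zero_iff_mem,
    Ideal.mem_span_singleton, ← mul_sub, show R + m + 1 = m + (R + 1) by omega, pow_add,
    mul_dvd_mul_iff_left (pow_ne_zero m hϖ.ne_zero)] at h3
  rw [levelMap, coeffMap_coeff, coeffMap_coeff, ← hx, ← hy]
  show modPowMk ϖ R x = modPowMk ϖ R y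
  rw [← sub_eq_zero, ← map_sub, modPowMk_eq_zero_iff]
  exact (pow_dvd_pow ϖ (Nat.le_succ R)).trans h3

/-- The end of an integral element in the annulus ring. -/
theorem end₁_eq_toX (R : ℕ) (z : (E.toSubring ⊓ d.g₁.integers : Subring F)) {a : Ann ϖ}
    (h : ν.emb ⟨z, z.2.1⟩ = algebraMap _ _ a) : ν.end₁ R z = Ann.toX ϖ R a := by
  have := ν.end₁_spec R z a 1 (by rw [map_one, mul_one, h])
  rwa [map_one, mul_one] at this

/-- The end of an integral element in the annulus ring. -/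
theorem end₂_eq_toY (R : ℕ) (z : (E.toSubring ⊓ d.g₂.integers : Subring F)) {a : Ann ϖ}
    (h : ν.emb ⟨z, z.2.1⟩ = algebraMap _ _ a) : ν.end₂ R z = Ann.toY ϖ R a := by
  have := ν.end₂_spec R z a 1 (by rw [map_one, mul_one, h])
  rwa [map_one, mul_one] at this

/-- The `y`-variant of the cancellation. -/
theorem eq_of_mul_toY_eq {b : Ann ϖ} (hb : b ≠ 0) {X Y : ∀ R, LaurentSeries (modPow ϖ R)}
    (hX : ∀ R' R (h : R' ≤ R), levelMap ϖ h (X R) = X R')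
    (hY : ∀ R' R (h : R' ≤ R), levelMap ϖ h (Y R) = Y R')
    (h : ∀ R, X R * Ann.toY ϖ R b = Y R * Ann.toY ϖ R b) (R : ℕ) : X R = Y R := by
  obtain ⟨f, rfl⟩ := Ideal.Quotient.mk_surjective b
  refine eq_of_mul_toX_eq hϖ (b := Ann.mk ϖ (biSwap f)) (fun h0 => hb ?_) hX hY h R
  rw [Ann.mk_eq_zero_iff] at h0 ⊢
  intro n
  simpa [ncoeff_biSwap] using h0 (-n)

/-- Scaling by a power of the uniformiser at the `x`-end. -/
theorem end₁_sub {R : ℕ} {z w u : (E.toSubring ⊓ d.g₁.integers : Subring F)}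
    (hϖE : ∀ y : E, (ϖA : K) • (y : F) ∈ E) {j : ℕ}
    (e : (z : F) - w = (ϖA : K) ^ j • (u : F)) :
    ν.end₁ R z - ν.end₁ R w = HahnSeries.C (modPowMk ϖ R (ϖ ^ j)) * ν.end₁ R u := by
  letI := Ann.isDomain ϖ hϖ
  obtain ⟨h, he⟩ := ν.emb_pow_smul ⟨u, u.2.1⟩ hϖE j
  obtain ⟨⟨a, b⟩, hab⟩ := IsLocalization.surj (nonZeroDivisors (Ann ϖ)) (ν.emb ⟨u, u.2.1⟩)
  have hb0 : (b : Ann ϖ) ≠ 0 := nonZeroDivisors.ne_zero b.2
  refine eq_of_mul_toX_eq hϖ hb0 (X := fun R => ν.end₁ R z - ν.end₁ R w)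
    (Y := fun R => HahnSeries.C (modPowMk ϖ R (ϖ ^ j)) * ν.end₁ R u)
    (fun R' R h => by simp only [map_sub, ν.end₁_level])
    (fun R' R h => by
      simp only [map_mul, ν.end₁_level]
      congr 1
      ext l
      simp [levelMap, HahnSeries.C_apply, map_pow]) (fun R => ?_) R
  have h2 := ν.end₁_spec R (z - w) (Ann.const ϖ (ϖ ^ j) * a) b (by
    rw [map_mul, ← hab, ← mul_assoc, ← he]
    congr 2
    exact Subtype.ext e)
  rw [map_sub, map_mul, Ann.toX_const, ← ν.end₁_spec R u a b hab, ← mul_assoc] at h2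
  exact h2

/-- Scaling by a power of the uniformiser at the `y`-end. -/
theorem end₂_sub {R : ℕ} {z w u : (E.toSubring ⊓ d.g₂.integers : Subring F)}
    (hϖE : ∀ y : E, (ϖA : K) • (y : F) ∈ E) {j : ℕ}
    (e : (z : F) - w = (ϖA : K) ^ j • (u : F)) :
    ν.end₂ R z - ν.end₂ R w = HahnSeries.C (modPowMk ϖ R (ϖ ^ j)) * ν.end₂ R u := by
  letI := Ann.isDomain ϖ hϖ
  obtain ⟨h, he⟩ := ν.emb_pow_smul ⟨u, u.2.1⟩ hϖE j
  obtain ⟨⟨a, b⟩, hab⟩ := IsLocalization.surj (nonZeroDivisors (Ann ϖ)) (ν.emb ⟨u, u.2.1⟩)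
  have hb0 : (b : Ann ϖ) ≠ 0 := nonZeroDivisors.ne_zero b.2
  refine eq_of_mul_toY_eq hϖ hb0 (X := fun R => ν.end₂ R z - ν.end₂ R w)
    (Y := fun R => HahnSeries.C (modPowMk ϖ R (ϖ ^ j)) * ν.end₂ R u)
    (fun R' R h => by simp only [map_sub, ν.end₂_level])
    (fun R' R h => by
      simp only [map_mul, ν.end₂_level]
      congr 1
      ext l
      simp [levelMap, HahnSeries.C_apply, map_pow]) (fun R => ?_) R
  have h2 := ν.end₂_spec R (z - w) (Ann.const ϖ (ϖ ^ j) * a) b (by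
    rw [map_mul, ← hab, ← mul_assoc, ← he]
    congr 2
    exact Subtype.ext e)
  rw [map_sub, map_mul, Ann.toY_const, ← ν.end₂_spec R u a b hab, ← mul_assoc] at h2
  exact h2

/-- If approximate roots at the two branches come from one element of the annulus ring, the
leading discrepancies of an approximation glue at the node. -/
theorem red_pair {R : ℕ} {r : Ann ϖ} (T₁ : (E.toSubring ⊓ d.g₁.integers : Subring F))
    (T₂ : (E.toSubring ⊓ d.g₂.integers : Subring F))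
    (hX : Ann.toX ϖ R r = ν.end₁ R T₁) (hY : Ann.toY ϖ R r = ν.end₂ R T₂)
    (hϖE : ∀ y : E, (ϖA : K) • (y : F) ∈ E) {j n : ℕ} (hj : j < R) {Φ : F} (hΦE : Φ ∈ E)
    (hΦ : Φ ∈ d.int) (hΦn : Φ ∈ riemannRochSpace (n • d.D))
    {z₁ z₂ : F} (h₁ : z₁ ∈ d.g₁.integers) (h₂ : z₂ ∈ d.g₂.integers) (h₁E : z₁ ∈ E) (h₂E : z₂ ∈ E)
    (e₁ : (T₁ : F) - Φ = (ϖA : K) ^ j • z₁) (e₂ : (T₂ : F) - Φ = (ϖA : K) ^ j • z₂) :
    (d.C.x i).adicValuation (d.g₁.red ⟨z₁, h₁⟩) ≤ 1 ∧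
      (d.C.y i).adicValuation (d.g₂.red ⟨z₂, h₂⟩) ≤ 1 ∧
      valueAt (d.C.x i) (d.g₁.red ⟨z₁, h₁⟩) = valueAt (d.C.y i) (d.g₂.red ⟨z₂, h₂⟩) := by
  obtain ⟨a, ha⟩ := ν.reg ⟨Φ, hΦE⟩ n hΦ hΦn
  have eX : Ann.toX ϖ R (r - a) = HahnSeries.C (modPowMk ϖ R (ϖ ^ j)) *
      ν.end₁ R ⟨z₁, h₁E, h₁⟩ := by
    rw [map_sub, hX, ← ν.end₁_eq_toX hϖ R ⟨Φ, hΦE, hΦ.1⟩ ha]
    exact ν.end₁_sub hϖ (u := ⟨z₁, h₁E, h₁⟩) hϖE e₁
  have eY : Ann.toY ϖ R (r - a) = HahnSeries.C (modPowMk ϖ R (ϖ ^ j)) *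
      ν.end₂ R ⟨z₂, h₂E, h₂⟩ := by
    rw [map_sub, hY, ← ν.end₂_eq_toY hϖ R ⟨Φ, hΦE, hΦ.2⟩ ha]
    exact ν.end₂_sub hϖ (u := ⟨z₂, h₂E, h₂⟩) hϖE e₂
  have hzero : ∀ (z : LaurentSeries (modPow ϖ R)),
      levelMap ϖ (le_of_lt hj) (HahnSeries.C (modPowMk ϖ R (ϖ ^ j)) * z) = 0 := fun z => by
    rw [map_mul, levelMap, show coeffMap (modPowFactor ϖ (le_of_lt hj))
      (HahnSeries.C (modPowMk ϖ R (ϖ ^ j))) = 0 by
        rw [HahnSeries.C_apply, coeffMap_single, modPowFactor_mk,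
          (modPowMk_eq_zero_iff ϖ j _).mpr dvd_rfl, map_zero], zero_mul]
  obtain ⟨u, hu⟩ := Ann.exists_eq_const_pow_mul ϖ (R := j) (z := r - a)
    (by rw [← Ann.levelMap_toX ϖ (le_of_lt hj), eX, hzero])
    (by rw [← Ann.levelMap_toY ϖ (le_of_lt hj), eY, hzero])
  -- the residues at both ends are those of `u`
  have key : ∀ (Z : LaurentSeries (modPow ϖ R)) (U : LaurentSeries (modPow ϖ R)),
      HahnSeries.C (modPowMk ϖ R (ϖ ^ j)) * U = HahnSeries.C (modPowMk ϖ R (ϖ ^ j)) * Z →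
      levelMap ϖ (show 1 ≤ R by omega) U = levelMap ϖ (show 1 ≤ R by omega) Z := by
    intro Z U e
    refine HahnSeries.ext (funext fun l => ?_)
    obtain ⟨x, hx⟩ := Ideal.Quotient.mk_surjective (U.coeff l)
    obtain ⟨y, hy⟩ := Ideal.Quotient.mk_surjective (Z.coeff l)
    have h3 := congrArg (fun s => HahnSeries.coeff s l) e
    simp only [HahnSeries.C_apply, HahnSeries.coeff_single_mul, sub_zero, ← hx, ← hy] at h3
    rw [← map_mul, ← map_mul, ← sub_eq_zero, ← map_sub, Ideal.Quotient.eq_zero_iff_mem,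
      Ideal.mem_span_singleton, ← mul_sub, show R = j + (R - j) by omega, pow_add,
      mul_dvd_mul_iff_left (pow_ne_zero j hϖ.ne_zero)] at h3
    rw [levelMap, coeffMap_coeff, coeffMap_coeff, ← hx, ← hy]
    show modPowMk ϖ 1 x = modPowMk ϖ 1 y
    rw [← sub_eq_zero, ← map_sub, modPowMk_eq_zero_iff]
    exact (pow_dvd_pow ϖ (by omega)).trans h3
  rw [hu, map_mul, Ann.toX_const] at eX
  rw [hu, map_mul, Ann.toY_const] at eY
  have kX := key _ _ eX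
  have kY := key _ _ eY
  rw [Ann.levelMap_toX, ν.end₁_level] at kX
  rw [Ann.levelMap_toY, ν.end₂_level] at kY
  obtain ⟨f, hf⟩ := Ideal.Quotient.mk_surjective u
  subst hf
  have cX : ∀ n : ℤ, (ν.loc₁ (d.g₁.red ⟨z₁, h₁⟩)).coeff n =
      ν.res (ϖ ^ (-n).toNat * ncoeff ϖ f n) := by
    intro n
    obtain ⟨w, hw, hres⟩ := ν.end₁_res ⟨z₁, h₁E, h₁⟩ n
    rw [← kX, Ann.toX_mk, coeff_endX, ← sub_eq_zero, ← map_sub, modPowMk_eq_zero_iff, pow_one]
      at hw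
    obtain ⟨c, hc⟩ := hw
    rw [← hres, ← sub_eq_zero, ← map_sub, show w - ϖ ^ (-n).toNat * ncoeff ϖ f n = -(ϖ * c) by
      rw [← hc]; ring, map_neg, map_mul, ν.res_unif, zero_mul, neg_zero]
  have cY : ∀ n : ℤ, (ν.loc₂ (d.g₂.red ⟨z₂, h₂⟩)).coeff n =
      ν.res (ϖ ^ (-n).toNat * ncoeff ϖ f (-n)) := by
    intro n
    obtain ⟨w, hw, hres⟩ := ν.end₂_res ⟨z₂, h₂E, h₂⟩ n
    rw [← kY, Ann.toY_mk, coeff_endY, ← sub_eq_zero, ← map_sub, modPowMk_eq_zero_iff, pow_one]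
      at hw
    obtain ⟨c, hc⟩ := hw
    rw [← hres, ← sub_eq_zero, ← map_sub, show w - ϖ ^ (-n).toNat * ncoeff ϖ f (-n) = -(ϖ * c) by
      rw [← hc]; ring, map_neg, map_mul, ν.res_unif, zero_mul, neg_zero]
  obtain ⟨v₁, w₁⟩ := ν.loc₁_val (d.g₁.red ⟨z₁, h₁⟩) fun n hn => by
    rw [cX, map_mul, map_pow, ν.res_unif, zero_pow (by omega), zero_mul]
  obtain ⟨v₂, w₂⟩ := ν.loc₂_val (d.g₂.red ⟨z₂, h₂⟩) fun n hn => by
    rw [cY, map_mul, map_pow, ν.res_unif, zero_pow (by omega), zero_mul]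
  refine ⟨v₁, v₂, ?_⟩
  rw [w₁, w₂, cX, cY]
  simp

/-- Approximate roots on both components come, up to roots of unity, from the annulus ring. -/
theorem exists_root {p : ℕ} (hp : p.Prime) {v : ℕ}
    (hv : ∃ w : W, IsUnit w ∧ (p : W) = ϖ ^ v * w) {ζ : W} (hζ : IsPrimitiveRoot ζ p)
    (hϖE : ∀ y : E, (ϖA : K) • (y : F) ∈ E)
    {R R' : ℕ} (hR : R' + v ≤ R) (hR' : R' ≠ 0) (hpR : R' + v ≤ p * R') {t : F} (htE : t ∈ E)
    (ht : t ∈ d.int) {n : ℕ} (htn : t ∈ riemannRochSpace (n • d.D))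
    (hdiv : ∀ P : Place K F, (p : ℤ) ∣ P.ord t)
    (T₁ : (E.toSubring ⊓ d.g₁.integers : Subring F))
    (T₂ : (E.toSubring ⊓ d.g₂.integers : Subring F))
    (h0₁ : d.g₁.red ⟨T₁, T₁.2.2⟩ ≠ 0) (h0₂ : d.g₂.red ⟨T₂, T₂.2.2⟩ ≠ 0)
    {u₁ : (E.toSubring ⊓ d.g₁.integers : Subring F)}
    {u₂ : (E.toSubring ⊓ d.g₂.integers : Subring F)}
    (e₁ : (T₁ : F) ^ p - t = (ϖA : K) ^ R • (u₁ : F))
    (e₂ : (T₂ : F) ^ p - t = (ϖA : K) ^ R • (u₂ : F)) :
    ∃ r : Ann ϖ, ∃ i < p, ∃ k < p,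
      Ann.toX ϖ R' r = HahnSeries.C (modPowMk ϖ R' (ζ ^ i)) * ν.end₁ R' T₁ ∧
      Ann.toY ϖ R' r = HahnSeries.C (modPowMk ϖ R' (ζ ^ k)) * ν.end₂ R' T₂ := by
  letI := Ann.isDomain ϖ hϖ
  obtain ⟨a, ha⟩ := ν.reg ⟨t, htE⟩ n ht htn
  have hU₁ := ν.isUnit_end₁ hϖ (show 1 ≤ R by omega) T₁.2.1 T₁.2.2 h0₁
  have hU₂ := ν.isUnit_end₂ hϖ (show 1 ≤ R by omega) T₂.2.1 T₂.2.2 h0₂
  have h0 : modPowMk ϖ R (ϖ ^ R) = 0 := (modPowMk_eq_zero_iff ϖ R _).mpr dvd_rfl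
  have hX : Ann.toX ϖ R a = ν.end₁ R T₁ ^ p := by
    have := ν.end₁_sub hϖ (R := R) (z := T₁ ^ p) (w := ⟨t, htE, ht.1⟩) (u := u₁) hϖE e₁
    rw [h0, map_zero, zero_mul, sub_eq_zero, map_pow] at this
    rw [this, ν.end₁_eq_toX hϖ R ⟨t, htE, ht.1⟩ ha]
  have hY : Ann.toY ϖ R a = ν.end₂ R T₂ ^ p := by
    have := ν.end₂_sub hϖ (R := R) (z := T₂ ^ p) (w := ⟨t, htE, ht.2⟩) (u := u₂) hϖE e₂
    rw [h0, map_zero, zero_mul, sub_eq_zero, map_pow] at this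
    rw [this, ν.end₂_eq_toY hϖ R ⟨t, htE, ht.2⟩ ha]
  have ha0 : a ≠ 0 := by
    rintro rfl
    haveI := Ann.isLocalRing_modPow ϖ hϖ (show R ≠ 0 by omega)
    rw [map_zero] at hX
    exact not_isUnit_zero (hX ▸ hU₁.pow p)
  have ht0 : t ≠ 0 := fun e => ha0 (by
    have : ν.emb ⟨t, htE⟩ = 0 := by
      rw [show (⟨t, htE⟩ : E) = 0 from Subtype.ext e, map_zero]
    rw [ha] at this
    exact (FaithfulSMul.algebraMap_eq_zero_iff _ _).mp this)
  obtain ⟨r, i', hi, k', hk, r₁, r₂⟩ := Ann.exists_root ϖ hϖ hp hv hζ hR hR' hpR ha0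
    (fun q hq hqϖ => by
      obtain ⟨P, m, hP⟩ := ν.place_of_prime q hq hqϖ
      have := hP ⟨t, htE⟩ a ht0 ha
      exact_mod_cast this ▸ (hdiv P).mul_left (m : ℤ)) hU₁ hU₂ hX hY
  exact ⟨r, i', hi, k', hk, by rw [r₁, ν.end₁_level], by rw [r₂, ν.end₂_level]⟩

end NodeEmb

end FermatAgent.MazurPrinciple
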