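import Fermat.Agent.MazurPrinciple.Smooth
import Fermat.Agent.MazurPrinciple.GoodSub
import Fermat.Agent.MazurPrinciple.NodeEmb
import Fermat.Agent.MazurPrinciple.Lift

/-!
# Roots from roots on both components gluing at the nodes

A function all whose orders are divisible by `p`, with approximate roots of every precision on
both components that come from one element of the annulus ring at each node, is a `p`-th power.
-/

set_option autoImplicit false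

noncomputable section

open AlgebraicCurve WithZero

namespace FermatAgent.MazurPrinciple

open FermatAgent.Curve FermatAgent.Curve.RR BadRed.Semistable
open scoped Classical

variable {K : Type*} [Field K] [IsAlgClosed K] {A : ValuationSubring K} {k : Type*}
    [Field k] [IsAlgClosed k] {π : A →+* k} {F F₁ F₂ : Type*} [Field F] [Field F₁] [Field F₂]
    [Algebra K F] [Algebra k F₁] [Algebra k F₂] [IsFunctionField1 K F] [IsFunctionField1 k F₁]
    [IsFunctionField1 k F₂] [RRSetting K F] [RRSetting k F₁] [RRSetting k F₂] [Infinite k]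
variable (d : NodalDatum A π F F₁ F₂)

/-- The part away from the nodes of the divisor of the root of `t`, shifted by `n D`. -/
def smoothRoot (p n : ℕ) (t : F) : Divisor K F :=
  (((divisorOf t).mapRange (fun a => a / (p : ℤ)) (Int.zero_ediv _)) + n • d.D).filter
    fun P : Place K F => ∀ i, d.place P ≠ Glued.Pt.node i

theorem smoothRoot_nonneg {p n : ℕ} (hp : p ≠ 0) {t : F} (ht0 : t ≠ 0)
    (htn : t ∈ riemannRochSpace ((p * n) • d.D)) : 0 ≤ smoothRoot d p n t := by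
  refine Finsupp.le_def.mpr fun P => ?_
  rw [smoothRoot, Finsupp.filter_apply]
  split_ifs
  · have h := neg_le_ord_of_le_exp ht0 (htn P)
    simp only [Finsupp.coe_zero, Pi.zero_apply, Finsupp.add_apply, Finsupp.mapRange_apply,
      Finsupp.smul_apply, nsmul_eq_mul, Nat.cast_mul, divisorOf_apply] at h ⊢
    have := Int.le_ediv_of_mul_le (c := (p : ℤ)) (a := -((n : ℤ) * d.D P)) (b := P.ord t)
      (by exact_mod_cast Nat.pos_of_ne_zero hp) (by linarith)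
    omega
  · exact le_rfl

theorem smoothRoot_isGood (p n : ℕ) (t : F) : d.IsGood (smoothRoot d p n t) := fun P hP => by
  rw [smoothRoot, Finsupp.filter_apply] at hP
  split_ifs at hP with h
  · exact h
  · exact absurd rfl hP

variable {d} {G : Type*} [Field G] [Algebra k G] [IsFunctionField1 k G] [RRSetting k G]

/-- The bound at a smooth point on the discrepancies for `t` and `t s ^ p`. -/
theorem le_exp_pair (σ : d.Side G) {T : F} (hT : σ.IsCoord T) {p : ℕ} [CharP k p] (hp : p.Prime)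
    {ϖ : A} (hϖ0 : (ϖ : K) ≠ 0) (hπϖ : π ϖ = 0) {v : ℕ} (hv : 1 ≤ v) {u : A}
    (hu : (p : A) = ϖ ^ v * u) (hu0 : π u ≠ 0) {t : F} (ht : IsDiscUnit d t) {n : ℕ}
    (hdiv : ∀ P : Place K F, (p : ℤ) ∣ P.ord t) {s : F} (hs : IsDiscUnit d s) {m : ℕ}
    (hsm : s ∈ riemannRochSpace (m • d.D))
    (hsD : d.redDiv d.D σ.ω ≠ 0 → d.redDiv (divisorOf s + m • d.D) σ.ω = 0)
    {Φ Φs : F} (hΦ : Φ ∈ d.int) (hΦV : Φ ∈ d.sub (n + m) (smoothRoot d p n t))
    (hΦs : Φs ∈ d.int) (hΦsV : Φs ∈ d.sub (n + m) (smoothRoot d p n t))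
    {j R : ℕ} (hR : j + v < R) {T₁ T₂ z₁ z₂ y₁ y₂ w₁ w₂ : F}
    (hz₁ : z₁ ∈ d.g₁.integers) (hz₂ : z₂ ∈ d.g₂.integers) (hy₁ : y₁ ∈ d.g₁.integers)
    (hy₂ : y₂ ∈ d.g₂.integers) (hw₁ : w₁ ∈ d.g₁.integers) (hw₂ : w₂ ∈ d.g₂.integers)
    (e₁ : T₁ - Φ = (ϖ : K) ^ j • z₁) (e₂ : T₂ - Φ = (ϖ : K) ^ j • z₂)
    (f₁ : T₁ * s - Φs = (ϖ : K) ^ j • y₁) (f₂ : T₂ * s - Φs = (ϖ : K) ^ j • y₂)
    (c₁ : T₁ ^ p - t = (ϖ : K) ^ R • w₁) (c₂ : T₂ ^ p - t = (ϖ : K) ^ R • w₂) :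
    σ.Q.adicValuation (σ.pr (d.g₁.red ⟨z₁, hz₁⟩, d.g₂.red ⟨z₂, hz₂⟩)) ≤
        exp (-d.redDiv (smoothRoot d p n t - (n + m) • d.D) σ.ω) ∧
      σ.Q.adicValuation (σ.pr (d.g₁.red ⟨y₁, hy₁⟩, d.g₂.red ⟨y₂, hy₂⟩)) ≤
        exp (-d.redDiv (smoothRoot d p n t - (n + m) • d.D) σ.ω) := by
  set Z := smoothRoot d p n t with hZ
  set E := Z - (n + m) • d.D with hE
  set H : Divisor K F := (divisorOf t).mapRange (fun a => a / (p : ℤ)) (Int.zero_ediv _) with hH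
  have hEP : ∀ P, d.place P = σ.ω → E P = (H - m • d.D) P := fun P hP => by
    simp only [hE, hZ, smoothRoot, Finsupp.sub_apply, Finsupp.filter_apply, ← hH]
    rw [if_pos (fun i => hP ▸ σ.smooth i)]
    simp only [Finsupp.add_apply, Finsupp.smul_apply, nsmul_eq_mul, Nat.cast_add]
    ring
  have hHP : ∀ P, (p : ℤ) * H P = P.ord t := fun P => by
    rw [hH, Finsupp.mapRange_apply, divisorOf_apply, Int.mul_ediv_cancel' (hdiv P)]
  have hdt : divisorOf t = p • H := Finsupp.ext fun P => by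
    rw [Finsupp.smul_apply, nsmul_eq_mul, hHP, divisorOf_apply]
  have hEω : d.redDiv E σ.ω = d.redDiv H σ.ω - m * d.redDiv d.D σ.ω := by
    rw [d.redDiv_apply, mapDomain_eq_of_forall hEP, ← d.redDiv_apply, map_sub, map_nsmul,
      Finsupp.sub_apply, Finsupp.smul_apply, nsmul_eq_mul]
  have hD0 : 0 ≤ d.redDiv d.D σ.ω :=
    Finsupp.le_def.mp (d.redDiv_nonneg (poleDiv_nonneg _)) σ.ω
  have hΦE : ∀ (f : F), f ∈ d.sub (n + m) Z → ∀ P, f = 0 ∨ E P ≤ P.ord f := fun f hf P => by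
    rcases eq_or_ne f 0 with e | e
    · exact Or.inl e
    · have := neg_le_ord_of_le_exp e (hf P)
      simp only [hE, Finsupp.sub_apply, Finsupp.smul_apply] at this ⊢
      exact Or.inr (by linarith)
  -- the difference of the two discrepancies
  set δ := ((ϖ : K) ^ j)⁻¹ • (Φ * s - Φs) with hδ
  have hsub : ∀ {T z y : F}, T - Φ = (ϖ : K) ^ j • z → T * s - Φs = (ϖ : K) ^ j • y →
      δ = y - z * s := by
    intro T z y e f
    rw [hδ, inv_smul_eq_iff₀ (pow_ne_zero _ hϖ0), smul_sub, ← f, ← smul_mul_assoc, ← e]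
    ring
  have hδ₁ := hsub e₁ f₁
  have hδ₂ := hsub e₂ f₂
  have hδi : δ ∈ d.int := ⟨hδ₁ ▸ sub_mem hy₁ (mul_mem hz₁ hs.1.1),
    hδ₂ ▸ sub_mem hy₂ (mul_mem hz₂ hs.1.2)⟩
  have hy : ((d.g₁.red ⟨y₁, hy₁⟩, d.g₂.red ⟨y₂, hy₂⟩) : F₁ × F₂) = d.red ⟨δ, hδi⟩ +
      (d.g₁.red ⟨z₁, hz₁⟩, d.g₂.red ⟨z₂, hz₂⟩) * d.red ⟨s, hs.1⟩ := by
    refine Prod.ext ?_ ?_
    · show _ = d.g₁.red ⟨δ, hδi.1⟩ + d.g₁.red ⟨z₁, hz₁⟩ * d.g₁.red ⟨s, hs.1.1⟩
      rw [← map_mul, ← map_add]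
      exact congrArg d.g₁.red (Subtype.ext (by simp [hδ₁]))
    · show _ = d.g₂.red ⟨δ, hδi.2⟩ + d.g₂.red ⟨z₂, hz₂⟩ * d.g₂.red ⟨s, hs.1.2⟩
      rw [← map_mul, ← map_add]
      exact congrArg d.g₂.red (Subtype.ext (by simp [hδ₂]))
  have hδb : σ.Q.adicValuation (σ.pr (d.red ⟨δ, hδi⟩)) ≤
      exp (-d.redDiv E σ.ω + m * d.redDiv d.D σ.ω) := by
    have h := le_exp_of_ord_ge σ hT hδi (E - m • d.D) fun P _ => by
      refine or_iff_not_imp_left.mpr fun h0 => ?_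
      rw [hδ, Curve.ord_smul_const P (inv_ne_zero (pow_ne_zero _ hϖ0))]
      have hone : (1 : F) ∈ riemannRochSpace (m • d.D) :=
        one_mem_rrSpace (nsmul_nonneg (poleDiv_nonneg _) _)
      have h1 := d.mul_mem_sub' hΦsV hone
      rw [mul_one] at h1
      have hmem : Φ * s - Φs ∈ d.sub (n + m + m) Z := sub_mem (d.mul_mem_sub' hΦV hsm) h1
      have := neg_le_ord_of_le_exp (fun e => h0 (by rw [hδ, e, smul_zero])) (hmem P)
      simp only [hE, Finsupp.sub_apply, Finsupp.smul_apply, nsmul_eq_mul, Nat.cast_add] at this ⊢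
      linarith
    refine h.trans_eq ?_
    rw [← d.redDiv_apply, map_sub, map_nsmul, Finsupp.sub_apply, Finsupp.smul_apply, nsmul_eq_mul]
    congr 1; ring
  obtain ⟨hsne, hsord⟩ := ord_pr_red σ hs
  rw [← d.redDiv_apply] at hsord
  by_cases hD : d.redDiv d.D σ.ω = 0
  · have hz : σ.Q.adicValuation (σ.pr (d.g₁.red ⟨z₁, hz₁⟩, d.g₂.red ⟨z₂, hz₂⟩)) ≤
        exp (-d.redDiv E σ.ω) := by
      refine le_exp_of_root σ hT hp hϖ0 hπϖ hv hu hu0 ht hΦ E (fun P _ => hΦE Φ hΦV P)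
        (fun P hP => ?_) ?_ hR hz₁ hz₂ hw₁ hw₂ (by rw [← e₁, add_sub_cancel, c₁])
        (by rw [← e₂, add_sub_cancel, c₂])
      · rw [hEP P hP, ← hHP P, Finsupp.sub_apply, Finsupp.smul_apply, nsmul_eq_mul]
        have : 0 ≤ d.D P := Finsupp.le_def.mp (poleDiv_nonneg _) P
        nlinarith [mul_nonneg (mul_nonneg (Nat.cast_nonneg (α := ℤ) p) (Nat.cast_nonneg m)) this]
      · rw [← d.redDiv_apply, ← d.redDiv_apply, hEω, hdt, map_nsmul, Finsupp.smul_apply,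
          nsmul_eq_mul, hD]
        ring
    refine ⟨hz, ?_⟩
    rw [hy, map_add, map_mul]
    refine (Valuation.map_add _ _ _).trans (max_le (hδb.trans_eq (by rw [hD]; simp)) ?_)
    rw [map_mul]
    refine (mul_le_mul' hz ?_).trans_eq (mul_one _)
    have := le_exp_of_ord_ge σ hT hs.1 (-(m • d.D)) fun P _ => by
      refine Or.inr ?_
      have := neg_le_ord_of_le_exp hs.ne_zero (hsm P)
      simpa using this
    refine this.trans_eq ?_
    rw [← d.redDiv_apply, map_neg, map_nsmul, Finsupp.neg_apply, Finsupp.smul_apply, hD]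
    simp
  · have hs' := hsD hD
    rw [map_add, map_nsmul, Finsupp.add_apply, Finsupp.smul_apply, nsmul_eq_mul] at hs'
    have hyb : σ.Q.adicValuation (σ.pr (d.g₁.red ⟨y₁, hy₁⟩, d.g₂.red ⟨y₂, hy₂⟩)) ≤
        exp (-d.redDiv E σ.ω) := by
      refine le_exp_of_root σ hT hp hϖ0 hπϖ hv hu hu0 (ht.mul (hs.pow p)) hΦs E
        (fun P _ => hΦE Φs hΦsV P) (fun P hP => ?_) ?_ hR hy₁ hy₂
        (w₁ := w₁ * s ^ p) (w₂ := w₂ * s ^ p) (mul_mem hw₁ (pow_mem hs.1.1 p))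
        (mul_mem hw₂ (pow_mem hs.1.2 p))
        (by rw [← f₁, add_sub_cancel, mul_pow, ← sub_mul, c₁, smul_mul_assoc])
        (by rw [← f₂, add_sub_cancel, mul_pow, ← sub_mul, c₂, smul_mul_assoc])
      · rw [P.ord_mul ht.ne_zero (pow_ne_zero _ hs.ne_zero), Curve.ord_pow', hEP P hP, ← hHP P,
          Finsupp.sub_apply, Finsupp.smul_apply, nsmul_eq_mul]
        have h0 := neg_le_ord_of_le_exp hs.ne_zero (hsm P)
        simp only [Finsupp.smul_apply, nsmul_eq_mul] at h0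
        nlinarith [mul_le_mul_of_nonneg_left h0 (Nat.cast_nonneg (α := ℤ) p)]
      · rw [← d.redDiv_apply, ← d.redDiv_apply, hEω,
          show divisorOf (K := K) (t * s ^ p) = p • H + p • divisorOf s from Finsupp.ext fun P => by
            simp only [Finsupp.add_apply, Finsupp.smul_apply, nsmul_eq_mul, divisorOf_apply, hHP]
            rw [P.ord_mul ht.ne_zero (pow_ne_zero _ hs.ne_zero), Curve.ord_pow'],
          map_add, map_nsmul, map_nsmul, Finsupp.add_apply, Finsupp.smul_apply, Finsupp.smul_apply,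
          nsmul_eq_mul, nsmul_eq_mul, show d.redDiv (divisorOf s) σ.ω = -(m * d.redDiv d.D σ.ω) by
            linarith]
        ring
    refine ⟨?_, hyb⟩
    have hvs : σ.Q.adicValuation (σ.pr (d.red ⟨s, hs.1⟩)) = exp (m * d.redDiv d.D σ.ω) := by
      rw [σ.Q.adicValuation_eq_exp_neg_ord hsne, hsord]
      congr 1; linarith
    have : σ.Q.adicValuation (σ.pr (d.g₁.red ⟨z₁, hz₁⟩, d.g₂.red ⟨z₂, hz₂⟩)) *
        exp (m * d.redDiv d.D σ.ω) ≤ exp (-d.redDiv E σ.ω + m * d.redDiv d.D σ.ω) := by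
      rw [← hvs, ← map_mul, ← map_mul,
        show (d.g₁.red ⟨z₁, hz₁⟩, d.g₂.red ⟨z₂, hz₂⟩) * d.red ⟨s, hs.1⟩ =
          (d.g₁.red ⟨y₁, hy₁⟩, d.g₂.red ⟨y₂, hy₂⟩) - d.red ⟨δ, hδi⟩ by rw [hy]; ring, map_sub]
      refine (Valuation.map_sub _ _ _).trans (max_le (hyb.trans (exp_le_exp.mpr ?_)) hδb)
      nlinarith
    rw [exp_add] at this
    exact le_of_mul_le_mul_right this exp_pos

variable {W : Type*} [CommRing W] [IsDomain W] [IsDiscreteValuationRing W] {ϖW : W}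
  [IsAdicComplete (Ideal.span {ϖW}) W]

/-- Approximate roots on both components gluing at all nodes give a root. -/
theorem exists_root_of_components (hϖW : Irreducible ϖW) {E : Subfield F} {ϖ : A}
    (hϖ0 : (ϖ : K) ≠ 0) (hπϖ : π ϖ = 0)
    (hc : ∀ δ : K, δ ≠ 0 → ∃ R : ℕ, δ / (ϖ : K) ^ R ∉ A)
    (hϖE : ∀ y : E, (ϖ : K) • (y : F) ∈ E) {p : ℕ} [CharP k p] (hp : p.Prime)
    {v : ℕ} (hv : 1 ≤ v) {u : A} (hu : (p : A) = ϖ ^ v * u) (hu0 : π u ≠ 0)
    (ν : ∀ i, NodeEmb d E i ϖ ϖW) {t : F} (ht : IsDiscUnit d t) {n : ℕ}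
    (htn : t ∈ riemannRochSpace ((p * n) • d.D)) (hdiv : ∀ P : Place K F, (p : ℤ) ∣ P.ord t)
    {s₀ : F} (hs₀E : s₀ ∈ E) (hs₀ : IsDiscUnit d s₀) {c : ℕ} (hc1 : 1 ≤ c)
    (hs₀c : s₀ ∈ riemannRochSpace (c • d.D))
    (hs₀D : ∀ ω, d.redDiv d.D ω ≠ 0 → d.redDiv (divisorOf s₀ + c • d.D) ω = 0)
    (hS : ∀ n', ∃ S : RationalStructure d ϖ (d.sub n' (smoothRoot d p n t)),
      ∀ x, x ∈ S.carrier ↔ x ∈ E)
    (happ : ∀ R : ℕ, ∃ (T₁ : (E.toSubring ⊓ d.g₁.integers : Subring F))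
      (T₂ : (E.toSubring ⊓ d.g₂.integers : Subring F)),
      (∃ w ∈ d.g₁.integers, (T₁ : F) ^ p - t = (ϖ : K) ^ R • w) ∧
      (∃ w ∈ d.g₂.integers, (T₂ : F) ^ p - t = (ϖ : K) ^ R • w) ∧
      ∀ i, ∃ r : Ann ϖW, Ann.toX ϖW R r = (ν i).end₁ R T₁ ∧ Ann.toY ϖW R r = (ν i).end₂ R T₂) :
    ∃ Φ : F, Φ ^ p = t := by
  have ht0 := ht.ne_zero
  set Z := smoothRoot d p n t with hZ
  have hZ0 : 0 ≤ Z := smoothRoot_nonneg d hp.ne_zero ht0 htn
  have hgood : d.IsGood Z := smoothRoot_isGood d p n t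
  set a := d.N₀ + (Divisor.degree Z).toNat with ha
  set s := s₀ ^ a with hsdef
  set m := a * c with hm
  have hs : IsDiscUnit d s := hs₀.pow a
  have hsE : s ∈ E := pow_mem hs₀E a
  have hsm : s ∈ riemannRochSpace (m • d.D) := by
    have := d.pow_mem_sub (Z := 0) (by rwa [NodalDatum.sub, sub_zero]) a (f := s₀) (n := c)
    rwa [smul_zero, NodalDatum.sub, sub_zero] at this
  have hsD : ∀ ω, d.redDiv d.D ω ≠ 0 → d.redDiv (divisorOf s + m • d.D) ω = 0 := fun ω hω => by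
    rw [show divisorOf s + m • d.D = a • (divisorOf s₀ + c • d.D) from Finsupp.ext fun P => by
      simp only [hsdef, hm, Finsupp.add_apply, Finsupp.smul_apply, divisorOf_apply, Curve.ord_pow',
        nsmul_eq_mul, Nat.cast_mul]
      ring, map_nsmul, Finsupp.smul_apply, hs₀D ω hω, smul_zero]
  have hn' : d.N₀ + (Divisor.degree Z).toNat ≤ n + m := by
    rw [hm]; exact le_add_left (le_trans ha.ge (Nat.le_mul_of_pos_right a hc1))
  have hN : d.N₀ ≤ n + m := le_trans (Nat.le_add_right _ _) hn'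
  obtain ⟨S, hSE⟩ := hS (n + m)
  have htU : t ∈ riemannRochSpace ((p * (n + m)) • d.D) := by
    refine rrSpace_mono ?_ htn
    exact nsmul_le_nsmul_left (poleDiv_nonneg _) (Nat.mul_le_mul_left p (Nat.le_add_right n m))
  obtain ⟨Φ, -, hΦ⟩ := exists_root_of_lifting d hN p hp.one_lt.le htU hϖ0 hc (d.sub_le hZ0) S
    (ι := Bool) false fun R => by
    obtain ⟨T₁, T₂, ⟨w₁, hw₁, c₁⟩, ⟨w₂, hw₂, c₂⟩, hr⟩ := happ (R + v)
    have hsh : ∀ {w : F} {g : Subring F}, w ∈ g → (∀ a : A, algebraMap K F (a : K) ∈ g) →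
        (ϖ : K) ^ (R + v) • w = (ϖ : K) ^ R • ((ϖ : K) ^ v • w) ∧ (ϖ : K) ^ v • w ∈ g := by
      intro w g hw hg
      refine ⟨by rw [smul_smul, pow_add], ?_⟩
      rw [Algebra.smul_def]
      exact mul_mem (hg (ϖ ^ v)) hw
    refine ⟨fun l => if l then (T₁ : F) * s else T₁, fun l => if l then (T₂ : F) * s else T₂,
      fun l => ?_, ⟨_, (hsh hw₁ d.g₁.algebraMap_mem).2, ?_⟩,
      ⟨_, (hsh hw₂ d.g₂.algebraMap_mem).2, ?_⟩, ?_⟩
    · simp only [hSE]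
      cases l
      · exact ⟨T₁.2.2, T₂.2.2, T₁.2.1, T₂.2.1⟩
      · exact ⟨mul_mem T₁.2.2 hs.1.1, mul_mem T₂.2.2 hs.1.2, mul_mem T₁.2.1 hsE,
          mul_mem T₂.2.1 hsE⟩
    · rw [← (hsh hw₁ d.g₁.algebraMap_mem).1]; simpa using c₁
    · rw [← (hsh hw₂ d.g₂.algebraMap_mem).1]; simpa using c₂
    intro j hj Φ hΦ z₁ z₂ h₁ h₂ hz
    simp only [hSE] at hΦ hz
    obtain ⟨hz₁E, hz₂E, e₁, e₂⟩ := hz false
    obtain ⟨hy₁E, hy₂E, f₁, f₂⟩ := hz true
    simp only [Bool.false_eq_true, if_false, if_true] at e₁ e₂ f₁ f₂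
    intro l
    rw [redImage_sub_eq d hZ0 hgood hn', mem_condSub]
    have hnode : ∀ i, (d.C.x i).adicValuation (d.g₁.red ⟨z₁ l, h₁ l⟩) ≤ 1 ∧
        (d.C.y i).adicValuation (d.g₂.red ⟨z₂ l, h₂ l⟩) ≤ 1 ∧
        valueAt (d.C.x i) (d.g₁.red ⟨z₁ l, h₁ l⟩) = valueAt (d.C.y i) (d.g₂.red ⟨z₂ l, h₂ l⟩) := by
      intro i
      obtain ⟨r, rX, rY⟩ := hr i
      cases l
      · exact (ν i).red_pair hϖW T₁ T₂ rX rY hϖE (show j < R + v by omega) (hΦ false).1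
          (hΦ false).2.1 (d.sub_le hZ0 (hΦ false).2.2) (h₁ false) (h₂ false) hz₁E hz₂E e₁ e₂
      · obtain ⟨b, hb⟩ := (ν i).reg ⟨s, hsE⟩ m hs.1 hsm
        exact (ν i).red_pair hϖW (R := R + v) (r := r * b)
          (T₁ * ⟨s, hsE, hs.1.1⟩) (T₂ * ⟨s, hsE, hs.1.2⟩)
          (by rw [map_mul, map_mul, rX, (ν i).end₁_eq_toX hϖW _ ⟨s, hsE, hs.1.1⟩ hb])
          (by rw [map_mul, map_mul, rY, (ν i).end₂_eq_toY hϖW _ ⟨s, hsE, hs.1.2⟩ hb]) hϖE
          (show j < R + v by omega) (hΦ true).1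
          (hΦ true).2.1 (d.sub_le hZ0 (hΦ true).2.2) (h₁ true) (h₂ true) hy₁E hy₂E f₁ f₂
    have hn0 : d.n₀ ≤ n + m := by unfold NodalDatum.N₀ at hN; omega
    have hb₁ : d.g₁.red ⟨z₁ l, h₁ l⟩ ∈
        riemannRochSpace ((n + m) • d.C.D₁ - d.C.part₁ (d.redDiv Z)) := by
      intro Q
      by_cases hQ : ∃ i, d.C.x i = Q
      · obtain ⟨i, rfl⟩ := hQ
        simpa [Glued.part₁_apply, Glued.toPt₁_x, hgood.redDiv_node] using (hnode i).1
      · push Not at hQ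
        obtain ⟨T, hT⟩ := d.exists_coord_left Q hQ
        have hp2 := le_exp_pair (d.sideLeft Q hQ) hT hp hϖ0 hπϖ hv hu hu0 ht hdiv hs hsm
          (hsD _) (hΦ false).2.1 (hΦ false).2.2 (hΦ true).2.1 (hΦ true).2.2
          (show j + v < R + v by omega) (h₁ false) (h₂ false) (h₁ true) (h₂ true) hw₁ hw₂
          e₁ e₂ f₁ f₂ c₁ c₂
        refine (show (d.sideLeft Q hQ).Q.adicValuation ((d.sideLeft Q hQ).pr
          (d.g₁.red ⟨z₁ l, h₁ l⟩, d.g₂.red ⟨z₂ l, h₂ l⟩)) ≤ _ by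
            cases l
            exacts [hp2.1, hp2.2]).trans_eq ?_
        rw [map_sub, redDiv_nsmul_D d hn0, Finsupp.sub_apply, Finsupp.sub_apply,
          Glued.part₁_apply, d.C.toPt₁_of_ne Q hQ]
        show exp (-(d.redDiv Z (.left Q hQ) - d.C.secDiv (n + m) 1 (.left Q hQ))) = _
        rw [Glued.secDiv_left]
        simp
    have hb₂ : d.g₂.red ⟨z₂ l, h₂ l⟩ ∈
        riemannRochSpace ((n + m) • d.C.D₂ - d.C.part₂ (d.redDiv Z)) := by
      intro Q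
      by_cases hQ : ∃ i, d.C.y i = Q
      · obtain ⟨i, rfl⟩ := hQ
        simpa [Glued.part₂_apply, Glued.toPt₂_y, hgood.redDiv_node] using (hnode i).2.1
      · push Not at hQ
        obtain ⟨T, hT⟩ := d.exists_coord_right Q hQ
        have hp2 := le_exp_pair (d.sideRight Q hQ) hT hp hϖ0 hπϖ hv hu hu0 ht hdiv hs hsm
          (hsD _) (hΦ false).2.1 (hΦ false).2.2 (hΦ true).2.1 (hΦ true).2.2
          (show j + v < R + v by omega) (h₁ false) (h₂ false) (h₁ true) (h₂ true) hw₁ hw₂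
          e₁ e₂ f₁ f₂ c₁ c₂
        refine (show (d.sideRight Q hQ).Q.adicValuation ((d.sideRight Q hQ).pr
          (d.g₁.red ⟨z₁ l, h₁ l⟩, d.g₂.red ⟨z₂ l, h₂ l⟩)) ≤ _ by
            cases l
            exacts [hp2.1, hp2.2]).trans_eq ?_
        rw [map_sub, redDiv_nsmul_D d hn0, Finsupp.sub_apply, Finsupp.sub_apply,
          Glued.part₂_apply, d.C.toPt₂_of_ne Q hQ]
        show exp (-(d.redDiv Z (.right Q hQ) - d.C.secDiv (n + m) 1 (.right Q hQ))) = _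
        rw [Glued.secDiv_right]
        simp
    have hr0 : (0 : d.C.Pt →₀ ℤ) ≤ d.redDiv Z := d.redDiv_nonneg hZ0
    exact ⟨⟨rrSpace_mono (sub_le_self _ (Finsupp.le_def.mpr fun _ => Finsupp.le_def.mp hr0 _)) hb₁,
      rrSpace_mono (sub_le_self _ (Finsupp.le_def.mpr fun _ => Finsupp.le_def.mp hr0 _)) hb₂,
      fun i => (hnode i).2.2⟩, hb₁, hb₂⟩
  exact ⟨Φ, hΦ⟩

end FermatAgent.MazurPrinciple
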