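import Fermat.Agent.MW.JZero
import Fermat.Agent.MW.MulDiv.JZero
import Fermat.Agent.ModCurve.Torsion.Interface
import Mathlib.LinearAlgebra.FreeModule.PID

/-!
# Equivariant endomorphisms of `J₀(N)(ℚ̄)` killing the torsion vanish

A point `x` is `n` times some `y` for every `n`; the image of `y` is fixed by the Galois group of
a field of definition of `x`, so the image of `x` is infinitely divisible in a finitely generated
group.
-/

set_option autoImplicit false
set_option synthInstance.maxHeartbeats 200000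

noncomputable section

open ModularCurve AlgebraicCurve

namespace FermatAgent.MazurPrinciple

local notation "Qb" => AlgebraicClosure ℚ
local notation "GQ" => AlgebraicClosure ℚ ≃ₐ[ℚ] AlgebraicClosure ℚ

/-- An infinitely divisible element of a finitely generated group is zero. -/
theorem eq_zero_of_divisible {G : Type*} [AddCommGroup G] [AddGroup.FG G] {z : G}
    (h : ∀ n : ℕ, 0 < n → ∃ y : G, n • y = z) : z = 0 := by
  classical
  have : Module.Finite ℤ G := Module.Finite.iff_addGroup_fg.mpr inferInstance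
  set T := Submodule.torsion ℤ G with hT
  have : Finite T := Module.finite_of_fg_torsion T fun x => by
    obtain ⟨a, ha⟩ := (Submodule.mem_torsion_iff (x : G)).mp x.2
    exact ⟨a, Subtype.ext ha⟩
  obtain ⟨r, b⟩ := Module.basisOfFiniteTypeTorsionFree' (R := ℤ) (M := G ⧸ T)
  have hz : (Submodule.Quotient.mk z : G ⧸ T) = 0 := by
    refine b.repr.injective (Finsupp.ext fun i => ?_)
    rw [map_zero, Finsupp.zero_apply]
    obtain ⟨c, hc0⟩ : ∃ c : ℤ, b.repr (Submodule.Quotient.mk z) i = c := ⟨_, rfl⟩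
    rw [hc0]
    obtain ⟨y, hy⟩ := h (c.natAbs + 1) (Nat.succ_pos _)
    have hc : c = ((c.natAbs + 1 : ℕ) : ℤ) * b.repr (Submodule.Quotient.mk y) i := by
      have h1 : b.repr (Submodule.Quotient.mk ((c.natAbs + 1) • y)) i = c := by rw [hy, hc0]
      rw [Submodule.Quotient.mk_smul, map_nsmul, Finsupp.smul_apply, nsmul_eq_mul] at h1
      exact_mod_cast h1.symm
    by_contra hne
    have := Int.natAbs_le_of_dvd_ne_zero (Dvd.intro _ hc.symm) hne
    rw [Int.natAbs_natCast] at this
    omega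
  have hzT : z ∈ T := (Submodule.Quotient.mk_eq_zero T).mp hz
  obtain ⟨y, hy⟩ := h (Nat.card T * addOrderOf (⟨z, hzT⟩ : T))
    (Nat.mul_pos Nat.card_pos (addOrderOf_pos _))
  have hyT : y ∈ T := (Submodule.mem_torsion_iff y).mpr ⟨⟨((Nat.card T * addOrderOf (⟨z, hzT⟩ : T) *
      addOrderOf (⟨z, hzT⟩ : T) : ℕ) : ℤ), mem_nonZeroDivisors_of_ne_zero
        (by exact_mod_cast (Nat.mul_pos (Nat.mul_pos Nat.card_pos (addOrderOf_pos _))
          (addOrderOf_pos _)).ne')⟩, by
    show (((Nat.card T * addOrderOf (⟨z, hzT⟩ : T) * addOrderOf (⟨z, hzT⟩ : T) : ℕ) : ℤ)) • y = 0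
    rw [natCast_zsmul, Nat.mul_comm _ (addOrderOf (⟨z, hzT⟩ : T)), mul_nsmul', hy]
    exact congrArg Subtype.val (addOrderOf_nsmul_eq_zero (⟨z, hzT⟩ : T))⟩
  rw [← hy, Nat.mul_comm, mul_nsmul']
  have : Nat.card T • (⟨y, hyT⟩ : T) = 0 := card_nsmul_eq_zero'
  rw [show Nat.card T • y = ((Nat.card T • (⟨y, hyT⟩ : T) : T) : G) from rfl, this]
  simp

variable {N : ℕ} [NeZero N]

/-- An equivariant endomorphism killing the torsion is zero. -/
theorem eq_zero_of_kills_torsion (φ : JZero N →+ JZero N)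
    (hgal : ∀ (σ : GQ) (x : JZero N), φ (σ • x) = σ • φ x)
    (htor : ∀ (n : ℕ) (x : JZero N), 0 < n → n • x = 0 → φ x = 0) (x : JZero N) : φ x = 0 := by
  set D := MW.jZeroData N
  obtain ⟨E₀, hE₀, hfg⟩ := D.exists_field_fg_of_le
  obtain ⟨Ex, hEx, hx⟩ := ModCurveTorsion.exists_finiteDimensional_fixing N x
  set E := E₀ ⊔ Ex
  have : AddGroup.FG (D.rationalClasses E) := hfg E inferInstance le_sup_left
  have hmem : ∀ z : JZero N, (∀ σ ∈ E.fixingSubgroup, σ • z = z) → z ∈ D.rationalClasses E :=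
    fun z hz σ hσ => hz σ hσ
  have hxE : ∀ σ ∈ E.fixingSubgroup, σ • x = x := fun σ hσ =>
    hx σ (IntermediateField.fixingSubgroup_antitone le_sup_right hσ)
  have hφx : φ x ∈ D.rationalClasses E := hmem _ fun σ hσ => by rw [← hgal, hxE σ hσ]
  refine congrArg Subtype.val (eq_zero_of_divisible (z := (⟨φ x, hφx⟩ : D.rationalClasses E))
    fun n hn => ?_)
  obtain ⟨y, hy⟩ := MW.exists_nsmul_eq_jZero (ModCurveTorsion.torsionModel N) hn x
  refine ⟨⟨φ y, hmem _ fun σ hσ => ?_⟩, Subtype.ext ?_⟩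
  · rw [← hgal, ← sub_eq_zero, ← map_sub]
    refine htor n _ hn ?_
    have h1 : n • σ • y = σ • (n • y) :=
      (map_nsmul (DistribSMul.toAddMonoidHom (JZero N) σ) n y).symm
    rw [nsmul_sub, h1, hy, hxE σ hσ, sub_self]
  · show n • φ y = φ x
    rw [← map_nsmul, hy]

end FermatAgent.MazurPrinciple

end
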