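import Fermat.Agent.MazurPrinciple.Roots

/-!
# `p`-th roots at the ends of an annulus

Units of `(W / ϖ ^ R)((u))` with trivial `p`-th power are roots of unity modulo a slightly smaller
power; elements of the annulus ring which are `p`-th powers at both ends have approximate roots.
-/

set_option autoImplicit false
set_option linter.style.haveILetI false
set_option linter.unusedSectionVars false

noncomputable section

namespace FermatAgent.MazurPrinciple

open ModularCurve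

theorem IsPos.pow {S : Type*} [CommRing S] {P : LaurentSeries S} (h : IsPos P) (n : ℕ) :
    IsPos (P ^ n) := by
  induction n with
  | zero => simpa using isPos_one
  | succ n ih => rw [pow_succ]; exact ih.mul h

theorem IsNeg.pow {S : Type*} [CommRing S] {P : LaurentSeries S} (h : IsNeg P) (n : ℕ) :
    IsNeg (P ^ n) := by
  induction n with
  | zero => simpa using isNeg_one
  | succ n ih => rw [pow_succ]; exact ih.mul h

variable {W : Type*} [CommRing W] (ϖ : W)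

/-- The transition maps between the quotients. -/
def modPowFactor {R' R : ℕ} (h : R' ≤ R) : modPow ϖ R →+* modPow ϖ R' :=
  Ideal.Quotient.factor (Ideal.span_singleton_le_span_singleton.mpr (pow_dvd_pow ϖ h))

@[simp] theorem modPowFactor_mk {R' R : ℕ} (h : R' ≤ R) (w : W) :
    modPowFactor ϖ h (modPowMk ϖ R w) = modPowMk ϖ R' w := rfl

/-- The induced transition map on Laurent series. -/
def levelMap {R' R : ℕ} (h : R' ≤ R) :
    LaurentSeries (modPow ϖ R) →+* LaurentSeries (modPow ϖ R') :=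
  coeffMap (modPowFactor ϖ h)

theorem levelMap_ofPowerSeries {R' R : ℕ} (h : R' ≤ R) (P : PowerSeries W) :
    levelMap ϖ h (HahnSeries.ofPowerSeries ℤ _ (PowerSeries.map (modPowMk ϖ R) P)) =
      HahnSeries.ofPowerSeries ℤ _ (PowerSeries.map (modPowMk ϖ R') P) := by
  ext i
  rw [levelMap, coeffMap_coeff, coeff_ofPowerSeries, coeff_ofPowerSeries]
  split_ifs <;> simp

theorem exists_lift_pos {R : ℕ} {z : LaurentSeries (modPow ϖ R)} (h : IsPos z) :
    ∃ P : PowerSeries W, PowerSeries.constantCoeff P = 1 ∧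
      HahnSeries.ofPowerSeries ℤ _ (PowerSeries.map (modPowMk ϖ R) P) = z := by
  classical
  obtain ⟨P₀, h0, rfl⟩ := h
  choose c hc using fun i => Ideal.Quotient.mk_surjective (PowerSeries.coeff i P₀)
  refine ⟨PowerSeries.mk fun i => if i = 0 then 1 else c i,
    by simp [← PowerSeries.coeff_zero_eq_constantCoeff_apply], ?_⟩
  congr 1
  ext i
  rw [PowerSeries.coeff_map, PowerSeries.coeff_mk]
  rcases eq_or_ne i 0 with rfl | hi
  · simp [h0]
  · rw [if_neg hi]; exact hc i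

section DVR

variable [IsDomain W] [IsDiscreteValuationRing W] (hϖ : Irreducible ϖ) {p : ℕ} (hp : p.Prime)
  {v : ℕ} (hv : ∃ w : W, IsUnit w ∧ (p : W) = ϖ ^ v * w)
include hϖ hp hv

theorem levelMap_eq_one_of_isPos {R R' : ℕ} (hR : R' + v ≤ R) (hpR : R' + v ≤ p * R')
    {P : LaurentSeries (modPow ϖ R)} (hP : IsPos P) (h : P ^ p = 1) :
    levelMap ϖ (show R' ≤ R by omega) P = 1 := by
  obtain ⟨P₀, h0, rfl⟩ := exists_lift_pos ϖ hP
  rw [← map_pow, ← map_pow, ← map_one (HahnSeries.ofPowerSeries ℤ (modPow ϖ R))] at h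
  have h1 := HahnSeries.ofPowerSeries_injective h
  have h2 := dvd_coeff_sub_one_of_pow hϖ.ne_zero hp hv hR hpR h0 fun i => by
    rw [← modPowMk_eq_zero_iff, ← PowerSeries.coeff_map, map_sub, map_one, h1, sub_self, map_zero]
  rw [levelMap_ofPowerSeries, ← map_one (HahnSeries.ofPowerSeries ℤ (modPow ϖ R'))]
  congr 1
  rw [← sub_eq_zero, ← map_one (PowerSeries.map (modPowMk ϖ R')), ← map_sub]
  ext i
  rw [PowerSeries.coeff_map, map_zero]
  exact (modPowMk_eq_zero_iff ϖ R' _).mpr (h2 i)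

theorem levelMap_eq_one_of_isNeg {R R' : ℕ} (hR : R' + v ≤ R) (hpR : R' + v ≤ p * R')
    {Q : LaurentSeries (modPow ϖ R)} (hQ : IsNeg Q) (h : Q ^ p = 1) :
    levelMap ϖ (show R' ≤ R by omega) Q = 1 := by
  obtain ⟨Q₀, h0, -, rfl⟩ := hQ
  have hinj : ∀ A B : Polynomial (modPow ϖ R), negPart A = negPart B → A = B := fun A B e => by
    ext m
    rw [← coeff_negPart, e, coeff_negPart]
  rw [← map_pow, ← map_one negPart] at h
  have h1 : (Q₀ : PowerSeries (modPow ϖ R)) ^ p = 1 := by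
    rw [← Polynomial.coe_pow, hinj _ _ h, Polynomial.coe_one]
  classical
  choose c hc using fun i => Ideal.Quotient.mk_surjective (Q₀.coeff i)
  let P₀ : PowerSeries W := PowerSeries.mk fun i => if i = 0 then 1 else c i
  have hP₀ : PowerSeries.map (modPowMk ϖ R) P₀ = (Q₀ : PowerSeries (modPow ϖ R)) := by
    ext i
    rw [PowerSeries.coeff_map, PowerSeries.coeff_mk, Polynomial.coeff_coe]
    rcases eq_or_ne i 0 with rfl | hi
    · simp [h0]
    · rw [if_neg hi]; exact hc i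
  have h2 := dvd_coeff_sub_one_of_pow hϖ.ne_zero hp hv hR hpR
    (P := P₀) (by simp [P₀, ← PowerSeries.coeff_zero_eq_constantCoeff_apply]) fun i => by
      rw [← modPowMk_eq_zero_iff, ← PowerSeries.coeff_map, map_sub, map_pow, map_one, hP₀, h1,
        sub_self, map_zero]
  have hQ' : Q₀.map (modPowFactor ϖ (show R' ≤ R by omega)) = 1 := by
    ext i
    have := (modPowMk_eq_zero_iff ϖ R' _).mpr (h2 i)
    rw [map_sub, map_sub, sub_eq_zero, ← PowerSeries.coeff_map] at this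
    have e : modPowFactor ϖ (show R' ≤ R by omega) (PowerSeries.coeff i
        (PowerSeries.map (modPowMk ϖ R) P₀)) = modPowMk ϖ R' (PowerSeries.coeff i P₀) := by
      rw [PowerSeries.coeff_map, modPowFactor_mk]
    rw [hP₀, Polynomial.coeff_coe, ← PowerSeries.coeff_map, this] at e
    rw [Polynomial.coeff_map, e, PowerSeries.coeff_one, Polynomial.coeff_one]
    split_ifs <;> simp
  ext n
  rw [levelMap, coeffMap_coeff, ← map_one (negPart (S := modPow ϖ R')), ← hQ']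
  rcases lt_or_ge 0 n with hn | hn
  · rw [coeff_negPart_pos _ hn, coeff_negPart_pos _ hn, map_zero]
  · obtain ⟨m, rfl⟩ : ∃ m : ℕ, n = -(m : ℤ) := ⟨(-n).toNat, by omega⟩
    rw [coeff_negPart, coeff_negPart, Polynomial.coeff_map]

/-- A unit of `(W / ϖ ^ R)((u))` with trivial `p`-th power is a root of unity modulo `ϖ ^ R'`. -/
theorem exists_levelMap_eq_root {ζ : W} (hζ : IsPrimitiveRoot ζ p) {R R' : ℕ}
    (hR : R' + v ≤ R) (hR' : R' ≠ 0) (hpR : R' + v ≤ p * R') {M : LaurentSeries (modPow ϖ R)}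
    (h : M ^ p = 1) :
    ∃ i < p, levelMap ϖ (show R' ≤ R by omega) M =
      HahnSeries.C (modPowMk ϖ R' (ζ ^ i)) := by
  letI := Ann.isLocalRing_modPow ϖ hϖ (show R ≠ 0 by omega)
  have hm := Ann.isNilpotent_maximalIdeal_modPow ϖ hϖ (show R ≠ 0 by omega)
  have hMu : IsUnit M := (isUnit_pow_iff hp.ne_zero).mp (h ▸ isUnit_one)
  obtain ⟨c, n, P, Q, hP, hQ, hM⟩ := exists_decomp hm hMu
  have hpow : (1 : LaurentSeries (modPow ϖ R)) =
      HahnSeries.single ((p : ℤ) * n) ((c ^ p : (modPow ϖ R)ˣ) : modPow ϖ R) * P ^ p * Q ^ p := by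
    rw [← h, hM, mul_pow, mul_pow, HahnSeries.single_pow, nsmul_eq_mul, Units.val_pow_eq_pow_val]
  obtain ⟨hc, hn⟩ := IsDecomp.unique (z := (1 : LaurentSeries (modPow ϖ R)))
    ⟨P ^ p, Q ^ p, hP.pow p, hQ.pow p, hpow⟩ isDecomp_one
  have hn0 : n = 0 := by
    rcases mul_eq_zero.mp hn with h' | h'
    · exact absurd h' (by exact_mod_cast hp.ne_zero)
    · exact h'
  have hPp : P ^ p = 1 := pos_part_unique (c := c ^ p) (d := 1) (m := (p : ℤ) * n) (n := 0)
    (hP.pow p) isPos_one (hQ.pow p) isNeg_one (by rw [← hpow]; simp)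
  have hQp : Q ^ p = 1 := by
    rw [hn, hc, hPp] at hpow
    simpa using hpow.symm
  have h1 := levelMap_eq_one_of_isPos ϖ hϖ hp hv hR hpR hP hPp
  have h2 := levelMap_eq_one_of_isNeg ϖ hϖ hp hv hR hpR hQ hQp
  obtain ⟨γ, hγ⟩ := Ideal.Quotient.mk_surjective (c : modPow ϖ R)
  have hγp : ϖ ^ R ∣ γ ^ p - (1 : W) ^ p := by
    rw [← modPowMk_eq_zero_iff, map_sub, map_pow, map_pow, map_one, one_pow]
    show (Ideal.Quotient.mk _ γ) ^ p - 1 = 0
    rw [hγ, ← Units.val_pow_eq_pow_val, hc, Units.val_one, sub_self]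
  obtain ⟨i, hi, hdvd⟩ := exists_root_of_unity_dvd_sub hϖ hp hζ hv isUnit_one hγp
  refine ⟨i, hi, ?_⟩
  rw [hM, map_mul, map_mul, h1, h2, mul_one, mul_one, hn0, levelMap, coeffMap_single, ← hγ,
    modPowFactor_mk, HahnSeries.C_apply]
  congr 1
  rw [← sub_eq_zero, ← map_sub, modPowMk_eq_zero_iff]
  exact (pow_dvd_pow ϖ (show R' ≤ R - v by omega)).trans (by simpa using hdvd)

end DVR

namespace Ann

variable [IsAdicComplete (Ideal.span {ϖ}) W]

theorem levelMap_toX {R' R : ℕ} (h : R' ≤ R) (z : Ann ϖ) :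
    levelMap ϖ h (toX ϖ R z) = toX ϖ R' z := by
  obtain ⟨f, rfl⟩ := Ideal.Quotient.mk_surjective z
  ext n
  rw [levelMap, coeffMap_coeff, toX_mk, toX_mk, coeff_endX, coeff_endX, modPowFactor_mk]

theorem levelMap_toY {R' R : ℕ} (h : R' ≤ R) (z : Ann ϖ) :
    levelMap ϖ h (toY ϖ R z) = toY ϖ R' z := by
  obtain ⟨f, rfl⟩ := Ideal.Quotient.mk_surjective z
  ext n
  rw [levelMap, coeffMap_coeff, toY_mk, toY_mk, coeff_endY, coeff_endY, modPowFactor_mk]

theorem toX_serX_congr {R : ℕ} {P P' : PowerSeries W}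
    (h : PowerSeries.map (modPowMk ϖ R) P = PowerSeries.map (modPowMk ϖ R) P') :
    toX ϖ R (serX ϖ P) = toX ϖ R (serX ϖ P') := by
  rw [toX_serX, toX_serX, h]

theorem toX_serY_congr {R : ℕ} {P P' : PowerSeries W}
    (h : PowerSeries.map (modPowMk ϖ R) P = PowerSeries.map (modPowMk ϖ R) P') :
    toX ϖ R (serY ϖ P) = toX ϖ R (serY ϖ P') := by
  rw [toX_serY, toX_serY]
  congr 1
  refine Finset.sum_congr rfl fun j _ => ?_
  have := congrArg (PowerSeries.coeff j) h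
  rw [PowerSeries.coeff_map, PowerSeries.coeff_map] at this
  congr 1
  rw [map_mul (modPowMk ϖ R), map_mul (modPowMk ϖ R), this]

variable [IsDomain W] [IsDiscreteValuationRing W] (hϖ : Irreducible ϖ) {p : ℕ} (hp : p.Prime)
  {v : ℕ} (hv : ∃ w : W, IsUnit w ∧ (p : W) = ϖ ^ v * w)
include hϖ hp hv

theorem exponent_y_eq_zero {ε g : Ann ϖ} {a b : ℕ} (R : ℕ) (hR : 1 ≤ R)
    {U : LaurentSeries (modPow ϖ R)} (hU : levelMap ϖ hR U ≠ 0)
    (h : toX ϖ R (ε * x ϖ ^ a * y ϖ ^ b * g) = U) : b = 0 := by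
  by_contra hb
  apply hU
  rw [← h, levelMap_toX, map_mul, map_mul, map_mul, map_pow, map_pow, toX_y,
    (modPowMk_eq_zero_iff ϖ 1 ϖ).mpr (by rw [pow_one]), map_zero, zero_pow hb]
  ring

/-- An element that is a `p`-th power at both ends is, up to roots of unity at the ends, the
`p`-th power of an element of the annulus ring. -/
theorem exists_root {ζ : W} (hζ : IsPrimitiveRoot ζ p) {R R' : ℕ} (hR : R' + v ≤ R)
    (hR' : R' ≠ 0) (hpR : R' + v ≤ p * R') {a : Ann ϖ} (ha : a ≠ 0)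
    (hdiv : ∀ π : Ann ϖ, Prime π → ¬ π ∣ const ϖ ϖ → p ∣ multiplicity π a)
    {U₁ U₂ : LaurentSeries (modPow ϖ R)} (hU₁ : IsUnit U₁) (hU₂ : IsUnit U₂)
    (h₁ : toX ϖ R a = U₁ ^ p) (h₂ : toY ϖ R a = U₂ ^ p) :
    ∃ r : Ann ϖ, ∃ i < p, ∃ k < p,
      toX ϖ R' r = HahnSeries.C (modPowMk ϖ R' (ζ ^ i)) *
        levelMap ϖ (show R' ≤ R by omega) U₁ ∧
      toY ϖ R' r = HahnSeries.C (modPowMk ϖ R' (ζ ^ k)) *
        levelMap ϖ (show R' ≤ R by omega) U₂ := by
  letI := isDomain ϖ hϖ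
  letI := isLocalRing_modPow ϖ hϖ (show R ≠ 0 by omega)
  haveI := isLocalRing_modPow ϖ hϖ one_ne_zero
  have hm := isNilpotent_maximalIdeal_modPow ϖ hϖ (show R ≠ 0 by omega)
  obtain ⟨ε, g, α, β, hε, ha'⟩ := exists_monomial_mul_pow ϖ hϖ ha p hdiv
  have hne : ∀ U : LaurentSeries (modPow ϖ R), IsUnit U →
      levelMap ϖ (show 1 ≤ R by omega) U ≠ 0 := fun U hU => (hU.map _).ne_zero
  have hβ : β = 0 := exponent_y_eq_zero ϖ hϖ hp hv R (by omega) (hne _ (hU₁.pow p)) (ha' ▸ h₁)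
  have hα : α = 0 := by
    by_contra h
    apply hne _ (hU₂.pow p)
    rw [← h₂, levelMap_toY, ha', map_mul, map_mul, map_mul, map_pow, map_pow, toY_x,
      (modPowMk_eq_zero_iff ϖ 1 ϖ).mpr (by rw [pow_one]), map_zero, zero_pow h]
    ring
  subst hα hβ
  rw [pow_zero, pow_zero, mul_one, mul_one] at ha'
  subst ha'
  obtain ⟨c, P, Q, hP, hQ, w, hw⟩ := exists_approx ϖ hϖ hε R (by omega)
  have h0 : modPowMk ϖ R (ϖ ^ R) = 0 := (modPowMk_eq_zero_iff ϖ R _).mpr dvd_rfl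
  have hεeq : ε = const ϖ (c : W) * serX ϖ P * serY ϖ Q + const ϖ (ϖ ^ R) * w := by
    linear_combination hw
  rw [map_mul, map_pow, hεeq, map_add, map_mul (toX ϖ R) (const ϖ (ϖ ^ R)), toX_const ϖ R (ϖ ^ R),
    h0, map_zero, zero_mul, add_zero] at h₁
  rw [map_mul, map_pow, hεeq, map_add, map_mul (toY ϖ R) (const ϖ (ϖ ^ R)), toY_const ϖ R (ϖ ^ R),
    h0, map_zero, zero_mul, add_zero] at h₂
  -- roots of the positive parts at the two ends
  have hroot : ∀ (U G : LaurentSeries (modPow ϖ R)) (A B : LaurentSeries (modPow ϖ R)),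
      IsUnit U → IsPos A → IsNeg B →
        HahnSeries.C (modPowMk ϖ R c) * A * B * G ^ p = U ^ p →
      ∃ (γ : W) (P₀ : PowerSeries W), PowerSeries.constantCoeff P₀ = 1 ∧
        modPowMk ϖ R (γ ^ p) = modPowMk ϖ R c ∧
        HahnSeries.ofPowerSeries ℤ _ (PowerSeries.map (modPowMk ϖ R) (P₀ ^ p)) = A := by
    intro U G A B hU hA hB e
    have hG : IsUnit G := by
      have : IsUnit (HahnSeries.C (modPowMk ϖ R c) * A * B * G ^ p) := e ▸ hU.pow p
      exact (isUnit_pow_iff hp.ne_zero).mp (isUnit_of_mul_isUnit_right this)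
    obtain ⟨G', hG'⟩ := isUnit_iff_exists_inv.mp hG
    obtain ⟨γ, n, P', Q', hP', hQ', hM⟩ := exists_decomp hm
      (hU.mul (IsUnit.of_mul_eq_one_right _ hG'))
    have e' : HahnSeries.single (0 : ℤ) (modPowMk ϖ R c) * A * B =
        HahnSeries.single ((p : ℤ) * n) ((γ ^ p : (modPow ϖ R)ˣ) : modPow ϖ R) *
          P' ^ p * Q' ^ p := by
      rw [Units.val_pow_eq_pow_val, ← nsmul_eq_mul, ← HahnSeries.single_pow, ← mul_pow, ← mul_pow,
        ← hM, mul_pow, ← e, HahnSeries.C_apply]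
      have : G ^ p * G' ^ p = 1 := by rw [← mul_pow, hG', one_pow]
      linear_combination (-(HahnSeries.single (0 : ℤ) (modPowMk ϖ R c) * A * B)) * this
    obtain ⟨cu, hcu⟩ : ∃ cu : (modPow ϖ R)ˣ, (cu : modPow ϖ R) = modPowMk ϖ R c :=
      ⟨Units.map (modPowMk ϖ R).toMonoidHom c, rfl⟩
    rw [← hcu] at e'
    have hA' := pos_part_unique hA (hP'.pow p) hB (hQ'.pow p) e'
    obtain ⟨hc, -⟩ := IsDecomp.unique (z := HahnSeries.single (0 : ℤ) (cu : modPow ϖ R) * A * B)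
      ⟨A, B, hA, hB, rfl⟩ ⟨P' ^ p, Q' ^ p, hP'.pow p, hQ'.pow p, e'⟩
    obtain ⟨γ₀, hγ₀⟩ := Ideal.Quotient.mk_surjective (γ : modPow ϖ R)
    obtain ⟨P₀, hP₀, eP₀⟩ := exists_lift_pos ϖ hP'
    refine ⟨γ₀, P₀, hP₀, ?_, by rw [map_pow, map_pow, eP₀, hA']⟩
    rw [map_pow, ← hcu, hc, Units.val_pow_eq_pow_val]
    exact congrArg (· ^ p) hγ₀
  obtain ⟨γ, P₀, hP₀, hγ, eP⟩ := hroot U₁ (toX ϖ R g) (toX ϖ R (serX ϖ P))
    (toX ϖ R (serY ϖ Q)) hU₁ (isPos_toX_serX ϖ hϖ R hP)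
    (isNeg_toX_serY ϖ hϖ (by omega) hQ) (by rw [← toX_const, ← map_mul, ← map_mul]; exact h₁)
  obtain ⟨-, Q₀, hQ₀, -, eQ⟩ := hroot U₂ (toY ϖ R g) (toY ϖ R (serY ϖ Q))
    (toY ϖ R (serX ϖ P)) hU₂ (by rw [toY_serY]; exact isPos_toX_serX ϖ hϖ R hQ)
    (by rw [toY_serX]; exact isNeg_toX_serY ϖ hϖ (by omega) hP)
    (by rw [← toY_const, ← map_mul, ← map_mul, mul_right_comm (const ϖ (c : W))]; exact h₂)
  rw [toX_serX] at eP
  rw [toY_serY, toX_serX] at eQ
  have hPm := HahnSeries.ofPowerSeries_injective eP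
  have hQm := HahnSeries.ofPowerSeries_injective eQ
  set r := g * (const ϖ γ * serX ϖ P₀ * serY ϖ Q₀) with hr
  have hrX : toX ϖ R r ^ p = U₁ ^ p := by
    rw [hr, ← map_pow, mul_pow, mul_pow, mul_pow, ← map_pow (const ϖ), ← map_pow (serX ϖ),
      ← map_pow (serY ϖ), map_mul, map_mul, map_mul, toX_const, hγ, ← toX_const,
      toX_serX_congr ϖ hPm, toX_serY_congr ϖ hQm, map_pow, ← h₁, map_mul, map_mul]
    ring
  have hrY : toY ϖ R r ^ p = U₂ ^ p := by
    rw [hr, ← map_pow, mul_pow, mul_pow, mul_pow, ← map_pow (const ϖ), ← map_pow (serX ϖ),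
      ← map_pow (serY ϖ), map_mul, map_mul, map_mul, toY_const, hγ, ← toY_const, toY_serX,
      toY_serY, toX_serX_congr ϖ hQm, toX_serY_congr ϖ hPm, ← toY_serX, ← toY_serY, map_pow, ← h₂,
      map_mul, map_mul]
    ring
  have fin : ∀ (z U : LaurentSeries (modPow ϖ R)), IsUnit U → z ^ p = U ^ p →
      ∃ i < p, levelMap ϖ (show R' ≤ R by omega) z = HahnSeries.C (modPowMk ϖ R' (ζ ^ i)) *
        levelMap ϖ (show R' ≤ R by omega) U := by
    intro z U hU e
    obtain ⟨U', hU'⟩ := isUnit_iff_exists_inv.mp hU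
    obtain ⟨i, hi, h⟩ := exists_levelMap_eq_root ϖ hϖ hp hv hζ hR hR' hpR (M := z * U')
      (by rw [mul_pow, e, ← mul_pow, hU', one_pow])
    refine ⟨i, hi, ?_⟩
    rw [← h, ← map_mul, mul_assoc, mul_comm U', hU', mul_one]
  obtain ⟨i, hi, e₁⟩ := fin _ _ hU₁ hrX
  obtain ⟨k, hk, e₂⟩ := fin _ _ hU₂ hrY
  exact ⟨r, i, hi, k, hk, by rw [← levelMap_toX ϖ (show R' ≤ R by omega), e₁],
    by rw [← levelMap_toY ϖ (show R' ≤ R by omega), e₂]⟩

end Ann

end FermatAgent.MazurPrinciple
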