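import Fermat.Agent.MazurPrinciple.Peu.Curve
import Fermat.Agent.MazurPrinciple.InertiaField

/-!
# The local base of the `p`-torsion of a curve

The inertia field with the coordinates of `E[p]` and the `p`-th roots of unity: stable under inertia,
and for peu ramifiée `E[p]` it contains no `p`-th root of `p` times a unit of the inertia field.
-/

set_option autoImplicit false

open scoped WeierstrassCurve.Affine

noncomputable section

namespace FermatAgent.MazurPrinciple

open WeierstrassCurve WeierstrassCurve.Affine FermatAgent.Local FermatAgent.RTLift.Setup Matrix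
open FermatAgent.TW.Flat (inertiaCyclo mem_inertiaCyclo)

local notation "Qb" => AlgebraicClosure ℚ
local notation "GQ" => AlgebraicClosure ℚ ≃ₐ[ℚ] AlgebraicClosure ℚ

variable {W : WeierstrassCurve ℤ} {p : ℕ} [Fact p.Prime] {A : ValuationSubring Qb}
  (hΔ : (W.map (Int.castRingHom ℚ)).Δ ≠ 0)

/-- Ordinate of a point. -/
def pointY {V : WeierstrassCurve.Affine Qb} : V.Point → Qb
  | .zero => 0
  | .some _ y _ => y

theorem coord_smul (σ : GQ) (P : (qbarCurve W).Point) :
    LocalP.xCoord (σ • P) = σ (LocalP.xCoord P) ∧ pointY (σ • P) = σ (pointY P) := by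
  rw [galois_smul_eq_conjPoint]
  rcases P with _ | ⟨x, y, h⟩
  · exact ⟨(map_zero σ).symm, (map_zero σ).symm⟩
  · exact ⟨rfl, rfl⟩

/-- Coordinates of the `p`-torsion and the `p`-th roots of unity. -/
def torsionSet : Set Qb :=
  Set.range (fun x => LocalP.xCoord (torPt (p := p) hΔ x)) ∪
    Set.range (fun x => pointY (torPt (p := p) hΔ x)) ∪ {z | z ^ p = 1}

theorem finite_torsionSet : (torsionSet (p := p) hΔ).Finite :=
  ((Set.finite_range _).union (Set.finite_range _)).union
    ((Polynomial.nthRoots p (1 : Qb)).toFinset.finite_toSet.subset fun z hz => by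
      simpa [Polynomial.mem_nthRoots (Fact.out : p.Prime).pos] using hz)

theorem map_torsionSet (σ : GQ) {z : Qb} (hz : z ∈ torsionSet (p := p) hΔ) :
    σ z ∈ torsionSet (p := p) hΔ := by
  rcases hz with (⟨x, rfl⟩ | ⟨x, rfl⟩) | hz
  · exact Or.inl (Or.inl ⟨gmat (p := p) hΔ σ *ᵥ x, by
      show LocalP.xCoord (torPt hΔ _) = _
      rw [torPt_gmat, (coord_smul σ _).1]⟩)
  · exact Or.inl (Or.inr ⟨gmat (p := p) hΔ σ *ᵥ x, by
      show pointY (torPt hΔ _) = _
      rw [torPt_gmat, (coord_smul σ _).2]⟩)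
  · exact Or.inr (show σ z ^ p = 1 by rw [← map_pow, show z ^ p = 1 from hz, map_one])

/-- The field of `E[p]`. -/
def torsionField (p : ℕ) [Fact p.Prime] {W : WeierstrassCurve ℤ}
    (hΔ : (W.map (Int.castRingHom ℚ)).Δ ≠ 0) : IntermediateField ℚ Qb :=
  IntermediateField.adjoin ℚ (torsionSet (p := p) hΔ)

instance finiteDimensional_torsionField : FiniteDimensional ℚ (torsionField p hΔ) := by
  have : Algebra.IsAlgebraic ℚ Qb := AlgebraicClosure.isAlgebraic ℚ
  have := (finite_torsionSet (p := p) hΔ).to_subtype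
  exact IntermediateField.finiteDimensional_adjoin fun x _ => Algebra.IsIntegral.isIntegral x

/-- The local base of `E[p]`. -/
def LocalBase.ofTorsion (hA : A.LiesOverPrime p) : LocalBase A p :=
  LocalBase.ofField Fact.out hA (torsionField p hΔ)

namespace LocalBase

variable (hA : A.LiesOverPrime p)

theorem inertia_mem_ofTorsion {a : Qb} (ha : a ∈ inertiaField A) :
    a ∈ (LocalBase.ofTorsion hΔ hA).S :=
  LocalBase.mem_ofField_left _ hA _ ha

theorem root_mem_ofTorsion {z : Qb} (hz : z ^ p = 1) : z ∈ (LocalBase.ofTorsion hΔ hA).S :=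
  LocalBase.mem_ofField_right _ hA _ (IntermediateField.subset_adjoin ℚ _ (Or.inr hz))

theorem map_mem_ofTorsion {σ : GQ} (hσ : σ ∈ A.inertiaSubgroupIn ℚ) {x : Qb}
    (hx : x ∈ (LocalBase.ofTorsion hΔ hA).S) : σ x ∈ (LocalBase.ofTorsion hΔ hA).S := by
  have h : inertiaField A ⊔ torsionField p hΔ ≤
      IntermediateField.comap (σ : Qb →ₐ[ℚ] Qb) (inertiaField A ⊔ torsionField p hΔ) := by
    refine sup_le (fun z hz => ?_) (IntermediateField.adjoin_le_iff.2 fun z hz => ?_)
    · show σ z ∈ inertiaField A ⊔ torsionField p hΔ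
      rw [mem_inertiaField.1 hz σ hσ]
      exact (le_sup_left : inertiaField A ≤ _) hz
    · show σ z ∈ inertiaField A ⊔ torsionField p hΔ
      exact (le_sup_right : torsionField p hΔ ≤ _)
        (IntermediateField.subset_adjoin ℚ _ (map_torsionSet hΔ σ hz))
  exact h hx

theorem fixed_ofTorsion {σ : GQ} (hσ : σ ∈ inertiaCyclo p A) (h1 : gmat (p := p) hΔ σ = 1)
    {x : Qb} (hx : x ∈ (LocalBase.ofTorsion hΔ hA).S) : σ x = x := by
  have hp := (Fact.out : p.Prime)
  have h : inertiaField A ⊔ torsionField p hΔ ≤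
      IntermediateField.fixedField (Subgroup.zpowers σ) := by
    have hz : ∀ z : Qb, σ z = z → z ∈ IntermediateField.fixedField (Subgroup.zpowers σ) := by
      rintro z hz ⟨τ, hτ⟩
      have : Subgroup.zpowers σ ≤ MulAction.stabilizer GQ z := Subgroup.zpowers_le.2 hz
      exact this hτ
    refine sup_le (fun z hz' => hz z (mem_inertiaField.1 hz' σ (mem_inertiaCyclo.1 hσ).1))
      (IntermediateField.adjoin_le_iff.2 fun z hz' => hz z ?_)
    rcases hz' with (⟨v, rfl⟩ | ⟨v, rfl⟩) | hz'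
    · rw [← (coord_smul σ _).1, ← torPt_gmat, h1, Matrix.one_mulVec]
    · rw [← (coord_smul σ _).2, ← torPt_gmat, h1, Matrix.one_mulVec]
    · obtain ⟨ζ, hζ⟩ : ∃ ζ : Qb, IsPrimitiveRoot ζ p :=
        have : NeZero ((p : ℕ) : Qb) := ⟨Nat.cast_ne_zero.2 hp.ne_zero⟩
        HasEnoughRootsOfUnity.exists_primitiveRoot Qb p
      have : NeZero p := ⟨hp.ne_zero⟩
      obtain ⟨i, -, rfl⟩ := hζ.eq_pow_of_pow_eq_one (show z ^ p = 1 from hz')
      rw [map_pow, TW.apply_root_eq_pow hζ σ, (mem_inertiaCyclo.1 hσ).2, Units.val_one,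
        ZMod.val_one, pow_one]
  exact h hx ⟨σ, Subgroup.mem_zpowers σ⟩

/-- The base has no root of `p` times a unit of the inertia field. -/
theorem ofTorsion_not_root (hp2 : p ≠ 2) (hirr : W.ModRepIsIrreducible p)
    (hss : (p : ℤ) ∣ W.Δ → ¬ (p : ℤ) ∣ W.c₄)
    (hflat : (W.map (Int.castRingHom ℚ)).IsPeuRamifieeAt p p)
    {r : Qb} (hr : r ∈ (LocalBase.ofTorsion hΔ hA).S) {c : Qb} (hc : c ∈ inertiaField A)
    (hc1 : A.valuation c = 1) : r ^ p ≠ (p : Qb) * c := fun e =>
  Peu.false_of_peu hΔ hA hp2 hirr hss hflat (r := r)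
    (by rw [← map_pow, e, map_mul, hc1, mul_one])
    (fun σ hσ => by
      rw [e, map_mul, map_natCast, mem_inertiaField.1 hc σ (mem_inertiaCyclo.1 hσ).1])
    fun σ hσ h1 => fixed_ofTorsion hΔ hA hσ h1 hr

end LocalBase

end FermatAgent.MazurPrinciple
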