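import Fermat.Agent.Curve.Basics
import Fermat.Agent.Curve.RR.Setup
import Fermat.Agent.BadRed.Semistable.Datum

/-!
# Poles of a coordinate related to `j`

From `P(t) = J R(t) ^ m` with `deg P = 1 + m deg R`, and `J`, `j` with the same poles: `t` has poles
only at poles of `j`, and the poles of `j` where `t` is regular are zeros of `R(t)`.
-/

set_option autoImplicit false
set_option linter.unusedSectionVars false

noncomputable section

open Polynomial AlgebraicCurve

namespace FermatAgent.MazurPrinciple

open FermatAgent.Curve FermatAgent.Curve.RR FermatAgent.BadRed.Semistable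

variable {K F : Type*} [Field K] [Field F] [Algebra K F] [IsAlgClosed K] [IsFunctionField1 K F]

theorem aeval_mem_place (v : Place K F) {t : F} (ht : t ∈ v.toValuationSubring) (P : K[X]) :
    aeval t P ∈ v.toValuationSubring := by
  rw [aeval_eq_sum_range]
  exact sum_mem fun i _ => by
    rw [Algebra.smul_def]; exact mul_mem (v.algebraMap_mem' _) (pow_mem ht i)

/-- The order of a polynomial in a function at a pole. -/
theorem ord_aeval_of_neg (v : Place K F) {t : F} (ht : v.ord t < 0) {P : K[X]} (hP : P ≠ 0) :
    aeval t P ≠ 0 ∧ v.ord (aeval t P) = P.natDegree * v.ord t := by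
  induction hn : P.natDegree using Nat.strong_induction_on generalizing P with
  | _ n ih =>
    have ht0 : t ≠ 0 := fun e => by rw [e, v.ord_zero] at ht; exact lt_irrefl _ ht
    set a := algebraMap K F P.leadingCoeff * t ^ n with ha
    have hlc : algebraMap K F P.leadingCoeff ≠ 0 :=
      (_root_.map_ne_zero _).mpr (leadingCoeff_ne_zero.mpr hP)
    have ha0 : a ≠ 0 := mul_ne_zero hlc (pow_ne_zero _ ht0)
    have hao : v.ord a = n * v.ord t := by
      rw [ha, v.ord_mul hlc (pow_ne_zero _ ht0), ord_algebraMap_const, ord_pow', zero_add]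
    have hsplit : aeval t P = a + aeval t P.eraseLead := by
      conv_lhs => rw [← P.eraseLead_add_C_mul_X_pow]
      simp [ha, hn, add_comm]
    have hlow : aeval t P.eraseLead = 0 ∨ v.ord a < v.ord (aeval t P.eraseLead) := by
      rcases eq_or_ne P.eraseLead 0 with h0 | h0
      · exact Or.inl (by rw [h0, map_zero])
      refine Or.inr ?_
      have hlt : P.eraseLead.natDegree < n := by
        rcases P.eraseLead_natDegree_lt_or_eraseLead_eq_zero with h | h
        · rwa [hn] at h
        · exact absurd h h0
      rw [(ih _ hlt h0 rfl).2, hao]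
      exact mul_lt_mul_of_neg_right (by exact_mod_cast hlt) ht
    rw [hsplit]
    exact ⟨add_ne_zero_of_ord_lt v ha0 hlow, (ord_add_eq_left v ha0 hlow).trans hao⟩

variable {t J j : F} {P R : K[X]} {m : ℕ} (hP : P.natDegree = m * R.natDegree + 1)
  (hR : R ≠ 0) (hrel : aeval t P = J * aeval t R ^ m)
  (hJj : ∀ v : Place K F, J ∈ v.toValuationSubring ↔ j ∈ v.toValuationSubring)
include hP hR hrel hJj

/-- `t` is regular where `j` is. -/
theorem mem_place_of_mem {v : Place K F} (hj : j ∈ v.toValuationSubring) :
    t ∈ v.toValuationSubring := by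
  by_contra ht
  have hto := ord_neg_of_notMem v ht
  obtain ⟨hP0, hPo⟩ := ord_aeval_of_neg v hto (P := P) (fun e => by simp [e] at hP)
  obtain ⟨hR0, hRo⟩ := ord_aeval_of_neg v hto hR
  have hJ0 : J ≠ 0 := fun e => hP0 (by rw [hrel, e, zero_mul])
  have hJ := ord_nonneg_of_mem' v ((hJj v).mpr hj)
  rw [hrel, v.ord_mul hJ0 (pow_ne_zero _ hR0), ord_pow', hRo, hP] at hPo
  push_cast at hPo
  nlinarith

/-- Poles of `j` where `t` is regular are zeros of `R(t)`. -/
theorem ord_aeval_pos {v : Place K F} (ht : t ∈ v.toValuationSubring)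
    (hj : j ∉ v.toValuationSubring) (hR0 : aeval t R ≠ 0) : 0 < v.ord (aeval t R) := by
  rcases (ord_nonneg_of_mem' v (aeval_mem_place v ht R)).lt_or_eq with h | h
  · exact h
  exfalso
  refine hj ((hJj v).mp ?_)
  have hJ : J = aeval t P * (aeval t R ^ m)⁻¹ := by
    rw [hrel, mul_inv_cancel_right₀ (pow_ne_zero _ hR0)]
  rw [hJ]
  refine mul_mem (aeval_mem_place v ht P) ?_
  rw [mem_iff_ord_nonneg' v, v.ord_inv, ord_pow', ← h, mul_zero, neg_zero]

/-- Functions with poles at the poles of `j` become integral over `K[t]` after multiplication by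
a power of `R(t)`. -/
theorem exists_pow_mul_integral (hR0 : aeval t R ≠ 0) (n : ℕ) {f : F}
    (hf : f ∈ riemannRochSpace (n • poleDiv (K := K) j)) :
    ∃ M : ℕ, IsIntegral (Algebra.adjoin K {t}) (aeval t R ^ M * f) := by
  rcases eq_or_ne f 0 with rfl | hf0
  · exact ⟨0, by rw [mul_zero]; exact isIntegral_zero⟩
  set D : Divisor K F := poleDiv j
  set b : ℕ := D.support.sup fun v => (D v).toNat
  refine ⟨n * b, (isIntegral_adjoin_iff _ _).mpr fun v hv => ?_⟩
  have ht := hv t rfl
  have hfo : -((n : ℤ) * D v) ≤ v.ord f := by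
    have h := (mem_riemannRochSpace_iff.mp hf v).resolve_left hf0
    rw [Finsupp.smul_apply, nsmul_eq_mul] at h
    exact h
  rw [mem_iff_ord_nonneg' v, v.ord_mul (pow_ne_zero _ hR0) hf0, ord_pow']
  by_cases hj : j ∈ v.toValuationSubring
  · have h1 := ord_nonneg_of_mem' v (aeval_mem_place v ht R)
    have hD : D v = 0 := by
      rw [show D v = poleDiv j v from rfl, poleDiv_apply]
      have := ord_nonneg_of_mem' v hj
      omega
    rw [hD, mul_zero, neg_zero] at hfo
    positivity
  · have h1 := ord_aeval_pos hP hR hrel hJj ht hj hR0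
    have hb : (D v) ≤ b := by
      have hjo := ord_neg_of_notMem v hj
      have hDv : D v = -v.ord j := by
        rw [show D v = poleDiv j v from rfl, poleDiv_apply]; omega
      have hle : (D v).toNat ≤ b := Finset.le_sup (f := fun v => (D v).toNat)
        (Finsupp.mem_support_iff.mpr (by omega))
      omega
    push_cast
    nlinarith [mul_le_mul_of_nonneg_left hb (Int.natCast_nonneg n),
      mul_nonneg (mul_nonneg (Int.natCast_nonneg n) (Int.natCast_nonneg b)) (Int.sub_nonneg.mpr h1)]

end FermatAgent.MazurPrinciple
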