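import Fermat.Agent.MazurPrinciple.Level
import Fermat.Agent.MazurPrinciple.PolesLine
import Fermat.Agent.BadRed.Carayol.Instance.Basics

/-!
# The coordinate of `X₀(N')` on `X₀(p N')`

The two images of a coordinate `u`, interchanged by the Atkin-Lehner involution, and their poles.
-/

set_option autoImplicit false
set_option linter.unusedSectionVars false

noncomputable section

namespace FermatAgent.MazurPrinciple

open Polynomial AlgebraicCurve ModularCurve
open FermatAgent.Curve (IsFunctionField1 divisorOf)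
open FermatAgent.BadRed.Semistable FermatAgent.BadRed.Carayol.Instance FermatAgent.ModFun

local notation "ℚbar" => AlgebraicClosure ℚ
local notation "𝐅" N:max => laurentBaseChange ℚbar (modularFunctionFieldFull N)

attribute [local instance] ModCurveTorsion.isFunctionField1_laurent

variable {p : ℕ} [Fact p.Prime] [NeZero p] {N' : ℕ} [NeZero N'] (hco : p.Coprime N')
  (H : Hauptmodul p) (hN : H.L ∣ N') {R : ℤ[X]} (hR : IsCuspPoly H R)

/-- `f ↦ f(τ)`. -/
def upAlpha : 𝐅 N' →ₐ[ℚbar] 𝐅 (p * N') :=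
  (castLevel ℚbar (mul_comm N' p)).toAlgHom.comp (heckeAlphaBar ℚbar N' p)

/-- `f ↦ f(pτ)`. -/
def upBeta : 𝐅 N' →ₐ[ℚbar] 𝐅 (p * N') :=
  (castLevel ℚbar (mul_comm N' p)).toAlgHom.comp (heckeBetaBar ℚbar N' p)

theorem coe_upAlpha (x : 𝐅 N') :
    (upAlpha (p := p) x : LaurentSeries ℚbar) = (x : LaurentSeries ℚbar) :=
  (coe_castLevel ℚbar _ _).trans (coe_heckeAlphaBar N' p x)

theorem coe_upBeta (x : 𝐅 N') :
    (upBeta (p := p) x : LaurentSeries ℚbar) = qExpand ℚbar p (x : LaurentSeries ℚbar) :=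
  (coe_castLevel ℚbar _ _).trans (coe_heckeBetaBar N' p x)

include hco in
/-- The involution exchanges the two maps. -/
theorem atkinLehnerBar_upBeta (x : 𝐅 N') :
    atkinLehnerBar hco ℚbar (upBeta (p := p) x) = upAlpha x := by
  refine Subtype.ext ?_
  rw [← coe_swapQ ℚbar N' hco (heckeBetaBar ℚbar N' p x) (upBeta x) (coe_castLevel ℚbar _ _)]
  have := AlgHom.congr_fun (swapQ_comp_beta ℚbar N' hco) x
  rw [AlgHom.comp_apply] at this
  rw [show (swapQ ℚbar N' hco) (heckeBetaBar ℚbar N' p x) = heckeAlphaBar ℚbar N' p x from this]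
  exact (coe_castLevel ℚbar (mul_comm N' p) _).symm

include hco in
theorem atkinLehnerBar_upAlpha (x : 𝐅 N') :
    atkinLehnerBar hco ℚbar (upAlpha (p := p) x) = upBeta x := by
  rw [← atkinLehnerBar_upBeta hco x, atkinLehnerBar_atkinLehnerBar]

theorem upAlpha_jBar : upAlpha (p := p) (jBar ℚbar N') = jBar ℚbar (p * N') :=
  Subtype.ext (coe_upAlpha _)

include hco in
/-- `j(pτ)` and `j(τ)` have the same poles. -/
theorem upBeta_jBar_mem_iff (v : Place ℚbar (𝐅 (p * N'))) :
    upBeta (p := p) (jBar ℚbar N') ∈ v.toValuationSubring ↔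
      jBar ℚbar (p * N') ∈ v.toValuationSubring := by
  set w := atkinLehnerBar hco ℚbar
  have hw : w (jBar ℚbar (p * N')) = upBeta (jBar ℚbar N') := by
    rw [← upAlpha_jBar]; exact atkinLehnerBar_upAlpha hco _
  have key : ∀ x y : 𝐅 (p * N'), kEval x y (jPhi p) = 0 → x ∈ v.toValuationSubring →
      y ∈ v.toValuationSubring := fun x y hxy hx => by
    let f : ℤ[X] →+* v.toValuationSubring :=
      eval₂RingHom (Int.castRingHom v.toValuationSubring) ⟨x, hx⟩
    refine Curve.mem_valuationSubring_of_isIntegral _ (R := v.toValuationSubring) (fun r => r.2)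
      ⟨(jPhi p).map f, (jPhi_monic p).map f, ?_⟩
    rw [eval₂_map, ← hxy, kEval, coe_eval₂RingHom]
    refine eval₂_congr (ringHom_ext (fun c => ?_) ?_) rfl rfl
    · simp [f]
    · simp [f]
  have h1 := kEval_level (K := ℚbar) (q := p) hco
  have h2 : kEval (w (jBar ℚbar (p * N'))) (jBar ℚbar (p * N')) (jPhi p) = 0 := by
    have h := congrArg w h1
    rwa [show w (kEval _ _ (jPhi p)) = _ from map_kEval w.toAlgHom.toRingHom _ _ _, map_zero,
      show w.toAlgHom.toRingHom (atkinLehnerBar hco ℚbar (jBar ℚbar (p * N'))) =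
        jBar ℚbar (p * N') from atkinLehnerBar_atkinLehnerBar hco ℚbar _] at h
  rw [← hw]
  exact ⟨key _ _ h2, key _ _ h1⟩

/-- `u(pτ)`. -/
def tCoord : 𝐅 (p * N') := upBeta (uElt ℚbar H hN)

/-- `u(τ)`. -/
def sCoord : 𝐅 (p * N') := upAlpha (uElt ℚbar H hN)

theorem coe_sCoord : (sCoord H hN : LaurentSeries ℚbar) =
    coeffMap (Int.castRingHom ℚbar) (uSeries H) := by
  rw [sCoord, coe_upAlpha, coe_uElt]

theorem coe_tCoord : (tCoord H hN : LaurentSeries ℚbar) =
    coeffMap (Int.castRingHom ℚbar) (qExpand ℤ p (uSeries H)) := by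
  rw [tCoord, coe_upBeta, coe_uElt]
  exact (coeffMap_comm_qExpand _ p _).symm

theorem ord_cInf_uElt : (Mazur.Step3.cInf N').ord (uElt ℚbar H hN) = -1 := by
  rw [Mazur.Step3.ord_cInf, coe_uElt]
  have hc : (coeffMap (Int.castRingHom ℚbar) (uSeries H)).coeff (-1) = 1 := by
    simp [coeff_uSeries_top]
  refine le_antisymm (HahnSeries.order_le_of_coeff_ne_zero (by rw [hc]; exact one_ne_zero)) ?_
  refine (HahnSeries.le_order_iff_forall (fun e => by simp [e] at hc)).mpr fun i hi => ?_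
  exact (poleLE_uSeries H).coeffMap _ i (by simpa using hi)

include hR in
/-- The relation between `u` and `j`. -/
theorem exists_rel : ∃ P : ℚbar[X],
    P.natDegree = H.L * (R.map (Int.castRingHom ℚbar)).natDegree + 1 ∧
      aeval (tCoord (p := p) H hN) P = upBeta (jBar ℚbar N') *
        aeval (tCoord (p := p) H hN) (R.map (Int.castRingHom ℚbar)) ^ H.L := by
  obtain ⟨P, hP⟩ := exists_j_eq_eval H hR
  set f := Int.castRingHom ℚbar
  have hcast : ∀ Q : ℤ[X], aeval (uElt ℚbar H hN) (Q.map f) = aeval (uElt ℚbar H hN) Q := fun Q => by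
    rw [show f = algebraMap ℤ ℚbar from RingHom.ext_int _ _, aeval_map_algebraMap]
  have haev : ∀ Q : ℤ[X], ((aeval (uElt ℚbar H hN) Q : 𝐅 N') : LaurentSeries ℚbar) =
      coeffMap f (aeval (uSeries H) Q) := fun Q => by
    show (LevelField ℚbar N').val.toRingHom (aeval (uElt ℚbar H hN) Q) = _
    rw [aeval_def, aeval_def, hom_eval₂, hom_eval₂]
    exact eval₂_congr (RingHom.ext_int _ _) (coe_uElt ℚbar H hN) rfl
  have h1 : aeval (uElt ℚbar H hN) (P.map f) =
      jBar ℚbar N' * aeval (uElt ℚbar H hN) (R.map f) ^ H.L := by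
    rw [hcast, hcast]
    refine Subtype.ext ?_
    rw [MulMemClass.coe_mul, SubmonoidClass.coe_pow, haev, haev, hP, map_mul, map_pow, coe_jBar,
      ModularCurve.coeffMap_jqModC]
  refine ⟨P.map f, ?_, ?_⟩
  · set C := Mazur.Step3.cInf N'
    have hu := ord_cInf_uElt H hN
    have hR0 : R.map f ≠ 0 := (hR.monic.map f).ne_zero
    obtain ⟨hRn, hRo⟩ := ord_aeval_of_neg C (by rw [hu]; norm_num) hR0
    have hj := Mazur.Step3.ord_cInf_jBar (N := N')
    have hj0 : jBar ℚbar N' ≠ 0 := fun e => by rw [e, C.ord_zero] at hj; norm_num at hj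
    have hP0 : P.map f ≠ 0 := fun e => by
      rw [e, map_zero] at h1
      exact mul_ne_zero hj0 (pow_ne_zero _ hRn) h1.symm
    obtain ⟨-, hPo⟩ := ord_aeval_of_neg C (by rw [hu]; norm_num) hP0
    rw [h1, C.ord_mul hj0 (pow_ne_zero _ hRn), Curve.ord_pow', hRo, hu, hj] at hPo
    have : ((P.map f).natDegree : ℤ) = ((H.L * (R.map f).natDegree + 1 : ℕ) : ℤ) := by
      push_cast; linarith
    exact_mod_cast this
  · rw [tCoord, aeval_algHom_apply, aeval_algHom_apply, h1, map_mul, map_pow]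

include hR in
theorem aeval_tCoord_ne_zero :
    aeval (tCoord (p := p) H hN) (R.map (Int.castRingHom ℚbar)) ≠ 0 := by
  rw [tCoord, aeval_algHom_apply]
  refine (map_ne_zero_iff _ (upBeta (p := p) (N' := N')).injective).mpr ?_
  exact (ord_aeval_of_neg (Mazur.Step3.cInf N') (by rw [ord_cInf_uElt H hN]; norm_num)
    (hR.monic.map _).ne_zero).1

include hco hR in
theorem tCoord_mem_place {v : Place ℚbar (𝐅 (p * N'))}
    (hj : jBar ℚbar (p * N') ∈ v.toValuationSubring) :
    tCoord H hN ∈ v.toValuationSubring := by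
  obtain ⟨P, hdeg, hrel⟩ := exists_rel (p := p) H hN hR
  exact mem_place_of_mem hdeg (hR.monic.map _).ne_zero hrel (upBeta_jBar_mem_iff hco) hj

include hco hR in
theorem exists_pow_mul_integral_tCoord (n : ℕ) {f : 𝐅 (p * N')}
    (hf : f ∈ riemannRochSpace (n • poleDiv (K := ℚbar) (jBar ℚbar (p * N')))) :
    ∃ M : ℕ, IsIntegral (Algebra.adjoin ℚbar {tCoord (p := p) H hN})
      (aeval (tCoord (p := p) H hN) (R.map (Int.castRingHom ℚbar)) ^ M * f) := by
  obtain ⟨P, hdeg, hrel⟩ := exists_rel (p := p) H hN hR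
  exact exists_pow_mul_integral hdeg (hR.monic.map _).ne_zero hrel (upBeta_jBar_mem_iff hco)
    (aeval_tCoord_ne_zero H hN hR) n hf

end FermatAgent.MazurPrinciple
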