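import Fermat.Agent.BadRed.AtP.Regularise
import Fermat.Agent.MazurPrinciple.Level
import Fermat.Agent.BadRed.Semistable.Toric

/-!
# The coordinate as a section

If the reductions of the coordinate are the coordinates of the glued curve, a large power of the
coordinate is a section whose divisor avoids the reduction of the poles.
-/

set_option autoImplicit false
set_option linter.unusedSectionVars false

noncomputable section

open AlgebraicCurve ModularCurve

namespace FermatAgent.MazurPrinciple

open FermatAgent.BadRed.Semistable FermatAgent.BadRed.AtP FermatAgent.Curve FermatAgent.Curve.RR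
open FermatAgent.ModFun

section Generic

variable {K : Type*} [Field K] [IsAlgClosed K] {A : ValuationSubring K} {k : Type*}
    [Field k] [IsAlgClosed k] {π : A →+* k} {F F₁ F₂ : Type*} [Field F] [Field F₁] [Field F₂]
    [Algebra K F] [Algebra k F₁] [Algebra k F₂] [IsFunctionField1 K F] [IsFunctionField1 k F₁]
    [IsFunctionField1 k F₂] [RRSetting K F] [RRSetting k F₁] [RRSetting k F₂] [Infinite k]
variable {d : NodalDatum A π F F₁ F₂} (h : d.z ∈ d.int) (hr : d.red ⟨d.z, h⟩ = (d.C.z₁, d.C.z₂))
include hr

theorem coordUnit_of_red : CoordUnit d :=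
  ⟨h, by rw [hr]; exact d.C.transcendental₁, by rw [hr]; exact d.C.transcendental₂⟩

theorem isDiscUnit_pow_z (m : ℕ) : IsDiscUnit d (d.z ^ m) := by
  refine IsDiscUnit.pow ⟨h, ?_, ?_⟩ m <;> rw [hr]
  · intro (e : d.C.z₁ = 0); exact d.C.transcendental₁ (e.symm ▸ isAlgebraic_zero)
  · intro (e : d.C.z₂ = 0); exact d.C.transcendental₂ (e.symm ▸ isAlgebraic_zero)

/-- The divisor of a power of the coordinate avoids the reduction of the poles. -/
theorem redDiv_pow_z {m : ℕ} (hm : d.n₀ ≤ m) (hm1 : 1 ≤ m) (ω : d.C.Pt) (hω : d.redDiv d.D ω ≠ 0) :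
    d.redDiv (divisorOf (d.z ^ m) + m • d.D) ω = 0 := by
  classical
  have h1 : (1 : F) ∈ d.int := one_mem _
  have e1 : d.red ⟨1, h1⟩ = 1 := map_one d.red
  have E := d.mapDomain_secDivF hm h1 (one_mem_rrSpace (nsmul_nonneg (poleDiv_nonneg _) _))
    (by rw [e1]; exact one_ne_zero) (by rw [e1]; exact one_ne_zero)
  have hd1 : d.secDivF m (1 : F) = m • d.D := by
    refine Finsupp.ext fun P => ?_
    rw [d.secDivF_apply, Place.ord_one, zero_add, Finsupp.smul_apply, nsmul_eq_mul]
  rw [hd1, ← d.redDiv_apply, map_nsmul, e1] at E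
  have Eω := congrArg (fun D : d.C.Pt →₀ ℤ => D ω) E
  simp only [Finsupp.smul_apply, nsmul_eq_mul] at Eω
  obtain ⟨hzi, z1, z2⟩ := isDiscUnit_pow_z h hr m
  have em : d.red ⟨d.z ^ m, hzi⟩ = (d.C.z₁ ^ m, d.C.z₂ ^ m) := by
    rw [show (⟨d.z ^ m, hzi⟩ : d.int) = ⟨d.z, h⟩ ^ m from rfl, map_pow, hr]; rfl
  have Z := d.mapDomain_secDivF hm hzi (pow_z_mem_rrSpace m) z1 z2
  rw [show d.redDiv (divisorOf (d.z ^ m) + m • d.D) = Finsupp.mapDomain d.place
    (d.secDivF m (d.z ^ m)) from rfl, Z, em]
  cases ω with
  | left Q hQ =>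
    rw [Glued.secDiv_left] at Eω ⊢
    simp only [Prod.fst_one, Place.ord_one, zero_add, Glued.D₁, poleDiv_apply] at Eω
    have hneg : Q.ord d.C.z₁ < 0 := by
      by_contra hc
      rw [max_eq_right (by omega), mul_zero] at Eω
      exact hω ((mul_eq_zero.mp Eω).resolve_left (by exact_mod_cast (by omega : m ≠ 0)))
    rw [Curve.ord_pow', Glued.D₁, poleDiv_apply, max_eq_left (by omega)]
    ring
  | right Q hQ =>
    rw [Glued.secDiv_right] at Eω ⊢
    simp only [Prod.snd_one, Place.ord_one, zero_add, Glued.D₂, poleDiv_apply] at Eω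
    have hneg : Q.ord d.C.z₂ < 0 := by
      by_contra hc
      rw [max_eq_right (by omega), mul_zero] at Eω
      exact hω ((mul_eq_zero.mp Eω).resolve_left (by exact_mod_cast (by omega : m ≠ 0)))
    rw [Curve.ord_pow', Glued.D₂, poleDiv_apply, max_eq_left (by omega)]
    ring
  | node i =>
    rw [Glued.secDiv_node] at Eω ⊢
    simp only [Prod.fst_one, Prod.snd_one, Place.ord_one, add_zero] at Eω
    exact absurd ((mul_eq_zero.mp Eω).resolve_left (by exact_mod_cast (by omega : m ≠ 0))) hω

end Generic

local notation "ℚbar" => AlgebraicClosure ℚ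
local notation "𝐅" N:max => laurentBaseChange ℚbar (modularFunctionFieldFull N)

attribute [local instance] ModCurveTorsion.isFunctionField1_laurent
attribute [local instance] isAlgClosed_residue

variable {p : ℕ} [Fact p.Prime] {A : ValuationSubring ℚbar} (hA : A.LiesOverPrime p) {N' : ℕ}
  [NeZero N'] (hco : p.Coprime N') [IsFunctionField1 (IsLocalRing.ResidueField A) (FibField A N')]

/-- The coordinate reduces to the coordinates of the glued curve. -/
theorem levelData_red_z : ∃ h : (levelData p A hA hco).z ∈ (levelData p A hA hco).int,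
    (levelData p A hA hco).red ⟨(levelData p A hA hco).z, h⟩ =
      ((levelData p A hA hco).C.z₁, (levelData p A hA hco).C.z₂) := by
  have := charP_residue_place p A hA
  have t := level_twist hco (placeHom p A hA)
  exact ⟨⟨t.mem, t.mem'⟩, Prod.ext rfl t.red_twist⟩

theorem levelData_coordUnit [Infinite (IsLocalRing.ResidueField A)] :
    CoordUnit (levelData p A hA hco) :=
  coordUnit_of_red _ (levelData_red_z hA hco).choose_spec

/-- The exponent of the section. -/
def levelSecDeg : ℕ := max (levelData p A hA hco).n₀ 1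

/-- The section. -/
def levelSec : 𝐅 (p * N') := (levelData p A hA hco).z ^ levelSecDeg hA hco

theorem one_le_levelSecDeg : 1 ≤ levelSecDeg hA hco := le_max_right _ _

variable [Infinite (IsLocalRing.ResidueField A)]

theorem isDiscUnit_levelSec : IsDiscUnit (levelData p A hA hco) (levelSec hA hco) :=
  isDiscUnit_pow_z _ (levelData_red_z hA hco).choose_spec _

theorem levelSec_rr : levelSec hA hco ∈
    riemannRochSpace (levelSecDeg hA hco • (levelData p A hA hco).D) :=
  pow_z_mem_rrSpace _

theorem levelSec_div (ω : (levelData p A hA hco).C.Pt)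
    (hω : (levelData p A hA hco).redDiv (levelData p A hA hco).D ω ≠ 0) :
    (levelData p A hA hco).redDiv
      (divisorOf (levelSec hA hco) + levelSecDeg hA hco • (levelData p A hA hco).D) ω = 0 :=
  redDiv_pow_z _ (levelData_red_z hA hco).choose_spec (le_max_left _ _) (le_max_right _ _) ω hω

theorem levelSec_mem {S : IntermediateField ℚ ℚbar} :
    levelSec hA hco ∈ fixedFun S (p * N') :=
  pow_mem jBar_mem_fixedFun _

end FermatAgent.MazurPrinciple
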