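import Fermat.Agent.MazurPrinciple.Rational
import Fermat.Agent.MazurPrinciple.Contraction

/-!
# Normalisation over a field of definition with a uniformiser

When vanishing reduction means divisibility by the uniformiser, a power of the uniformiser
normalises every element of the field of definition.
-/

set_option autoImplicit false
set_option linter.unusedSectionVars false

noncomputable section

namespace FermatAgent.MazurPrinciple

open BadRed.Semistable

variable {K : Type*} [Field K] {A : ValuationSubring K} {k : Type*} [Field k] {π : A →+* k}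
  {F : Type*} [Field F] [Algebra K F] {Fb : Type*} [Field Fb] [Algebra k Fb]
  (g : GaussRed A π F Fb) (hπ : Function.Surjective π) {ϖ : A} (hϖ0 : (ϖ : K) ≠ 0)
  (arch : ∀ δ : K, δ ≠ 0 → ∃ R : ℕ, δ / (ϖ : K) ^ R ∉ A)
include hπ arch

/-- A multiple by a power of the uniformiser is integral. -/
theorem exists_pow_smul_mem (x : F) : ∃ N : ℕ, ∀ m, N ≤ m → (ϖ : K) ^ m • x ∈ g.integers := by
  rcases eq_or_ne x 0 with rfl | hx
  · exact ⟨0, fun m _ => by rw [smul_zero]; exact zero_mem _⟩
  obtain ⟨c, hc, hc0⟩ := g.exists_normalize x hx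
  have hc' : c ≠ 0 := fun e => (show IsUnitAt g (c • x) from ⟨hc, hc0⟩).ne_zero (by rw [e, zero_smul])
  obtain ⟨R, hR⟩ := arch c hc'
  refine ⟨R, fun m hm => ?_⟩
  have h1 : (ϖ : K) ^ R * c⁻¹ ∈ A := by
    have := inv_mem_of_not_mem hR
    rwa [inv_div, div_eq_mul_inv] at this
  have h2 : (ϖ : K) ^ m * c⁻¹ ∈ A := by
    rw [← Nat.sub_add_cancel hm, pow_add, mul_assoc]
    exact mul_mem (pow_mem ϖ.2 _) h1
  rw [show (ϖ : K) ^ m • x = ((ϖ : K) ^ m * c⁻¹) • (c • x) by
    rw [smul_smul, inv_mul_cancel_right₀ hc']]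
  exact g.smul_mem h2 hc

include hϖ0 in
/-- A power of the uniformiser normalises. -/
theorem exists_norm {E : Subfield F} (hϖE : algebraMap K F (ϖ : K) ∈ E)
    (hdiv : ∀ y ∈ E, ∀ h : y ∈ g.integers, g.red ⟨y, h⟩ = 0 →
      ∃ z ∈ g.integers, y = (ϖ : K) • z)
    {x : F} (hxE : x ∈ E) (hx : x ≠ 0) :
    ∃ c : K, algebraMap K F c ∈ E ∧ IsUnitAt g (c • x) := by
  by_contra! hno
  obtain ⟨N, hN⟩ := exists_pow_smul_mem g hπ arch x
  have key : ∀ j : ℕ, ((ϖ : K) ^ N / (ϖ : K) ^ j) • x ∈ g.integers := by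
    intro j
    induction j with
    | zero => rw [pow_zero, div_one]; exact hN N le_rfl
    | succ j ih =>
      set c := (ϖ : K) ^ N / (ϖ : K) ^ j
      have hcE : algebraMap K F c ∈ E := by
        rw [map_div₀, map_pow, map_pow]
        exact E.div_mem (pow_mem hϖE _) (pow_mem hϖE _)
      have hyE : c • x ∈ E := by rw [Algebra.smul_def]; exact E.mul_mem hcE hxE
      obtain ⟨z, hz, e⟩ := hdiv _ hyE ih (not_not.mp fun hne => hno c hcE ⟨ih, hne⟩)
      have : z = ((ϖ : K) ^ N / (ϖ : K) ^ (j + 1)) • x := by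
        refine smul_right_injective F hϖ0 (e.symm.trans ?_)
        show c • x = (ϖ : K) • _
        rw [smul_smul]
        congr 1
        simp only [c, pow_succ]
        field_simp
      exact this ▸ hz
  obtain ⟨c, hc, hc0⟩ := g.exists_normalize x hx
  have hc' : c ≠ 0 := fun e => (show IsUnitAt g (c • x) from ⟨hc, hc0⟩).ne_zero (by rw [e, zero_smul])
  obtain ⟨R, hR⟩ := arch ((ϖ : K) ^ N / c) (div_ne_zero (pow_ne_zero _ hϖ0) hc')
  refine hR (g.mem_of_smul_mem hπ hc hc0 ?_)
  have h := key R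
  rwa [smul_smul, show (ϖ : K) ^ N / c / (ϖ : K) ^ R * c = (ϖ : K) ^ N / (ϖ : K) ^ R by field_simp]

end FermatAgent.MazurPrinciple
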