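import Fermat.Agent.MazurPrinciple.LevelNode
import Fermat.Agent.MazurPrinciple.LevelSec
import Fermat.Agent.MazurPrinciple.RationalNorm
import Fermat.Agent.MazurPrinciple.InertiaClosed
import Fermat.Agent.MazurPrinciple.GlobalRoot
import Fermat.Agent.BadRed.AtP.LevelTwist

/-!
# Rational structures of the level datum over a local base
-/

set_option autoImplicit false
set_option linter.unusedSectionVars false
set_option maxHeartbeats 800000

noncomputable section

namespace FermatAgent.MazurPrinciple

open Polynomial AlgebraicCurve ModularCurve IsLocalRing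
open FermatAgent.Curve (IsFunctionField1 divisorOf)
open FermatAgent.BadRed.Semistable FermatAgent.BadRed.Carayol FermatAgent.BadRed.Carayol.Instance
open FermatAgent.ModFun FermatAgent.ModCurveTorsion

local notation "ℚbar" => AlgebraicClosure ℚ
local notation "GQ" => AlgebraicClosure ℚ ≃ₐ[ℚ] AlgebraicClosure ℚ
local notation "𝐅" N:max => laurentBaseChange ℚbar (modularFunctionFieldFull N)

attribute [local instance] ModCurveTorsion.isFunctionField1_laurent
attribute [local instance] isAlgClosed_residue

variable {p : ℕ} {A : ValuationSubring ℚbar} (B : LocalBase A p)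

/-- An automorphism fixing the local base is inertial. -/
theorem LocalBase.mem_inertia_of_fixing (hB : ∀ a ∈ inertiaField A, a ∈ B.S) {σ : GQ}
    (hσ : σ ∈ B.base.fixingSubgroup) : σ ∈ A.inertiaSubgroupIn ℚ :=
  mem_inertia_of_fixes fun x hx => (IntermediateField.mem_fixingSubgroup_iff _ σ).mp hσ x (hB x hx)

variable [Fact p.Prime] [NeZero p] (hA : A.LiesOverPrime p) {N' : ℕ} [NeZero N']
  (hco : p.Coprime N') [IsFunctionField1 (IsLocalRing.ResidueField A) (FibField A N')]
  [Infinite (IsLocalRing.ResidueField A)]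

theorem levelData_arch (δ : ℚbar) (hδ : δ ≠ 0) : ∃ R : ℕ, δ / (B.unif : ℚbar) ^ R ∉ A := B.arch hδ

theorem unif_mem_funField : algebraMap ℚbar (𝐅 (p * N')) (B.unif : ℚbar) ∈ B.funField (p * N') :=
  algebraMap_mem_fixedFun.mpr B.unifQ_mem

/-- Smooth roots of rational functions are stable. -/
theorem smoothRoot_stable (hB : ∀ a ∈ inertiaField A, a ∈ B.S) {σ : GQ}
    (hσ : σ ∈ B.base.fixingSubgroup) {f : 𝐅 (p * N')} (hf : f ∈ B.funField (p * N')) (m : ℕ) :
    galN (p * N') σ • smoothRoot (levelData p A hA hco) p m f =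
      smoothRoot (levelData p A hA hco) p m f := by
  classical
  have := charP_residue_place p A hA
  set g := galN (p * N') σ
  let s : (levelData p A hA hco).Symm :=
    (BadRed.AtP.inertiaAut (B.mem_inertia_of_fixing hB hσ)).inertSymm hco (placeHom p A hA) hA rfl
  have hact : ∀ v i, (levelData p A hA hco).place (g⁻¹ • v) = Glued.Pt.node i ↔
      (levelData p A hA hco).place v = Glued.Pt.node i := fun v i => by
    have e : (levelData p A hA hco).place v = s.act ((levelData p A hA hco).place (g⁻¹ • v)) := by
      rw [← s.place_smul]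
      exact congrArg _ (smul_inv_smul g v).symm
    rw [e]
    refine ⟨fun h => by rw [h]; rfl, fun h => s.act_injective (h.trans rfl)⟩
  refine Finsupp.ext fun v => ?_
  rw [SemilinearAut.divisor_smul_apply, smoothRoot, Finsupp.filter_apply, Finsupp.filter_apply]
  refine if_congr (forall_congr' fun i => not_congr (hact v i)) ?_ rfl
  have hord := ord_galN_smul σ v f
  rw [hf σ hσ] at hord
  have hj := ord_galN_smul σ v (jBar ℚbar (p * N'))
  rw [galN_smul_jBar] at hj
  simp only [Finsupp.add_apply, Finsupp.mapRange_apply, Finsupp.smul_apply,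
    Curve.divisorOf_apply, NodalDatum.D, levelData_z, poleDiv_apply]
  rw [← hord, ← hj]

variable [IsDiscreteValuationRing (inertiaRing A)] [IsAlgClosed (ResidueField (inertiaRing A))]
  (H : Hauptmodul p) (hN : H.L ∣ N')
  (hpN : ¬ p ∣ N') {R : ℤ[X]} (hR : IsCuspPoly H R) (hB : ∀ a ∈ inertiaField A, a ∈ B.S)
  (D : ChartData (inertiaRing A) (tower (inertiaField A) N' hpN) (uElt (inertiaField A) H hN))
  (hDc : D.cusps = cuspSet R (inertiaRing A))
include H hN hpN hR hB D hDc

theorem levelData_div₁ {x : 𝐅 (p * N')} (hx : x ∈ B.funField (p * N'))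
    (h : x ∈ (levelData p A hA hco).g₁.integers)
    (h0 : (levelData p A hA hco).g₁.red ⟨x, h⟩ = 0) :
    ∃ y ∈ (levelData p A hA hco).g₁.integers, x = (B.unif : ℚbar) • y := by
  obtain ⟨i⟩ := (levelData p A hA hco).C.nonempty
  exact (levelScalars B hA hco H hN hpN hR hB).div₁
    (exists_levelChart hA hco H hN hpN hR D hDc i).some (maximalIdeal_inertiaRing Fact.out hA) D
    hx h h0

theorem levelData_div₂ {x : 𝐅 (p * N')} (hx : x ∈ B.funField (p * N'))
    (h : x ∈ (levelData p A hA hco).g₂.integers)
    (h0 : (levelData p A hA hco).g₂.red ⟨x, h⟩ = 0) :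
    ∃ y ∈ (levelData p A hA hco).g₂.integers, x = (B.unif : ℚbar) • y := by
  obtain ⟨i⟩ := (levelData p A hA hco).C.nonempty
  exact (levelScalars B hA hco H hN hpN hR hB).div₂
    (exists_levelChart hA hco H hN hpN hR D hDc i).some (maximalIdeal_inertiaRing Fact.out hA) D
    hx h h0

theorem levelData_norm₁ {x : 𝐅 (p * N')} (hx : x ∈ B.funField (p * N')) (hx0 : x ≠ 0) :
    ∃ c : ℚbar, algebraMap ℚbar (𝐅 (p * N')) c ∈ B.funField (p * N') ∧
      IsUnitAt (levelData p A hA hco).g₁ (c • x) :=
  exists_norm _ (levelData p A hA hco).residue_surjective B.unif_ne_zero (levelData_arch B)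
    (unif_mem_funField B) (fun _ hy h h0 => levelData_div₁ B hA hco H hN hpN hR hB D hDc hy h h0)
    hx hx0

theorem levelData_norm₂ {x : 𝐅 (p * N')} (hx : x ∈ B.funField (p * N')) (hx0 : x ≠ 0) :
    ∃ c : ℚbar, algebraMap ℚbar (𝐅 (p * N')) c ∈ B.funField (p * N') ∧
      IsUnitAt (levelData p A hA hco).g₂ (c • x) :=
  exists_norm _ (levelData p A hA hco).residue_surjective B.unif_ne_zero (levelData_arch B)
    (unif_mem_funField B) (fun _ hy h h0 => levelData_div₂ B hA hco H hN hpN hR hB D hDc hy h h0)
    hx hx0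

/-- The field of definition is a rational base. -/
theorem levelData_rationalBase :
    RationalBase (levelData p A hA hco) (B.funField (p * N')) B.unif where
  unif_ne_zero := B.unif_ne_zero
  pi_unif := B.pi_unif _ (levelData p A hA hco).residue_surjective
  unif_mem := unif_mem_funField B
  arch := levelData_arch B
  scalar c := by
    obtain ⟨a, ha, e⟩ := exists_lift_inertiaField B.prime B.liesOver (residue A)
      IsLocalRing.residue_surjective c
    exact ⟨a, algebraMap_mem_fixedFun.mpr (hB _ ha), e⟩
  div₁ _ hx h h0 := levelData_div₁ B hA hco H hN hpN hR hB D hDc hx h h0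
  div₂ _ hx h h0 := levelData_div₂ B hA hco H hN hpN hR hB D hDc hx h h0
  exists_int x _ := by
    obtain ⟨N₁, h₁⟩ := exists_pow_smul_mem (levelData p A hA hco).g₁
      (levelData p A hA hco).residue_surjective (levelData_arch B) x
    obtain ⟨N₂, h₂⟩ := exists_pow_smul_mem (levelData p A hA hco).g₂
      (levelData p A hA hco).residue_surjective (levelData_arch B) x
    exact ⟨max N₁ N₂, h₁ _ (le_max_left _ _), h₂ _ (le_max_right _ _)⟩

/-- Rational structures on the spaces cut out by smooth roots. -/
theorem levelData_rational (f : 𝐅 (p * N')) (hf : f ∈ B.funField (p * N')) (m n' : ℕ)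
    (hZ : 0 ≤ smoothRoot (levelData p A hA hco) p m f) :
    ∃ S : RationalStructure (levelData p A hA hco) B.unif
      ((levelData p A hA hco).sub n' (smoothRoot (levelData p A hA hco) p m f)),
      ∀ x, x ∈ S.carrier ↔ x ∈ B.funField (p * N') := by
  refine (levelData_rationalBase B hA hco H hN hpN hR hB D hDc).exists_structure
    (le_max_right n' _) _ (le_trans ((levelData p A hA hco).sub_le hZ) ?_) ?_
  · exact rrSpace_mono
      (nsmul_le_nsmul_left (poleDiv_nonneg _) (le_max_left n' _))
  · refine rrSpace_le_span (S := B.base) _ fun σ hσ => ?_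
    rw [smul_sub, smoothRoot_stable B hA hco hB hσ hf m]
    congr 1
    refine Finsupp.ext fun v => ?_
    have hj := ord_galN_smul σ v (jBar ℚbar (p * N'))
    rw [galN_smul_jBar] at hj
    rw [SemilinearAut.divisor_smul_apply]
    simp only [Finsupp.smul_apply, NodalDatum.D, levelData_z, poleDiv_apply]
    rw [← hj]

end FermatAgent.MazurPrinciple
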