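import Fermat.Agent.MazurPrinciple.NodeRegular

/-!
# The branch valuations at a supersingular point

The localisations at `(X)` and `(Y)` are the two vertical valuations of level `q N`; so every
vertical valuation contains the local ring, and the parameter of its branch generates its centre.
-/

set_option autoImplicit false

noncomputable section

namespace FermatAgent.MazurPrinciple

open Polynomial IsLocalRing FermatAgent.BadRed.Carayol

section Prime

variable {W L : Type*} [CommRing W] [IsDomain W] [IsDiscreteValuationRing W] [Field L]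
  [Algebra W L] {u : L}
  {P : Ideal (chartRing W u)} [P.IsPrime] [UniqueFactorizationMonoid (locRing P)]
  {X : locRing P} (hX : Prime X)
  (hfrac : ∀ f : L, ∃ a b : locRing P, (b : L) ≠ 0 ∧ f * b = a)

/-- The valuation ring at a prime of the local ring. -/
def branchRing : ValuationSubring L where
  carrier := {y | ∃ a b : locRing P, ¬ X ∣ b ∧ y * b = a}
  mul_mem' := by
    rintro x y ⟨a, b, hb, h⟩ ⟨a', b', hb', h'⟩
    exact ⟨a * a', b * b', fun hd => (hX.dvd_or_dvd hd).elim hb hb',
      by push_cast; rw [← h, ← h']; ring⟩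
  one_mem' := ⟨1, 1, hX.not_dvd_one, by simp⟩
  add_mem' := by
    rintro x y ⟨a, b, hb, h⟩ ⟨a', b', hb', h'⟩
    exact ⟨a * b' + a' * b, b * b', fun hd => (hX.dvd_or_dvd hd).elim hb hb',
      by push_cast; rw [← h, ← h']; ring⟩
  zero_mem' := ⟨0, 1, hX.not_dvd_one, by simp⟩
  neg_mem' := by
    rintro x ⟨a, b, hb, h⟩
    exact ⟨-a, b, hb, by push_cast; rw [← h]; ring⟩
  mem_or_inv_mem' z := by
    rcases eq_or_ne z 0 with rfl | hz
    · exact Or.inl ⟨0, 1, hX.not_dvd_one, by simp⟩
    obtain ⟨a, b, hb, h⟩ := hfrac z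
    have hb0 : b ≠ 0 := fun e => hb (by rw [e]; rfl)
    have ha0 : a ≠ 0 := fun e => by
      rw [e] at h
      exact hb ((mul_eq_zero.mp h).resolve_left hz)
    obtain ⟨a', ha, ha'⟩ := (FiniteMultiplicity.of_prime_left hX ha0).exists_eq_pow_mul_and_not_dvd
    obtain ⟨b', hb1, hb'⟩ := (FiniteMultiplicity.of_prime_left hX hb0).exists_eq_pow_mul_and_not_dvd
    set i := multiplicity X a
    set j := multiplicity X b
    have hne : ∀ m : ℕ, (X : L) ^ m ≠ 0 := fun m => pow_ne_zero _ fun e => hX.ne_zero (Subtype.ext e)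
    rw [ha, hb1] at h
    push_cast at h
    rcases le_total j i with hij | hij
    · refine Or.inl ⟨X ^ (i - j) * a', b', hb', mul_left_cancel₀ (hne j) ?_⟩
      push_cast
      rw [← mul_assoc _ _ (a' : L), ← pow_add, Nat.add_sub_cancel' hij]
      linear_combination h
    · refine Or.inr ⟨X ^ (j - i) * b', a', ha', mul_left_cancel₀ (hne i) ?_⟩
      push_cast
      rw [← mul_assoc _ _ (b' : L), ← pow_add, Nat.add_sub_cancel' hij]
      have : z⁻¹ * z = 1 := inv_mul_cancel₀ hz
      linear_combination -z⁻¹ * h + (X : L) ^ j * (b' : L) * this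

end Prime

section Centre

variable {W L : Type*} [CommRing W] [IsDomain W] [IsDiscreteValuationRing W] [Field L]
  [Algebra W L] {u : L} {P : Ideal (chartRing W u)} [P.IsPrime] [IsNoetherianRing (locRing P)]
  {X Y : locRing P}

/-- A valuation ring through the point containing `Y` and not `X` in its centre has centre `(Y)`. -/
theorem mem_nonunits_iff_dvd (hY : Prime Y) (hmax : maximalIdeal (locRing P) = Ideal.span {X, Y})
    {V : ValuationSubring L} (hA : ∀ z : chartRing W u, (z : L) ∈ V) (hT : Through P V)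
    (hYV : (Y : L) ∈ V.nonunits) (hXV : (X : L) ∉ V.nonunits) (r : locRing P) :
    (r : L) ∈ V.nonunits ↔ Y ∣ r := by
  have hmem : ∀ z : locRing P, (z : L) ∈ V := fun z => hT.mem hA z.2
  let j : locRing P →+* V := (locRing P).subtype.codRestrict V.toSubring hmem
  set 𝔭 := (maximalIdeal V).comap j
  have h𝔭 : ∀ z : locRing P, z ∈ 𝔭 ↔ (z : L) ∈ V.nonunits := fun z =>
    (ValuationSubring.coe_mem_nonunits_iff (a := j z)).symm
  have : 𝔭.IsPrime := Ideal.IsPrime.comap _
  rw [← h𝔭]
  refine ⟨fun hr => ?_, fun h => Ideal.mem_of_dvd _ h ((h𝔭 Y).mpr hYV)⟩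
  by_contra hd
  set I := Ideal.span {Y}
  have : I.IsPrime := (Ideal.span_singleton_prime hY.ne_zero).mpr hY
  let Q := locRing P ⧸ I
  have : IsLocalRing Q :=
    IsLocalRing.of_surjective' (Ideal.Quotient.mk I) Ideal.Quotient.mk_surjective
  set t : Q := Ideal.Quotient.mk I X
  have hmaxQ : maximalIdeal Q = Ideal.span {t} := by
    rw [← IsLocalRing.map_maximalIdeal_of_surjective _ Ideal.Quotient.mk_surjective, hmax,
      Ideal.map_span, Set.image_pair, show Ideal.Quotient.mk I Y = 0 from
        Ideal.Quotient.eq_zero_iff_mem.mpr (Ideal.mem_span_singleton_self _), Set.pair_comm,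
      Ideal.span_insert_zero]
  set z : Q := Ideal.Quotient.mk I r
  have hz : z ≠ 0 := fun h =>
    hd (Ideal.mem_span_singleton.mp (Ideal.Quotient.eq_zero_iff_mem.mp h))
  have hk : ∀ n : ℕ, ∀ w : locRing P, w ∈ 𝔭 → Ideal.Quotient.mk I w ∈ maximalIdeal Q ^ n := by
    intro n
    induction n with
    | zero => intro w _; simp
    | succ n ih =>
      intro w hw
      have hwm : w ∈ maximalIdeal (locRing P) := IsLocalRing.le_maximalIdeal
        (Ideal.IsPrime.ne_top inferInstance) hw
      rw [hmax] at hwm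
      obtain ⟨a, b, rfl⟩ := Ideal.mem_span_pair.mp hwm
      have ha : a ∈ 𝔭 := by
        have : a * X ∈ 𝔭 := by
          have h2 := 𝔭.sub_mem hw (𝔭.mul_mem_left b ((h𝔭 Y).mpr hYV))
          rwa [add_sub_cancel_right] at h2
        exact ((Ideal.IsPrime.mem_or_mem inferInstance this).resolve_right fun h =>
          hXV ((h𝔭 X).mp h))
      rw [map_add, map_mul, map_mul, show Ideal.Quotient.mk I Y = 0 from
        Ideal.Quotient.eq_zero_iff_mem.mpr (Ideal.mem_span_singleton_self _), mul_zero, add_zero,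
        pow_succ]
      exact Ideal.mul_mem_mul (ih a ha) (hmaxQ ▸ Ideal.mem_span_singleton_self t)
  have h1 : z ∈ (⨅ i : ℕ, maximalIdeal Q ^ i : Ideal Q) :=
    (Submodule.mem_iInf _).mpr fun i => hk i r hr
  rw [Ideal.iInf_pow_eq_bot_of_isLocalRing _ (maximalIdeal.isMaximal Q).ne_top, Ideal.mem_bot] at h1
  exact hz h1

end Centre

/-- An element of a valuation ring with centre `(X)` is a fraction with denominator prime to `X`. -/
theorem exists_frac_of_mem {W L : Type*} [CommRing W] [IsDomain W] [IsDiscreteValuationRing W]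
    [Field L] [Algebra W L] {u : L} {P : Ideal (chartRing W u)} [P.IsPrime]
    [UniqueFactorizationMonoid (locRing P)] {X : locRing P} (hX : Prime X)
    (hfrac : ∀ f : L, ∃ a b : locRing P, (b : L) ≠ 0 ∧ f * b = a) {V : ValuationSubring L}
    (hV : ∀ r : locRing P, (r : L) ∈ V ∧ ((r : L) ∈ V.nonunits ↔ X ∣ r)) {f : L} (hf : f ∈ V) :
    ∃ a b : locRing P, ¬ X ∣ b ∧ f * b = a := by
  rcases (branchRing hX hfrac).mem_or_inv_mem f with h | ⟨a, b, hb, hab⟩
  · exact h
  rcases eq_or_ne f 0 with rfl | hf0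
  · exact ⟨0, 1, hX.not_dvd_one, by simp⟩
  by_cases ha : X ∣ a
  · exfalso
    have han : (a : L) ∈ V.nonunits := (hV a).2.mpr ha
    have hbn : (b : L) ∈ V.nonunits := by
      rw [show (b : L) = f * a by rw [← hab, mul_inv_cancel_left₀ hf0],
        ValuationSubring.mem_nonunits_iff, map_mul, mul_comm]
      exact mul_lt_one_of_lt_of_le han ((V.valuation_le_one_iff f).mpr hf)
    exact hb ((hV b).2.mp hbn)
  · exact ⟨b, a, ha, by rw [← hab, mul_inv_cancel_left₀ hf0]⟩

end FermatAgent.MazurPrinciple
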