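import Fermat.Agent.MazurPrinciple.NodeSideEnd
import Fermat.Agent.MazurPrinciple.Contraction
import Fermat.Agent.MazurPrinciple.AnnulusUnit

/-!
# Extension of the expansion to a totally ramified extension of the constants

The rational functions at a node, together with a root `θ` of a relation also satisfied by `ϖ`,
embed into the fractions of the annulus ring.
-/

set_option autoImplicit false
set_option linter.unusedSectionVars false

noncomputable section

open Polynomial IsLocalRing FermatAgent.BadRed.Semistable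

namespace FermatAgent.MazurPrinciple

variable {W : Type*} [CommRing W] [IsDomain W] [IsDiscreteValuationRing W] {ϖ : W}
  [IsAdicComplete (Ideal.span {ϖ}) W] {W₀ R : Type*} [CommRing W₀] [CommRing R] [IsDomain R]
  [IsLocalRing R] [IsNoetherianRing R] (D : NodeData ϖ W₀ R) (hϖ : Irreducible ϖ)

/-- The expansion on fractions. -/
def NodeData.fracMap : FractionRing R →+* Localization (nonZeroDivisors (Ann ϖ)) :=
  IsLocalization.map (M := nonZeroDivisors R) (S := FractionRing R) (T := nonZeroDivisors (Ann ϖ))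
    (Localization (nonZeroDivisors (Ann ϖ))) (D.expansion hϖ)
    (fun x hx => by
      let := Ann.isDomain ϖ hϖ
      exact mem_nonZeroDivisors_of_ne_zero fun e =>
        nonZeroDivisors.ne_zero hx (D.expansion_injective hϖ (e.trans (map_zero _).symm)))

theorem NodeData.fracMap_algebraMap (r : R) :
    D.fracMap hϖ (algebraMap R (FractionRing R) r) = algebraMap _ _ (D.expansion hϖ r) :=
  IsLocalization.map_eq _ _

/-- A root `θ` of the relation satisfied by `ϖ`. -/
structure NodeExt {F : Type*} [Field F] (D : NodeData ϖ W₀ R) (ι : R →+* F) where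
  injective : Function.Injective ι
  θ : F
  c : ℕ → W₀
  rel : θ ^ D.e = ∑ i ∈ Finset.range D.e, ι (D.a (c i)) * θ ^ i
  relW : ϖ ^ D.e = ∑ i ∈ Finset.range D.e, D.φ (c i) * ϖ ^ i
  indep : ∀ l : ℕ → FractionRing R, ∑ i ∈ Finset.range D.e,
    IsFractionRing.lift injective (l i) * θ ^ i = 0 → ∀ i < D.e, l i = 0

namespace NodeExt

variable {D} {F : Type*} [Field F] {ι : R →+* F} (X : NodeExt D ι)

/-- The rational functions inside the field. -/
def inc : FractionRing R →+* F := IsFractionRing.lift X.injective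

theorem inc_algebraMap (r : R) : X.inc (algebraMap R (FractionRing R) r) = ι r :=
  IsFractionRing.lift_algebraMap _ r

/-- Polynomials in `θ`. -/
def evF : (FractionRing R)[X] →+* F := eval₂RingHom X.inc X.θ

/-- Polynomials in `ϖ`. -/
def evW (_X : NodeExt D ι) : (FractionRing R)[X] →+* Localization (nonZeroDivisors (Ann ϖ)) :=
  eval₂RingHom (D.fracMap hϖ)
    (algebraMap (Ann ϖ) (Localization (nonZeroDivisors (Ann ϖ))) (Ann.const ϖ ϖ))

/-- The relation. -/
def minp : (FractionRing R)[X] :=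
  Polynomial.X ^ D.e -
    ∑ i ∈ Finset.range D.e, Polynomial.C (algebraMap R _ (D.a (X.c i))) * Polynomial.X ^ i

theorem degree_tail_lt :
    (∑ i ∈ Finset.range D.e, Polynomial.C (algebraMap R (FractionRing R) (D.a (X.c i))) *
      Polynomial.X ^ i).degree < (D.e : WithBot ℕ) := by
  refine (degree_sum_le _ _).trans_lt ((Finset.sup_lt_iff (WithBot.bot_lt_coe _)).mpr
    fun i hi => (degree_C_mul_X_pow_le _ _).trans_lt ?_)
  exact_mod_cast Finset.mem_range.mp hi

theorem monic_minp : X.minp.Monic := by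
  rw [minp, sub_eq_add_neg]
  exact monic_X_pow_add (by rw [degree_neg]; exact X.degree_tail_lt)

theorem natDegree_minp : X.minp.natDegree = D.e :=
  natDegree_eq_of_degree_eq_some (by
    rw [minp, degree_sub_eq_left_of_degree_lt (by rw [degree_X_pow]; exact X.degree_tail_lt),
      degree_X_pow])

theorem evF_minp : X.evF X.minp = 0 := by
  simp only [evF, minp, coe_eval₂RingHom, eval₂_sub, eval₂_X_pow, eval₂_finsetSum, eval₂_mul,
    eval₂_C, X.inc_algebraMap]
  rw [X.rel, sub_self]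

theorem evW_minp : X.evW hϖ X.minp = 0 := by
  simp only [evW, minp, map_sub, map_sum, map_mul, map_pow]
  simp only [coe_eval₂RingHom, eval₂_X, eval₂_C, D.fracMap_algebraMap, D.expansion_a]
  rw [← map_pow, ← map_pow, X.relW]
  simp only [map_sum, map_mul, map_pow, sub_self]

theorem evF_mod (P : (FractionRing R)[X]) : X.evF (P %ₘ X.minp) = X.evF P := by
  conv_rhs => rw [← modByMonic_add_div P X.minp]
  rw [map_add, map_mul, X.evF_minp, zero_mul, add_zero]

theorem evW_mod (P : (FractionRing R)[X]) : X.evW hϖ (P %ₘ X.minp) = X.evW hϖ P := by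
  conv_rhs => rw [← modByMonic_add_div P X.minp]
  rw [map_add, map_mul, X.evW_minp, zero_mul, add_zero]

theorem natDegree_mod_lt (P : (FractionRing R)[X]) : (P %ₘ X.minp).natDegree < D.e := by
  rw [← X.natDegree_minp]
  exact natDegree_modByMonic_lt _ X.monic_minp fun h => by
    have := congrArg natDegree h
    rw [X.natDegree_minp, natDegree_one] at this
    exact D.e_pos.ne' this

theorem mod_eq_zero_of_evF {P : (FractionRing R)[X]} (hP : X.evF P = 0) : P %ₘ X.minp = 0 := by
  set Q := P %ₘ X.minp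
  have h0 : X.evF Q = 0 := (X.evF_mod P).trans hP
  rw [evF, coe_eval₂RingHom, eval₂_eq_sum_range' _ (X.natDegree_mod_lt P)] at h0
  refine Polynomial.ext fun i => ?_
  rcases Nat.lt_or_ge i D.e with hi | hi
  · rw [coeff_zero]; exact X.indep _ h0 i hi
  · rw [coeff_zero, coeff_eq_zero_of_natDegree_lt ((X.natDegree_mod_lt P).trans_le hi)]

theorem evW_eq_zero_of_evF {P : (FractionRing R)[X]} (hP : X.evF P = 0) : X.evW hϖ P = 0 := by
  rw [← X.evW_mod, X.mod_eq_zero_of_evF hP, map_zero]

theorem exists_inverse {z : F} (hz : z ∈ X.evF.range) : z⁻¹ ∈ X.evF.range := by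
  rcases eq_or_ne z 0 with rfl | hz0
  · rw [inv_zero]; exact zero_mem _
  let := X.inc.toAlgebra
  have hr : ∀ w, w ∈ X.evF.range ↔ w ∈ Algebra.adjoin (FractionRing R) {X.θ} := fun w => by
    rw [Algebra.adjoin_singleton_eq_range_aeval]; exact Iff.rfl
  rw [hr] at hz ⊢
  have hint : IsIntegral (FractionRing R) X.θ := ⟨X.minp, X.monic_minp, X.evF_minp⟩
  have hzint : IsIntegral (FractionRing R) z :=
    (Algebra.IsIntegral.adjoin (by simpa using hint)).isIntegral ⟨z, hz⟩ |>.map
      (Algebra.adjoin (FractionRing R) {X.θ}).val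
  exact Algebra.adjoin_le (Set.singleton_subset_iff.mpr hz) hzint.inv_mem_adjoin

/-- The rational functions with the root adjoined. -/
def field : Subfield F :=
  { X.evF.range with inv_mem' := fun _ h => X.exists_inverse h }

theorem mem_field {z : F} : z ∈ X.field ↔ ∃ P, X.evF P = z := Iff.rfl

theorem inc_mem (l : FractionRing R) : X.inc l ∈ X.field :=
  ⟨Polynomial.C l, eval₂_C _ _⟩

theorem θ_mem : X.θ ∈ X.field := ⟨Polynomial.X, eval₂_X _ _⟩

/-- The embedding. -/
def emb : X.field →+* Localization (nonZeroDivisors (Ann ϖ)) where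
  toFun z := X.evW hϖ (X.mem_field.mp z.2).choose
  map_one' := by
    have h := (X.mem_field.mp (one_mem X.field)).choose_spec
    have := X.evW_eq_zero_of_evF hϖ (P := _ - 1) (by rw [map_sub, h, map_one, sub_self])
    rwa [map_sub, map_one, sub_eq_zero] at this
  map_zero' := by
    exact X.evW_eq_zero_of_evF hϖ (X.mem_field.mp (zero_mem X.field)).choose_spec
  map_mul' z w := by
    have h := (X.mem_field.mp (z * w).2).choose_spec
    have := X.evW_eq_zero_of_evF hϖ (P := (X.mem_field.mp (z * w).2).choose -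
        (X.mem_field.mp z.2).choose * (X.mem_field.mp w.2).choose) (by
      rw [map_sub, map_mul, h, (X.mem_field.mp z.2).choose_spec, (X.mem_field.mp w.2).choose_spec]
      exact sub_self _)
    rwa [map_sub, map_mul, sub_eq_zero] at this
  map_add' z w := by
    have h := (X.mem_field.mp (z + w).2).choose_spec
    have := X.evW_eq_zero_of_evF hϖ (P := (X.mem_field.mp (z + w).2).choose -
        ((X.mem_field.mp z.2).choose + (X.mem_field.mp w.2).choose)) (by
      rw [map_sub, map_add, h, (X.mem_field.mp z.2).choose_spec, (X.mem_field.mp w.2).choose_spec]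
      exact sub_self _)
    rwa [map_sub, map_add, sub_eq_zero] at this

theorem emb_eq {P : (FractionRing R)[X]} {z : X.field} (h : X.evF P = z) :
    X.emb hϖ z = X.evW hϖ P := by
  have := X.evW_eq_zero_of_evF hϖ (P := (X.mem_field.mp z.2).choose - P)
    (by rw [map_sub, (X.mem_field.mp z.2).choose_spec, h, sub_self])
  rwa [map_sub, sub_eq_zero] at this

theorem emb_θ_mul (z : X.field) (h : X.θ * (z : F) ∈ X.field) :
    X.emb hϖ ⟨_, h⟩ = algebraMap _ _ (Ann.const ϖ ϖ) * X.emb hϖ z := by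
  obtain ⟨P, hP⟩ := X.mem_field.mp z.2
  rw [X.emb_eq hϖ (P := Polynomial.X * P) (by rw [map_mul, hP, evF, coe_eval₂RingHom, eval₂_X]),
    X.emb_eq hϖ hP, map_mul, evW, coe_eval₂RingHom, eval₂_X]

/-- Coordinates in powers of `θ`. -/
theorem exists_coords (z : X.field) : ∃ l : ℕ → FractionRing R,
    (z : F) = ∑ i ∈ Finset.range D.e, X.inc (l i) * X.θ ^ i ∧
      X.emb hϖ z = ∑ i ∈ Finset.range D.e,
        D.fracMap hϖ (l i) * algebraMap _ _ (Ann.const ϖ ϖ) ^ i := by
  obtain ⟨P, hP⟩ := X.mem_field.mp z.2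
  refine ⟨fun i => (P %ₘ X.minp).coeff i, ?_, ?_⟩
  · rw [← hP, ← X.evF_mod, evF, coe_eval₂RingHom, eval₂_eq_sum_range' _ (X.natDegree_mod_lt P)]
  · rw [X.emb_eq hϖ hP, ← X.evW_mod, evW, coe_eval₂RingHom,
      eval₂_eq_sum_range' _ (X.natDegree_mod_lt P)]

/-- Integral coordinates give an element of the annulus ring. -/
theorem emb_mem_range {z : X.field} {l : ℕ → FractionRing R}
    (hl : X.emb hϖ z = ∑ i ∈ Finset.range D.e,
      D.fracMap hϖ (l i) * algebraMap _ _ (Ann.const ϖ ϖ) ^ i)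
    (hR : ∀ i < D.e, ∃ r, algebraMap R _ r = l i) : ∃ a : Ann ϖ, X.emb hϖ z = algebraMap _ _ a := by
  classical
  refine ⟨∑ i ∈ Finset.range D.e,
    (if h : i < D.e then D.expansion hϖ (hR i h).choose else 0) * Ann.const ϖ ϖ ^ i, ?_⟩
  rw [hl, map_sum]
  refine Finset.sum_congr rfl fun i hi => ?_
  have hi' := Finset.mem_range.mp hi
  rw [dif_pos hi', map_mul, map_pow, ← D.fracMap_algebraMap, (hR i hi').choose_spec]

section Gauss

variable {K : Type*} [Field K] {A : ValuationSubring K} {k : Type*} [Field k] {π : A →+* k}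
  [Algebra K F] {Fb : Type*} [Field Fb] [Algebra k Fb] (g : GaussRed A π F Fb)

/-- The root reduces to zero and rational functions are powers of `θ ^ e` times units. -/
structure GaussHyp : Prop where
  θ_mem : X.θ ∈ g.integers
  red_θ : g.red ⟨X.θ, θ_mem⟩ = 0
  scale : ∀ l : FractionRing R, l ≠ 0 →
    ∃ m : ℤ, IsUnitAt g (X.θ ^ ((D.e : ℤ) * m) * X.inc l)

variable {g} (H : X.GaussHyp g)
include H

/-- Coordinates of an integral element are integral. -/
theorem coord_mem (hθ : X.θ ≠ 0) {l : ℕ → FractionRing R} {z : F}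
    (hz : z = ∑ i ∈ Finset.range D.e, X.inc (l i) * X.θ ^ i) (hzi : z ∈ g.integers) :
    ∀ i < D.e, X.inc (l i) ∈ g.integers := by
  classical
  choose m hm using H.scale
  set s := (Finset.range D.e).filter fun i => l i ≠ 0 with hs
  -- exponents of the terms
  let n : ℕ → ℤ := fun i => if h : l i ≠ 0 then (i : ℤ) - (D.e : ℤ) * m (l i) h else 0
  let u : ℕ → F := fun i => if h : l i ≠ 0 then X.θ ^ ((D.e : ℤ) * m (l i) h) * X.inc (l i) else 0
  have hterm : ∀ i ∈ s, X.inc (l i) * X.θ ^ i = X.θ ^ n i * u i := by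
    intro i hi
    have h := (Finset.mem_filter.mp hi).2
    simp only [n, u, dif_pos h]
    rw [← mul_assoc, ← zpow_add₀ hθ, sub_add_cancel, zpow_natCast, mul_comm]
  have hu : ∀ i ∈ s, IsUnitAt g (u i) := fun i hi => by
    have h := (Finset.mem_filter.mp hi).2
    simpa only [u, dif_pos h] using hm (l i) h
  have hn_inj : ∀ i ∈ s, ∀ j ∈ s, n i = n j → i = j := by
    intro i hi j hj hij
    have h := (Finset.mem_filter.mp hi).2
    have h' := (Finset.mem_filter.mp hj).2
    simp only [n, dif_pos h, dif_pos h'] at hij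
    have h1 := congrArg (fun a : ℤ => a % (D.e : ℤ)) hij
    simp only [Int.sub_mul_emod_self_left] at h1
    rw [Int.emod_eq_of_lt (Int.natCast_nonneg i)
        (Int.ofNat_lt.mpr (Finset.mem_range.mp (Finset.mem_filter.mp hi).1)),
      Int.emod_eq_of_lt (Int.natCast_nonneg j)
        (Int.ofNat_lt.mpr (Finset.mem_range.mp (Finset.mem_filter.mp hj).1))] at h1
    exact_mod_cast h1
  have hsum : z = ∑ i ∈ s, X.θ ^ n i * u i := by
    rw [hz, ← Finset.sum_congr rfl hterm]
    refine (Finset.sum_subset (Finset.filter_subset _ _) fun i hi hni => ?_).symm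
    have : l i = 0 := by
      by_contra h
      exact hni (Finset.mem_filter.mpr ⟨hi, h⟩)
    rw [this, map_zero, zero_mul]
  have hpos : ∀ i ∈ s, 0 ≤ n i := by
    intro i hi
    obtain ⟨i₀, hi₀, hmin⟩ := s.exists_min_image n ⟨i, hi⟩
    refine le_trans ?_ (hmin i hi)
    by_contra hneg
    obtain ⟨d, hd⟩ : ∃ d : ℕ, -n i₀ = (d : ℤ) + 1 := ⟨(-n i₀ - 1).toNat, by omega⟩
    let w : ℕ → g.integers := fun j => if hj : j ∈ s then
      ⟨X.θ ^ (n j - n i₀) * u j, by
        rw [← Int.toNat_of_nonneg (sub_nonneg.mpr (hmin j hj)), zpow_natCast]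
        exact mul_mem (pow_mem H.θ_mem _) (hu j hj).1⟩ else 0
    have e1 : ((∑ j ∈ s, w j : g.integers) : F) = X.θ ^ (d + 1) * z := by
      rw [hsum, Finset.mul_sum, AddSubmonoidClass.coe_finsetSum]
      refine Finset.sum_congr rfl fun j hj => ?_
      simp only [w, dif_pos hj]
      rw [← mul_assoc, ← zpow_natCast, ← zpow_add₀ hθ]
      congr 2
      omega
    have e2 : g.red (∑ j ∈ s, w j) = 0 := by
      have : (∑ j ∈ s, w j) = (⟨X.θ, H.θ_mem⟩ : g.integers) ^ (d + 1) * ⟨z, hzi⟩ :=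
        Subtype.ext (by rw [e1]; simp)
      rw [this, map_mul, map_pow, H.red_θ, zero_pow (Nat.succ_ne_zero d), zero_mul]
    rw [map_sum, Finset.sum_eq_single_of_mem i₀ hi₀ fun j hj hne => ?_] at e2
    · refine (hu i₀ hi₀).2 (Eq.trans ?_ e2)
      refine congrArg g.red (Subtype.ext ?_)
      simp [w, hi₀]
    · obtain ⟨r, hr⟩ : ∃ r : ℕ, n j - n i₀ = (r : ℤ) + 1 :=
        ⟨(n j - n i₀ - 1).toNat, by
          have := hmin j hj
          have : n j ≠ n i₀ := fun h => hne (hn_inj j hj i₀ hi₀ h)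
          omega⟩
      have : w j = (⟨X.θ, H.θ_mem⟩ : g.integers) ^ (r + 1) * ⟨u j, (hu j hj).1⟩ :=
        Subtype.ext (by
          simp only [w, dif_pos hj, MulMemClass.coe_mul, SubmonoidClass.coe_pow]
          rw [hr, ← Nat.cast_succ, zpow_natCast])
      rw [this, map_mul, map_pow, H.red_θ, zero_pow (Nat.succ_ne_zero r), zero_mul]
  intro i hi
  by_cases h : l i = 0
  · rw [h, map_zero]; exact zero_mem _
  have his : i ∈ s := Finset.mem_filter.mpr ⟨Finset.mem_range.mpr hi, h⟩
  have h0 := hpos i his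
  simp only [n, dif_pos (show l i ≠ 0 from h)] at h0
  have hm0 : (m (l i) h) ≤ 0 := by
    by_contra hc
    have : (D.e : ℤ) ≤ (D.e : ℤ) * m (l i) h := le_mul_of_one_le_right (by simp) (by omega)
    omega
  have he : X.inc (l i) =
      X.θ ^ ((D.e : ℤ) * -(m (l i) h)) * (X.θ ^ ((D.e : ℤ) * m (l i) h) * X.inc (l i)) := by
    rw [← mul_assoc, ← zpow_add₀ hθ, mul_neg, neg_add_cancel, zpow_zero, one_mul]
  rw [he, ← Int.toNat_of_nonneg
    (show (0 : ℤ) ≤ (D.e : ℤ) * -(m (l i) h) from mul_nonneg (by simp) (by omega)), zpow_natCast]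
  exact mul_mem (pow_mem H.θ_mem _) (hm (l i) h).1

/-- The reduction only sees the first coordinate. -/
theorem red_eq_coord (hθ : X.θ ≠ 0) {l : ℕ → FractionRing R} {z : F}
    (hz : z = ∑ i ∈ Finset.range D.e, X.inc (l i) * X.θ ^ i) (hzi : z ∈ g.integers) :
    ∃ h : X.inc (l 0) ∈ g.integers, g.red ⟨z, hzi⟩ = g.red ⟨_, h⟩ := by
  classical
  have hc := X.coord_mem H hθ hz hzi
  refine ⟨hc 0 D.e_pos, ?_⟩
  let w : ℕ → g.integers := fun i => if hi : i < D.e then
    ⟨X.inc (l i), hc i hi⟩ * (⟨X.θ, H.θ_mem⟩ : g.integers) ^ i else 0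
  have e : (⟨z, hzi⟩ : g.integers) = ∑ i ∈ Finset.range D.e, w i := Subtype.ext (by
    rw [AddSubmonoidClass.coe_finsetSum]
    refine hz.trans (Finset.sum_congr rfl fun i hi => ?_)
    simp [w, Finset.mem_range.mp hi])
  rw [e, map_sum, Finset.sum_eq_single_of_mem 0 (Finset.mem_range.mpr D.e_pos) fun i hi hne => ?_]
  · simp [w, D.e_pos]
  · simp only [w, dif_pos (Finset.mem_range.mp hi), map_mul, map_pow, H.red_θ, zero_pow hne,
      mul_zero]

/-- Fractions with denominators off the branch. -/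
theorem exists_frac (hθ : X.θ ≠ 0) (P : R)
    (hP : Prime P) (hker : ∀ r, ∃ h : ι r ∈ g.integers, g.red ⟨ι r, h⟩ = 0 ↔ P ∣ r)
    (hloc : ∀ l : FractionRing R, X.inc l ∈ g.integers →
      ∃ a b : R, ¬ P ∣ b ∧ l * algebraMap R _ b = algebraMap R _ a)
    (z : X.field) (hzi : (z : F) ∈ g.integers) :
    ∃ (a b : R) (a₁ : Ann ϖ), ¬ P ∣ b ∧
      X.emb hϖ z * algebraMap _ _ (D.expansion hϖ b) =
        algebraMap _ _ (D.expansion hϖ a + Ann.const ϖ ϖ * a₁) ∧
      g.red ⟨z, hzi⟩ * g.red ⟨ι b, (hker b).choose⟩ = g.red ⟨ι a, (hker a).choose⟩ := by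
  classical
  obtain ⟨l, hl, hle⟩ := X.exists_coords hϖ z
  have hc := X.coord_mem H hθ hl hzi
  choose a b hb hab using fun i : Fin D.e => hloc (l i) (hc i i.2)
  have hbp : ¬ P ∣ ∏ i, b i := fun h => by
    obtain ⟨i, -, hi⟩ := hP.exists_mem_finset_dvd h
    exact hb i hi
  let c : Fin D.e → R := fun i => a i * ∏ j ∈ Finset.univ.erase i, b j
  have hci : ∀ i : Fin D.e, l i * algebraMap R _ (∏ j, b j) = algebraMap R _ (c i) := fun i => by
    rw [← Finset.mul_prod_erase _ b (Finset.mem_univ i), map_mul, ← mul_assoc, hab, ← map_mul]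
  let i₀ : Fin D.e := ⟨0, D.e_pos⟩
  refine ⟨c i₀, ∏ j, b j, ∑ i ∈ Finset.univ.erase i₀,
    D.expansion hϖ (c i) * Ann.const ϖ ϖ ^ ((i : ℕ) - 1), hbp, ?_, ?_⟩
  · rw [hle, ← Fin.sum_univ_eq_sum_range (fun i => D.fracMap hϖ (l i) *
      algebraMap _ _ (Ann.const ϖ ϖ) ^ i), Finset.sum_mul,
      ← Finset.add_sum_erase _ _ (Finset.mem_univ i₀), map_add,
      map_mul (algebraMap (Ann ϖ) (Localization (nonZeroDivisors (Ann ϖ)))) (Ann.const ϖ ϖ),
      map_sum (algebraMap (Ann ϖ) (Localization (nonZeroDivisors (Ann ϖ)))), Finset.mul_sum]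
    congr 1
    · rw [show ((i₀ : Fin D.e) : ℕ) = 0 from rfl, pow_zero, mul_one, ← D.fracMap_algebraMap,
        ← map_mul, hci i₀, D.fracMap_algebraMap]
    · refine Finset.sum_congr rfl fun i hi => ?_
      have hi0 : (i : ℕ) ≠ 0 := fun h => (Finset.mem_erase.mp hi).1 (Fin.ext h)
      have h := congrArg (D.fracMap hϖ) (hci i)
      rw [map_mul, D.fracMap_algebraMap, D.fracMap_algebraMap] at h
      rw [map_mul, map_pow]
      conv_lhs => rw [show (i : ℕ) = (i : ℕ) - 1 + 1 by omega, pow_succ]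
      rw [show (i : ℕ) - 1 + 1 = (i : ℕ) by omega]
      linear_combination ((algebraMap (Ann ϖ) (Localization (nonZeroDivisors (Ann ϖ))))
        (Ann.const ϖ ϖ) ^ ((i : ℕ) - 1) *
        (algebraMap (Ann ϖ) (Localization (nonZeroDivisors (Ann ϖ)))) (Ann.const ϖ ϖ)) * h
  · obtain ⟨h0, e0⟩ := X.red_eq_coord H hθ hl hzi
    rw [e0, ← map_mul]
    refine congrArg g.red (Subtype.ext ?_)
    show X.inc (l 0) * ι (∏ j, b j) = ι (c i₀)
    rw [← X.inc_algebraMap, ← X.inc_algebraMap, ← map_mul, ← hci i₀]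

end Gauss

end NodeExt

end FermatAgent.MazurPrinciple
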