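import Fermat.Agent.MazurPrinciple.NodeEmb
import Fermat.Agent.BadRed.Carayol.Norms
import Fermat.Agent.Curve.Basics

/-!
# Primes of the annulus ring give places

A prime of the annulus ring not dividing the uniformiser gives a valuation of the embedded
rational functions, trivial on the constants, hence proportional to the order at a place.
-/

set_option autoImplicit false

noncomputable section

open AlgebraicCurve

namespace FermatAgent.MazurPrinciple

open FermatAgent.Curve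

variable {W : Type*} [CommRing W] [IsDomain W] [IsDiscreteValuationRing W] {ϖ : W}
  [IsAdicComplete (Ideal.span {ϖ}) W] (hϖ : Irreducible ϖ)
variable {K F : Type*} [Field K] [IsAlgClosed K] [Field F] [Algebra K F] [IsFunctionField1 K F]
variable {E : Subfield F} (emb : E →+* Localization (nonZeroDivisors (Ann ϖ)))
  {π : Ann ϖ} (hπ : Prime π)

local notation "ι" => algebraMap (Ann ϖ) (Localization (nonZeroDivisors (Ann ϖ)))

include hϖ in
theorem exists_num_den (z : E) : ∃ a b : Ann ϖ, b ≠ 0 ∧ emb z * ι b = ι a := by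
  let := Ann.isDomain ϖ hϖ
  obtain ⟨⟨a, b⟩, h⟩ := IsLocalization.surj (nonZeroDivisors (Ann ϖ)) (emb z)
  exact ⟨a, b, nonZeroDivisors.ne_zero b.2, h⟩

include hϖ in
theorem num_ne_zero {z : E} (hz : z ≠ 0) {a b : Ann ϖ} (hb : b ≠ 0)
    (h : emb z * ι b = ι a) : a ≠ 0 := by
  let := Ann.isDomain ϖ hϖ
  rintro rfl
  rw [map_zero, mul_eq_zero] at h
  rcases h with h | h
  · exact hz ((map_eq_zero emb).mp h)
  · exact hb (IsLocalization.injective (M := nonZeroDivisors (Ann ϖ))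
      (Localization (nonZeroDivisors (Ann ϖ))) le_rfl (h.trans (map_zero _).symm))

/-- The valuation ring of a prime. -/
def primeRing : ValuationSubring E where
  carrier := {z | ∃ a b : Ann ϖ, ¬ π ∣ b ∧ emb z * ι b = ι a}
  mul_mem' := by
    rintro x y ⟨a, b, hb, h⟩ ⟨a', b', hb', h'⟩
    exact ⟨a * a', b * b', fun hd => (hπ.dvd_or_dvd hd).elim hb hb',
      by rw [map_mul, map_mul, map_mul, ← h, ← h']; ring⟩
  one_mem' := ⟨1, 1, hπ.not_dvd_one, by simp⟩
  add_mem' := by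
    rintro x y ⟨a, b, hb, h⟩ ⟨a', b', hb', h'⟩
    exact ⟨a * b' + a' * b, b * b', fun hd => (hπ.dvd_or_dvd hd).elim hb hb',
      by rw [map_add, map_mul, map_add, map_mul, map_mul, ← h, ← h']; ring⟩
  zero_mem' := ⟨0, 1, hπ.not_dvd_one, by simp⟩
  neg_mem' := by
    rintro x ⟨a, b, hb, h⟩
    exact ⟨-a, b, hb, by rw [map_neg, map_neg, neg_mul, h]⟩
  mem_or_inv_mem' z := by
    let := Ann.isDomain ϖ hϖ
    let := Ann.isLocalRing ϖ hϖ
    let := Ann.uniqueFactorizationMonoid ϖ hϖ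
    rcases eq_or_ne z 0 with rfl | hz
    · exact Or.inl ⟨0, 1, hπ.not_dvd_one, by simp⟩
    obtain ⟨a, b, hb, h⟩ := exists_num_den hϖ emb z
    obtain ⟨a', ha, ha'⟩ := (FiniteMultiplicity.of_prime_left hπ
      (num_ne_zero hϖ emb hz hb h)).exists_eq_pow_mul_and_not_dvd
    obtain ⟨b', hb0, hb'⟩ :=
      (FiniteMultiplicity.of_prime_left hπ hb).exists_eq_pow_mul_and_not_dvd
    set i := multiplicity π a
    set j := multiplicity π b
    have hne : ∀ m : ℕ, ι (π ^ m) ≠ 0 := fun m => (map_ne_zero_iff _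
      (IsLocalization.injective (M := nonZeroDivisors (Ann ϖ))
        (Localization (nonZeroDivisors (Ann ϖ))) le_rfl)).mpr (pow_ne_zero _ hπ.ne_zero)
    rcases le_total j i with hij | hij
    · refine Or.inl ⟨π ^ (i - j) * a', b', hb', mul_right_cancel₀ (hne j) ?_⟩
      rw [mul_assoc, ← map_mul, ← map_mul, mul_comm b', ← hb0, h, ha]
      congr 1
      rw [mul_right_comm, ← pow_add, Nat.sub_add_cancel hij]
    · refine Or.inr ⟨π ^ (j - i) * b', a', ha', mul_right_cancel₀ (hne i) ?_⟩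
      rw [mul_assoc, ← map_mul, ← map_mul, mul_comm a', ← ha, ← h, map_inv₀, ← mul_assoc,
        inv_mul_cancel₀ ((map_ne_zero emb).mpr hz), one_mul, hb0]
      congr 1
      rw [mul_right_comm, ← pow_add, Nat.sub_add_cancel hij]

/-- A unit of the valuation ring has equal multiplicities above and below. -/
theorem multiplicity_eq_of_unit {z : E} (hz : z ≠ 0) (h₁ : z ∈ primeRing hϖ emb hπ)
    (h₂ : z⁻¹ ∈ primeRing hϖ emb hπ) {a b : Ann ϖ} (hb : b ≠ 0) (h : emb z * ι b = ι a) :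
    multiplicity π a = multiplicity π b := by
  let := Ann.isDomain ϖ hϖ
  let := Ann.isLocalRing ϖ hϖ
  let := Ann.uniqueFactorizationMonoid ϖ hϖ
  have hinj : Function.Injective ι := IsLocalization.injective (M := nonZeroDivisors (Ann ϖ))
    (Localization (nonZeroDivisors (Ann ϖ))) le_rfl
  have ha := num_ne_zero hϖ emb hz hb h
  have key : ∀ {w : E} {a b : Ann ϖ}, a ≠ 0 → b ≠ 0 → w ∈ primeRing hϖ emb hπ → w ≠ 0 →
      emb w * ι b = ι a → multiplicity π b ≤ multiplicity π a := by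
    rintro w a b ha hb ⟨a', b', hb', h'⟩ hw h
    have hb0 : b' ≠ 0 := fun e => hb' (e ▸ dvd_zero π)
    have ha0 := num_ne_zero hϖ emb hw hb0 h'
    have e : a * b' = a' * b := hinj (by rw [map_mul, map_mul, ← h, ← h']; ring)
    have e2 := congrArg (multiplicity π) e
    rw [multiplicity_mul hπ (FiniteMultiplicity.of_prime_left hπ (mul_ne_zero ha hb0)),
      multiplicity_mul hπ (FiniteMultiplicity.of_prime_left hπ (mul_ne_zero ha0 hb)),
      multiplicity_eq_zero.mpr hb', add_zero] at e2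
    omega
  refine le_antisymm ?_ (key ha hb h₁ hz h)
  exact key hb ha h₂ (inv_ne_zero hz) (by
    rw [map_inv₀, ← h, ← mul_assoc, inv_mul_cancel₀ ((map_ne_zero emb).mpr hz), one_mul])

include hϖ hπ in
/-- The place of a prime. -/
theorem exists_place_of_prime (hπϖ : ¬ π ∣ Ann.const ϖ ϖ)
    (hconst : ∀ (c : K) (hc : algebraMap K F c ∈ E), ∃ a b : W, b ≠ 0 ∧
      emb ⟨_, hc⟩ * ι (Ann.const ϖ b) = ι (Ann.const ϖ a))
    (halg : ∀ c : K, IsIntegral (E.comap (algebraMap K F)) c)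
    (hone : ∀ P : Place K F, (∃ z ∈ E, P.ord z ≠ 0) → ∃ u ∈ E, P.ord u = 1) :
    ∃ (P : Place K F) (e : ℕ), ∀ (z : E) (a : Ann ϖ), (z : F) ≠ 0 → emb z = ι a →
      (multiplicity π a : ℤ) = e * P.ord (z : F) := by
  let := Ann.isDomain ϖ hϖ
  let := Ann.isLocalRing ϖ hϖ
  let := Ann.uniqueFactorizationMonoid ϖ hϖ
  set V := primeRing hϖ emb hπ
  have hc0 : ∀ b : W, b ≠ 0 → ¬ π ∣ Ann.const ϖ b := fun b hb hd => by
    obtain ⟨n, u, rfl⟩ := IsDiscreteValuationRing.eq_unit_mul_pow_irreducible hb hϖ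
    rw [map_mul, map_pow] at hd
    rcases hπ.dvd_or_dvd hd with h | h
    · exact hπ.not_isUnit (isUnit_of_dvd_unit h (u.isUnit.map _))
    · exact hπϖ (hπ.dvd_of_dvd_pow h)
  have hE : ∀ (c : K) (hc : algebraMap K F c ∈ E), (⟨_, hc⟩ : E) ∈ V := fun c hc => by
    obtain ⟨a, b, hb, h⟩ := hconst c hc
    exact ⟨_, _, hc0 b hb, h⟩
  by_cases hV : ∀ z, z ∈ V
  · refine ⟨Classical.arbitrary _, 0, fun z a hz ha => ?_⟩
    have hz' : z ≠ 0 := fun h => hz (by rw [h]; rfl)
    rw [multiplicity_eq_of_unit hϖ emb hπ hz' (hV z) (hV _) one_ne_zero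
      (by rw [map_one, mul_one, ha]), multiplicity_eq_zero.mpr hπ.not_dvd_one]
    simp
  push Not at hV
  obtain ⟨x, hx⟩ := hV
  obtain ⟨U, hU⟩ := BadRed.Carayol.exists_extension E.subtype V
  have hUmem : ∀ z : E, (z : F) ∈ U ↔ z ∈ V := fun z => by rw [← hU]; rfl
  have hK : ∀ c : K, algebraMap K F c ∈ U := fun c => by
    let S := E.comap (algebraMap K F)
    obtain ⟨p, hp, hpc⟩ := halg c
    let f : S →+* U := ((algebraMap K F).comp S.subtype).codRestrict U.toSubring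
      fun s => (hUmem ⟨_, s.2⟩).mpr (hE _ s.2)
    have hi : IsIntegral U (algebraMap K F c) := by
      refine ⟨p.map f, hp.map f, ?_⟩
      rw [Polynomial.eval₂_map]
      have := congrArg (algebraMap K F) hpc
      rw [map_zero, Polynomial.hom_eval₂] at this
      exact this
    obtain ⟨u, hu⟩ := IsIntegrallyClosed.isIntegral_iff.mp hi
    exact hu ▸ u.2
  have hUtop : U ≠ ⊤ := fun h => hx ((hUmem x).mp (h ▸ ValuationSubring.mem_top _))
  let P := placeOfValuationSubring U hK hUtop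
  have hord : ∀ z : E, z ∈ V ↔ 0 ≤ P.ord (z : F) := fun z => by
    rw [← hUmem, ← mem_iff_ord_nonneg' P]
    rfl
  have hxP : P.ord (x : F) ≠ 0 := fun h => hx ((hord x).mpr h.ge)
  obtain ⟨u, huE, hu⟩ := hone P ⟨x, x.2, hxP⟩
  have hu0 : (⟨u, huE⟩ : E) ≠ 0 := fun h => by
    have := congrArg Subtype.val h
    change u = 0 at this
    rw [this, P.ord_zero] at hu
    exact zero_ne_one hu
  obtain ⟨au, bu, hbu, hau⟩ : ∃ au bu : Ann ϖ, ¬ π ∣ bu ∧ emb ⟨u, huE⟩ * ι bu = ι au :=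
    (hord ⟨u, huE⟩).mpr (hu ▸ zero_le_one)
  have hbu0 : bu ≠ 0 := fun e => hbu (e ▸ dvd_zero π)
  have hau0 := num_ne_zero hϖ emb hu0 hbu0 hau
  refine ⟨P, multiplicity π au, fun z a hz ha => ?_⟩
  have hz' : z ≠ 0 := fun h => hz (by rw [h]; rfl)
  obtain ⟨n, hn⟩ : ∃ n : ℕ, P.ord (z : F) = n := Int.eq_ofNat_of_zero_le
    ((hord z).mp ⟨a, 1, hπ.not_dvd_one, by rw [map_one, mul_one, ha]⟩)
  set uE : E := ⟨u, huE⟩
  let w : E := z / uE ^ n
  have hwF : (w : F) = (z : F) / u ^ n := rfl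
  have hu0F : u ≠ 0 := fun e => hu0 (Subtype.ext e)
  have hw : P.ord (w : F) = 0 := by
    rw [hwF, div_eq_mul_inv, P.ord_mul hz (inv_ne_zero (pow_ne_zero _ hu0F)), P.ord_inv,
      ← zpow_natCast, P.ord_zpow, hn, hu]
    ring
  have hw0 : w ≠ 0 := div_ne_zero hz' (pow_ne_zero _ hu0)
  have hm := multiplicity_eq_of_unit hϖ emb hπ hw0 ((hord w).mpr hw.ge)
    ((hord w⁻¹).mpr (by rw [show ((w⁻¹ : E) : F) = (w : F)⁻¹ from rfl, P.ord_inv, hw, neg_zero]))
    (a := a * bu ^ n) (b := au ^ n) (pow_ne_zero _ hau0) (by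
      have hwz : emb w * emb uE ^ n = emb z := by
        rw [← map_pow, ← map_mul, div_mul_cancel₀ _ (pow_ne_zero _ hu0)]
      rw [map_pow, ← hau, map_mul, map_pow, ← ha, ← hwz]
      ring)
  rw [multiplicity_mul hπ (FiniteMultiplicity.of_prime_left hπ
    (mul_ne_zero (num_ne_zero hϖ emb hz' one_ne_zero (by rw [map_one, mul_one, ha]))
      (pow_ne_zero _ hbu0))),
    (FiniteMultiplicity.of_prime_left hπ hbu0).multiplicity_pow hπ, multiplicity_eq_zero.mpr hbu,
    mul_zero, add_zero, (FiniteMultiplicity.of_prime_left hπ hau0).multiplicity_pow hπ] at hm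
  rw [hn, hm]
  push_cast
  ring

end FermatAgent.MazurPrinciple
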