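import Fermat.Agent.MazurPrinciple.NodeSideEnd

/-!
# The two branches at a node
-/

set_option autoImplicit false
set_option linter.unusedSectionVars false

noncomputable section

open IsLocalRing

namespace FermatAgent.MazurPrinciple

variable {W : Type*} [CommRing W] [IsDomain W] [IsDiscreteValuationRing W] {ϖ : W}
  [IsAdicComplete (Ideal.span {ϖ}) W] {W₀ R : Type*} [CommRing W₀] [CommRing R] [IsDomain R]
  [IsLocalRing R] [IsNoetherianRing R]
variable {k : Type*} [Field k] (D : NodeData ϖ W₀ R) (res : W →+* k)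

theorem modPowMk_one_unif : modPowMk ϖ 1 ϖ = 0 :=
  (modPowMk_eq_zero_iff ϖ 1 ϖ).mpr (by rw [pow_one])

theorem toX_one_nonneg (z : Ann ϖ) {n : ℤ} (hn : n < 0) : (Ann.toX ϖ 1 z).coeff n = 0 := by
  obtain ⟨f, rfl⟩ := Ideal.Quotient.mk_surjective z
  rw [Ann.toX_mk, coeff_endX, modPowMk_eq_zero_iff, pow_one]
  exact Dvd.dvd.mul_right (dvd_pow_self ϖ (by omega)) _

theorem toY_one_nonneg (z : Ann ϖ) {n : ℤ} (hn : n < 0) : (Ann.toY ϖ 1 z).coeff n = 0 := by
  obtain ⟨f, rfl⟩ := Ideal.Quotient.mk_surjective z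
  rw [Ann.toY_mk, coeff_endY, modPowMk_eq_zero_iff, pow_one]
  exact Dvd.dvd.mul_right (dvd_pow_self ϖ (by omega)) _

/-- The branch on which `X` is the coordinate. -/
def NodeData.sideX (hϖ : Irreducible ϖ) (hres : res ϖ = 0) (hY : Prime D.Y)
    (hYX : ¬ D.Y ∣ D.X) : NodeSide D res where
  irreducible := hϖ
  res_unif := hres
  toE := Ann.toX ϖ
  level _ _ h z := Ann.levelMap_toX ϖ h z
  P := D.Y
  P' := D.X
  max_eq := by rw [D.max_eq, Set.pair_comm]
  prime_P := hY
  not_dvd := hYX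
  map_P := by
    rw [D.expansion_Y, map_mul, map_pow, Ann.toX_y, modPowMk_one_unif, map_zero,
      zero_pow D.e_pos.ne', mul_zero]
  nonneg z _ hn := toX_one_nonneg z hn
  toE_const n c := Ann.toX_const ϖ n c
  map_P' := ⟨1, isUnit_one, by
    rw [D.expansion_X, map_pow, Ann.toX_x, HahnSeries.single_pow, one_pow, map_one (modPowMk ϖ 1),
      nsmul_eq_mul, mul_one]⟩

/-- The branch on which `Y` is the coordinate. -/
def NodeData.sideY (hϖ : Irreducible ϖ) (hres : res ϖ = 0) : NodeSide D res where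
  irreducible := hϖ
  res_unif := hres
  toE := Ann.toY ϖ
  level _ _ h z := Ann.levelMap_toY ϖ h z
  P := D.X
  P' := D.Y
  max_eq := D.max_eq
  prime_P := D.prime_X
  not_dvd := D.not_dvd
  map_P := by
    rw [D.expansion_X, map_pow, Ann.toY_x, modPowMk_one_unif, map_zero, zero_pow D.e_pos.ne']
  nonneg z _ hn := toY_one_nonneg z hn
  toE_const n c := Ann.toY_const ϖ n c
  map_P' := ⟨D.ω, D.isUnit_ω, by
    rw [D.expansion_Y, map_mul, map_pow, Ann.toY_const, Ann.toY_y, HahnSeries.single_pow, one_pow,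
      HahnSeries.C_apply, HahnSeries.single_mul_single, mul_one, zero_add, nsmul_eq_mul, mul_one]⟩

end FermatAgent.MazurPrinciple
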