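import Fermat.Agent.MazurPrinciple.NodeChart
import Fermat.Agent.MazurPrinciple.NodeSides
import Fermat.Agent.MazurPrinciple.NodeExtend
import Fermat.Agent.MazurPrinciple.NodePlace

/-!
# Node data of a chart over a ramified field of constants

`NodeScalars`: what relates a chart to a discretely valued field of definition `E'`. At every node
it gives node data, the extension by the uniformiser and the divisibility of integral elements
with vanishing reduction.
-/

set_option autoImplicit false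
set_option linter.unusedSectionVars false

noncomputable section

namespace FermatAgent.MazurPrinciple

open IsLocalRing AlgebraicCurve
open FermatAgent.Curve FermatAgent.Curve.RR FermatAgent.BadRed.Semistable
open FermatAgent.BadRed.Carayol

variable {q : ℕ} [Fact q.Prime] {W K F F₁ F₂ : Type*}
  [CommRing W] [IsDomain W] [IsDiscreteValuationRing W] [IsAlgClosed (IsLocalRing.ResidueField W)]
  [Field K] [CharZero K] [Algebra W K] [IsFractionRing W K]
  [Field F] [Field F₁] [Field F₂] [Algebra K F] [Algebra K F₁] [Algebra K F₂]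
  [Algebra W F] [Algebra W F₁] [Algebra W F₂]
  [IsScalarTower W K F] [IsScalarTower W K F₁] [IsScalarTower W K F₂]
  {T : QTower q K F F₁ F₂} {u : F}
variable {L : Type*} [Field L] [IsAlgClosed L] {A : ValuationSubring L} {k : Type*} [Field k]
  [IsAlgClosed k] {π : A →+* k} {E G₁ G₂ : Type*} [Field E] [Field G₁] [Field G₂]
  [Algebra L E] [Algebra k G₁] [Algebra k G₂] [IsFunctionField1 L E] [IsFunctionField1 k G₁]
  [IsFunctionField1 k G₂] [RRSetting L E] [RRSetting k G₁] [RRSetting k G₂]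
variable {d : NodalDatum A π E G₁ G₂}
variable {Wc : Type*} [CommRing Wc] [IsDomain Wc] [IsDiscreteValuationRing Wc]

/-- A chart, a field of definition `E'` with uniformiser `ϖ`, and its completed scalars. -/
structure NodeScalars (C : ChartLink W T u d) (E' : Subfield E) (cs : Finset W) (ϖ : A) (ϖW : Wc)
    where
  irreducible : Irreducible ϖW
  unif_ne_zero : (ϖ : L) ≠ 0
  pi_unif : π ϖ = 0
  res : Wc →+* k
  res_unif : res ϖW = 0
  φ : W →+* Wc
  res_φ : ∀ c, res (φ c) = π (C.κ c)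
  e : ℕ
  e_pos : 0 < e
  ω : Wc
  isUnit_ω : IsUnit ω
  φ_q : φ (q : W) = ω * ϖW ^ e
  q_eq : ∃ v : A, π v ≠ 0 ∧ ((q : ℕ) : A) = ϖ ^ e * v
  c : ℕ → W
  rel : ϖ ^ e = ∑ i ∈ Finset.range e, C.κ (c i) * ϖ ^ i
  relW : ϖW ^ e = ∑ i ∈ Finset.range e, φ (c i) * ϖW ^ i
  mem_E : ∀ z : E, z ∈ E' ↔ ∃ l : ℕ → F₁,
    z = ∑ i ∈ Finset.range e, C.hom (l i) * algebraMap L E (ϖ : L) ^ i
  indep : ∀ l : ℕ → F₁, ∑ i ∈ Finset.range e, C.hom (l i) * algebraMap L E (ϖ : L) ^ i = 0 →
    ∀ i < e, l i = 0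
  coord_rr : ∀ (n : ℕ) (l : ℕ → F₁),
    (∑ i ∈ Finset.range e, C.hom (l i) * algebraMap L E (ϖ : L) ^ i) ∈
      riemannRochSpace (n • d.D) → ∀ i < e, C.hom (l i) ∈ riemannRochSpace (n • d.D)
  integral : ∀ (n : ℕ) (f : F₁), C.hom f ∈ riemannRochSpace (n • d.D) → ∃ M : ℕ,
    IsIntegral (Algebra.adjoin K {T.t u})
      (Polynomial.aeval (T.t u) (∏ a ∈ cs, (Polynomial.X - Polynomial.C a)) ^ M * f)
  surj₁ : ∀ φ : G₁, ∃ (f : F₁) (h : C.hom f ∈ d.g₁.integers), d.g₁.red ⟨C.hom f, h⟩ = φ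
  surj₂ : ∀ φ : G₂, ∃ (f : F₁) (h : C.hom f ∈ d.g₂.integers), d.g₂.red ⟨C.hom f, h⟩ = φ
  const_coord : ∀ x : L, algebraMap L E x ∈ E' → ∃ b : W, b ≠ 0 ∧ ∃ a : ℕ → W,
    (C.κ b : L) * x = ∑ i ∈ Finset.range e, (C.κ (a i) : L) * (ϖ : L) ^ i
  isIntegral_const : ∀ x : L, IsIntegral (E'.comap (algebraMap L E)) x
  ord_one : ∀ P : Place L E, (∃ z ∈ E', P.ord z ≠ 0) → ∃ v ∈ E', P.ord v = 1

variable {C : ChartLink W T u d} {i : d.C.ι} {cs : Finset W} {E' : Subfield E} {ϖ : A} {ϖW : Wc}

instance NodeChart.instIsMaximal (NC : NodeChart C i cs) : NC.P.IsMaximal := NC.isMax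

instance NodeChart.instIsPrime (NC : NodeChart C i cs) : NC.P.IsPrime := NC.isMax.isPrime

instance NodeChart.instIsNoetherian (NC : NodeChart C i cs) : IsNoetherianRing (locRing NC.P) :=
  NC.noeth

variable (S : NodeScalars C E' cs ϖ ϖW) (NC : NodeChart C i cs)
  (hq : maximalIdeal W = Ideal.span {(q : W)})

namespace NodeScalars

include hq in
theorem natCast_dvd_of_unif_dvd {c : W} (h : ϖW ∣ S.φ c) : (q : W) ∣ c := by
  obtain ⟨b, hb⟩ := h
  have h0 : π (C.κ c) = 0 := by rw [← S.res_φ, hb, map_mul, S.res_unif, zero_mul]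
  have h1 := (C.pi_κ_eq_zero_iff hq c).mp h0
  rwa [residue_eq_zero_iff, hq, Ideal.mem_span_singleton] at h1

/-- The node data. -/
def nodeData : NodeData ϖW W (locRing NC.P) where
  a := locConst NC.P
  φ := S.φ
  X := NC.X
  Y := NC.Y
  q := (q : W)
  mul_eq := by rw [map_natCast]; exact NC.mul_eq
  max_eq := NC.max_eq
  prime_X := NC.prime_X
  not_dvd := NC.not_dvd_X
  res_surj := NC.res_surj
  mem_max := NC.mem_max
  e := S.e
  e_pos := S.e_pos
  ω := S.ω
  isUnit_ω := S.isUnit_ω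
  φ_q := S.φ_q
  φ_reflect _ h := S.natCast_dvd_of_unif_dvd hq h

end NodeScalars

/-- The local ring inside the functions. -/
def NodeChart.incHom : locRing NC.P →+* E := C.hom.comp (locRing NC.P).subtype

theorem NodeChart.incHom_injective : Function.Injective NC.incHom :=
  C.hom.injective.comp Subtype.val_injective

/-- Fractions of the local ring as functions on the chart. -/
def NodeChart.fracField : FractionRing (locRing NC.P) →+* F₁ :=
  IsFractionRing.lift (g := (locRing NC.P).subtype) Subtype.val_injective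

theorem NodeChart.fracField_algebraMap (r : locRing NC.P) :
    NC.fracField (algebraMap _ _ r) = r :=
  IsFractionRing.lift_algebraMap _ r

theorem NodeChart.lift_incHom (l : FractionRing (locRing NC.P)) :
    IsFractionRing.lift NC.incHom_injective l = C.hom (NC.fracField l) :=
  RingHom.congr_fun (IsLocalization.ringHom_ext (nonZeroDivisors (locRing NC.P))
    (j := IsFractionRing.lift NC.incHom_injective) (k := C.hom.comp NC.fracField)
    (RingHom.ext fun r => by
      show IsFractionRing.lift NC.incHom_injective (algebraMap _ _ r) = _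
      rw [IsFractionRing.lift_algebraMap]
      show C.hom (r : F₁) = C.hom _
      rw [NC.fracField_algebraMap])) l

variable (D : ChartData W T u)

include hq D in
theorem NodeChart.fracField_surjective : Function.Surjective NC.fracField := fun f => by
  have := D.finite_over₁
  obtain ⟨a, b, hb, hab⟩ := exists_mul_eq_locRing (K := K) NC.P hq D.transcendental_t f
  refine ⟨algebraMap _ _ a / algebraMap _ _ b, ?_⟩
  rw [map_div₀, NC.fracField_algebraMap, NC.fracField_algebraMap, ← hab, mul_div_cancel_right₀ _ hb]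

namespace NodeScalars

variable [IsAdicComplete (Ideal.span {ϖW}) Wc]

/-- The extension by the uniformiser. -/
def nodeExt : NodeExt (S.nodeData NC hq) NC.incHom where
  injective := NC.incHom_injective
  θ := algebraMap L E (ϖ : L)
  c := S.c
  rel := by
    show algebraMap L E (ϖ : L) ^ S.e =
      ∑ i ∈ Finset.range S.e, C.hom (algebraMap W F₁ (S.c i)) * algebraMap L E (ϖ : L) ^ i
    have h := congrArg ((algebraMap L E).comp A.subtype) S.rel
    simp only [map_pow, map_sum, map_mul, RingHom.comp_apply, ValuationSubring.subtype_apply] at h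
    simp only [C.commutes]
    exact h
  relW := S.relW
  indep l hl j hj := by
    have h0 := S.indep (fun i => NC.fracField (l i)) (by
      rw [← hl]
      exact Finset.sum_congr rfl fun i _ => by rw [← NC.lift_incHom]) j hj
    exact (map_eq_zero NC.fracField).mp h0

theorem inc_eq (l : FractionRing (locRing NC.P)) :
    (S.nodeExt NC hq).inc l = C.hom (NC.fracField l) := NC.lift_incHom l

include D in
theorem mem_field_iff (z : E) : z ∈ (S.nodeExt NC hq).field ↔ z ∈ E' := by
  rw [S.mem_E]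
  constructor
  · intro hz
    obtain ⟨l, hl, -⟩ := (S.nodeExt NC hq).exists_coords S.irreducible ⟨z, hz⟩
    exact ⟨fun i => NC.fracField (l i), hl.trans (Finset.sum_congr rfl fun i _ => by
      rw [S.inc_eq NC hq]; rfl)⟩
  · rintro ⟨l, rfl⟩
    refine Subfield.sum_mem _ fun i _ => ?_
    obtain ⟨x, hx⟩ := NC.fracField_surjective hq D (l i)
    rw [← hx, ← S.inc_eq NC hq]
    exact Subfield.mul_mem _ ((S.nodeExt NC hq).inc_mem x)
      (Subfield.pow_mem _ (S.nodeExt NC hq).θ_mem i)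

section Side

variable {Gb : Type*} [Field Gb] [Algebra k Gb] (g : GaussRed A π E Gb) {P P' : locRing NC.P}
  (hPP' : P * P' = (q : locRing NC.P)) (hP : Prime P) (hnd : ¬ P ∣ P')
  (ker : ∀ r : locRing NC.P, ∃ h : C.hom r ∈ g.integers, g.red ⟨C.hom r, h⟩ = 0 ↔ P ∣ r)

include S hPP' in
theorem hom_branch (hP' : C.hom (P' : F₁) ≠ 0) : ∃ v : A, π v ≠ 0 ∧
    C.hom (P : F₁) = algebraMap L E (ϖ : L) ^ S.e * (algebraMap L E (v : L) * (C.hom (P' : F₁))⁻¹) := by
  obtain ⟨v, hv, hvq⟩ := S.q_eq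
  refine ⟨v, hv, ?_⟩
  rw [← mul_assoc, eq_mul_inv_iff_mul_eq₀ hP', ← map_mul, ← Subring.coe_mul, hPP', ← map_pow,
    ← map_mul]
  have h := congrArg ((algebraMap L E).comp A.subtype) hvq
  simp only [map_natCast, RingHom.comp_apply, ValuationSubring.subtype_apply] at h
  rw [show ((q : locRing NC.P) : F₁) = (q : F₁) from map_natCast (locRing NC.P).subtype q,
    map_natCast, h]
  simp

theorem isUnitAt_algebraMap {v : A} (hv : π v ≠ 0) : IsUnitAt g (algebraMap L E (v : L)) :=
  ⟨g.algebraMap_mem v, by rw [g.red_algebraMap]; exact (map_ne_zero _).mpr hv⟩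

include hnd ker in
theorem isUnitAt_other : IsUnitAt g (C.hom (P' : F₁)) :=
  ⟨(ker P').choose, fun h => hnd ((ker P').choose_spec.mp h)⟩

include S hPP' hP hnd ker in
theorem exists_scale {r : locRing NC.P} (hr : r ≠ 0) :
    ∃ j : ℕ, IsUnitAt g ((algebraMap L E (ϖ : L) ^ (S.e * j))⁻¹ * C.hom (r : F₁)) := by
  obtain ⟨r', hr', hdv⟩ := (FiniteMultiplicity.of_prime_left hP hr).exists_eq_pow_mul_and_not_dvd
  have hu := isUnitAt_other NC g hnd ker
  obtain ⟨v, hv, he⟩ := S.hom_branch NC hPP' hu.ne_zero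
  generalize multiplicity P r = m at hr'
  subst hr'
  refine ⟨m, ?_⟩
  have hθ : algebraMap L E (ϖ : L) ≠ 0 := (map_ne_zero _).mpr S.unif_ne_zero
  have key : (algebraMap L E (ϖ : L) ^ (S.e * m))⁻¹ * C.hom ((P ^ m * r' : locRing NC.P) : F₁) =
      (algebraMap L E (v : L) * (C.hom (P' : F₁))⁻¹) ^ m * C.hom (r' : F₁) := by
    conv_lhs => rw [Subring.coe_mul, SubmonoidClass.coe_pow, map_mul, map_pow, he, mul_pow,
      ← pow_mul, mul_assoc, inv_mul_cancel_left₀ (pow_ne_zero _ hθ)]
  rw [key]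
  exact (((isUnitAt_algebraMap g hv).mul (hu.inv d.residue_surjective)).pow _).mul
    ⟨(ker r').choose, fun h => hdv ((ker r').choose_spec.mp h)⟩

include hPP' hP hnd ker in
/-- The Gauss hypotheses at a branch. -/
theorem gaussHyp : (S.nodeExt NC hq).GaussHyp g where
  θ_mem := g.algebraMap_mem ϖ
  red_θ := (g.red_algebraMap ϖ).trans (by rw [S.pi_unif, map_zero])
  scale l hl := by
    obtain ⟨a, b, hb, rfl⟩ := IsFractionRing.div_surjective (locRing NC.P) l
    have hb0 : b ≠ 0 := nonZeroDivisors.ne_zero hb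
    have ha0 : a ≠ 0 := fun h => hl (by rw [h, map_zero, zero_div])
    obtain ⟨j, hj⟩ := S.exists_scale NC g hPP' hP hnd ker ha0
    obtain ⟨j', hj'⟩ := S.exists_scale NC g hPP' hP hnd ker hb0
    refine ⟨(j' : ℤ) - j, ?_⟩
    have hθ : algebraMap L E (ϖ : L) ≠ 0 := (map_ne_zero _).mpr S.unif_ne_zero
    have hbE : C.hom (b : F₁) ≠ 0 := (map_ne_zero _).mpr (fun h => hb0 (Subtype.ext h))
    convert hj.mul (hj'.inv d.residue_surjective) using 1
    show algebraMap L E (ϖ : L) ^ ((S.e : ℤ) * ((j' : ℤ) - j)) * _ = _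
    rw [map_div₀, NodeExt.inc_algebraMap, NodeExt.inc_algebraMap, mul_sub, zpow_sub₀ hθ,
      ← Nat.cast_mul, ← Nat.cast_mul, zpow_natCast, zpow_natCast]
    show _ / _ * (C.hom (a : F₁) / C.hom (b : F₁)) = _
    field_simp

variable (frac : ∀ f : F₁, C.hom f ∈ g.integers →
  ∃ a b : locRing NC.P, ¬ P ∣ b ∧ f * b = a)

include frac in
theorem frac_local (l : FractionRing (locRing NC.P)) (hl : (S.nodeExt NC hq).inc l ∈ g.integers) :
    ∃ a b : locRing NC.P, ¬ P ∣ b ∧ l * algebraMap _ _ b = algebraMap _ _ a := by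
  rw [S.inc_eq NC hq] at hl
  obtain ⟨a, b, hb, hab⟩ := frac _ hl
  exact ⟨a, b, hb, NC.fracField.injective (by
    rw [map_mul, NC.fracField_algebraMap, NC.fracField_algebraMap, hab])⟩

include hPP' hP hnd ker frac in
/-- An element of `E'` with vanishing reduction at a branch is a multiple of `ϖ`. -/
theorem exists_div (z : E) (hzF : z ∈ (S.nodeExt NC hq).field) (hz : z ∈ g.integers)
    (h0 : g.red ⟨z, hz⟩ = 0) : ∃ y ∈ g.integers, z = (ϖ : L) • y := by
  classical
  let X := S.nodeExt NC hq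
  have H := S.gaussHyp NC hq g hPP' hP hnd ker
  have hθ : X.θ ≠ 0 := (map_ne_zero _).mpr S.unif_ne_zero
  obtain ⟨l, hl, -⟩ := X.exists_coords S.irreducible ⟨z, hzF⟩
  have hc := X.coord_mem H hθ hl hz
  obtain ⟨h1, h2⟩ := X.red_eq_coord H hθ hl hz
  obtain ⟨a, b, hb, hab⟩ := S.frac_local NC hq g frac (l 0) h1
  have hu := isUnitAt_other NC g hnd ker
  have hbu : IsUnitAt g (C.hom (b : F₁)) :=
    ⟨(ker b).choose, fun h => hb ((ker b).choose_spec.mp h)⟩
  have hE : X.inc (l 0) * C.hom (b : F₁) = C.hom (a : F₁) := by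
    have := congrArg X.inc hab
    rwa [map_mul, NodeExt.inc_algebraMap, NodeExt.inc_algebraMap] at this
  obtain ⟨a', rfl⟩ : P ∣ a := (ker a).choose_spec.mp (by
    have := g.red_congr hE.symm (ker a).choose
    rw [this, show (⟨X.inc (l 0) * C.hom (b : F₁), _⟩ : g.integers) = ⟨_, h1⟩ * ⟨_, hbu.1⟩ from rfl,
      map_mul, ← h2, h0, zero_mul])
  obtain ⟨v, hv, he⟩ := S.hom_branch NC hPP' hu.ne_zero
  obtain ⟨n, hn⟩ : ∃ n, S.e = n + 1 := ⟨S.e - 1, by have := S.e_pos; omega⟩
  set w := algebraMap L E (v : L) * (C.hom (P' : F₁))⁻¹ * C.hom (a' : F₁) * (C.hom (b : F₁))⁻¹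
  have hw : w ∈ g.integers := mul_mem (mul_mem (mul_mem (g.algebraMap_mem v)
    (hu.inv d.residue_surjective).1) (ker a').choose) (hbu.inv d.residue_surjective).1
  have hl0 : X.inc (l 0) = X.θ ^ (n + 1) * w := by
    rw [Subring.coe_mul, map_mul, he, hn] at hE
    rw [(eq_mul_inv_iff_mul_eq₀ hbu.ne_zero).mpr hE]
    show _ = algebraMap L E (ϖ : L) ^ (n + 1) * w
    simp only [w]
    ring
  refine ⟨X.θ ^ n * w + ∑ i ∈ Finset.range n, X.inc (l (i + 1)) * X.θ ^ i,
    add_mem (mul_mem (pow_mem H.θ_mem _) hw) (sum_mem fun i hi => mul_mem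
      (hc (i + 1) (show i + 1 < S.e by have := Finset.mem_range.mp hi; omega))
      (pow_mem H.θ_mem _)), ?_⟩
  rw [Algebra.smul_def, show z = _ from hl, show (S.nodeData NC hq).e = n + 1 from hn, Finset.sum_range_succ',
    pow_zero, mul_one, hl0]
  show _ = X.θ * _
  rw [mul_add, Finset.mul_sum, add_comm]
  congr 1
  · ring
  · exact Finset.sum_congr rfl fun i _ => by ring

end Side

end NodeScalars

end FermatAgent.MazurPrinciple
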