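import Fermat.Agent.MazurPrinciple.NodePoint

/-!
# The local ring of the model at a node

`NodeChart`: the local ring at the point under a node with parameters `X`, `Y`, the kernels of the
two reductions, fractions, and the values at the node.
-/

set_option autoImplicit false
set_option linter.unusedSectionVars false

noncomputable section

namespace FermatAgent.MazurPrinciple

open IsLocalRing AlgebraicCurve
open FermatAgent.Curve FermatAgent.Curve.RR FermatAgent.BadRed.Semistable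
open FermatAgent.BadRed.Carayol

variable {q : ℕ} [Fact q.Prime] {W K F F₁ F₂ : Type*}
  [CommRing W] [IsDomain W] [IsDiscreteValuationRing W] [IsAlgClosed (IsLocalRing.ResidueField W)]
  [Field K] [CharZero K] [Algebra W K] [IsFractionRing W K]
  [Field F] [Field F₁] [Field F₂] [Algebra K F] [Algebra K F₁] [Algebra K F₂]
  [Algebra W F] [Algebra W F₁] [Algebra W F₂]
  [IsScalarTower W K F] [IsScalarTower W K F₁] [IsScalarTower W K F₂]
  {T : QTower q K F F₁ F₂} {u : F}
variable {L : Type*} [Field L] [IsAlgClosed L] {A : ValuationSubring L} {k : Type*} [Field k]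
  [IsAlgClosed k] {π : A →+* k} {E G₁ G₂ : Type*} [Field E] [Field G₁] [Field G₂]
  [Algebra L E] [Algebra k G₁] [Algebra k G₂] [IsFunctionField1 L E] [IsFunctionField1 k G₁]
  [IsFunctionField1 k G₂] [RRSetting L E] [RRSetting k G₁] [RRSetting k G₂]
variable {d : NodalDatum A π E G₁ G₂}

/-- The local ring of a chart at a node, with its two branches; the cusps stay away. -/
structure NodeChart (C : ChartLink W T u d) (i : d.C.ι) (cs : Finset W) where
  P : Ideal (chartRing W (T.t u))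
  isMax : P.IsMaximal
  noeth : (haveI := isMax.isPrime; IsNoetherianRing (locRing P))
  X : (haveI := isMax.isPrime; locRing P)
  Y : (haveI := isMax.isPrime; locRing P)
  mul_eq : haveI := isMax.isPrime; X * Y = (q : locRing P)
  max_eq : haveI := isMax.isPrime; maximalIdeal (locRing P) = Ideal.span {X, Y}
  ufd : haveI := isMax.isPrime; UniqueFactorizationMonoid (locRing P)
  prime_X : haveI := isMax.isPrime; Prime X
  prime_Y : haveI := isMax.isPrime; Prime Y
  not_dvd_X : haveI := isMax.isPrime; ¬ X ∣ Y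
  not_dvd_Y : haveI := isMax.isPrime; ¬ Y ∣ X
  res_surj : haveI := isMax.isPrime;
    ∀ r : locRing P, ∃ c : W, r - locConst P c ∈ maximalIdeal (locRing P)
  mem_max : haveI := isMax.isPrime;
    ∀ c : W, locConst P c ∈ maximalIdeal (locRing P) → (q : W) ∣ c
  ker₁ : haveI := isMax.isPrime; ∀ r : locRing P, ∃ h : C.hom r ∈ d.g₁.integers,
    (d.g₁.red ⟨C.hom r, h⟩ = 0 ↔ Y ∣ r)
  ker₂ : haveI := isMax.isPrime; ∀ r : locRing P, ∃ h : C.hom r ∈ d.g₂.integers,
    (d.g₂.red ⟨C.hom r, h⟩ = 0 ↔ X ∣ r)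
  frac₁ : haveI := isMax.isPrime; ∀ f : F₁, C.hom f ∈ d.g₁.integers →
    ∃ a b : locRing P, ¬ Y ∣ b ∧ f * b = a
  frac₂ : haveI := isMax.isPrime; ∀ f : F₁, C.hom f ∈ d.g₂.integers →
    ∃ a b : locRing P, ¬ X ∣ b ∧ f * b = a
  value₁ : haveI := isMax.isPrime; ∀ (r : locRing P) (c : W),
    r - locConst P c ∈ maximalIdeal (locRing P) → ∀ h : C.hom r ∈ d.g₁.integers,
      (d.C.x i).adicValuation (d.g₁.red ⟨C.hom r, h⟩) ≤ 1 ∧
        valueAt (d.C.x i) (d.g₁.red ⟨C.hom r, h⟩) = π (C.κ c)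
  value₂ : haveI := isMax.isPrime; ∀ (r : locRing P) (c : W),
    r - locConst P c ∈ maximalIdeal (locRing P) → ∀ h : C.hom r ∈ d.g₂.integers,
      (d.C.y i).adicValuation (d.g₂.red ⟨C.hom r, h⟩) ≤ 1 ∧
        valueAt (d.C.y i) (d.g₂.red ⟨C.hom r, h⟩) = π (C.κ c)
  mem_of_chart : haveI := isMax.isPrime; ∀ z ∈ chartRing W (T.t u), z ∈ locRing P
  cusp_unit : haveI := isMax.isPrime; ∃ r : locRing P, IsUnit r ∧
    (r : F₁) = Polynomial.aeval (T.t u) (∏ a ∈ cs, (Polynomial.X - Polynomial.C a))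

/-- Values of fractions at a place. -/
theorem value_frac {kk G : Type*} [Field kk] [IsAlgClosed kk] [Field G] [Algebra kk G]
    [IsFunctionField1 kk G] (v : Place kk G) {r a z : G} {β α : kk} (hr : v.adicValuation r ≤ 1)
    (hr0 : valueAt v r = β) (hβ : β ≠ 0) (ha : v.adicValuation a ≤ 1) (ha0 : valueAt v a = α)
    (h : r * z = a) : v.adicValuation z ≤ 1 ∧ valueAt v z * β = α := by
  have hne : r ≠ 0 := fun e => hβ (by rw [← hr0, e, ← map_zero (algebraMap kk G), valueAt_algebraMap])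
  have hle : v.adicValuation z ≤ 1 := by
    have hru : v.adicValuation r = 1 := by
      refine le_antisymm hr (not_lt.mp fun hlt => hβ ?_)
      rw [← hr0]
      exact (adicValuation_lt_one_iff hr).mp hlt
    have := congrArg v.adicValuation h
    rw [map_mul, hru, one_mul] at this
    rw [this]; exact ha
  refine ⟨hle, ?_⟩
  rw [← hr0, ← ha0, ← h, mul_comm, valueAt_mul _ (mem_of_le_one hr) (mem_of_le_one hle)]

/-- Values of the reduction of a fraction. -/
theorem value_red_mul {G : Type*} [Field G] [Algebra k G] [IsFunctionField1 k G] {R : Type*}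
    [Semiring R] {φ : R →+* E} (g : GaussRed A π E G) (v : Place k G) {s a r : R}
    (hsa : s * r = a) {hs : φ s ∈ g.integers} {ha : φ a ∈ g.integers} (hr : φ r ∈ g.integers)
    {β α γ : k} (v1 : v.adicValuation (g.red ⟨_, hs⟩) ≤ 1) (e1 : valueAt v (g.red ⟨_, hs⟩) = β)
    (v2 : v.adicValuation (g.red ⟨_, ha⟩) ≤ 1) (e2 : valueAt v (g.red ⟨_, ha⟩) = α) (hβ : β ≠ 0)
    (h : α = β * γ) :
    v.adicValuation (g.red ⟨_, hr⟩) ≤ 1 ∧ valueAt v (g.red ⟨_, hr⟩) = γ := by
  have hm : g.red ⟨_, hs⟩ * g.red ⟨_, hr⟩ = g.red ⟨_, ha⟩ := by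
    rw [← map_mul]
    exact congrArg g.red (Subtype.ext (by
      show φ s * φ r = φ a
      rw [← map_mul, hsa]))
  obtain ⟨hle, hv⟩ := value_frac v v1 e1 hβ v2 e2 hm
  rw [h, mul_comm] at hv
  exact ⟨hle, mul_left_cancel₀ hβ hv⟩

variable (C : ChartLink W T u d) (hq : maximalIdeal W = Ideal.span {(q : W)})
  (D : ChartData W T u)
include hq D

/-- The node chart exists, with `X = s - t ^ q`. -/
theorem exists_nodeChart_coord (i : d.C.ι) : ∃ NC : NodeChart C i D.cusps,
    (haveI := NC.isMax.isPrime; (NC.X : F₁) = T.s u - T.t u ^ q) := by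
  set P := C.point hq i
  have hmax : P.IsMaximal := C.point_isMaximal hq i
  have hqP : (q : chartRing W (T.t u)) ∈ P := C.q_mem_point hq i
  have : CharZero F₁ := charZero_of_injective_algebraMap (algebraMap K F₁).injective
  have := D.finite_over₁
  have hfrac : ∀ f : F₁, ∃ a b : locRing P, (b : F₁) ≠ 0 ∧ f * b = a :=
    exists_mul_eq_locRing (K := K) P hq D.transcendental_t
  have hss : D.IsSSVal hq (pval hq hqP (T.t u)) (pval hq hqP (T.s u)) :=
    isSSVal_of_two_branches hq D D.root hqP D.transcendental_t (finite_vertical₁ hq D)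
      (fun V hV => rankOne₁ hq D hV) D.deriv_integral (C.isVertical₂ hq) (C.through₂ hq i) C.res₂
      (C.isVertical₁ hq) (C.through₁ hq i) C.res₁
  obtain ⟨X, Y, hX, ⟨e, he, hY⟩, hmul, hmaxeq, hufd, hpX, hpY, hXY, hYX⟩ :=
    node_structure hq D hqP hss
  have := hufd
  have hno : IsNoetherianRing (locRing P) := by
    have : IsNoetherianRing (chartRing W (T.t u)) := isNoetherianRing_chartRing D.transcendental_t
    exact IsLocalization.isNoetherianRing P.primeCompl (locRing P) inferInstance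
  have hA₁ : ∀ z : chartRing W (T.t u), (z : F₁) ∈ C.V₁ := fun z =>
    (C.isVertical₁ hq).chartRing_le z.2
  have hA₂ : ∀ z : chartRing W (T.t u), (z : F₁) ∈ C.V₂ := fun z =>
    (C.isVertical₂ hq).chartRing_le z.2
  have hm₁ : ∀ r : locRing P, (r : F₁) ∈ C.V₁ := fun r => (C.through₁ hq i).mem hA₁ r.2
  have hm₂ : ∀ r : locRing P, (r : F₁) ∈ C.V₂ := fun r => (C.through₂ hq i).mem hA₂ r.2
  have hVs : ∀ {V : ValuationSubring F₁}, T.s u ∈ V → T.t u ∈ V → (∀ r : locRing P, (r : F₁) ∈ V) →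
      (res V (T.s u) = res V (T.t u) ^ q → (X : F₁) ∈ V.nonunits) ∧
      (res V (T.t u) = res V (T.s u) ^ q → (Y : F₁) ∈ V.nonunits) := by
    intro V hs ht hm
    constructor <;> intro h
    · rw [← res_eq_zero_iff (hm X), hX, res_sub hs (pow_mem ht q), res_pow ht, h, sub_self]
    · rw [← res_eq_zero_iff (hm Y), hY, res_mul (sub_mem (pow_mem hs q) ht) (hm e),
        res_sub (pow_mem hs q) ht, res_pow hs, ← h, sub_self, zero_mul]
  have hX₁ : (X : F₁) ∉ C.V₁.nonunits := fun h => by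
    have hs : T.s u ∈ C.V₁ := C.s_mem₁
    have ht : T.t u ∈ C.V₁ := C.t_mem₁
    rw [← res_eq_zero_iff (hm₁ X), hX, res_sub hs (pow_mem ht q), res_pow ht,
      sub_eq_zero] at h
    exact level1_not_both hq D (C.isVertical₁ hq) h C.res₁
  have hY₂ : (Y : F₁) ∉ C.V₂.nonunits := fun h => by
    have heu : ((e : locRing P) : F₁) ∉ C.V₂.nonunits := fun he' => by
      obtain ⟨e', he'1⟩ := isUnit_iff_exists_inv.mp he
      have h1 : ((e : F₁) * (e' : F₁)) ∈ C.V₂.nonunits := by
        rw [ValuationSubring.mem_nonunits_iff, map_mul]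
        exact mul_lt_one_of_lt_of_le he' ((C.V₂.valuation_le_one_iff _).mpr (hm₂ e'))
      rw [show (e : F₁) * (e' : F₁) = 1 from congrArg (fun z : locRing P => (z : F₁)) he'1,
        ValuationSubring.mem_nonunits_iff, map_one] at h1
      exact lt_irrefl _ h1
    have hs : T.s u ∈ C.V₂ := C.s_mem₂
    have ht : T.t u ∈ C.V₂ := C.t_mem₂
    rw [← res_eq_zero_iff (hm₂ Y), hY, res_mul (sub_mem (pow_mem hs q) ht) (hm₂ e),
      mul_eq_zero, res_eq_zero_iff (hm₂ e)] at h
    have h' := h.resolve_right heu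
    rw [res_sub (pow_mem hs q) ht, res_pow hs, sub_eq_zero] at h'
    exact level1_not_both hq D (C.isVertical₂ hq) C.res₂ h'.symm
  have hk₁ : ∀ r : locRing P, ((r : F₁) ∈ C.V₁.nonunits ↔ Y ∣ r) := fun r =>
    mem_nonunits_iff_dvd hpY hmaxeq hA₁ (C.through₁ hq i)
      ((hVs C.s_mem₁ C.t_mem₁ hm₁).2 C.res₁) hX₁ r
  have hk₂ : ∀ r : locRing P, ((r : F₁) ∈ C.V₂.nonunits ↔ X ∣ r) := fun r =>
    mem_nonunits_iff_dvd hpX (hmaxeq.trans (congrArg Ideal.span (Set.pair_comm _ _))) hA₂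
      (C.through₂ hq i) ((hVs C.s_mem₂ C.t_mem₂ hm₂).1 C.res₂) hY₂ r
  have hconst : ∀ c : W, locConst P c ∈ maximalIdeal (locRing P) ↔ π (C.κ c) = 0 := fun c => by
    rw [C.pi_κ_eq_zero_iff hq, ← pval_const hq hqP, pval_eq_zero_iff hq hqP (loc_const c),
      inMax_iff (loc_const c)]
    rfl
  have hval : ∀ (r : locRing P) (c : W), r - locConst P c ∈ maximalIdeal (locRing P) →
      ∀ (h₁ : C.hom r ∈ d.g₁.integers) (h₂ : C.hom r ∈ d.g₂.integers),
      ((d.C.x i).adicValuation (d.g₁.red ⟨C.hom r, h₁⟩) ≤ 1 ∧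
        valueAt (d.C.x i) (d.g₁.red ⟨C.hom r, h₁⟩) = π (C.κ c)) ∧
      ((d.C.y i).adicValuation (d.g₂.red ⟨C.hom r, h₂⟩) ≤ 1 ∧
        valueAt (d.C.y i) (d.g₂.red ⟨C.hom r, h₂⟩) = π (C.κ c)) := by
    intro r c hc h₁ h₂
    obtain ⟨s, a, hs, hsa⟩ := r.2
    have hs0 : C.nodeHom hq i s ≠ 0 := hs
    have hca : C.nodeHom hq i a = C.nodeHom hq i s * π (C.κ c) := by
      rw [← C.nodeHom_algebraMap hq i c, ← map_mul, ← sub_eq_zero, ← map_sub]
      show _ ∈ P
      refine mem_of_inMax (x := a - s * algebraMap W (chartRing W (T.t u)) c) ?_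
      have := (InMax.mul_left (loc_of_mem (Ideal.IsPrime.ne_top inferInstance) s.2)
        ((inMax_iff (r - locConst P c).2).mpr hc) : InMax P ((s : F₁) * ((r : F₁) - _)))
      push_cast
      rw [mul_sub] at this
      convert this using 2
      · rw [← hsa]
      · rfl
    obtain ⟨v1, e1, e2⟩ := C.value_node hq s.2 i
    obtain ⟨w1, f1, f2⟩ := C.value_node hq a.2 i
    exact ⟨value_red_mul d.g₁ (d.C.x i) hsa h₁ v1 rfl w1 rfl hs0 hca,
      value_red_mul d.g₂ (d.C.y i) hsa h₂ e1 e2.symm f1 f2.symm hs0 hca⟩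
  refine ⟨{
    P := P, isMax := hmax, noeth := hno, X := X, Y := Y, mul_eq := hmul, max_eq := hmaxeq,
    ufd := hufd, prime_X := hpX, prime_Y := hpY, not_dvd_X := hXY, not_dvd_Y := hYX,
    res_surj := fun r => by
      obtain ⟨c, hc⟩ := residue_surjective (pval hq hqP (r : F₁))
      refine ⟨c, (inMax_iff (r - locConst P c).2).mp ?_⟩
      refine (pval_eq_iff hq hqP r.2 (loc_const c)).mp ?_
      rw [pval_const, hc]
    mem_max := fun c hc => by
      have h := (C.pi_κ_eq_zero_iff hq c).mp ((hconst c).mp hc)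
      rwa [residue_eq_zero_iff, hq, Ideal.mem_span_singleton] at h
    ker₁ := fun r => ⟨hm₁ r, Iff.trans ⟨fun h => mem_nonunits_pullRing.mpr ⟨_, h⟩,
      fun h => (mem_nonunits_pullRing.mp h).choose_spec⟩ (hk₁ r)⟩
    ker₂ := fun r => ⟨hm₂ r, Iff.trans ⟨fun h => mem_nonunits_pullRing.mpr ⟨_, h⟩,
      fun h => (mem_nonunits_pullRing.mp h).choose_spec⟩ (hk₂ r)⟩
    frac₁ := fun f hf => exists_frac_of_mem hpY hfrac (V := C.V₁) (fun r => ⟨hm₁ r, hk₁ r⟩) hf
    frac₂ := fun f hf => exists_frac_of_mem hpX hfrac (V := C.V₂) (fun r => ⟨hm₂ r, hk₂ r⟩) hf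
    value₁ := fun r c hc h => (hval r c hc h (hm₂ r)).1
    value₂ := fun r c hc h => (hval r c hc (hm₁ r) h).2
    mem_of_chart := fun z hz => chartRing_le_locRing P hz
    cusp_unit := by
      have ht : ∀ a : W, Loc (T.t u) P (T.t u - algebraMap W F₁ a) := fun a =>
        (locRing P).sub_mem loc_self (loc_const a)
      refine ⟨∏ a ∈ D.cusps, ⟨_, ht a⟩, IsUnit.prod_iff.mpr fun a ha => ?_, ?_⟩
      · by_contra h
        refine hss.1 ⟨a, ha, ?_⟩
        have h1 := (pval_eq_zero_iff hq hqP (ht a)).mpr ((inMax_iff (ht a)).mpr h)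
        rw [pval_sub hq hqP loc_self (loc_const a), pval_const, sub_eq_zero] at h1
        exact h1.symm
      · simp [map_prod] }, hX⟩

/-- The node chart exists. -/
theorem exists_nodeChart (i : d.C.ι) : Nonempty (NodeChart C i D.cusps) :=
  ⟨(exists_nodeChart_coord C hq D i).choose⟩

end FermatAgent.MazurPrinciple
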