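import Mathlib.RingTheory.Polynomial.RationalRoot
import Fermat.Agent.BadRed.Carayol.SSValues

/-!
# The supersingular points at level `q N`

The local ring of the model at a supersingular point is regular with parameters `X`, `Y`,
`X * Y = q`: the translates along the two Kronecker branches.
-/

set_option autoImplicit false
set_option linter.unusedSectionVars false

noncomputable section

namespace FermatAgent.MazurPrinciple

open Polynomial IsLocalRing FermatAgent.BadRed.Carayol

variable {q : ℕ} [Fact q.Prime] {W K F F₁ F₂ : Type*}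
  [CommRing W] [IsDomain W] [IsDiscreteValuationRing W] [IsAlgClosed (IsLocalRing.ResidueField W)]
  [Field K] [CharZero K] [Algebra W K] [IsFractionRing W K]
  [Field F] [Field F₁] [Field F₂] [Algebra K F] [Algebra K F₁] [Algebra K F₂]
  [Algebra W F] [Algebra W F₁] [Algebra W F₂]
  [IsScalarTower W K F] [IsScalarTower W K F₁] [IsScalarTower W K F₂]
  {T : QTower q K F F₁ F₂} {u : F}
  (hq : maximalIdeal W = Ideal.span {(q : W)}) (D : ChartData W T u)
  {P : Ideal (chartRing W (T.t u))} [P.IsMaximal] (hqP : (q : chartRing W (T.t u)) ∈ P)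

theorem loc_base (c : chartRing W u) : Loc (T.t u) P (T.t c) :=
  chartRing_le_locRing P (map_mem_chartRing T.t c.2)

include D in
theorem loc_end : Loc (T.t u) P (T.s u) :=
  chartRing_le_locRing P (mem_chartRing_of_evalTwo D.Φ D.monic D.root)

/-- The base and the end, inside the local ring. -/
def endLocHom (D : ChartData W T u) (P : Ideal (chartRing W (T.t u))) [P.IsMaximal] :
    Polynomial (chartRing W u) →+* locRing P :=
  eval₂RingHom (baseLocHom T.t fun c => loc_base c) ⟨T.s u, loc_end D⟩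

/-- The ring generated by the base and the end. -/
def endRing (D : ChartData W T u) (P : Ideal (chartRing W (T.t u))) [P.IsMaximal] : Subring F₁ :=
  RingHom.range (R := Polynomial (chartRing W u))
    ((locRing P).subtype.comp (endLocHom D P))

theorem endRing_le_locRing : endRing D P ≤ locRing P := by
  rintro _ ⟨G, rfl⟩
  exact (endLocHom D P G).2

theorem base_mem_endRing (c : chartRing W u) : T.t c ∈ endRing D P :=
  ⟨C c, by simp [endLocHom, baseLocHom]⟩

theorem x_mem_endRing : T.s u ∈ endRing D P := ⟨X, by simp [endLocHom]⟩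

theorem const_mem_endRing (w : W) : algebraMap W F₁ w ∈ endRing D P := by
  have := base_mem_endRing D (P := P) (algebraMap W _ w)
  rwa [show ((algebraMap W (chartRing W u) w : chartRing W u) : F) = algebraMap W F w from rfl,
    map_algebraMap_const] at this

theorem v_mem_endRing : T.t u ∈ endRing D P := base_mem_endRing D ⟨u, self_mem_chartRing⟩

include hq in
theorem exists_mul_eq_endRing (y : F₁) :
    ∃ a b : endRing D P, (b : F₁) ≠ 0 ∧ y * b = a := by
  let S := Subfield.closure (endRing D P : Set F₁)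
  have hle : ∀ z ∈ endRing D P, z ∈ S := fun z hz => Subfield.subset_closure hz
  have hF : ∀ c : F, T.t c ∈ S := fun c => by
    rcases eq_or_ne c 0 with rfl | hc
    · simp [zero_mem]
    obtain ⟨k, a, b, -, hb, h⟩ := exists_eq_zpow_mul hq D hc
    have hb0 : (b : F) ≠ 0 := fun h0 => hb (by
      rw [show b = 0 from Subtype.ext h0]; exact dvd_zero _)
    rw [show c = (q : F) ^ k * a / b by rw [← h, mul_div_cancel_right₀ _ hb0], map_div₀,
      map_mul, map_zpow₀, map_natCast]
    exact div_mem (mul_mem (zpow_mem (natCast_mem S q) k) (hle _ (base_mem_endRing D a)))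
      (hle _ (base_mem_endRing D b))
  have hy : y ∈ S := by
    obtain ⟨R, rfl⟩ := exists_eq_eval₂_of_adjoin T.t T.finite_t D.generate_t y
    rw [eval₂_eq_sum_range]
    exact sum_mem fun i _ => mul_mem (hF _) (pow_mem (hle _ (x_mem_endRing D)) i)
  obtain ⟨a, ha, b, hb, hab⟩ := Subfield.mem_closure_iff.mp hy
  rw [Subring.closure_eq] at ha hb
  rcases eq_or_ne b 0 with rfl | hb0
  · exact ⟨0, 1, one_ne_zero, by rw [← hab]; simp⟩
  exact ⟨⟨a, ha⟩, ⟨b, hb⟩, hb0, by rw [← hab]; exact div_mul_cancel₀ a hb0⟩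

include hq D hqP

/-- The two branches at a supersingular point are parameters with product `q`. -/
theorem node_structure
    (hss : D.IsSSVal hq (pval hq hqP (T.t u)) (pval hq hqP (T.s u))) :
    ∃ X Y : locRing P,
      (X : F₁) = T.s u - T.t u ^ q ∧
      (∃ e : locRing P, IsUnit e ∧ (Y : F₁) = (T.s u ^ q - T.t u) * (e : F₁)) ∧
      X * Y = (q : locRing P) ∧ maximalIdeal (locRing P) = Ideal.span {X, Y} ∧
      UniqueFactorizationMonoid (locRing P) ∧ Prime X ∧ Prime Y ∧ ¬ X ∣ Y ∧ ¬ Y ∣ X := by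
  have hqp : q.Prime := Fact.out
  have := charP_residue hq D
  have : CharZero F₁ := charZero_of_injective_algebraMap (algebraMap K F₁).injective
  have := D.finite_over₁
  obtain ⟨hnc, hb1, hb, hē⟩ := hss
  obtain ⟨β, hβ⟩ := residue_surjective (pval hq hqP (T.t u))
  have hl : Loc (T.t u) P (T.s u) := loc_end D
  -- the localisation of the generated ring
  let R₀ := endRing D P
  let inc : R₀ →+* locRing P := Subring.inclusion (endRing_le_locRing D)
  let m : Ideal R₀ := (maximalIdeal (locRing P)).comap inc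
  have hm : ∀ z : R₀, z ∈ m ↔ InMax P (z : F₁) := fun z => (inMax_iff (inc z).2).symm
  have : m.IsPrime := Ideal.IsPrime.comap _
  let R := (LocalSubring.ofPrime R₀ m).toSubring
  have hR₀R : ∀ z : R₀, (z : F₁) ∈ R := fun z => LocalSubring.le_ofPrime R₀ m z.2
  have hRloc : ∀ z ∈ R, Loc (T.t u) P z := fun z hz => by
    obtain ⟨⟨a, s⟩, h⟩ := IsLocalization.surj m.primeCompl (⟨z, hz⟩ : R)
    have h' : z * (s : R₀) = (a : F₁) := congrArg (fun y : R => (y : F₁)) h
    have hs : ¬ InMax P ((s : R₀) : F₁) := fun hh => s.2 ((hm _).mpr hh)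
    obtain ⟨hs0, hsinv⟩ := (inMax_or_loc_inv (inc s).2).resolve_left hs
    rw [show z = (a : F₁) * ((s : R₀) : F₁)⁻¹ by
      rw [← h', mul_inv_cancel_right₀ (show ((s : R₀) : F₁) ≠ 0 from hs0)]]
    exact Loc.mul (inc a).2 hsinv
  have : IsNoetherianRing (chartRing W u) := isNoetherianRing_base hq D
  have : IsNoetherianRing R₀ := isNoetherianRing_range _
  have : IsNoetherianRing R := IsLocalization.isNoetherianRing m.primeCompl R inferInstance
  let ι : R₀ →+* R := algebraMap R₀ R
  let M' : R₀ := ⟨(T.t u), v_mem_endRing D⟩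
  let A₁ : R₀ := ⟨(T.s u), x_mem_endRing D⟩
  let τ' : R₀ := ⟨(T.t u) - algebraMap W F₁ β, sub_mem (v_mem_endRing D) (const_mem_endRing D β)⟩
  have hIm : ∀ z : R₀, InMax P (z : F₁) → ι z ∈ maximalIdeal R := fun z hz =>
    (IsLocalization.AtPrime.to_map_mem_maximal_iff R m z).mpr ((hm z).mpr hz)
  let f : chartRing W u →+* R₀ :=
    (T.t.toRingHom.comp (chartRing W u).val.toRingHom).codRestrict R₀
      fun c => base_mem_endRing D c
  let homT : Polynomial W →+* R₀ :=
    eval₂RingHom ((algebraMap W F₁).codRestrict R₀ (const_mem_endRing D)) M'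
  let e : R₀ := (kronErr hq D).eval₂ homT A₁
  have he : (e : F₁) = evalTwo (kronErr hq D) (T.s u) (T.t u) := by
    show R₀.subtype ((kronErr hq D).eval₂ homT A₁) = _
    rw [hom_eval₂]
    exact congrArg (fun f => (kronErr hq D).eval₂ f (T.s u))
      (Polynomial.ringHom_ext (fun w => by simp [homT]) (by simp [homT, M']))
  have he0 : pval hq hqP (e : F₁) ≠ 0 := by
    rw [he, pval_evalTwo hq hqP hl loc_self]
    convert hē using 1
    rw [diagPoly, ← coe_evalRingHom, hom_eval₂]
    congr 1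
    · refine RingHom.ext fun p => ?_
      show p.eval _ = (expand _ q p).eval _
      rw [expand_eval, ← hb]
    · exact (eval_X).symm
  have heu : IsUnit (ι e) :=
    IsLocalization.map_units (M := m.primeCompl) R ⟨e, fun h =>
      he0 ((pval_eq_zero_iff hq hqP (inc e).2).mpr ((hm e).mp h))⟩
  let 𝔪 := maximalIdeal R
  set X₁ : R := ι (A₁ - M' ^ q)
  set Y₁ : R := ι (A₁ ^ q - M') * ((-heu.unit⁻¹ : Rˣ) : R)
  let J : Ideal R := Ideal.span {X₁, Y₁}
  have hX𝔪 : X₁ ∈ 𝔪 := hIm _ ((pval_eq_zero_iff hq hqP (inc (A₁ - M' ^ q)).2).mp (by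
    show pval hq hqP ((T.s u) - (T.t u) ^ q) = 0
    rw [pval_sub hq hqP hl (loc_self.pow q), pval_pow hq hqP loc_self, ← hb1, sub_self]))
  have hY𝔪 : Y₁ ∈ 𝔪 := 𝔪.mul_mem_right _ (hIm _ ((pval_eq_zero_iff hq hqP
    (inc (A₁ ^ q - M')).2).mp (by
      show pval hq hqP ((T.s u) ^ q - (T.t u)) = 0
      rw [pval_sub hq hqP (hl.pow q) loc_self, pval_pow hq hqP hl, ← hb, sub_self])))
  have hq_eq : X₁ * Y₁ = (q : R) := by
    rw [← mul_assoc, show ((-heu.unit⁻¹ : Rˣ) : R) = -((heu.unit⁻¹ : Rˣ) : R) from rfl, mul_neg,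
      ← neg_mul, Units.mul_inv_eq_iff_eq_mul, IsUnit.unit_spec]
    refine Subtype.ext ?_
    show -(((T.s u) - (T.t u) ^ q) * ((T.s u) ^ q - (T.t u))) = (q : F₁) * (e : F₁)
    have hr := D.root
    rw [kronErr_spec hq D, evalTwo_kron_add] at hr
    rw [he]
    linear_combination -hr
  have hYmem : ι (A₁ ^ q - M') ∈ J := by
    have h : ι (A₁ ^ q - M') = Y₁ * -(ι e) := by
      rw [mul_assoc, show ((-heu.unit⁻¹ : Rˣ) : R) = -((heu.unit⁻¹ : Rˣ) : R) from rfl,
        neg_mul_neg, IsUnit.val_inv_mul, mul_one]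
    rw [h]
    exact J.mul_mem_right _ (Ideal.subset_span (by simp))
  have hqJ : (q : R) ∈ J := hq_eq ▸ J.mul_mem_right _ (Ideal.subset_span (by simp))
  -- the coordinate of the base
  have hτJ : ι τ' ∈ J := by
    let κ := (Ideal.Quotient.mk J).comp ι
    have h1 : κ A₁ = κ M' ^ q := by
      rw [← map_pow, ← sub_eq_zero, ← map_sub]
      exact Ideal.Quotient.eq_zero_iff_mem.mpr (Ideal.subset_span (by simp [X₁]))
    have h2 : κ M' = κ A₁ ^ q := by
      rw [← map_pow, eq_comm, ← sub_eq_zero, ← map_sub]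
      exact Ideal.Quotient.eq_zero_iff_mem.mpr hYmem
    have hq0 : ((q : ℕ) : R ⧸ J) = 0 := by
      rw [← map_natCast (Ideal.Quotient.mk J)]; exact Ideal.Quotient.eq_zero_iff_mem.mpr hqJ
    let bR : R₀ := ⟨algebraMap W F₁ β, const_mem_endRing D β⟩
    have hM : κ M' = κ τ' + κ bR := by
      rw [← map_add]; congr 1; exact Subtype.ext (by show (T.t u) = _; simp [τ', bR])
    obtain ⟨w, hw⟩ : (q : W) ∣ β - β ^ (q * q) := by
      rw [← Ideal.mem_span_singleton, ← hq, ← residue_eq_zero_iff, map_sub, map_pow, hβ, pow_mul,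
        ← hb1, ← hb, sub_self]
    have hbq : κ bR = κ bR ^ (q * q) := by
      rw [← map_pow, ← sub_eq_zero, ← map_sub,
        show bR - bR ^ (q * q) = (q : R₀) * ⟨algebraMap W F₁ w, const_mem_endRing D w⟩ from
          Subtype.ext (by push_cast; simp only [bR]; rw [← map_pow, ← map_sub, hw, map_mul,
            map_natCast]), map_mul, map_natCast, hq0, zero_mul]
    have hfrob : (κ τ' + κ bR) ^ (q * q) = κ τ' ^ (q * q) + κ bR ^ (q * q) := by
      obtain ⟨r, hr⟩ := exists_add_pow_prime_pow_eq hqp (κ τ') (κ bR) 2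
      rw [sq] at hr
      rw [hr, hq0, zero_mul, zero_mul, zero_mul, add_zero]
    have hfix : κ τ' * (1 - κ τ' ^ (q * q - 1)) = 0 := by
      have h3 : κ M' = κ M' ^ (q * q) := by
        conv_lhs => rw [h2, h1]
        rw [← pow_mul]
      rw [hM, hfrob] at h3
      rw [mul_sub, mul_one, ← pow_succ', Nat.sub_add_cancel (Nat.mul_pos hqp.pos hqp.pos)]
      linear_combination h3 - hbq
    have hu : IsUnit (1 - ι τ' ^ (q * q - 1)) := by
      by_contra hnu
      have hτ : ι τ' ∈ 𝔪 := hIm _ ((pval_eq_zero_iff hq hqP (inc τ').2).mp (by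
        show pval hq hqP ((T.t u) - algebraMap W F₁ β) = 0
        rw [pval_sub hq hqP loc_self (loc_const _), pval_const, hβ, sub_self]))
      have h1' : (1 : R) ∈ 𝔪 := by
        have h4 : ι τ' ^ (q * q - 1) ∈ 𝔪 :=
          Ideal.pow_mem_of_mem _ hτ _ (Nat.sub_pos_of_lt (by nlinarith [hqp.two_le]))
        simpa using 𝔪.add_mem hnu h4
      exact (maximalIdeal.isMaximal R).ne_top ((Ideal.eq_top_iff_one _).mpr h1')
    refine Ideal.Quotient.eq_zero_iff_mem.mp ((IsUnit.mul_left_eq_zero
      ((hu.map (Ideal.Quotient.mk J)))).mp ?_)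
    rw [map_sub, map_one, map_pow]
    exact hfix
  -- the generated ring modulo the parameters is the base
  have hbase : ∀ c : chartRing W u, pval hq hqP (T.t c) = 0 → ι (f c) ∈ J := fun c hc => by
    have hφl : ∀ a : chartRing W u, Loc (T.t u) P (T.t a) := fun a => loc_base a
    let Q := pointIdeal T.t hφl
    have : Q.IsMaximal := pointIdeal_isMaximal hq D hqP T.t hφl
    let x₀ : chartRing W u := ⟨u - algebraMap W F β, sub_mem self_mem_chartRing
      ((chartRing W u).algebraMap_mem β)⟩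
    have hx₀ : x₀ ∈ Q := by
      rw [mem_pointIdeal hq D hqP T.t hφl]
      show pval hq hqP (T.t (u - algebraMap W F β)) = 0
      rw [map_sub, map_algebraMap_const, pval_sub hq hqP loc_self (loc_const _), pval_const, hβ,
        sub_self]
    have hqQ : (q : chartRing W u) ∈ Q := by
      rw [mem_pointIdeal hq D hqP T.t hφl]
      push_cast
      rw [map_natCast, pval_natCast_q]
    obtain ⟨r, hr, hrc⟩ := D.etale Q inferInstance hqQ β
      (fun a ha h => hnc ⟨a, ha, by rw [← h, hβ]⟩) x₀ rfl hx₀ c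
      ((mem_pointIdeal hq D hqP T.t hφl).mpr hc)
    obtain ⟨e₁, e₂, he⟩ := Ideal.mem_span_pair.mp hrc
    have hru : IsUnit (ι (f r)) := IsLocalization.map_units (M := m.primeCompl) R
      ⟨_, fun h => hr ((mem_pointIdeal hq D hqP T.t hφl).mpr
        ((pval_eq_zero_iff hq hqP (hφl r)).mpr ((hm _).mp h)))⟩
    have hx : f x₀ = τ' := Subtype.ext (by
      show T.t (u - algebraMap W F β) = (T.t u) - _
      rw [map_sub, map_algebraMap_const])
    have : ι (f r) * ι (f c) ∈ J := by
      rw [← map_mul, ← map_mul, ← he, map_add, map_mul, map_mul, map_natCast, hx, map_add,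
        map_mul, map_mul, map_natCast]
      exact J.add_mem (J.mul_mem_left _ hqJ) (J.mul_mem_left _ hτJ)
    exact (Ideal.unit_mul_mem_iff_mem _ hru).mp this
  have hgen : ∀ z : R₀, InMax P (z : F₁) → ι z ∈ J := by
    intro z hz
    let Θ : Polynomial (chartRing W u) →+* R₀ := eval₂RingHom f A₁
    obtain ⟨G, hG⟩ := z.2
    have hGz : Θ G = z := by
      refine Subtype.ext ?_
      rw [← hG]
      refine (RingHom.congr_fun (?_ : R₀.subtype.comp Θ =
        (locRing P).subtype.comp (endLocHom D P)) G)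
      refine Polynomial.ringHom_ext' (RingHom.ext fun c => ?_) ?_
      · simp [Θ, f, endLocHom, baseLocHom]
      · simp [Θ, endLocHom, A₁]
    let κ := (Ideal.Quotient.mk J).comp ι
    let b₁ : chartRing W u := ⟨u, self_mem_chartRing⟩ ^ q
    let c := G.eval b₁
    have hκz : κ z = κ (f c) := by
      rw [← hGz]
      refine (RingHom.congr_fun (?_ : κ.comp Θ = (κ.comp f).comp (evalRingHom b₁)) G)
      refine Polynomial.ringHom_ext' (RingHom.ext fun c => by simp [Θ]) ?_
      simp only [Θ, RingHom.comp_apply, coe_eval₂RingHom, eval₂_X, coe_evalRingHom, eval_X]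
      show κ A₁ = κ (f b₁)
      rw [← sub_eq_zero, ← map_sub]
      refine Ideal.Quotient.eq_zero_iff_mem.mpr (Ideal.subset_span ?_)
      left
      refine congrArg ι (Subtype.ext ?_)
      simp [b₁, f, A₁, M']
    have hdiff : ι z - ι (f c) ∈ J := Ideal.Quotient.eq.mp hκz
    have hJm : J ≤ 𝔪 := by
      rw [Ideal.span_le]
      rintro _ (rfl | rfl)
      exacts [hX𝔪, hY𝔪]
    have hfc : ι (f c) ∈ 𝔪 := by
      have := 𝔪.sub_mem (hIm z hz) (hJm hdiff)
      rwa [sub_sub_cancel] at this
    have hfc' : pval hq hqP (T.t c) = 0 :=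
      (pval_eq_zero_iff hq hqP (loc_base c)).mpr
        ((hm (f c)).mp ((IsLocalization.AtPrime.to_map_mem_maximal_iff R m _).mp hfc))
    rw [← sub_add_cancel (ι z) (ι (f c))]
    exact J.add_mem hdiff (hbase c hfc')
  have h𝔪 : 𝔪 = Ideal.span {X₁, Y₁} := by
    refine le_antisymm ?_ ?_
    · rw [show 𝔪 = m.map (algebraMap R₀ R) from
        (IsLocalization.AtPrime.map_eq_maximalIdeal m R).symm]
      exact Ideal.map_le_iff_le_comap.mpr fun z hz => hgen z ((hm z).mp hz)
    · rw [Ideal.span_le]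
      rintro _ (rfl | rfl)
      exacts [hX𝔪, hY𝔪]
  -- dimension two
  have hA : ∀ {V : ValuationSubring F₁}, IsVertical W q (T.t u) V →
      ∀ z : chartRing W (T.t u), (z : F₁) ∈ V := fun hV z => hV.chartRing_le z.2
  obtain ⟨V, hV, hT⟩ := exists_through (K := K) hq D.transcendental_t (finite_vertical₁ hq D)
    (fun U hU => rankOne₁ hq D hU) hqP
  let toV : R →+* V :=
    (Subring.subtype R).codRestrict V.toSubring fun z => hT.mem (hA hV) (hRloc z z.2)
  have hq0F : (q : F₁) ≠ 0 := Nat.cast_ne_zero.mpr hqp.ne_zero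
  have hprime : ∃ p : Ideal R, p.IsPrime ∧ p ≠ ⊥ ∧ p ≠ maximalIdeal R := by
    refine ⟨(maximalIdeal V).comap toV, Ideal.IsPrime.comap _, fun h => ?_, fun h => ?_⟩
    · have : (q : R) ∈ (maximalIdeal V).comap toV := by
        rw [Ideal.mem_comap, map_natCast, ← ValuationSubring.coe_mem_nonunits_iff]
        simpa using hV.q_mem
      rw [h, Ideal.mem_bot] at this
      exact hq0F (by simpa using congrArg (fun y : R => (y : F₁)) this)
    · have hτ : ι τ' ∈ 𝔪 := hIm _ ((pval_eq_zero_iff hq hqP (inc τ').2).mp (by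
        show pval hq hqP ((T.t u) - algebraMap W F₁ β) = 0
        rw [pval_sub hq hqP loc_self (loc_const _), pval_const, hβ, sub_self]))
      have : ι τ' ∈ (maximalIdeal V).comap toV := h ▸ hτ
      rw [Ideal.mem_comap, ← ValuationSubring.coe_mem_nonunits_iff] at this
      exact (ne_of_lt this) (isUnitAt_sub_const hq D hV β)
  have : UniqueFactorizationMonoid R :=
    uniqueFactorizationMonoid_of_maximalIdeal_eq_span_pair h𝔪 hprime
  have hpX : Prime X₁ := prime_left_of_maximalIdeal_eq_span_pair h𝔪 hprime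
  have hpY : Prime Y₁ :=
    prime_left_of_maximalIdeal_eq_span_pair (h𝔪.trans (congrArg Ideal.span (Set.pair_comm _ _))) hprime
  have hnd : ∀ {a b : R}, Prime a → maximalIdeal R = Ideal.span {a, b} → ¬ a ∣ b := by
    rintro a b ha hab ⟨c, rfl⟩
    obtain ⟨p, hp, hp0, hpm⟩ := hprime
    have hma : maximalIdeal R = Ideal.span {a} := by
      rw [hab]
      refine le_antisymm (Ideal.span_le.mpr ?_) (Ideal.span_mono (by simp))
      rintro _ (rfl | rfl)
      · exact Ideal.mem_span_singleton_self _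
      · exact Ideal.mul_mem_right _ _ (Ideal.mem_span_singleton_self _)
    obtain ⟨π, hπp, hπ⟩ := Ideal.IsPrime.exists_mem_prime_of_ne_bot hp hp0
    have hπa : a ∣ π := Ideal.mem_span_singleton.mp (hma ▸ IsLocalRing.le_maximalIdeal hp.ne_top hπp)
    refine hpm (le_antisymm (IsLocalRing.le_maximalIdeal hp.ne_top) ?_)
    rw [hma, Ideal.span_singleton_le_iff_mem]
    exact Ideal.mem_of_dvd _ (ha.associated_of_dvd hπ hπa).symm.dvd hπp
  -- normality
  have hchart : ∀ y ∈ chartRing W (T.t u), y ∈ R := fun y hy => by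
    obtain ⟨p, hp, hpy⟩ := mem_chartRing_iff.mp hy
    have hmem : ∀ a : Algebra.adjoin W {(T.t u)}, (a : F₁) ∈ R := fun a => by
      obtain ⟨Q, hQ⟩ := Algebra.adjoin_mem_exists_aeval _ _ a.2
      rw [← hQ, aeval_eq_sum_range]
      exact sum_mem fun i _ => by
        rw [Algebra.smul_def]
        exact mul_mem (hR₀R ⟨_, const_mem_endRing D _⟩) (pow_mem (hR₀R M') i)
    have hint : IsIntegral R y :=
      ⟨p.map ((algebraMap (Algebra.adjoin W {(T.t u)}) F₁).codRestrict R hmem), hp.map _,
        by rw [eval₂_map]; exact hpy⟩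
    obtain ⟨a, b, hb0, hab⟩ := exists_mul_eq_endRing hq D (P := P) y
    let FK := FractionRing R
    have hinj : Function.Injective (algebraMap R F₁) := Subtype.val_injective
    let Ψ : FK →ₐ[R] F₁ := IsFractionRing.liftAlgHom (g := Algebra.ofId R F₁) hinj
    let a' : R := ⟨a, hR₀R a⟩
    let b' : R := ⟨b, hR₀R b⟩
    have hz : Ψ (algebraMap R FK a' / algebraMap R FK b') = y := by
      rw [map_div₀, AlgHom.commutes, AlgHom.commutes]
      show (a : F₁) / (b : F₁) = y
      rw [← hab, mul_div_cancel_right₀ _ hb0]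
    obtain ⟨c, hc⟩ := IsIntegrallyClosed.isIntegral_iff.mp
      ((isIntegral_algHom_iff Ψ Ψ.toRingHom.injective).mp (hz ▸ hint : IsIntegral _ (Ψ _)))
    have : y = (c : F₁) := by rw [← hz, ← hc, AlgHom.commutes]; rfl
    exact this ▸ c.2
  have hloc : ∀ y : F₁, Loc (T.t u) P y → y ∈ R := fun y ⟨r, a, hr, ha⟩ => by
    have hru : IsUnit (⟨(r : F₁), hchart r r.2⟩ : R) := by
      by_contra hnu
      obtain ⟨⟨r₀, s⟩, h⟩ := IsLocalization.surj m.primeCompl (⟨(r : F₁), hchart r r.2⟩ : R)
      have h' : (r : F₁) * (s : R₀) = (r₀ : F₁) := congrArg (fun y : R => (y : F₁)) h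
      have hm' : ι r₀ ∈ 𝔪 := by rw [← h]; exact 𝔪.mul_mem_right _ hnu
      have hr₀ : InMax P (r₀ : F₁) :=
        (hm r₀).mp ((IsLocalization.AtPrime.to_map_mem_maximal_iff R m _).mp hm')
      rw [← h'] at hr₀
      obtain ⟨hs0, hsinv⟩ := (inMax_or_loc_inv (inc s).2).resolve_left fun hh => s.2 ((hm _).mpr hh)
      have := hr₀.mul_right hsinv
      rw [mul_assoc, show ((s : R₀) : F₁) * ((inc s : locRing P) : F₁)⁻¹ = 1 from mul_inv_cancel₀ hs0,
        mul_one] at this
      exact hr (mem_of_inMax this)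
    obtain ⟨w, hw⟩ := hru.exists_right_inv
    have hw' : (r : F₁) * (w : F₁) = 1 := congrArg (fun y : R => (y : F₁)) hw
    rw [show y = (w : F₁) * (a : F₁) by
      rw [← ha, ← mul_assoc, mul_comm (w : F₁), hw', one_mul]]
    exact mul_mem w.2 (hchart a a.2)
  -- transport to the local ring
  let E : R ≃+* locRing P :=
    { toFun := fun z => ⟨z, hRloc z z.2⟩
      invFun := fun z => ⟨z, hloc z z.2⟩
      left_inv := fun _ => rfl
      right_inv := fun _ => rfl
      map_mul' := fun _ _ => rfl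
      map_add' := fun _ _ => rfl }
  refine ⟨E X₁, E Y₁, rfl, ⟨E ((-heu.unit⁻¹ : Rˣ) : R), (Units.isUnit _).map E, rfl⟩, ?_, ?_,
    MulEquiv.uniqueFactorizationMonoid E.toMulEquiv inferInstance, ?_, ?_, ?_, ?_⟩
  · rw [← map_mul, hq_eq, map_natCast]
  · rw [← IsLocalRing.map_maximalIdeal_of_surjective E.toRingHom E.surjective,
      show maximalIdeal R = _ from h𝔪, Ideal.map_span, Set.image_pair]
    rfl
  · exact (MulEquiv.prime_iff E.toMulEquiv).mpr hpX
  · exact (MulEquiv.prime_iff E.toMulEquiv).mpr hpY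
  · rw [map_dvd_iff]; exact hnd hpX h𝔪
  · rw [map_dvd_iff]; exact hnd hpY (h𝔪.trans (congrArg Ideal.span (Set.pair_comm _ _)))

end FermatAgent.MazurPrinciple
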