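import Fermat.Agent.MazurPrinciple.AnnulusRing
import Mathlib.RingTheory.PowerSeries.Expand
import Mathlib.RingTheory.Filtration

/-!
# The expansion of a node

A two dimensional local domain with maximal ideal `(X, Y)`, `X * Y = q`, maps injectively to the
annulus ring by `X ↦ x ^ e`, `Y ↦ ω y ^ e` when `q ↦ ω ϖ ^ e`.
-/

set_option autoImplicit false

noncomputable section

open IsLocalRing

namespace FermatAgent.MazurPrinciple

variable {W : Type*} [CommRing W] (ϖ : W)

/-- Series without terms of small degree have small ends. -/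
theorem coeff_endX_eq_zero_of_tail {f : Bi W} {N R : ℕ} {l : ℤ}
    (hf : ∀ i j, i + j < N → bcoeff i j f = 0) (hN : l.natAbs + 2 * R ≤ N) :
    (endX ϖ R f).coeff l = 0 := by
  rw [coeff_endX_eq_sum, Finset.sum_eq_zero fun j hj => ?_, map_zero]
  have := Finset.mem_range.mp hj
  split_ifs with h
  · rfl
  · rw [hf _ _ (by omega), zero_mul]

/-- `X ↦ X ^ e`. -/
def expandHom (S : Type*) [CommRing S] {e : ℕ} (he : e ≠ 0) : PowerSeries S →+* PowerSeries S where
  toFun := PowerSeries.expand e he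
  map_one' := map_one _
  map_mul' := map_mul _
  map_zero' := map_zero _
  map_add' := map_add _

theorem coeff_expandHom {S : Type*} [CommRing S] {e : ℕ} (he : e ≠ 0) (f : PowerSeries S) (n : ℕ) :
    PowerSeries.coeff n (expandHom S he f) = if e ∣ n then PowerSeries.coeff (n / e) f else 0 :=
  PowerSeries.coeff_expand e he f

theorem expandHom_X {S : Type*} [CommRing S] {e : ℕ} (he : e ≠ 0) :
    expandHom S he PowerSeries.X = PowerSeries.X ^ e :=
  PowerSeries.expand_X e he

theorem expandHom_C {S : Type*} [CommRing S] {e : ℕ} (he : e ≠ 0) (c : S) :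
    expandHom S he (PowerSeries.C c) = PowerSeries.C c :=
  PowerSeries.expand_C e he c

theorem rescale_const {S : Type*} [CommRing S] (a c : S) :
    PowerSeries.rescale a (PowerSeries.C c) = PowerSeries.C c :=
  PowerSeries.ext fun n => by
    rw [PowerSeries.coeff_rescale, PowerSeries.coeff_C]
    split_ifs with h
    · rw [h, pow_zero, one_mul]
    · rw [mul_zero]

variable (W₀ R : Type*) [CommRing W₀] [CommRing R] [IsLocalRing R]

/-- A node over `W₀` with its scalars seen in `W`. -/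
structure NodeData where
  a : W₀ →+* R
  φ : W₀ →+* W
  X : R
  Y : R
  q : W₀
  mul_eq : X * Y = a q
  max_eq : maximalIdeal R = Ideal.span {X, Y}
  prime_X : Prime X
  not_dvd : ¬ X ∣ Y
  res_surj : ∀ r, ∃ c, r - a c ∈ maximalIdeal R
  mem_max : ∀ c, a c ∈ maximalIdeal R → q ∣ c
  e : ℕ
  e_pos : 0 < e
  ω : W
  isUnit_ω : IsUnit ω
  φ_q : φ q = ω * ϖ ^ e
  φ_reflect : ∀ c, ϖ ∣ φ c → q ∣ c

namespace NodeData

variable {ϖ W₀ R} (D : NodeData ϖ W₀ R)

local notation "𝔪" => maximalIdeal R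

theorem X_mem : D.X ∈ 𝔪 := by rw [D.max_eq]; exact Ideal.subset_span (by simp)

theorem Y_mem : D.Y ∈ 𝔪 := by rw [D.max_eq]; exact Ideal.subset_span (by simp)

theorem exists_homog (n : ℕ) : ∀ s ∈ 𝔪 ^ n, ∃ r : ℕ → R,
    s = ∑ j ∈ Finset.range (n + 1), r j * D.X ^ (n - j) * D.Y ^ j := by
  induction n with
  | zero => exact fun s _ => ⟨fun _ => s, by simp⟩
  | succ n ih =>
    intro s hs
    rw [pow_succ] at hs
    refine Submodule.mul_induction_on hs ?_ ?_
    · intro u hu v hv
      obtain ⟨r, rfl⟩ := ih u hu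
      rw [D.max_eq] at hv
      obtain ⟨c, d, rfl⟩ := Ideal.mem_span_pair.mp hv
      refine ⟨fun j => (if j ≤ n then c * r j else 0) + (if j = 0 then 0 else d * r (j - 1)), ?_⟩
      simp only [add_mul, Finset.sum_add_distrib, mul_add]
      congr 1
      · rw [Finset.sum_range_succ _ (n + 1), if_neg (by omega), zero_mul, zero_mul, add_zero,
          Finset.sum_mul]
        refine Finset.sum_congr rfl fun j hj => ?_
        have hj' := Finset.mem_range.mp hj
        rw [if_pos (by omega), show n + 1 - j = n - j + 1 by omega, pow_succ]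
        ring
      · rw [Finset.sum_range_succ' _ (n + 1), if_pos rfl, zero_mul, zero_mul, add_zero,
          Finset.sum_mul]
        refine Finset.sum_congr rfl fun j _ => ?_
        rw [if_neg (by omega), Nat.add_sub_cancel, show n + 1 - (j + 1) = n - j by omega, pow_succ]
        ring
    · rintro u v ⟨r, rfl⟩ ⟨r', rfl⟩
      exact ⟨r + r', by simp only [Pi.add_apply, add_mul, Finset.sum_add_distrib]⟩

theorem homog_mem (r : ℕ → R) (n : ℕ) :
    ∑ j ∈ Finset.range (n + 1), r j * D.X ^ (n - j) * D.Y ^ j ∈ 𝔪 ^ n := by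
  refine Ideal.sum_mem _ fun j hj => ?_
  have hj' := Finset.mem_range.mp hj
  rw [mul_assoc, show n = n - j + j by omega, pow_add, show n - j + j - j = n - j by omega]
  exact Ideal.mul_mem_left _ _
    (Ideal.mul_mem_mul (Ideal.pow_mem_pow D.X_mem _) (Ideal.pow_mem_pow D.Y_mem _))

variable [IsDomain R] in
/-- The two parameters are analytically independent. -/
theorem mem_of_homog_mem (n : ℕ) : ∀ r : ℕ → R,
    ∑ j ∈ Finset.range (n + 1), r j * D.X ^ (n - j) * D.Y ^ j ∈ 𝔪 ^ (n + 1) →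
      ∀ j ≤ n, r j ∈ 𝔪 := by
  induction n with
  | zero =>
    intro r hr j hj
    simpa [Nat.le_zero.mp hj] using hr
  | succ n ih =>
    intro r hr
    have hY : ∀ m, ¬ D.X ∣ D.Y ^ m := fun m h => D.not_dvd (D.prime_X.dvd_of_dvd_pow h)
    have hsplit : ∑ j ∈ Finset.range (n + 1 + 1), r j * D.X ^ (n + 1 - j) * D.Y ^ j =
        D.X * (∑ j ∈ Finset.range (n + 1), r j * D.X ^ (n - j) * D.Y ^ j) +
          r (n + 1) * D.Y ^ (n + 1) := by
      rw [Finset.sum_range_succ _ (n + 1), Nat.sub_self, pow_zero, mul_one, Finset.mul_sum]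
      congr 1
      refine Finset.sum_congr rfl fun j hj => ?_
      rw [show n + 1 - j = n - j + 1 by have := Finset.mem_range.mp hj; omega, pow_succ]
      ring
    have htop : r (n + 1) ∈ 𝔪 := by
      obtain ⟨b, hb⟩ := D.exists_homog _ _ hr
      rw [hsplit] at hb
      rw [Finset.sum_range_succ _ (n + 1 + 1), Nat.sub_self, pow_zero, mul_one] at hb
      have h1 : D.X ∣ (r (n + 1) - b (n + 1 + 1) * D.Y) * D.Y ^ (n + 1) := by
        have h2 : D.X ∣ ∑ j ∈ Finset.range (n + 1 + 1),
            b j * D.X ^ (n + 1 + 1 - j) * D.Y ^ j := by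
          refine Finset.dvd_sum fun j hj => ?_
          rw [show n + 1 + 1 - j = n + 1 - j + 1 by have := Finset.mem_range.mp hj; omega, pow_succ]
          exact ⟨b j * D.X ^ (n + 1 - j) * D.Y ^ j, by ring⟩
        obtain ⟨t, ht⟩ := h2
        exact ⟨t - ∑ j ∈ Finset.range (n + 1), r j * D.X ^ (n - j) * D.Y ^ j, by
          rw [ht] at hb; linear_combination hb⟩
      obtain ⟨t, ht⟩ := (D.prime_X.dvd_or_dvd h1).resolve_right (hY _)
      rw [show r (n + 1) = D.X * t + b (n + 1 + 1) * D.Y by linear_combination ht]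
      exact add_mem (Ideal.mul_mem_right _ _ D.X_mem) (Ideal.mul_mem_left _ _ D.Y_mem)
    intro j hj
    rcases Nat.lt_or_eq_of_le hj with hlt | rfl
    · have hS : D.X * (∑ j ∈ Finset.range (n + 1), r j * D.X ^ (n - j) * D.Y ^ j) ∈
          𝔪 ^ (n + 1 + 1) := by
        rw [hsplit] at hr
        refine (Ideal.add_mem_iff_left _ ?_).mp hr
        rw [pow_succ' 𝔪]
        exact Ideal.mul_mem_mul htop (Ideal.pow_mem_pow D.Y_mem _)
      refine ih r ?_ j (Nat.lt_succ_iff.mp hlt)
      obtain ⟨b, hb⟩ := D.exists_homog _ _ hS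
      rw [Finset.sum_range_succ _ (n + 1 + 1), Nat.sub_self, pow_zero, mul_one] at hb
      have h2 : ∃ t : ℕ → R, ∑ j ∈ Finset.range (n + 1 + 1), b j * D.X ^ (n + 1 + 1 - j) * D.Y ^ j =
          D.X * ∑ j ∈ Finset.range (n + 1 + 1), t j * D.X ^ (n + 1 - j) * D.Y ^ j := by
        refine ⟨b, ?_⟩
        rw [Finset.mul_sum]
        refine Finset.sum_congr rfl fun j hj => ?_
        rw [show n + 1 + 1 - j = n + 1 - j + 1 by have := Finset.mem_range.mp hj; omega, pow_succ]
        ring
      obtain ⟨t, ht⟩ := h2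
      rw [ht] at hb
      obtain ⟨c, hc⟩ : D.X ∣ b (n + 1 + 1) := by
        refine (D.prime_X.dvd_or_dvd ?_).resolve_right (hY (n + 1 + 1))
        exact ⟨(∑ j ∈ Finset.range (n + 1), r j * D.X ^ (n - j) * D.Y ^ j) -
          ∑ j ∈ Finset.range (n + 1 + 1), t j * D.X ^ (n + 1 - j) * D.Y ^ j, by
          linear_combination -hb⟩
      rw [hc] at hb
      have h3 : ∑ j ∈ Finset.range (n + 1), r j * D.X ^ (n - j) * D.Y ^ j =
          (∑ j ∈ Finset.range (n + 1 + 1), t j * D.X ^ (n + 1 - j) * D.Y ^ j) +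
            c * D.Y ^ (n + 1 + 1) :=
        mul_left_cancel₀ D.prime_X.ne_zero (by linear_combination hb)
      rw [h3]
      exact add_mem (D.homog_mem _ _) (Ideal.mul_mem_left _ _
        (Ideal.pow_le_pow_right (Nat.le_succ _) (Ideal.pow_mem_pow D.Y_mem _)))
    · exact htop

/-- `X ^ i Y ^ j` modulo `𝔪 ^ n`. -/
theorem mk_X_pow (n : ℕ) : Ideal.Quotient.mk (𝔪 ^ n) D.X ^ n = 0 := by
  rw [← map_pow, Ideal.Quotient.eq_zero_iff_mem]; exact Ideal.pow_mem_pow D.X_mem _

theorem mk_Y_pow (n : ℕ) : Ideal.Quotient.mk (𝔪 ^ n) D.Y ^ n = 0 := by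
  rw [← map_pow, Ideal.Quotient.eq_zero_iff_mem]; exact Ideal.pow_mem_pow D.Y_mem _

/-- Evaluation at the parameters modulo `𝔪 ^ n`. -/
def ev (n : ℕ) : Bi W₀ →+* R ⧸ 𝔪 ^ n :=
  evalNil (evalNil ((Ideal.Quotient.mk _).comp D.a) (Ideal.Quotient.mk _ D.X) n (D.mk_X_pow n))
    (Ideal.Quotient.mk _ D.Y) n (D.mk_Y_pow n)

/-- The sum of the terms of degree below `n`. -/
def tri (f : Bi W₀) (n : ℕ) : R :=
  ∑ d ∈ Finset.range n, ∑ j ∈ Finset.range (d + 1),
    D.a (bcoeff (d - j) j f) * D.X ^ (d - j) * D.Y ^ j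

theorem ev_eq (n : ℕ) (f : Bi W₀) : D.ev n f = Ideal.Quotient.mk _ (D.tri f n) := by
  rw [ev, evalNil_apply]
  simp only [evalNil_apply, RingHom.comp_apply, Finset.sum_mul, ← map_pow, ← map_mul, ← map_sum]
  rw [Ideal.Quotient.eq]
  rw [← Finset.sum_product']
  unfold tri
  rw [Finset.sum_sigma']
  rw [← Finset.sum_filter_add_sum_filter_not (Finset.range n ×ˢ Finset.range n)
    (fun x => x.1 + x.2 < n), add_comm, add_sub_assoc]
  refine add_mem (Ideal.sum_mem _ fun x hx => ?_) ?_
  · have hxn := (Finset.mem_filter.mp hx).2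
    rw [mul_assoc]
    refine Ideal.mul_mem_left _ _ (Ideal.pow_le_pow_right (show n ≤ x.2 + x.1 by omega) ?_)
    rw [pow_add]
    exact Ideal.mul_mem_mul (Ideal.pow_mem_pow D.X_mem _) (Ideal.pow_mem_pow D.Y_mem _)
  · rw [sub_eq_zero.mpr ?_]
    · exact zero_mem _
    refine Finset.sum_nbij' (fun x => ⟨x.1 + x.2, x.1⟩) (fun s => (s.2, s.1 - s.2)) ?_ ?_ ?_ ?_ ?_
    all_goals intro x hx
    · have := (Finset.mem_filter.mp hx).2
      simp only [Finset.mem_sigma, Finset.mem_range]; omega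
    · simp only [Finset.mem_sigma, Finset.mem_range] at hx
      simp only [Finset.mem_filter, Finset.mem_product, Finset.mem_range]; omega
    · simp
    · simp only [Finset.mem_sigma, Finset.mem_range] at hx
      refine Sigma.ext (show x.2 + (x.1 - x.2) = x.1 by omega) (heq_of_eq rfl)
    · simp [bcoeff]

/-- `X * Y - q`. -/
def rel : Bi W₀ := biX * biY - biC D.q

theorem ev_biX (n : ℕ) : D.ev n biX = Ideal.Quotient.mk _ D.X := by simp [ev, biX]

theorem ev_biY (n : ℕ) : D.ev n biY = Ideal.Quotient.mk _ D.Y := by simp [ev, biY]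

theorem ev_biC (n : ℕ) (c : W₀) : D.ev n (biC c) = Ideal.Quotient.mk _ (D.a c) := by
  simp [ev, biC]

theorem ev_rel (n : ℕ) : D.ev n D.rel = 0 := by
  rw [rel, map_sub, map_mul, D.ev_biX, D.ev_biY, D.ev_biC, ← map_mul, D.mul_eq, sub_self]

theorem tri_succ (f : Bi W₀) (n : ℕ) : D.tri f (n + 1) = D.tri f n +
    ∑ j ∈ Finset.range (n + 1), D.a (bcoeff (n - j) j f) * D.X ^ (n - j) * D.Y ^ j :=
  Finset.sum_range_succ _ _

theorem tri_mem_sub (f : Bi W₀) {m n : ℕ} (h : m ≤ n) : D.tri f n - D.tri f m ∈ 𝔪 ^ m := by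
  induction n, h using Nat.le_induction with
  | base => simp
  | succ n hn ih =>
    rw [D.tri_succ, add_sub_right_comm]
    exact add_mem ih (Ideal.pow_le_pow_right hn (D.homog_mem _ _))

/-- `f` expands `r`. -/
def Rep (r : R) (f : Bi W₀) : Prop := ∀ n, D.ev n f = Ideal.Quotient.mk _ r

theorem exists_rep (r : R) : ∃ f, D.Rep r f := by
  classical
  have step : ∀ n, ∀ s : R, ∃ c : ℕ → W₀, s ∈ 𝔪 ^ n →
      s - ∑ j ∈ Finset.range (n + 1), D.a (c j) * D.X ^ (n - j) * D.Y ^ j ∈ 𝔪 ^ (n + 1) := by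
    intro n s
    by_cases hs : s ∈ 𝔪 ^ n
    · obtain ⟨b, rfl⟩ := D.exists_homog n s hs
      choose c hc using fun j => D.res_surj (b j)
      refine ⟨c, fun _ => ?_⟩
      simp only [← Finset.sum_sub_distrib, ← sub_mul]
      refine Ideal.sum_mem _ fun j hj => ?_
      rw [mul_assoc, pow_succ' 𝔪]
      refine Ideal.mul_mem_mul (hc j) ?_
      have hj' := Finset.mem_range.mp hj
      rw [show n = n - j + j by omega, pow_add, show n - j + j - j = n - j by omega]
      exact Ideal.mul_mem_mul (Ideal.pow_mem_pow D.X_mem _) (Ideal.pow_mem_pow D.Y_mem _)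
    · exact ⟨0, fun h => absurd h hs⟩
  choose c hc using step
  let s : ℕ → R := fun n => Nat.rec r (fun n s =>
    s - ∑ j ∈ Finset.range (n + 1), D.a (c n s j) * D.X ^ (n - j) * D.Y ^ j) n
  have hs : ∀ n, s n ∈ 𝔪 ^ n := fun n => by
    induction n with
    | zero => simp
    | succ n ih => exact hc n (s n) ih
  let f : Bi W₀ := PowerSeries.mk fun j => PowerSeries.mk fun i => c (i + j) (s (i + j)) j
  refine ⟨f, fun n => ?_⟩
  rw [D.ev_eq, Ideal.Quotient.eq]
  suffices D.tri f n - r = -s n by rw [this]; exact neg_mem (hs n)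
  induction n with
  | zero => simp [tri, s]
  | succ n ih =>
    rw [D.tri_succ, show s (n + 1) = s n -
      ∑ j ∈ Finset.range (n + 1), D.a (c n (s n) j) * D.X ^ (n - j) * D.Y ^ j from rfl]
    have : ∀ j ∈ Finset.range (n + 1), D.a (bcoeff (n - j) j f) * D.X ^ (n - j) * D.Y ^ j =
        D.a (c n (s n) j) * D.X ^ (n - j) * D.Y ^ j := fun j hj => by
      have := Finset.mem_range.mp hj
      simp [f, bcoeff, Nat.sub_add_cancel (show j ≤ n by omega)]
    rw [Finset.sum_congr rfl this]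
    linear_combination ih

variable [IsDomain R] in
/-- A series vanishing at the parameters has no small terms modulo the relation. -/
theorem exists_reduce (n : ℕ) : ∀ h : Bi W₀, D.ev n h = 0 →
    ∃ g, ∀ i j, i + j < n → bcoeff i j (h - D.rel * g) = 0 := by
  classical
  induction n with
  | zero => exact fun h _ => ⟨0, fun i j hij => absurd hij (Nat.not_lt_zero _)⟩
  | succ n ih =>
    intro h hh
    have hh' : D.ev n h = 0 := by
      rw [D.ev_eq, Ideal.Quotient.eq_zero_iff_mem] at hh ⊢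
      have h1 := sub_mem (Ideal.pow_le_pow_right n.le_succ hh) (D.tri_mem_sub h n.le_succ)
      rwa [sub_sub_cancel] at h1
    obtain ⟨g, hg⟩ := ih h hh'
    set h₁ := h - D.rel * g
    have h₁ev : D.ev (n + 1) h₁ = 0 := by
      rw [map_sub, map_mul, D.ev_rel, zero_mul, sub_zero, hh]
    rw [D.ev_eq, Ideal.Quotient.eq_zero_iff_mem, D.tri_succ] at h₁ev
    have h0 : D.tri h₁ n = 0 := Finset.sum_eq_zero fun d hd => Finset.sum_eq_zero fun j hj => by
      have := Finset.mem_range.mp hd; have := Finset.mem_range.mp hj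
      rw [hg _ _ (by omega), map_zero, zero_mul, zero_mul]
    rw [h0, zero_add] at h₁ev
    choose b hb using fun j : Fin (n + 1) =>
      D.mem_max _ (D.mem_of_homog_mem n _ h₁ev j (Nat.le_of_lt_succ j.2))
    let g₁ : Bi W₀ := PowerSeries.mk fun j => PowerSeries.mk fun i =>
      if hij : i + j = n then -b ⟨j, by omega⟩ else 0
    have hg₁ : ∀ i j, bcoeff i j g₁ = if hij : i + j = n then -b ⟨j, by omega⟩ else 0 :=
      fun i j => by simp [g₁, bcoeff]
    refine ⟨g + g₁, fun i j hij => ?_⟩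
    have e1 : bcoeff i j (h - D.rel * (g + g₁)) =
        bcoeff i j h₁ - bcoeff i j (biX * biY * g₁) + D.q * bcoeff i j g₁ := by
      rw [← bcoeff_biC_mul, show h - D.rel * (g + g₁) = h₁ - biX * biY * g₁ + biC D.q * g₁ by
        simp only [h₁, rel]; ring]
      simp [bcoeff]
    have e2 : bcoeff i j (biX * biY * g₁) = 0 := by
      rcases i with _ | i
      · exact bcoeff_biX_mul_biY_mul_zero_left _ _
      rcases j with _ | j
      · exact bcoeff_biX_mul_biY_mul_zero_right _ _
      rw [bcoeff_biX_mul_biY_mul_succ, hg₁, dif_neg (by omega)]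
    rw [e1, e2, sub_zero, hg₁]
    rcases Nat.lt_or_eq_of_le (Nat.le_of_lt_succ hij) with hlt | heq
    · rw [hg i j hlt, dif_neg (by omega), mul_zero, add_zero]
    · rw [dif_pos heq]
      have := hb ⟨j, by omega⟩
      rw [show n - j = i by omega] at this
      rw [this]
      ring

/-- The substitution `X ↦ x ^ e`, `Y ↦ ω y ^ e`. -/
def subst : Bi W₀ →+* Bi W :=
  (expandHom (PowerSeries W) D.e_pos.ne').comp
    ((PowerSeries.rescale (PowerSeries.C D.ω)).comp
      (PowerSeries.map ((expandHom W D.e_pos.ne').comp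
        (PowerSeries.map D.φ))))

theorem bcoeff_subst (f : Bi W₀) (i j : ℕ) : bcoeff i j (D.subst f) =
    if D.e ∣ i ∧ D.e ∣ j then D.ω ^ (j / D.e) * D.φ (bcoeff (i / D.e) (j / D.e) f) else 0 := by
  simp only [subst, bcoeff, RingHom.comp_apply, coeff_expandHom]
  by_cases hj : D.e ∣ j
  · rw [if_pos hj, PowerSeries.coeff_rescale, ← map_pow, PowerSeries.coeff_C_mul,
      PowerSeries.coeff_map]
    simp only [RingHom.comp_apply, coeff_expandHom, hj, and_true]
    split_ifs with hi
    · rw [PowerSeries.coeff_map]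
    · rw [mul_zero]
  · simp [hj]

theorem bcoeff_subst_tail {f : Bi W₀} {n : ℕ} (hf : ∀ i j, i + j < n → bcoeff i j f = 0) :
    ∀ i j, i + j < n → bcoeff i j (D.subst f) = 0 := by
  intro i j hij
  rw [D.bcoeff_subst]
  split_ifs
  · rw [hf _ _ (lt_of_le_of_lt (add_le_add (Nat.div_le_self _ _) (Nat.div_le_self _ _)) hij),
      map_zero, mul_zero]
  · rfl

theorem subst_biX : D.subst biX = biX ^ D.e := by
  simp [subst, biX, map_pow, expandHom_X, expandHom_C, rescale_const]

theorem subst_biY : D.subst biY = biC D.ω * biY ^ D.e := by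
  simp [subst, biY, biC, PowerSeries.rescale_X, expandHom_X, expandHom_C]

theorem subst_biC (c : W₀) : D.subst (biC c) = biC (D.φ c) := by
  simp [subst, biC, expandHom_C, rescale_const]

theorem mk_subst_rel : Ann.mk ϖ (D.subst D.rel) = 0 := by
  rw [rel, map_sub, map_mul, D.subst_biX, D.subst_biY, D.subst_biC, map_sub, map_mul, map_mul,
    map_pow, map_pow]
  show Ann.x ϖ ^ D.e * (Ann.const ϖ D.ω * Ann.y ϖ ^ D.e) - Ann.const ϖ (D.φ D.q) = 0
  rw [D.φ_q, map_mul, map_pow, ← Ann.x_mul_y, mul_pow]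
  ring

variable [IsDomain R] [IsDomain W] [IsDiscreteValuationRing W]
  [IsAdicComplete (Ideal.span {ϖ}) W]
variable (hϖ : Irreducible ϖ)
include hϖ

theorem mk_subst_eq_zero {h : Bi W₀} (hh : ∀ n, D.ev n h = 0) :
    Ann.mk ϖ (D.subst h) = 0 := by
  refine Ann.eq_zero_of_forall_toX ϖ hϖ fun S => HahnSeries.ext (funext fun l => ?_)
  obtain ⟨g, hg⟩ := D.exists_reduce (l.natAbs + 2 * S) h (hh _)
  have : Ann.mk ϖ (D.subst h) = Ann.mk ϖ (D.subst (h - D.rel * g)) := by
    rw [map_sub, map_sub, map_mul, map_mul, D.mk_subst_rel, zero_mul, sub_zero]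
  rw [this, Ann.toX_mk, HahnSeries.coeff_zero]
  exact coeff_endX_eq_zero_of_tail ϖ (D.bcoeff_subst_tail hg) le_rfl

theorem mk_subst_eq_of_rep {r : R} {f g : Bi W₀} (hf : D.Rep r f) (hg : D.Rep r g) :
    Ann.mk ϖ (D.subst f) = Ann.mk ϖ (D.subst g) := by
  rw [← sub_eq_zero, ← map_sub, ← map_sub]
  exact D.mk_subst_eq_zero hϖ fun n => by rw [map_sub, hf n, hg n, sub_self]

/-- The expansion. -/
def expansion : R →+* Ann ϖ where
  toFun r := Ann.mk ϖ (D.subst (D.exists_rep r).choose)
  map_one' := by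
    rw [D.mk_subst_eq_of_rep hϖ (D.exists_rep 1).choose_spec (g := 1) (fun n => by simp), map_one,
      map_one]
  map_mul' r s := by
    rw [D.mk_subst_eq_of_rep hϖ (D.exists_rep (r * s)).choose_spec
      (g := (D.exists_rep r).choose * (D.exists_rep s).choose) (fun n => by
        rw [map_mul, map_mul, (D.exists_rep r).choose_spec n, (D.exists_rep s).choose_spec n]),
      map_mul, map_mul]
  map_zero' := by
    rw [D.mk_subst_eq_of_rep hϖ (D.exists_rep 0).choose_spec (g := 0) (fun n => by simp),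
      map_zero, map_zero]
  map_add' r s := by
    rw [D.mk_subst_eq_of_rep hϖ (D.exists_rep (r + s)).choose_spec
      (g := (D.exists_rep r).choose + (D.exists_rep s).choose) (fun n => by
        rw [map_add, map_add, (D.exists_rep r).choose_spec n, (D.exists_rep s).choose_spec n]),
      map_add, map_add]

theorem expansion_eq {r : R} {f : Bi W₀} (hf : D.Rep r f) :
    D.expansion hϖ r = Ann.mk ϖ (D.subst f) :=
  D.mk_subst_eq_of_rep hϖ (D.exists_rep r).choose_spec hf

theorem expansion_X : D.expansion hϖ D.X = Ann.x ϖ ^ D.e := by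
  rw [D.expansion_eq hϖ (fun n => D.ev_biX n), D.subst_biX, map_pow]; rfl

theorem expansion_Y : D.expansion hϖ D.Y = Ann.const ϖ D.ω * Ann.y ϖ ^ D.e := by
  rw [D.expansion_eq hϖ (fun n => D.ev_biY n), D.subst_biY, map_mul, map_pow]; rfl

theorem expansion_a (c : W₀) : D.expansion hϖ (D.a c) = Ann.const ϖ (D.φ c) := by
  rw [D.expansion_eq hϖ (fun n => D.ev_biC n c), D.subst_biC]; rfl

variable [IsNoetherianRing R] in
theorem expansion_injective : Function.Injective (D.expansion hϖ) := by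
  rw [injective_iff_map_eq_zero]
  intro r hr
  suffices ∀ n, r ∈ 𝔪 ^ n by
    have h : r ∈ (⨅ n : ℕ, 𝔪 ^ n : Ideal R) := (Submodule.mem_iInf _).mpr this
    rwa [Ideal.iInf_pow_eq_bot_of_isLocalRing 𝔪 (maximalIdeal.isMaximal R).ne_top,
      Ideal.mem_bot] at h
  intro n
  induction n with
  | zero => simp
  | succ n ih =>
    obtain ⟨f₀, hf₀⟩ := D.exists_rep r
    obtain ⟨g, hg⟩ := D.exists_reduce n f₀ (by
      rw [hf₀ n, Ideal.Quotient.eq_zero_iff_mem]; exact ih)
    set f := f₀ - D.rel * g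
    have hf : D.Rep r f := fun m => by rw [map_sub, map_mul, D.ev_rel, zero_mul, sub_zero, hf₀ m]
    rw [D.expansion_eq hϖ hf] at hr
    have hdvd : ∀ j ≤ n, D.q ∣ bcoeff (n - j) j f := by
      intro j hj
      refine D.φ_reflect _ ?_
      have h1 := congrArg (fun z => (Ann.toX ϖ (D.e * j + D.e) z).coeff
        ((D.e : ℤ) * ((n : ℤ) - 2 * j))) hr
      simp only [Ann.toX_mk, map_zero, HahnSeries.coeff_zero, coeff_endX_eq_sum] at h1
      rw [modPowMk_eq_zero_iff, Finset.sum_eq_single (D.e * j)] at h1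
      · rw [if_neg (by push_cast; nlinarith)] at h1
        rw [show ((D.e : ℤ) * ((n : ℤ) - 2 * j) + ((D.e * j : ℕ) : ℤ)).toNat = D.e * (n - j) by
          rw [show (D.e : ℤ) * ((n : ℤ) - 2 * j) + ((D.e * j : ℕ) : ℤ) =
            ((D.e * (n - j) : ℕ) : ℤ) by push_cast [Nat.cast_sub hj]; ring, Int.toNat_natCast]]
          at h1
        rw [D.bcoeff_subst, if_pos ⟨dvd_mul_right _ _, dvd_mul_right _ _⟩,
          Nat.mul_div_cancel_left _ D.e_pos, Nat.mul_div_cancel_left _ D.e_pos, pow_add,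
          mul_comm _ (ϖ ^ (D.e * j)), mul_dvd_mul_iff_left (pow_ne_zero _ hϖ.ne_zero),
          (D.isUnit_ω.pow j).dvd_mul_left] at h1
        exact (dvd_pow_self ϖ D.e_pos.ne').trans h1
      · intro k hk hne
        split_ifs with hneg
        · rfl
        rw [D.bcoeff_subst]
        split_ifs with hdiv
        · obtain ⟨⟨i', hi'⟩, k', rfl⟩ := hdiv
          rw [hi', Nat.mul_div_cancel_left _ D.e_pos, Nat.mul_div_cancel_left _ D.e_pos, hg,
            map_zero, mul_zero, zero_mul]
          have hk' : k' < j + 1 := by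
            have := Finset.mem_range.mp hk
            by_contra hc
            have h2 := Nat.mul_le_mul_left D.e (not_lt.mp hc)
            rw [mul_add, mul_one] at h2
            omega
          have hkj : k' < j := lt_of_le_of_ne (Nat.lt_succ_iff.mp hk') fun e => hne (by rw [e])
          have h3 : ((D.e * i' : ℕ) : ℤ) = (D.e : ℤ) * ((n : ℤ) - 2 * j + k') := by
            rw [← hi', Int.toNat_of_nonneg (not_lt.mp hneg)]; push_cast; ring
          have h4 : (i' : ℤ) = (n : ℤ) - 2 * j + k' := by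
            push_cast at h3
            exact mul_left_cancel₀ (Int.natCast_ne_zero.mpr D.e_pos.ne') h3
          omega
        · rw [zero_mul]
      · intro hnot
        exact absurd (Finset.mem_range.mpr (Nat.lt_add_of_pos_right D.e_pos)) hnot
    have hq : D.a D.q ∈ 𝔪 ^ 2 := by
      rw [← D.mul_eq, pow_two]; exact Ideal.mul_mem_mul D.X_mem D.Y_mem
    have := hf (n + 1)
    rw [D.ev_eq, Ideal.Quotient.eq, D.tri_succ] at this
    have h0 : D.tri f n = 0 := Finset.sum_eq_zero fun d hd => Finset.sum_eq_zero fun j hj => by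
      have := Finset.mem_range.mp hd; have := Finset.mem_range.mp hj
      rw [hg _ _ (by omega), map_zero, zero_mul, zero_mul]
    rw [h0, zero_add] at this
    refine (sub_sub_cancel (∑ j ∈ Finset.range (n + 1),
      D.a (bcoeff (n - j) j f) * D.X ^ (n - j) * D.Y ^ j) r) ▸ sub_mem ?_ this
    refine Ideal.sum_mem _ fun j hj => ?_
    obtain ⟨b, hb⟩ := hdvd j (Nat.lt_succ_iff.mp (Finset.mem_range.mp hj))
    have hj' := Finset.mem_range.mp hj
    rw [hb, map_mul, mul_assoc, mul_assoc]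
    refine Ideal.pow_le_pow_right (show n + 1 ≤ 2 + (n - j + j) by omega) ?_
    rw [pow_add 𝔪, pow_add 𝔪]
    refine Ideal.mul_mem_mul hq (Ideal.mul_mem_left _ _ ?_)
    exact Ideal.mul_mem_mul (Ideal.pow_mem_pow D.X_mem _) (Ideal.pow_mem_pow D.Y_mem _)

end NodeData

end FermatAgent.MazurPrinciple
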