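import Fermat.Agent.MazurPrinciple.NodeEmb
import Fermat.Agent.MazurPrinciple.EndDecomp
import Fermat.Agent.BadRed.Semistable.Glue

/-!
# Series in a scaled power of the variable

Units of `S((x))` with coefficients `w ^ k * φ s` at `x ^ (e k)` and `0` elsewhere have constant
part `φ c * w ^ k`; orders of local expansions at a place.
-/

set_option autoImplicit false

noncomputable section

namespace FermatAgent.MazurPrinciple

open ModularCurve

variable {S : Type*} [CommRing S]

/-- `x ↦ x ^ e`. -/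
def expandZ {e : ℕ} (he : 0 < e) : LaurentSeries S →+* LaurentSeries S :=
  HahnSeries.embDomainRingHom (AddMonoidHom.mulLeft (e : ℤ))
    (fun _ _ h => mul_left_cancel₀ (Int.natCast_ne_zero.mpr he.ne') h)
    (fun _ _ => mul_le_mul_iff_right₀ (Int.natCast_pos.mpr he))

theorem coeff_expandZ {e : ℕ} (he : 0 < e) (z : LaurentSeries S) (l : ℤ) :
    (expandZ he z).coeff l = if (e : ℤ) ∣ l then z.coeff (l / e) else 0 := by
  have he' : (e : ℤ) ≠ 0 := Int.natCast_ne_zero.mpr he.ne'
  split_ifs with h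
  · obtain ⟨k, rfl⟩ := h
    rw [Int.mul_ediv_cancel_left _ he']
    exact HahnSeries.embDomain_coeff (a := k)
  · exact HahnSeries.embDomain_of_notMem_range (fun ⟨k, hk⟩ => h ⟨k, hk.symm⟩)

/-- `x ↦ w x`. -/
def scaleHom (w : Sˣ) : LaurentSeries S →+* LaurentSeries S where
  toFun z := HahnSeries.ofSuppBddBelow (fun l => ((w ^ l : Sˣ) : S) * z.coeff l)
    ⟨z.order, fun n hn => le_of_not_gt fun hlt => hn (by
      simp [HahnSeries.coeff_eq_zero_of_lt_order hlt])⟩
  map_one' := by
    ext l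
    rcases eq_or_ne l 0 with rfl | h <;> simp [HahnSeries.coeff_one, *]
  map_zero' := by ext l; simp
  map_add' x y := by ext l; simp [mul_add]
  map_mul' x y := by
    ext l
    set x' := HahnSeries.ofSuppBddBelow (fun l => ((w ^ l : Sˣ) : S) * x.coeff l)
      ⟨x.order, fun n hn => le_of_not_gt fun hlt => hn (by
        simp [HahnSeries.coeff_eq_zero_of_lt_order hlt])⟩
    set y' := HahnSeries.ofSuppBddBelow (fun l => ((w ^ l : Sˣ) : S) * y.coeff l)
      ⟨y.order, fun n hn => le_of_not_gt fun hlt => hn (by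
        simp [HahnSeries.coeff_eq_zero_of_lt_order hlt])⟩
    show ((w ^ l : Sˣ) : S) * (x * y).coeff l = (x' * y').coeff l
    have hx : ∀ n, x'.coeff n = 0 ↔ x.coeff n = 0 := fun n => Units.mul_right_eq_zero _
    have hy : ∀ n, y'.coeff n = 0 ↔ y.coeff n = 0 := fun n => Units.mul_right_eq_zero _
    rw [HahnSeries.coeff_mul, HahnSeries.coeff_mul, Finset.mul_sum]
    refine Finset.sum_congr ?_ fun p hp => ?_
    · ext p
      simp only [Finset.mem_antidiagonal, HahnSeries.mem_support, ne_eq, hx, hy]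
    · simp only [Finset.mem_antidiagonal] at hp
      show _ = (((w ^ p.1 : Sˣ) : S) * x.coeff p.1) * (((w ^ p.2 : Sˣ) : S) * y.coeff p.2)
      rw [show l = p.1 + p.2 from hp.2.2.symm, zpow_add, Units.val_mul]
      ring

theorem coeff_scaleHom (w : Sˣ) (z : LaurentSeries S) (l : ℤ) :
    (scaleHom w z).coeff l = ((w ^ l : Sˣ) : S) * z.coeff l := rfl

theorem IsPos.expand {e : ℕ} (he : 0 < e) {z : LaurentSeries S} (hz : IsPos z) :
    IsPos (expandZ he z) := by
  obtain ⟨P, hP, rfl⟩ := hz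
  refine ⟨PowerSeries.expand e he.ne' P, by rw [PowerSeries.constantCoeff_expand, hP], ?_⟩
  ext l
  rw [coeff_expandZ, coeff_ofPowerSeries, coeff_ofPowerSeries]
  have he' : (0 : ℤ) < e := Int.natCast_pos.mpr he
  by_cases hl : l < 0
  · rw [if_pos hl]
    split_ifs with h2 h3
    · rfl
    · exact absurd (Int.ediv_neg_of_neg_of_pos hl he') h3
    · rfl
  · rw [if_neg hl, PowerSeries.coeff_expand]
    by_cases hd : (e : ℤ) ∣ l
    · obtain ⟨k, rfl⟩ := hd
      rw [if_pos (dvd_mul_right _ _), Int.mul_ediv_cancel_left _ he'.ne',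
        if_neg (fun hk => hl (mul_neg_of_pos_of_neg he' hk)), Int.natAbs_mul, Int.natAbs_natCast,
        if_pos (dvd_mul_right _ _), Nat.mul_div_cancel_left _ he]
    · rw [if_neg hd, if_neg (fun h => hd (Int.natCast_dvd.mpr h))]

theorem negPart_expand {e : ℕ} (he : 0 < e) (Q : Polynomial S) :
    expandZ he (negPart Q) = negPart (Polynomial.expand S e Q) := by
  induction Q using Polynomial.induction_on' with
  | add p q hp hq => simp [hp, hq]
  | monomial k r =>
    rw [negPart_monomial, Polynomial.expand_monomial, negPart_monomial,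
      show expandZ he (HahnSeries.single (-(k : ℤ)) r) = HahnSeries.single ((e : ℤ) * -(k : ℤ)) r from
        HahnSeries.embDomain_single,
      show (e : ℤ) * -(k : ℤ) = -((k * e : ℕ) : ℤ) by push_cast; ring]

theorem IsNeg.expand {e : ℕ} (he : 0 < e) {z : LaurentSeries S} (hz : IsNeg z) :
    IsNeg (expandZ he z) := by
  obtain ⟨Q, hQ, hn, rfl⟩ := hz
  refine ⟨Polynomial.expand S e Q, ?_, ?_, (negPart_expand he Q).symm⟩
  · rw [Polynomial.coeff_expand he, if_pos (dvd_zero _), Nat.zero_div, hQ]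
  · simpa using hn.map (Polynomial.expand S e)

theorem IsDecomp.expand {e : ℕ} (he : 0 < e) {z : LaurentSeries S} {c : Sˣ} {n : ℤ}
    (hz : IsDecomp z c n) : IsDecomp (expandZ he z) c (e * n) := by
  obtain ⟨P, Q, hP, hQ, rfl⟩ := hz
  refine ⟨_, _, hP.expand he, hQ.expand he, ?_⟩
  rw [map_mul, map_mul]
  congr 2
  exact HahnSeries.embDomain_single

theorem scaleHom_single (w : Sˣ) (n : ℤ) (r : S) :
    scaleHom w (HahnSeries.single n r) = HahnSeries.single n (((w ^ n : Sˣ) : S) * r) := by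
  ext l
  rw [coeff_scaleHom]
  rcases eq_or_ne l n with rfl | h <;> simp [*]

theorem IsPos.scale (w : Sˣ) {z : LaurentSeries S} (hz : IsPos z) : IsPos (scaleHom w z) := by
  obtain ⟨P, hP, rfl⟩ := hz
  refine ⟨PowerSeries.rescale (w : S) P, ?_, ?_⟩
  · rw [← PowerSeries.coeff_zero_eq_constantCoeff_apply, PowerSeries.coeff_rescale, pow_zero,
      one_mul, PowerSeries.coeff_zero_eq_constantCoeff_apply, hP]
  · ext l
    rw [coeff_scaleHom, coeff_ofPowerSeries, coeff_ofPowerSeries]
    split_ifs with h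
    · rw [mul_zero]
    · rw [PowerSeries.coeff_rescale, show l = ((l.natAbs : ℕ) : ℤ) by omega, zpow_natCast,
        Units.val_pow_eq_pow_val, Int.natAbs_natCast]

theorem IsNeg.scale (w : Sˣ) {z : LaurentSeries S} (hz : IsNeg z) : IsNeg (scaleHom w z) := by
  obtain ⟨Q, hQ, hn, rfl⟩ := hz
  let f : Polynomial S →+* Polynomial S :=
    Polynomial.eval₂RingHom Polynomial.C (Polynomial.C ((w⁻¹ : Sˣ) : S) * Polynomial.X)
  refine ⟨f Q, ?_, by simpa using hn.map f, ?_⟩
  · rw [Polynomial.coeff_zero_eq_eval_zero, Polynomial.coe_eval₂RingHom,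
      ← Polynomial.coe_evalRingHom, Polynomial.hom_eval₂, ← hQ,
      Polynomial.coeff_zero_eq_eval_zero]
    simp [Polynomial.eval₂_at_zero, Polynomial.coeff_zero_eq_eval_zero]
  · refine RingHom.congr_fun (f := negPart.comp f) (g := (scaleHom w).comp negPart)
      (Polynomial.ringHom_ext (fun r => ?_) ?_) Q
    · simp only [RingHom.comp_apply, f, Polynomial.coe_eval₂RingHom, Polynomial.eval₂_C, negPart,
        HahnSeries.C_apply, scaleHom_single, zpow_zero, Units.val_one, one_mul]
    · simp only [RingHom.comp_apply, f, Polynomial.coe_eval₂RingHom, Polynomial.eval₂_X, map_mul]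
      simp only [negPart, Polynomial.coe_eval₂RingHom, Polynomial.eval₂_C, Polynomial.eval₂_X,
        HahnSeries.C_apply, scaleHom_single, HahnSeries.single_mul_single, zero_add, zpow_neg_one]

theorem IsDecomp.scale (w : Sˣ) {z : LaurentSeries S} {c : Sˣ} {n : ℤ} (hz : IsDecomp z c n) :
    IsDecomp (scaleHom w z) (c * w ^ n) n := by
  obtain ⟨P, Q, hP, hQ, rfl⟩ := hz
  refine ⟨_, _, hP.scale w, hQ.scale w, ?_⟩
  rw [map_mul, map_mul, scaleHom_single, Units.val_mul, mul_comm ((w ^ n : Sˣ) : S)]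

/-- Over a field the exponent of a decomposition is the order. -/
theorem IsDecomp.order_eq {k : Type*} [Field k] {z : LaurentSeries k} {c : kˣ} {n : ℤ}
    (hz : IsDecomp z c n) : z.order = n := by
  obtain ⟨_, _, ⟨P, hP, rfl⟩, ⟨Q, -, hQ, rfl⟩, rfl⟩ := hz
  rw [show Q = 1 from sub_eq_zero.mp hQ.eq_zero, map_one, mul_one]
  have hc : (HahnSeries.single n (c : k)).coeff n ≠ 0 := by simp
  have hP0 : (HahnSeries.ofPowerSeries ℤ k P).coeff 0 ≠ 0 := by
    rw [coeff_ofPowerSeries, if_neg (lt_irrefl _)]; simp [hP]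
  rw [HahnSeries.order_mul (HahnSeries.ne_zero_of_coeff_ne_zero hc)
    (HahnSeries.ne_zero_of_coeff_ne_zero hP0), HahnSeries.order_single c.ne_zero]
  have h0 : (HahnSeries.ofPowerSeries ℤ k P).order = 0 := by
    refine le_antisymm (HahnSeries.order_le_of_coeff_ne_zero hP0) (le_of_not_gt fun h => ?_)
    have h1 := HahnSeries.coeff_order_eq_zero.not.mpr (HahnSeries.ne_zero_of_coeff_ne_zero hP0)
    rw [coeff_ofPowerSeries, if_pos h] at h1
    exact h1 rfl
  rw [h0, add_zero]

section Scaled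

variable {W Wc : Type*} [CommRing W] [IsDomain W] [IsDiscreteValuationRing W] [CommRing Wc]
  [IsDomain Wc] [IsDiscreteValuationRing Wc] {q : W} {ϖ : Wc} (hq : Irreducible q)
  (hϖ : Irreducible ϖ) (φ : W →+* Wc) (hφ : ϖ ∣ φ q) {e : ℕ} (he : 0 < e) {R : ℕ}
include hq hϖ hφ he

/-- The constant part of a unit with scaled coefficients. -/
theorem exists_decomp_of_scaled (hR : 1 ≤ R) (w : (modPow ϖ R)ˣ) {Z : LaurentSeries (modPow ϖ R)}
    (hZ : IsUnit Z) (h0 : ∀ l : ℤ, ¬ (e : ℤ) ∣ l → Z.coeff l = 0)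
    (h1 : ∀ k : ℤ, ∃ s : W,
      Z.coeff (e * k) = ((w ^ k : (modPow ϖ R)ˣ) : modPow ϖ R) * modPowMk ϖ R (φ s)) :
    ∃ (c : Wˣ) (k : ℤ),
      IsDecomp Z (Units.map ((modPowMk ϖ R).comp φ).toMonoidHom c * w ^ k) (e * k) := by
  classical
  let := Ann.isLocalRing_modPow ϖ hϖ (show R ≠ 0 by omega)
  let := Ann.isLocalRing_modPow ϖ hϖ one_ne_zero
  let := Ann.isLocalRing_modPow q hq (show R ≠ 0 by omega)
  let φb : modPow q R →+* modPow ϖ R :=
    Ideal.Quotient.lift _ ((modPowMk ϖ R).comp φ) fun x hx => by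
      obtain ⟨y, rfl⟩ := Ideal.mem_span_singleton.mp hx
      rw [RingHom.comp_apply, map_mul, map_pow, modPowMk_eq_zero_iff]
      exact (pow_dvd_pow_of_dvd hφ R).mul_right _
  choose s hs using h1
  let s' : ℤ → modPow q R := fun k => if Z.coeff (e * k) = 0 then 0 else modPowMk q R (s k)
  have hs' : ∀ k, Z.coeff (e * k) = ((w ^ k : (modPow ϖ R)ˣ) : modPow ϖ R) * φb (s' k) := fun k => by
    by_cases h : Z.coeff (e * k) = 0
    · simp only [s', if_pos h, map_zero, mul_zero]; exact h
    · simp only [s', if_neg h]; exact hs k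
  have hbdd : BddBelow (Function.support s') := ⟨-(Z.order.natAbs : ℤ), fun k hk =>
    le_of_not_gt fun hlt => hk (by
      simp only [s']
      rw [if_pos (HahnSeries.coeff_eq_zero_of_lt_order (by
        have : (1 : ℤ) ≤ e := by omega
        nlinarith [Int.natCast_nonneg Z.order.natAbs, neg_abs_le Z.order,
          Int.abs_eq_natAbs Z.order]))])⟩
  set z := HahnSeries.ofSuppBddBelow s' hbdd
  have hzZ : expandZ he (scaleHom w (coeffMap φb z)) = Z := by
    ext l
    rw [coeff_expandZ]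
    split_ifs with h
    · obtain ⟨k, rfl⟩ := h
      rw [Int.mul_ediv_cancel_left _ (Int.natCast_ne_zero.mpr he.ne'), coeff_scaleHom,
        coeffMap_coeff, hs' k]
      rfl
    · exact (h0 l h).symm
  have hzu : IsUnit z := by
    refine isUnit_of_levelMap_ne_zero hq hR fun hz0 => ?_
    refine (hZ.map (levelMap ϖ hR)).ne_zero (HahnSeries.ext (funext fun l => ?_))
    rw [levelMap, coeffMap_coeff, HahnSeries.coeff_zero]
    by_cases h : (e : ℤ) ∣ l
    · obtain ⟨k, rfl⟩ := h
      rw [hs' k, map_mul]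
      have hk := congrArg (fun u => HahnSeries.coeff u k) hz0
      simp only [levelMap, coeffMap_coeff, HahnSeries.coeff_zero] at hk
      obtain ⟨x, hx⟩ := Ideal.Quotient.mk_surjective (s' k)
      change modPowFactor q hR (s' k) = 0 at hk
      rw [← hx, modPowFactor_mk, modPowMk_eq_zero_iff, pow_one] at hk
      rw [← hx]
      show _ * modPowFactor ϖ hR (modPowMk ϖ R (φ x)) = 0
      rw [modPowFactor_mk, (modPowMk_eq_zero_iff ϖ 1 _).mpr (by
        rw [pow_one]; exact hφ.trans (map_dvd φ hk)), mul_zero]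
    · rw [h0 l h, map_zero]
  obtain ⟨c, k, hck⟩ := exists_decomp (Ann.isNilpotent_maximalIdeal_modPow q hq (by omega)) hzu
  obtain ⟨c', hc'⟩ := Ideal.Quotient.mk_surjective (c : modPow q R)
  have : IsLocalHom (modPowMk q R) :=
    IsLocalHom.of_surjective _ Ideal.Quotient.mk_surjective
  have hcu : IsUnit c' := (isUnit_map_iff (modPowMk q R) c').mp
    (show IsUnit (modPowMk q R c') from hc' ▸ c.isUnit)
  refine ⟨hcu.unit, k, ?_⟩
  have := ((hck.map φb).scale w).expand he
  rw [hzZ] at this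
  convert this using 2
  exact Units.ext (show modPowMk ϖ R (φ c') = φb (c : modPow q R) by rw [← hc']; rfl)

end Scaled

end FermatAgent.MazurPrinciple
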