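import Fermat.Agent.MazurPrinciple.NodeRing
import Fermat.Agent.MazurPrinciple.NodeEmb

/-!
# The two ends of the expansion of a node

A side of the expansion: an end `toE` and the parameter `P` vanishing on that branch, the other
parameter becoming a unit multiple of `u ^ e`.
-/

set_option autoImplicit false
set_option linter.unusedSectionVars false

noncomputable section

open IsLocalRing

namespace FermatAgent.MazurPrinciple

variable {W : Type*} [CommRing W] [IsDomain W] [IsDiscreteValuationRing W] {ϖ : W}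
  [IsAdicComplete (Ideal.span {ϖ}) W] {W₀ R : Type*} [CommRing W₀] [CommRing R] [IsDomain R]
  [IsLocalRing R] [IsNoetherianRing R]
variable {k : Type*} [Field k]

/-- One branch at a node. -/
structure NodeSide (D : NodeData ϖ W₀ R) (res : W →+* k) where
  irreducible : Irreducible ϖ
  res_unif : res ϖ = 0
  toE : ∀ S, Ann ϖ →+* LaurentSeries (modPow ϖ S)
  level : ∀ (S' S : ℕ) (h : S' ≤ S) (z : Ann ϖ), levelMap ϖ h (toE S z) = toE S' z
  P : R
  P' : R
  max_eq : maximalIdeal R = Ideal.span {P, P'}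
  prime_P : Prime P
  not_dvd : ¬ P ∣ P'
  map_P : toE 1 (D.expansion irreducible P) = 0
  nonneg : ∀ (z : Ann ϖ) (n : ℤ), n < 0 → (toE 1 z).coeff n = 0
  toE_const : ∀ n c, toE n (Ann.const ϖ c) = HahnSeries.C (modPowMk ϖ n c)
  map_P' : ∃ c : W, IsUnit c ∧ toE 1 (D.expansion irreducible P') =
    HahnSeries.single (D.e : ℤ) (modPowMk ϖ 1 c)

namespace NodeSide

variable {D : NodeData ϖ W₀ R} {res : W →+* k} (S : NodeSide D res)

/-- The residue of `W / ϖ`. -/
def resOne : modPow ϖ 1 →+* k :=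
  Ideal.Quotient.lift _ res fun x hx => by
    rw [Ideal.mem_span_singleton, pow_one] at hx
    obtain ⟨y, rfl⟩ := hx
    rw [map_mul, S.res_unif, zero_mul]

theorem resOne_mk (w : W) : S.resOne (modPowMk ϖ 1 w) = res w := rfl

/-- The residual series of an element. -/
def ser : R →+* LaurentSeries k :=
  (ModularCurve.coeffMap S.resOne).comp ((S.toE 1).comp (D.expansion S.irreducible))

theorem coeff_ser (r : R) (n : ℤ) :
    (S.ser r).coeff n = S.resOne ((S.toE 1 (D.expansion S.irreducible r)).coeff n) :=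
  ModularCurve.coeffMap_coeff _ _ _

theorem ser_P : S.ser S.P = 0 := by
  rw [ser, RingHom.comp_apply, RingHom.comp_apply, S.map_P, map_zero]

theorem exists_ser_P' : ∃ c : k, c ≠ 0 ∧ S.ser S.P' = HahnSeries.single (D.e : ℤ) c := by
  obtain ⟨c, hc, h⟩ := S.map_P'
  refine ⟨res c, (hc.map res).ne_zero, ?_⟩
  rw [ser, RingHom.comp_apply, RingHom.comp_apply, h]
  refine HahnSeries.ext (funext fun n => ?_)
  rw [ModularCurve.coeffMap_coeff, HahnSeries.coeff_single, HahnSeries.coeff_single]
  split_ifs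
  · exact S.resOne_mk c
  · exact map_zero _

/-- Off the branch, an element is a power of the other parameter times a unit. -/
theorem exists_eq_pow {r : R} (hr : ¬ S.P ∣ r) :
    ∃ (m : ℕ) (w : R), IsUnit w ∧ S.P ∣ r - w * S.P' ^ m := by
  set I := Ideal.span {S.P}
  have : I.IsPrime := (Ideal.span_singleton_prime S.prime_P.ne_zero).mpr S.prime_P
  let Q := R ⧸ I
  have : IsLocalRing Q := IsLocalRing.of_surjective' (Ideal.Quotient.mk I) Ideal.Quotient.mk_surjective
  set t : Q := Ideal.Quotient.mk I S.P'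
  have hmax : maximalIdeal Q = Ideal.span {t} := by
    rw [← IsLocalRing.map_maximalIdeal_of_surjective _ Ideal.Quotient.mk_surjective, S.max_eq,
      Ideal.map_span]
    refine le_antisymm (Ideal.span_le.mpr ?_) (Ideal.span_mono (by simp [t]))
    rintro _ ⟨x, hx, rfl⟩
    rcases hx with rfl | rfl
    · rw [SetLike.mem_coe, show Ideal.Quotient.mk I S.P = 0 from
        Ideal.Quotient.eq_zero_iff_mem.mpr (Ideal.mem_span_singleton_self _)]
      exact zero_mem _
    · exact Ideal.mem_span_singleton_self _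
  set z : Q := Ideal.Quotient.mk I r
  have hz : z ≠ 0 := fun h => hr (Ideal.mem_span_singleton.mp (Ideal.Quotient.eq_zero_iff_mem.mp h))
  classical
  have hex : ∃ m, ¬ t ^ m ∣ z := by
    by_contra! h
    refine hz ?_
    have h1 : z ∈ (⨅ i : ℕ, maximalIdeal Q ^ i : Ideal Q) := (Submodule.mem_iInf _).mpr fun i => by
      rw [hmax, Ideal.span_singleton_pow, Ideal.mem_span_singleton]; exact h i
    rwa [Ideal.iInf_pow_eq_bot_of_isLocalRing _ (maximalIdeal.isMaximal Q).ne_top,
      Ideal.mem_bot] at h1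
  obtain ⟨m, hm⟩ : ∃ m, Nat.find hex = m + 1 := by
    refine Nat.exists_eq_add_one_of_ne_zero fun h => Nat.find_spec hex ?_
    rw [h, pow_zero]; exact one_dvd _
  obtain ⟨c, hc⟩ : t ^ m ∣ z := by
    have := Nat.find_min hex (m := m) (by omega)
    simpa using this
  obtain ⟨w, rfl⟩ := Ideal.Quotient.mk_surjective c
  have hw : IsUnit w := by
    by_contra hnu
    have h1 : Ideal.Quotient.mk I w ∈ maximalIdeal Q := by
      rw [← IsLocalRing.map_maximalIdeal_of_surjective _ Ideal.Quotient.mk_surjective]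
      exact Ideal.mem_map_of_mem _ hnu
    rw [hmax, Ideal.mem_span_singleton] at h1
    obtain ⟨b, hb⟩ := h1
    exact Nat.find_spec hex (by rw [hm, hc, hb]; exact ⟨b, by rw [pow_succ]; ring⟩)
  refine ⟨m, w, hw, ?_⟩
  rw [← Ideal.mem_span_singleton, ← Ideal.Quotient.eq, map_mul, map_pow]
  exact hc.trans (mul_comm _ _)

theorem exists_order {r : R} (hr : ¬ S.P ∣ r) : ∃ (m : ℕ) (w : R), IsUnit w ∧
    S.P ∣ r - w * S.P' ^ m ∧ ∃ c : k, c ≠ 0 ∧
      S.ser r = S.ser w * HahnSeries.single ((D.e * m : ℕ) : ℤ) c := by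
  obtain ⟨m, w, hw, b, hb⟩ := S.exists_eq_pow hr
  obtain ⟨c, hc, hP'⟩ := S.exists_ser_P'
  refine ⟨m, w, hw, ⟨b, hb⟩, c ^ m, pow_ne_zero _ hc, ?_⟩
  rw [show r = S.P * b + w * S.P' ^ m by rw [← hb]; ring, map_add, map_mul, map_mul, map_pow,
    S.ser_P, zero_mul, zero_add, hP', HahnSeries.single_pow, nsmul_eq_mul]
  congr 3
  push_cast; ring

theorem ser_eq_zero_iff {r : R} : S.ser r = 0 ↔ S.P ∣ r := by
  refine ⟨fun h => ?_, fun ⟨b, hb⟩ => by rw [hb, map_mul, S.ser_P, zero_mul]⟩
  by_contra hr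
  obtain ⟨m, w, hw, -, c, hc, e⟩ := S.exists_order hr
  rw [h] at e
  exact (mul_ne_zero (hw.map S.ser).ne_zero (by simpa using hc)) e.symm

theorem isUnit_toE {r : R} (hr : ¬ S.P ∣ r) {n : ℕ} (hn : 1 ≤ n) :
    IsUnit (S.toE n (D.expansion S.irreducible r)) := by
  refine isUnit_of_levelMap_ne_zero S.irreducible hn fun h => hr (S.ser_eq_zero_iff.mp ?_)
  rw [S.level] at h
  rw [ser, RingHom.comp_apply, RingHom.comp_apply, h, map_zero]

theorem isUnit_toE' {r : R} (hr : ¬ S.P ∣ r) (n : ℕ) :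
    IsUnit (S.toE n (D.expansion S.irreducible r)) := by
  rcases Nat.eq_zero_or_pos n with rfl | hn
  · have : Subsingleton (modPow ϖ 0) := Ideal.Quotient.subsingleton_iff.mpr (by simp)
    have : Subsingleton (LaurentSeries (modPow ϖ 0)) :=
      ⟨fun a b => HahnSeries.ext (funext fun _ => Subsingleton.elim _ _)⟩
    exact isUnit_of_subsingleton _
  · exact S.isUnit_toE hr hn

end NodeSide

end FermatAgent.MazurPrinciple
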