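import Fermat.Agent.MazurPrinciple.NodeSide

/-!
# Ends and local series at one branch of a node
-/

set_option autoImplicit false
set_option linter.unusedSectionVars false

noncomputable section

open IsLocalRing AlgebraicCurve FermatAgent.Curve FermatAgent.Curve.RR

namespace FermatAgent.MazurPrinciple

variable {W : Type*} [CommRing W] [IsDomain W] [IsDiscreteValuationRing W] {ϖ : W}
  [IsAdicComplete (Ideal.span {ϖ}) W] {W₀ R : Type*} [CommRing W₀] [CommRing R] [IsDomain R]
  [IsLocalRing R] [IsNoetherianRing R]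
variable {k : Type*} [Field k] {D : NodeData ϖ W₀ R} {res : W →+* k}
variable {Fb : Type*} [Field Fb] [Algebra k Fb]

namespace NodeSide

variable (S : NodeSide D res)

theorem ser_nonneg (r : R) {n : ℤ} (hn : n < 0) : (S.ser r).coeff n = 0 := by
  rw [S.coeff_ser, S.nonneg _ _ hn, map_zero]

theorem coeff_zero_ser {r : R} {c : W₀} (hc : r - D.a c ∈ maximalIdeal R) :
    (S.ser r).coeff 0 = res (D.φ c) := by
  rw [S.max_eq] at hc
  obtain ⟨u, v, huv⟩ := Ideal.mem_span_pair.mp hc
  obtain ⟨c', -, hP'⟩ := S.exists_ser_P'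
  have h : r = D.a c + (u * S.P + v * S.P') := by rw [huv]; ring
  rw [h, map_add, map_add, map_mul, map_mul, S.ser_P, mul_zero, zero_add, hP',
    HahnSeries.coeff_add, mul_comm, HahnSeries.coeff_single_mul,
    S.ser_nonneg v (n := 0 - (D.e : ℤ)) (by have := D.e_pos; omega), mul_zero, add_zero, S.coeff_ser, D.expansion_a,
    S.toE_const, HahnSeries.C_apply, HahnSeries.coeff_single_same, S.resOne_mk]

include S in
theorem isUnit_φ {w : R} (hw : IsUnit w) {c : W₀} (hc : w - D.a c ∈ maximalIdeal R) :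
    IsUnit (D.φ c) := by
  by_contra h
  have h1 : ϖ ∣ D.φ c := by
    rw [← Ideal.mem_span_singleton, ← S.irreducible.maximalIdeal_eq]; exact h
  obtain ⟨b, hb⟩ := D.φ_reflect c h1
  have h2 : D.a c ∈ maximalIdeal R := by
    rw [hb, map_mul, ← D.mul_eq]
    exact Ideal.mul_mem_right _ _ (Ideal.mul_mem_right _ _ D.X_mem)
  exact (IsLocalRing.maximalIdeal.isMaximal R).ne_top
    (Ideal.eq_top_of_isUnit_mem _ (sub_add_cancel w (D.a c) ▸ add_mem hc h2) hw)

theorem coeff_zero_ser_ne {w : R} (hw : IsUnit w) : (S.ser w).coeff 0 ≠ 0 := by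
  obtain ⟨c, hc⟩ := D.res_surj w
  rw [S.coeff_zero_ser hc]
  exact ((S.isUnit_φ hw hc).map res).ne_zero

/-- The residue data of one branch. -/
structure Red (S : NodeSide D res) (Fb : Type*) [Field Fb] where
  ρ : R →+* Fb
  ker : ∀ r, ρ r = 0 ↔ S.P ∣ r
  surj : ∀ φ : Fb, ∃ a b, ¬ S.P ∣ b ∧ φ * ρ b = ρ a

variable {S} (T : S.Red Fb)

theorem Red.ser_eq {φ : Fb} {a b a' b' : R} (hb : ¬ S.P ∣ b) (hb' : ¬ S.P ∣ b')
    (h : φ * T.ρ b = T.ρ a) (h' : φ * T.ρ b' = T.ρ a') :
    S.ser a / S.ser b = S.ser a' / S.ser b' := by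
  rw [div_eq_div_iff (fun e => hb (S.ser_eq_zero_iff.mp e)) (fun e => hb' (S.ser_eq_zero_iff.mp e)),
    ← sub_eq_zero, ← map_mul, ← map_mul, ← map_sub, S.ser_eq_zero_iff, ← T.ker, map_sub, map_mul,
    map_mul, ← h, ← h']
  ring

/-- The value of the local series. -/
def Red.locFun (φ : Fb) : LaurentSeries k :=
  S.ser (T.surj φ).choose / S.ser (T.surj φ).choose_spec.choose

theorem Red.locFun_eq {φ : Fb} {a b : R} (hb : ¬ S.P ∣ b) (h : φ * T.ρ b = T.ρ a) :
    T.locFun φ = S.ser a / S.ser b :=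
  T.ser_eq (T.surj φ).choose_spec.choose_spec.1 hb (T.surj φ).choose_spec.choose_spec.2 h

include T in
theorem Red.one_notDvd : ¬ S.P ∣ (1 : R) := fun h => S.prime_P.not_isUnit (isUnit_of_dvd_one h)

/-- The local series as a ring homomorphism. -/
def Red.loc : Fb →+* LaurentSeries k where
  toFun := T.locFun
  map_one' := by rw [T.locFun_eq (a := 1) (b := 1) T.one_notDvd (by simp), map_one, div_one]
  map_zero' := by
    rw [T.locFun_eq (a := 0) (b := 1) T.one_notDvd (by simp), map_zero, zero_div]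
  map_mul' φ ψ := by
    obtain ⟨a, b, hb, h⟩ := T.surj φ
    obtain ⟨a', b', hb', h'⟩ := T.surj ψ
    have hbb : ¬ S.P ∣ b * b' := fun hd => (S.prime_P.dvd_or_dvd hd).elim hb hb'
    rw [T.locFun_eq hb h, T.locFun_eq hb' h', T.locFun_eq (a := a * a') hbb (by
      rw [map_mul, map_mul, ← h, ← h']; ring), map_mul, map_mul, div_mul_div_comm]
  map_add' φ ψ := by
    obtain ⟨a, b, hb, h⟩ := T.surj φ
    obtain ⟨a', b', hb', h'⟩ := T.surj ψ
    have hbb : ¬ S.P ∣ b * b' := fun hd => (S.prime_P.dvd_or_dvd hd).elim hb hb'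
    rw [T.locFun_eq hb h, T.locFun_eq hb' h', T.locFun_eq (a := a * b' + b * a') hbb (by
      rw [map_mul, map_add, map_mul, map_mul, ← h, ← h']; ring), map_mul, map_add, map_mul, map_mul,
      div_add_div _ _ (fun e => hb (S.ser_eq_zero_iff.mp e))
        (fun e => hb' (S.ser_eq_zero_iff.mp e))]

theorem Red.loc_apply {φ : Fb} {a b : R} (hb : ¬ S.P ∣ b) (h : φ * T.ρ b = T.ρ a) :
    T.loc φ = S.ser a / S.ser b := T.locFun_eq hb h

/-- A residual function without polar coefficients is the residue of an element of the ring. -/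
theorem Red.exists_eq (φ : Fb) (hφ : ∀ n : ℤ, n < 0 → (T.loc φ).coeff n = 0) :
    ∃ r, T.ρ r = φ ∧ T.loc φ = S.ser r := by
  obtain ⟨a, b, hb, h⟩ := T.surj φ
  have hsb : S.ser b ≠ 0 := fun e => hb (S.ser_eq_zero_iff.mp e)
  have hρb : T.ρ b ≠ 0 := fun e => hb ((T.ker b).mp e)
  by_cases ha : S.P ∣ a
  · have hφ0 : φ = 0 := by simpa [(T.ker a).mpr ha, hρb] using h
    exact ⟨0, by rw [map_zero, hφ0], by rw [hφ0, map_zero, map_zero]⟩
  obtain ⟨ma, wa, hwa, ⟨da, hda⟩, ca, hca, ea⟩ := S.exists_order ha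
  obtain ⟨mb, wb, hwb, ⟨db, hdb⟩, cb, hcb, eb⟩ := S.exists_order hb
  obtain ⟨wi, hwi⟩ := isUnit_iff_exists_inv.mp hwb
  have hle : mb ≤ ma := by
    by_contra hlt
    have he : T.loc φ = S.ser (wa * wi) *
        HahnSeries.single (((D.e * ma : ℕ) : ℤ) - ((D.e * mb : ℕ) : ℤ)) (ca / cb) := by
      rw [T.loc_apply hb h, div_eq_iff hsb, ea, eb, map_mul]
      have hinv : S.ser wi * S.ser wb = 1 := by rw [← map_mul, mul_comm, hwi, map_one]
      calc S.ser wa * HahnSeries.single ((D.e * ma : ℕ) : ℤ) ca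
          = S.ser wa * (S.ser wi * S.ser wb) *
            (HahnSeries.single (((D.e * ma : ℕ) : ℤ) - ((D.e * mb : ℕ) : ℤ)) (ca / cb) *
              HahnSeries.single ((D.e * mb : ℕ) : ℤ) cb) := by
            rw [hinv, mul_one, HahnSeries.single_mul_single, sub_add_cancel,
              div_mul_cancel₀ _ hcb]
        _ = _ := by ring
    have h1 := hφ (((D.e * ma : ℕ) : ℤ) - ((D.e * mb : ℕ) : ℤ))
      (by push_cast; have := D.e_pos; nlinarith)
    rw [he, mul_comm, HahnSeries.coeff_single_mul, sub_self] at h1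
    exact mul_ne_zero (div_ne_zero hca hcb)
      (S.coeff_zero_ser_ne (hwa.mul (IsUnit.of_mul_eq_one wb (by rw [mul_comm]; exact hwi)))) h1
  refine ⟨wa * wi * S.P' ^ (ma - mb), ?_, ?_⟩
  · refine mul_right_cancel₀ hρb ?_
    rw [h, ← map_mul, ← sub_eq_zero, ← map_sub, T.ker]
    refine ⟨wa * wi * S.P' ^ (ma - mb) * db - da, ?_⟩
    have hp : S.P' ^ ma = S.P' ^ (ma - mb) * S.P' ^ mb := by
      rw [← pow_add, Nat.sub_add_cancel hle]
    linear_combination (wa * wi * S.P' ^ (ma - mb)) * hdb - hda -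
      wa * hp + wa * S.P' ^ (ma - mb) * S.P' ^ mb * hwi
  · rw [T.loc_apply hb h, div_eq_iff hsb, ← map_mul, ← sub_eq_zero, ← map_sub, S.ser_eq_zero_iff]
    refine ⟨da - wa * wi * S.P' ^ (ma - mb) * db, ?_⟩
    have hp : S.P' ^ ma = S.P' ^ (ma - mb) * S.P' ^ mb := by
      rw [← pow_add, Nat.sub_add_cancel hle]
    linear_combination hda - (wa * wi * S.P' ^ (ma - mb)) * hdb + wa * hp -
      wa * S.P' ^ (ma - mb) * S.P' ^ mb * hwi

/-- The local series reads values at a place centred at the node. -/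
theorem Red.loc_val [IsAlgClosed k] [IsFunctionField1 k Fb] (x : Place k Fb) (hx : ∀ r c, r - D.a c ∈ maximalIdeal R →
      x.adicValuation (T.ρ r) ≤ 1 ∧ valueAt x (T.ρ r) = res (D.φ c))
    (φ : Fb) (hφ : ∀ n : ℤ, n < 0 → (T.loc φ).coeff n = 0) :
    x.adicValuation φ ≤ 1 ∧ valueAt x φ = (T.loc φ).coeff 0 := by
  obtain ⟨r, rfl, he⟩ := T.exists_eq φ hφ
  obtain ⟨c, hc⟩ := D.res_surj r
  obtain ⟨h1, h2⟩ := hx r c hc
  exact ⟨h1, by rw [he, h2, S.coeff_zero_ser hc]⟩

variable {F : Type*} [Field F] (E' : Subring F) (emb : E' →+* Localization (nonZeroDivisors (Ann ϖ))) (redE : E' →+* Fb)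

/-- Integral elements are fractions with a denominator off the branch. -/
def Red.FracHyp : Prop :=
  ∀ z : E', ∃ (a b : R) (a₁ : Ann ϖ), ¬ S.P ∣ b ∧
    emb z * algebraMap _ _ (D.expansion S.irreducible b) =
      algebraMap _ _ (D.expansion S.irreducible a + Ann.const ϖ ϖ * a₁) ∧
    redE z * T.ρ b = T.ρ a

variable {E'} {emb} {redE} (hf : T.FracHyp E' emb redE)
include hf

/-- The end of an integral element. -/
def Red.endFun (n : ℕ) (z : E') : LaurentSeries (modPow ϖ n) :=
  S.toE n (D.expansion S.irreducible (hf z).choose + Ann.const ϖ ϖ *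
      (hf z).choose_spec.choose_spec.choose) *
    Ring.inverse (S.toE n (D.expansion S.irreducible (hf z).choose_spec.choose))

theorem Red.endFun_spec (n : ℕ) (z : E') (a b : Ann ϖ)
    (h : emb z * algebraMap _ _ b = algebraMap _ _ a) :
    T.endFun hf n z * S.toE n b = S.toE n a := by
  obtain ⟨hb₀, h₀, -⟩ := (hf z).choose_spec.choose_spec.choose_spec
  set a₀ := D.expansion S.irreducible (hf z).choose + Ann.const ϖ ϖ *
    (hf z).choose_spec.choose_spec.choose
  set b₀ := D.expansion S.irreducible (hf z).choose_spec.choose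
  let := Ann.isDomain ϖ S.irreducible
  have hinj : Function.Injective (algebraMap (Ann ϖ) (Localization (nonZeroDivisors (Ann ϖ)))) := IsLocalization.injective (M := nonZeroDivisors (Ann ϖ))
    (Localization (nonZeroDivisors (Ann ϖ))) le_rfl
  have e : a₀ * b = a * b₀ := hinj (by rw [map_mul, map_mul, ← h₀, ← h]; ring)
  have hu := S.isUnit_toE' hb₀ n
  rw [Red.endFun, mul_right_comm, ← map_mul, e, map_mul, mul_assoc, Ring.mul_inverse_cancel _ hu,
    mul_one]

theorem Red.endFun_eq (n : ℕ) (z : E') {a b : Ann ϖ} (hb : IsUnit (S.toE n b))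
    (h : emb z * algebraMap _ _ b = algebraMap _ _ a) {X : LaurentSeries (modPow ϖ n)}
    (hX : X * S.toE n b = S.toE n a) : T.endFun hf n z = X :=
  hb.mul_right_cancel ((T.endFun_spec hf n z a b h).trans hX.symm)

/-- The end of integral elements. -/
def Red.endHom (n : ℕ) : E' →+* LaurentSeries (modPow ϖ n) where
  toFun := T.endFun hf n
  map_one' := T.endFun_eq hf n 1 (a := 1) (b := 1) (by simp) (by simp) (by simp)
  map_zero' := T.endFun_eq hf n 0 (a := 0) (b := 1) (by simp) (by simp) (by simp)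
  map_mul' z w := by
    obtain ⟨a, b, a₁, hb, h, -⟩ := hf z
    obtain ⟨a', b', a₁', hb', h', -⟩ := hf w
    refine T.endFun_eq hf n _ (b := D.expansion S.irreducible b * D.expansion S.irreducible b')
      (by rw [map_mul]; exact (S.isUnit_toE' hb n).mul (S.isUnit_toE' hb' n))
      (a := (D.expansion S.irreducible a + Ann.const ϖ ϖ * a₁) *
        (D.expansion S.irreducible a' + Ann.const ϖ ϖ * a₁'))
      (by rw [map_mul, map_mul, map_mul, ← h, ← h']; ring) ?_
    rw [map_mul, map_mul, ← T.endFun_spec hf n z _ _ h, ← T.endFun_spec hf n w _ _ h']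
    ring
  map_add' z w := by
    obtain ⟨a, b, a₁, hb, h, -⟩ := hf z
    obtain ⟨a', b', a₁', hb', h', -⟩ := hf w
    refine T.endFun_eq hf n _ (b := D.expansion S.irreducible b * D.expansion S.irreducible b')
      (by rw [map_mul]; exact (S.isUnit_toE' hb n).mul (S.isUnit_toE' hb' n))
      (a := (D.expansion S.irreducible a + Ann.const ϖ ϖ * a₁) * D.expansion S.irreducible b' +
        D.expansion S.irreducible b * (D.expansion S.irreducible a' + Ann.const ϖ ϖ * a₁'))
      (by rw [map_add, map_mul, map_add, map_mul, map_mul, ← h, ← h']; ring) ?_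
    rw [map_add, map_mul, map_mul, map_mul, ← T.endFun_spec hf n z _ _ h,
      ← T.endFun_spec hf n w _ _ h']
    ring

theorem Red.endHom_spec (n : ℕ) (z : E') (a b : Ann ϖ)
    (h : emb z * algebraMap _ _ b = algebraMap _ _ a) :
    T.endHom hf n z * S.toE n b = S.toE n a := T.endFun_spec hf n z a b h

theorem Red.endHom_level (m n : ℕ) (h : m ≤ n) (z : E') :
    levelMap ϖ h (T.endHom hf n z) = T.endHom hf m z := by
  obtain ⟨a, b, a₁, hb, e, -⟩ := hf z
  refine (T.endFun_eq hf m z (S.isUnit_toE' hb m) e ?_).symm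
  rw [← S.level m n h, ← map_mul, T.endHom_spec hf n z _ _ e, S.level]

theorem Red.endHom_res (z : E') (n : ℤ) : ∃ w : W,
    (T.endHom hf 1 z).coeff n = modPowMk ϖ 1 w ∧ res w = (T.loc (redE z)).coeff n := by
  obtain ⟨a, b, a₁, hb, e, hr⟩ := hf z
  obtain ⟨w, hw⟩ := Ideal.Quotient.mk_surjective ((T.endHom hf 1 z).coeff n)
  refine ⟨w, hw.symm, ?_⟩
  have h1 := T.endHom_spec hf 1 z _ _ e
  rw [map_add, map_mul, S.toE_const, (modPowMk_eq_zero_iff ϖ 1 ϖ).mpr (by rw [pow_one]),
    map_zero, zero_mul, add_zero] at h1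
  have h2 := congrArg (ModularCurve.coeffMap S.resOne) h1
  rw [map_mul] at h2
  change _ * S.ser b = S.ser a at h2
  rw [T.loc_apply hb hr, ← h2, mul_div_cancel_right₀ _ (fun e => hb (S.ser_eq_zero_iff.mp e)),
    ModularCurve.coeffMap_coeff, ← S.resOne_mk w]
  exact congrArg _ hw

end NodeSide

end FermatAgent.MazurPrinciple
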