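import Fermat.Agent.MazurPrinciple.NodeMake
import Fermat.Agent.MazurPrinciple.AnnTwist

/-!
# Semilinear automorphisms at a node

An automorphism of the functions that preserves the local ring at a node, fixes its two parameters
and moves the scalars, and preserves the field of definition intertwines the embedding and the
two ends with the action on the annulus ring. This applies in particular when it fixes the chart.
-/

set_option autoImplicit false
set_option maxHeartbeats 800000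

noncomputable section

namespace FermatAgent.MazurPrinciple

open IsLocalRing AlgebraicCurve Polynomial

namespace NodeExt

variable {W : Type*} [CommRing W] [IsDomain W] [IsDiscreteValuationRing W] {ϖ : W}
  [IsAdicComplete (Ideal.span {ϖ}) W] {W₀ R : Type*} [CommRing W₀] [CommRing R] [IsDomain R]
  [IsLocalRing R] [IsNoetherianRing R] {D : NodeData ϖ W₀ R} {F : Type*} [Field F] {ι : R →+* F}
  (X : NodeExt D ι) (hϖ : Irreducible ϖ)

theorem emb_inc (l : FractionRing R) (h : X.inc l ∈ X.field) :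
    X.emb hϖ ⟨_, h⟩ = D.fracMap hϖ l := by
  rw [X.emb_eq hϖ (P := C l) (by rw [evF, coe_eval₂RingHom, eval₂_C]), evW, coe_eval₂RingHom,
    eval₂_C]

end NodeExt

section Generic

variable {W : Type*} [CommRing W] {ϖ : W} {W₀ R : Type*} [CommRing W₀] [CommRing R] [IsDomain R]
  [IsLocalRing R] [IsNoetherianRing R]

/-- A symmetry of a node over a twist of the scalars. -/
structure NodeSymm (D : NodeData ϖ W₀ R) (s : ScalarTwist ϖ) where
  θ₀ : W₀ →+* W₀
  ρ : R ≃+* R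
  φ_comm : ∀ c, s.σ (D.φ c) = D.φ (θ₀ c)
  map_q : θ₀ D.q = D.q
  map_a : ∀ c, ρ (D.a c) = D.a (θ₀ c)
  map_X : ρ D.X = D.X
  map_Y : ρ D.Y = D.Y

variable {D : NodeData ϖ W₀ R} {s : ScalarTwist ϖ} (Ψ : NodeSymm D s)

/-- A twist fixing the scalars of a node is a symmetry fixing its ring. -/
def NodeSymm.ofFixed (hφ : ∀ c, s.σ (D.φ c) = D.φ c) : NodeSymm D s where
  θ₀ := RingHom.id W₀
  ρ := RingEquiv.refl R
  φ_comm := hφ
  map_q := rfl
  map_a _ := rfl
  map_X := rfl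
  map_Y := rfl

/-- The twist of the coefficients. -/
def NodeSymm.biMap : Bi W₀ →+* Bi W₀ := PowerSeries.map (PowerSeries.map Ψ.θ₀)

omit [IsDomain R] [IsNoetherianRing R] in
theorem NodeSymm.bcoeff_biMap (f : Bi W₀) (i j : ℕ) :
    bcoeff i j (Ψ.biMap f) = Ψ.θ₀ (bcoeff i j f) := by
  simp [NodeSymm.biMap, bcoeff]

variable [IsDomain W] [IsDiscreteValuationRing W] [IsAdicComplete (Ideal.span {ϖ}) W]
  (hϖ : Irreducible ϖ)
include hϖ

omit [IsDomain R] [IsNoetherianRing R] [IsDiscreteValuationRing W]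
  [IsAdicComplete (Ideal.span {ϖ}) W] in
include Ψ in
theorem NodeSymm.map_ω : s.σ D.ω * (s.ε : W) ^ D.e = D.ω := by
  have h := Ψ.φ_comm D.q
  rw [Ψ.map_q, D.φ_q, map_mul, map_pow, s.map_unif, mul_pow, ← mul_assoc] at h
  exact mul_right_cancel₀ (pow_ne_zero _ hϖ.ne_zero) h

omit [IsDomain R] [IsNoetherianRing R] [IsDiscreteValuationRing W]
  [IsAdicComplete (Ideal.span {ϖ}) W] in
theorem NodeSymm.bi_subst (f : Bi W₀) : s.bi (D.subst f) = D.subst (Ψ.biMap f) := by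
  refine bi_ext fun i j => ?_
  rw [ScalarTwist.bcoeff_bi, D.bcoeff_subst, D.bcoeff_subst, Ψ.bcoeff_biMap]
  split_ifs with h
  · obtain ⟨-, j', rfl⟩ := h
    rw [Nat.mul_div_cancel_left _ D.e_pos, map_mul, map_pow, Ψ.φ_comm, pow_mul, ← mul_assoc,
      ← mul_pow, mul_comm _ (s.σ D.ω), Ψ.map_ω hϖ]
  · rw [map_zero, mul_zero]

omit [IsDomain R] [IsNoetherianRing R] [IsDomain W] [IsDiscreteValuationRing W]
  [IsAdicComplete (Ideal.span {ϖ}) W] hϖ in
theorem NodeSymm.map_mem_pow {n : ℕ} {r : R} (hr : r ∈ maximalIdeal R ^ n) :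
    Ψ.ρ r ∈ maximalIdeal R ^ n := by
  have h : (maximalIdeal R).map (Ψ.ρ : R →+* R) ≤ maximalIdeal R := by
    conv_lhs => rw [D.max_eq]
    rw [Ideal.map_span, Ideal.span_le, Set.image_pair]
    rintro z (rfl | rfl)
    · show Ψ.ρ D.X ∈ _
      rw [Ψ.map_X]; exact D.X_mem
    · show Ψ.ρ D.Y ∈ _
      rw [Ψ.map_Y]; exact D.Y_mem
  have h1 := Ideal.mem_map_of_mem (Ψ.ρ : R →+* R) hr
  rw [Ideal.map_pow] at h1
  exact Ideal.pow_right_mono h n h1

omit [IsDomain R] [IsNoetherianRing R] [IsDomain W] [IsDiscreteValuationRing W]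
  [IsAdicComplete (Ideal.span {ϖ}) W] hϖ in
theorem NodeSymm.rep_map {r : R} {f : Bi W₀} (hf : D.Rep r f) :
    D.Rep (Ψ.ρ r) (Ψ.biMap f) := fun n => by
  have h := hf n
  rw [D.ev_eq, Ideal.Quotient.eq] at h ⊢
  have e : D.tri (Ψ.biMap f) n = Ψ.ρ (D.tri f n) := by
    simp only [NodeData.tri, map_sum, map_mul, map_pow, Ψ.bcoeff_biMap, Ψ.map_a, Ψ.map_X,
      Ψ.map_Y]
  rw [e, ← map_sub]
  exact Ψ.map_mem_pow h

omit [IsNoetherianRing R] in
/-- Expansions are moved by the symmetry. -/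
theorem NodeSymm.ann_expansion (r : R) :
    s.ann (D.expansion hϖ r) = D.expansion hϖ (Ψ.ρ r) := by
  have h := (D.exists_rep r).choose_spec
  rw [D.expansion_eq hϖ h, D.expansion_eq hϖ (Ψ.rep_map h), ScalarTwist.ann_mk,
    Ψ.bi_subst hϖ]

/-- The symmetry on fractions. -/
def NodeSymm.frac : FractionRing R →+* FractionRing R :=
  IsLocalization.map (M := nonZeroDivisors R) (S := FractionRing R) (T := nonZeroDivisors R)
    (FractionRing R) (Ψ.ρ : R →+* R)
    (fun _ hx => mem_nonZeroDivisors_of_ne_zero fun e =>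
      nonZeroDivisors.ne_zero hx ((map_eq_zero_iff _ Ψ.ρ.injective).mp e))

omit [IsNoetherianRing R] [IsDomain W] [IsDiscreteValuationRing W]
  [IsAdicComplete (Ideal.span {ϖ}) W] hϖ in
theorem NodeSymm.frac_algebraMap (r : R) :
    Ψ.frac (algebraMap R (FractionRing R) r) = algebraMap R (FractionRing R) (Ψ.ρ r) :=
  IsLocalization.map_eq _ _

theorem NodeSymm.loc_fracMap (l : FractionRing R) :
    s.loc hϖ (D.fracMap hϖ l) = D.fracMap hϖ (Ψ.frac l) :=
  RingHom.congr_fun (IsLocalization.ringHom_ext (nonZeroDivisors R)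
    (j := (s.loc hϖ).comp (D.fracMap hϖ)) (k := (D.fracMap hϖ).comp Ψ.frac)
    (RingHom.ext fun r => by
      simp only [RingHom.comp_apply, Ψ.frac_algebraMap, D.fracMap_algebraMap, s.loc_algebraMap,
        Ψ.ann_expansion hϖ])) l

variable {F : Type*} [Field F] {ι : R →+* F} (X : NodeExt D ι)

/-- The embedding intertwines. -/
theorem NodeSymm.emb_twist (τ : F →+* F) (hι : ∀ r, τ (ι r) = ι (Ψ.ρ r))
    (hθ : τ X.θ ∈ X.field)
    (hθe : X.emb hϖ ⟨_, hθ⟩ = algebraMap _ _ (Ann.const ϖ (s.σ ϖ))) (z z' : X.field)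
    (h : (z' : F) = τ z) : X.emb hϖ z' = s.loc hϖ (X.emb hϖ z) := by
  obtain ⟨P, hP⟩ := X.mem_field.mp z.2
  have hinc : τ.comp X.inc = X.inc.comp Ψ.frac :=
    IsLocalization.ringHom_ext (nonZeroDivisors R) (RingHom.ext fun r => by
      show τ (X.inc (algebraMap R (FractionRing R) r)) =
        X.inc (Ψ.frac (algebraMap R (FractionRing R) r))
      rw [X.inc_algebraMap, Ψ.frac_algebraMap, X.inc_algebraMap, hι])
  set j : FractionRing R →+* X.field := (X.inc.comp Ψ.frac).codRestrict X.field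
    fun l => X.inc_mem _
  have hz' : z' = eval₂ j ⟨τ X.θ, hθ⟩ P := Subtype.ext (by
    have e := hom_eval₂ P j X.field.subtype ⟨τ X.θ, hθ⟩
    refine (h.trans ?_).trans e.symm
    rw [← hP, NodeExt.evF, coe_eval₂RingHom, hom_eval₂, hinc]
    rfl)
  rw [hz', hom_eval₂, hθe, X.emb_eq hϖ hP, NodeExt.evW, coe_eval₂RingHom, hom_eval₂,
    s.loc_algebraMap, s.ann_const]
  exact eval₂_congr (RingHom.ext fun l => by
    show X.emb hϖ ⟨X.inc (Ψ.frac l), _⟩ = s.loc hϖ (D.fracMap hϖ l)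
    rw [X.emb_inc hϖ, Ψ.loc_fracMap hϖ]) rfl rfl

end Generic

section Side

variable {W : Type*} [CommRing W] [IsDomain W] [IsDiscreteValuationRing W] {ϖ : W}
  [IsAdicComplete (Ideal.span {ϖ}) W] {W₀ R : Type*} [CommRing W₀] [CommRing R] [IsDomain R]
  [IsLocalRing R] [IsNoetherianRing R] {k : Type*} [Field k] {D : NodeData ϖ W₀ R} {res : W →+* k}
  {S : NodeSide D res} {Fb : Type*} [Field Fb] [Algebra k Fb] (T : S.Red Fb) {F : Type*} [Field F]
  {E' : Subring F} {emb : E' →+* Localization (nonZeroDivisors (Ann ϖ))} {redE : E' →+* Fb}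

/-- An intertwined map commutes with the end. -/
theorem NodeSymm.endHom_twist (hf : T.FracHyp E' emb redE) {s : ScalarTwist ϖ}
    (Ψ : NodeSymm D s) (hP : Ψ.ρ S.P = S.P) (n : ℕ)
    (σE : LaurentSeries (modPow ϖ n) →+* LaurentSeries (modPow ϖ n))
    (hσE : ∀ a, S.toE n (s.ann a) = σE (S.toE n a)) (z z' : E')
    (h : emb z' = s.loc S.irreducible (emb z)) :
    T.endHom hf n z' = σE (T.endHom hf n z) := by
  obtain ⟨a, b, a₁, hb, e, -⟩ := hf z
  have e' := congrArg (s.loc S.irreducible) e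
  rw [map_mul, ← h, s.loc_algebraMap, s.loc_algebraMap, Ψ.ann_expansion S.irreducible] at e'
  have hb' : ¬ S.P ∣ Ψ.ρ b := fun hd => hb ((map_dvd_iff Ψ.ρ).mp (hP.symm ▸ hd))
  refine T.endFun_eq hf n z' (S.isUnit_toE' hb' n) e' ?_
  rw [← Ψ.ann_expansion S.irreducible b, hσE, hσE, ← map_mul]
  exact congrArg σE (T.endHom_spec hf n z _ _ e)

end Side

open FermatAgent.Curve FermatAgent.Curve.RR FermatAgent.BadRed.Semistable
open FermatAgent.BadRed.Carayol

namespace NodeScalars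

variable {q : ℕ} [Fact q.Prime] {W K F F₁ F₂ : Type*}
  [CommRing W] [IsDomain W] [IsDiscreteValuationRing W] [IsAlgClosed (IsLocalRing.ResidueField W)]
  [Field K] [CharZero K] [Algebra W K] [IsFractionRing W K]
  [Field F] [Field F₁] [Field F₂] [Algebra K F] [Algebra K F₁] [Algebra K F₂]
  [Algebra W F] [Algebra W F₁] [Algebra W F₂]
  [IsScalarTower W K F] [IsScalarTower W K F₁] [IsScalarTower W K F₂]
  {T : QTower q K F F₁ F₂} {u : F}
variable {L : Type*} [Field L] [IsAlgClosed L] {A : ValuationSubring L} {k : Type*} [Field k]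
  [IsAlgClosed k] {π : A →+* k} {E G₁ G₂ : Type*} [Field E] [Field G₁] [Field G₂]
  [Algebra L E] [Algebra k G₁] [Algebra k G₂] [IsFunctionField1 L E] [IsFunctionField1 k G₁]
  [IsFunctionField1 k G₂] [RRSetting L E] [RRSetting k G₁] [RRSetting k G₂]
variable {d : NodalDatum A π E G₁ G₂}
variable {Wc : Type*} [CommRing Wc] [IsDomain Wc] [IsDiscreteValuationRing Wc]
variable {C : ChartLink W T u d} {i : d.C.ι} {cs : Finset W} {E' : Subfield E} {ϖ : A} {ϖW : Wc}
variable (S : NodeScalars C E' cs ϖ ϖW) (NC : NodeChart C i cs)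
  (hq : maximalIdeal W = Ideal.span {(q : W)}) (D : ChartData W T u)
  [IsAdicComplete (Ideal.span {ϖW}) Wc]

/-- A constant with coordinates goes to the constant with the same coordinates. -/
theorem embE_sum (a : ℕ → W) (z : E')
    (h : (z : E) = algebraMap L E (∑ j ∈ Finset.range S.e, (C.κ (a j) : L) * (ϖ : L) ^ j)) :
    S.embE NC hq D z =
      algebraMap _ _ (Ann.const ϖW (∑ j ∈ Finset.range S.e, S.φ (a j) * ϖW ^ j)) := by
  show (S.nodeExt NC hq).emb S.irreducible _ = _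
  rw [(S.nodeExt NC hq).emb_eq S.irreducible (P := ∑ j ∈ Finset.range S.e,
    Polynomial.C (algebraMap _ _ (locConst NC.P (a j))) * Polynomial.X ^ j)]
  · simp only [map_sum, map_mul, map_pow, NodeExt.evW, coe_eval₂RingHom,
      eval₂_C, eval₂_X, NodeData.fracMap_algebraMap]
    refine Finset.sum_congr rfl fun j _ => ?_
    congr 2
    exact (S.nodeData NC hq).expansion_a S.irreducible (a j)
  · simp only [map_sum, map_mul, map_pow, NodeExt.evF, coe_eval₂RingHom,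
      eval₂_C, eval₂_X, NodeExt.inc_algebraMap]
    show ∑ j ∈ Finset.range S.e, C.hom (algebraMap W F₁ (a j)) * algebraMap L E (ϖ : L) ^ j =
      (z : E)
    rw [h]
    simp only [C.commutes, map_sum, map_mul, map_pow]

variable (s : ScalarTwist ϖW) (hφ : ∀ c, s.σ (S.φ c) = S.φ c) (τ : E ≃+* E)
  (hC : ∀ f : F₁, τ (C.hom f) = C.hom f) (hmem : ∀ x ∈ E', τ x ∈ E') (a : ℕ → W)
  (ha : τ (algebraMap L E (ϖ : L)) =
    algebraMap L E (∑ j ∈ Finset.range S.e, (C.κ (a j) : L) * (ϖ : L) ^ j))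
  (haW : s.σ ϖW = ∑ j ∈ Finset.range S.e, S.φ (a j) * ϖW ^ j)
include hφ hC hmem ha haW

theorem embE_twist (z : E') :
    S.embE NC hq D ⟨τ z, hmem _ z.2⟩ = s.loc S.irreducible (S.embE NC hq D z) := by
  have hθ' : algebraMap L E (ϖ : L) ∈ E' :=
    (S.mem_field_iff NC hq D _).mp (S.nodeExt NC hq).θ_mem
  refine (NodeSymm.ofFixed (D := S.nodeData NC hq) hφ).emb_twist S.irreducible (S.nodeExt NC hq)
    τ.toRingHom (fun r => hC _)
    (S.mem_field NC hq D (hmem _ hθ')) ?_ _ _ rfl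
  rw [haW]
  exact S.embE_sum NC hq D a ⟨_, hmem _ hθ'⟩ ha

theorem end₁_twist (n : ℕ) (z : (E'.toSubring ⊓ d.g₁.integers : Subring E))
    (hz : τ z ∈ d.g₁.integers) :
    (S.nodeEmb NC hq D).end₁ n ⟨τ z, hmem _ z.2.1, hz⟩ =
      s.serX n ((S.nodeEmb NC hq D).end₁ n z) :=
  (NodeSymm.ofFixed (D := S.nodeData NC hq) hφ).endHom_twist (S.red₁ NC hq) (S.fracHyp₁ NC hq D)
    rfl n _ (s.toX_ann n) z
    ⟨τ z, hmem _ z.2.1, hz⟩ (S.embE_twist NC hq D s hφ τ hC hmem a ha haW ⟨z, z.2.1⟩)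

theorem end₂_twist (n : ℕ) (z : (E'.toSubring ⊓ d.g₂.integers : Subring E))
    (hz : τ z ∈ d.g₂.integers) :
    (S.nodeEmb NC hq D).end₂ n ⟨τ z, hmem _ z.2.1, hz⟩ =
      s.serY n ((S.nodeEmb NC hq D).end₂ n z) :=
  (NodeSymm.ofFixed (D := S.nodeData NC hq) hφ).endHom_twist (S.red₂ NC hq) (S.fracHyp₂ NC hq D)
    rfl n _ (s.toY_ann n) z
    ⟨τ z, hmem _ z.2.1, hz⟩ (S.embE_twist NC hq D s hφ τ hC hmem a ha haW ⟨z, z.2.1⟩)

/-- Gluing constants are moved by the cyclotomic character. -/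
theorem node_twist {ζ : Wc} {w : ℕ} (hζ : s.σ ζ = ζ ^ w) (R c : ℕ) (r : Ann ϖW)
    (T₁ : (E'.toSubring ⊓ d.g₁.integers : Subring E))
    (T₂ : (E'.toSubring ⊓ d.g₂.integers : Subring E))
    (h₁ : τ T₁ ∈ d.g₁.integers) (h₂ : τ T₂ ∈ d.g₂.integers)
    (eX : Ann.toX ϖW R r = (S.nodeEmb NC hq D).end₁ R T₁)
    (eY : Ann.toY ϖW R r =
      HahnSeries.C (modPowMk ϖW R (ζ ^ c)) * (S.nodeEmb NC hq D).end₂ R T₂) :
    ∃ r', Ann.toX ϖW R r' = (S.nodeEmb NC hq D).end₁ R ⟨τ T₁, hmem _ T₁.2.1, h₁⟩ ∧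
      Ann.toY ϖW R r' = HahnSeries.C (modPowMk ϖW R (ζ ^ (w * c))) *
        (S.nodeEmb NC hq D).end₂ R ⟨τ T₂, hmem _ T₂.2.1, h₂⟩ := by
  refine ⟨s.ann r, ?_, ?_⟩
  · rw [s.toX_ann, eX, S.end₁_twist NC hq D s hφ τ hC hmem a ha haW R T₁ h₁]
  · rw [s.toY_ann, eY, map_mul, s.serY_C, map_pow, hζ, ← pow_mul,
      S.end₂_twist NC hq D s hφ τ hC hmem a ha haW R T₂ h₂]

end NodeScalars

end FermatAgent.MazurPrinciple
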