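import Fermat.Agent.MazurPrinciple.Final
import Fermat.Agent.RTLift.Finish.Interface
import Fermat.Agent.Wiring.Frey
import Fermat.Prelude.Def_FreyPackage_IsConductorLevel

/-!
# Removing `p` from the level

Mazur's principle in the language of residual modularity, and for the Frey curve.
-/

set_option autoImplicit false

noncomputable section

open WeierstrassCurve WeierstrassCurve.Affine CongruenceSubgroup
open FermatAgent.Ihara (torMat)
open FermatAgent.RTLift.Finish (FlatMod)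

namespace FermatAgent.MazurPrinciple

local notation "Qb" => AlgebraicClosure ℚ
local notation "GQ" => AlgebraicClosure ℚ ≃ₐ[ℚ] AlgebraicClosure ℚ

/-- The points of order `p` of a flat curve give a local base. -/
def BaseInput : Prop :=
  ∀ (W : WeierstrassCurve ℤ) (p : ℕ) [Fact p.Prime] (hΔ : (W.map (Int.castRingHom ℚ)).Δ ≠ 0),
    p ≠ 2 → W.IsSemistableModel → FlatMod W p → W.ModRepIsIrreducible p →
    ∀ A : ValuationSubring Qb, A.LiesOverPrime p → HasBase (p := p) W hΔ A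

variable {p : ℕ} [hp : Fact p.Prime]

/-- The matrix is trivial exactly when every point of order `p` is fixed. -/
theorem torMat_eq_one_iff (W : WeierstrassCurve ℤ) (hΔ : (W.map (Int.castRingHom ℚ)).Δ ≠ 0)
    (σ : GQ) : torMat W (p := p) hΔ σ = 1 ↔
      ∀ P : Submodule.torsionBy ℤ ((W.map (Int.castRingHom ℚ))⁄Qb).Point (p : ℤ), σ • P = P := by
  rw [torMat, GalRep.matrixHom_apply, map_eq_one_iff _ (AlgEquiv.injective _), LinearMap.ext_iff]
  rfl

/-- A local base for a model is one for every model. -/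
theorem HasBase.variableChange {V W : WeierstrassCurve ℤ}
    {hV : (V.map (Int.castRingHom ℚ)).Δ ≠ 0} {hW : (W.map (Int.castRingHom ℚ)).Δ ≠ 0}
    {A : ValuationSubring Qb} (h : HasBase (p := p) V hV A) (C : VariableChange ℚ)
    (hC : C • V.map (Int.castRingHom ℚ) = W.map (Int.castRingHom ℚ)) :
    HasBase (p := p) W hW A := by
  obtain ⟨B, h1, h2, h3, h4, h5⟩ := h
  refine ⟨B, h1, h2, h3, h4, fun σ hσ => ?_⟩
  have hfix := (torMat_eq_one_iff V hV σ).mp (h5 σ hσ)
  rw [torMat_eq_one_iff]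
  obtain ⟨f, hf, hfs⟩ := Ihara.exists_pointHom ((W.map (Int.castRingHom ℚ))⁄Qb)
    ((V.map (Int.castRingHom ℚ))⁄Qb) (C.map (algebraMap ℚ Qb)) (by
      rw [← hC]
      simp only [WeierstrassCurve.baseChange, WeierstrassCurve.map_variableChange])
  intro P
  have hmem : f P ∈ Submodule.torsionBy ℤ ((V.map (Int.castRingHom ℚ))⁄Qb).Point (p : ℤ) := by
    rw [Submodule.mem_torsionBy_iff, ← map_zsmul, (Submodule.mem_torsionBy_iff _ _).mp P.2,
      map_zero]
  refine Subtype.ext (hf.1 ?_)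
  refine Eq.trans ?_ (congrArg Subtype.val (hfix ⟨f P, hmem⟩))
  show f (σ • (P : ((W.map (Int.castRingHom ℚ))⁄Qb).Point)) = σ • f P
  rcases (P : ((W.map (Int.castRingHom ℚ))⁄Qb).Point) with _ | ⟨x, y, hns⟩
  · show f 0 = σ • f 0
    rw [map_zero]
    rfl
  · obtain ⟨h1', e1⟩ := hfs x y hns
    rw [e1, Point.algEquiv_smul_def, Point.algEquiv_smul_def, Point.map_some, Point.map_some]
    obtain ⟨h2', e2⟩ := hfs (σ x) (σ y)
      (((W.map (Int.castRingHom ℚ)).toAffine.baseChange_nonsingular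
        (f := σ.toAlgHom) σ.injective x y).mpr hns)
    refine e2.trans ?_
    simp only [Point.some.injEq]
    constructor <;>
      simp only [Local.vcX, Local.vcY, VariableChange.map, Units.coe_map, MonoidHom.coe_coe] <;>
      simp

/-- Residual modularity without `p` in the level, given the lowering of congruences. -/
theorem residuallyModular_div_of_lowering (W : WeierstrassCurve ℤ)
    (hΔ : (W.map (Int.castRingHom ℚ)).Δ ≠ 0) {M : ℕ} (hM : M ≠ 0) (hp2M : ¬ p ^ 2 ∣ M)
    (hpM : p ∣ M)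
    (hlow : ∀ (N : ℕ) [NeZero N] (S : Set ℕ), M = p * N → p.Coprime N → S.Finite →
      (∀ l, l.Prime → l ∉ S → W.IsGoodPrimeFor l) → (∀ q : ℕ, q.Prime → q ∣ p * N → q ∈ S) →
      HasCongruentForm W.apOfModel p (p * N) S → HasCongruentForm W.apOfModel p N S)
    (hres : W.IsResiduallyModularOfLevel p M) : W.IsResiduallyModularOfLevel p (M / p) := by
  obtain ⟨N, rfl⟩ := hpM
  rw [Nat.mul_div_cancel_left N hp.out.pos]
  have : NeZero N := ⟨fun h => hM (by rw [h, mul_zero])⟩
  have hN : p.Coprime N :=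
    hp.out.coprime_iff_not_dvd.mpr fun h => hp2M (by rw [sq]; exact mul_dvd_mul_left p h)
  set S : Set ℕ := {l | (l : ℤ) ∣ W.Δ} ∪ {l | l ∣ p * N} with hSdef
  have hS : S.Finite := by
    refine Set.Finite.union ((Set.finite_Iic W.Δ.natAbs).subset fun l hl => ?_)
      ((Set.finite_Iic (p * N)).subset fun l hl => ?_)
    · refine Nat.le_of_dvd (Int.natAbs_pos.mpr fun h0 => hΔ ?_) (Int.natCast_dvd.mp hl)
      rw [WeierstrassCurve.map_Δ, h0, map_zero]
    · exact Nat.le_of_dvd (Nat.pos_of_ne_zero hM) hl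
  obtain ⟨f, 𝔪, hf, hmax, hmem, hl⟩ := hres
  have hcong : HasCongruentForm W.apOfModel p (p * N) S :=
    ⟨f, 𝔪, hf, hmax, hmem, fun l hl' hlM hlS => hl l hl' (fun h => hlS (Or.inl h)) hlM
      fun h => hlM (h ▸ dvd_mul_right p N)⟩
  obtain ⟨g, 𝔫, hg, hmax', hmem', hl'⟩ := hlow N S rfl hN hS
    (fun l _ hlS hd => hlS (Or.inl hd)) (fun q _ hqM => Or.inr hqM) hcong
  refine ⟨g, 𝔫, hg, hmax', hmem', fun l hlp hgood hlN hne => hl' l hlp hlN ?_⟩
  rintro (h | h)
  · exact hgood h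
  · rcases hlp.dvd_mul.mp h with h | h
    · exact hne ((Nat.prime_dvd_prime_iff_eq hlp hp.out).mp h)
    · exact hlN h

/-- **Residual modularity without `p` in the level.** -/
theorem residuallyModular_div_of_hasBase (W : WeierstrassCurve ℤ)
    (hΔ : (W.map (Int.castRingHom ℚ)).Δ ≠ 0) (hirr : W.ModRepIsIrreducible p) (hp2 : p ≠ 2)
    {M : ℕ} (hM : Squarefree M) (hpM : p ∣ M) (h4 : 5 ≤ p ∨ 2 ∣ M)
    {A : ValuationSubring Qb} (hA : A.LiesOverPrime p) (hbase : HasBase (p := p) W hΔ A)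
    (hres : W.IsResiduallyModularOfLevel p M) : W.IsResiduallyModularOfLevel p (M / p) :=
  residuallyModular_div_of_lowering W hΔ hM.ne_zero
    (fun h => hp.out.not_isUnit (hM p (by rwa [← sq]))) hpM (fun _ _ _ hMN hN hS hgood hMS hcong =>
    hasCongruentForm_of_hasBase W hΔ hirr hp2 hS hgood hN hMS (h4.imp_right fun h =>
      ((Nat.coprime_primes Nat.prime_two hp.out).mpr (Ne.symm hp2)).dvd_of_dvd_mul_left (hMN ▸ h))
      hA hbase hcong) hres

omit hp

/-- The Frey curve is flat at `p`. -/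
theorem flatMod_freyCurveInt (P : FreyPackage) : FlatMod (FreyPackage.freyCurveInt P) P.p := by
  have := Fact.mk P.pp
  have hcast : 256 * ((FreyPackage.freyCurveInt P).Δ : ℚ) =
      ((P.a * P.b * P.c : ℤ) : ℚ) ^ (P.p * 2) := by
    rw [pow_mul]; exact_mod_cast Wiring.freyCurveInt_Δ_eq P
  have hv := congrArg (padicValRat P.p) hcast
  rw [padicValRat.mul (by norm_num) (Int.cast_ne_zero.mpr (Wiring.freyCurveInt_Δ_ne_zero P)),
    padicValRat.pow] at hv
  have h256 : padicValRat P.p 256 = 0 := by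
    rw [show (256 : ℚ) = ((256 : ℕ) : ℚ) by norm_num, padicValRat.of_nat,
      padicValNat.eq_zero_of_not_dvd, Nat.cast_zero]
    intro h
    have h2 := (Nat.prime_dvd_prime_iff_eq P.pp Nat.prime_two).mp
      (P.pp.dvd_of_dvd_pow (show P.p ∣ 2 ^ 8 by norm_num; exact h))
    have := P.hp5
    omega
  rw [h256, zero_add] at hv
  show (P.p : ℤ) ∣ padicValRat P.p ((FreyPackage.freyCurveInt P).map (Int.castRingHom ℚ)).Δ
  rw [WeierstrassCurve.map_Δ, eq_intCast, hv, Nat.cast_mul, mul_assoc]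
  exact dvd_mul_right _ _

/-- **Level lowering at `p` for the Frey curve** (statement S44). -/
theorem frey_levelLowering_at_p (hB : BaseInput) (P : FreyPackage) {N : ℕ}
    (hcond : P.IsConductorLevel N) (hpN : P.p ∣ N)
    (hirr : Point.GaloisRepIsIrreducible (K := Qb) ℚ P.freyCurve P.p)
    (hmod : P.ModularRepOfLevel N) :
    ∃ M : ℕ, M ∣ N ∧ ¬ P.p ∣ M ∧ P.ModularRepOfLevel M := by
  have := Fact.mk P.pp
  have hp2 : P.p ≠ 2 := by have := P.hp5; omega
  obtain ⟨f, W, 𝔪, hf, hW, hmax, hmem, hcong⟩ := hmod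
  obtain ⟨C, hC⟩ := hW
  set V := FreyPackage.freyCurveInt P
  have hmapV : V.map (Int.castRingHom ℚ) = P.freyCurve := Wiring.map_freyCurveInt P
  have hV : (V.map (Int.castRingHom ℚ)).Δ ≠ 0 := by
    rw [WeierstrassCurve.map_Δ, eq_intCast, Int.cast_ne_zero]
    exact Wiring.freyCurveInt_Δ_ne_zero P
  have hΔ : (W.map (Int.castRingHom ℚ)).Δ ≠ 0 := by
    rw [← hC, ← hmapV, WeierstrassCurve.variableChange_Δ]
    exact mul_ne_zero (pow_ne_zero _ (Units.ne_zero _)) hV
  have hirrV : V.ModRepIsIrreducible P.p := by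
    rw [WeierstrassCurve.ModRepIsIrreducible, hmapV]; exact hirr
  have hirrW : W.ModRepIsIrreducible P.p := by
    have h := Ihara.irreducible_variableChange _ C P.p hirr
    rwa [hC] at h
  obtain ⟨A, hA⟩ := RT.exists_liesOverPrime P.pp
  have hbase : HasBase (p := P.p) W hΔ A :=
    (hB V P.p hV hp2 (Wiring.freyCurveInt_isSemistableModel P) (flatMod_freyCurveInt P) hirrV A
      hA).variableChange C (by rw [hmapV, hC])
  obtain ⟨g, 𝔫, hg, hmax', hmem', hl⟩ := residuallyModular_div_of_hasBase W hΔ hirrW hp2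
    hcond.squarefree hpN (Or.inl P.hp5) hA hbase ⟨f, 𝔪, hf, hmax, hmem, hcong⟩
  refine ⟨N / P.p, Nat.div_dvd_of_dvd hpN, fun h => ?_, g, W, 𝔫, hg, ⟨C, hC⟩, hmax', hmem', hl⟩
  exact hcond.sq_not_dvd P.pp (by rw [sq]; exact (Nat.dvd_div_iff_mul_dvd hpN).mp h)

end FermatAgent.MazurPrinciple

end
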