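import Fermat.Agent.MazurPrinciple.Absent
import Fermat.Agent.MazurPrinciple.Kill
import Fermat.Agent.Ihara.GaloisInput
import Fermat.Agent.GalRep.Construct.Inputs
import Fermat.Agent.GalRep.Construct.Algebra
import Fermat.Agent.DSLift.Eigenform
import Mathlib.GroupTheory.PGroup

/-!
# The plane of `E[p]` in `J₀(M)[p]`

`eigenGroup` is the part of `J₀(M)[p]` on which `T_l` is `a_l(W)` for `l` outside `S`; every
Galois element satisfies there the characteristic polynomial of its action on `E[p]`. Its fixed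
part `plane` under the kernel of `E[p]` is nonzero, and no element of Galois acts on it as a
scalar equal to its determinant unless that is `1`.
-/

set_option autoImplicit false

noncomputable section

open ModularCurve AlgebraicCurve Matrix
open FermatAgent.ModCurveTorsion (torsionModel galois_smul_heckeOperatorBar
  exists_finiteDimensional_fixing)

namespace FermatAgent.MazurPrinciple

local notation "Qb" => AlgebraicClosure ℚ
local notation "GQ" => AlgebraicClosure ℚ ≃ₐ[ℚ] AlgebraicClosure ℚ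
local notation "M₂" => Matrix (Fin 2) (Fin 2)

/-- Powers inherit the quadratic relation of a `2 × 2` matrix. -/
theorem quad_pow {k : Type*} [Field k] {E : Type*} [Ring E] [Algebra k E] (A : M₂ k) (φ : E)
    (h : φ * φ - A.trace • φ + A.det • (1 : E) = 0) (m : ℕ) :
    φ ^ m * φ ^ m - (A ^ m).trace • φ ^ m + (A ^ m).det • (1 : E) = 0 := by
  have hA : ∀ n, (A ^ (n + 2)).trace = A.trace * (A ^ (n + 1)).trace - A.det * (A ^ n).trace := by
    intro n
    have h2 : A * A = A.trace • A - A.det • (1 : M₂ k) := by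
      ext i j
      fin_cases i <;> fin_cases j <;>
        simp [Matrix.mul_apply, Fin.sum_univ_two, Matrix.trace_fin_two, Matrix.det_fin_two] <;> ring
    rw [pow_add, sq, h2, mul_sub, Matrix.mul_smul, Matrix.mul_smul, mul_one, ← pow_succ,
      Matrix.trace_sub, Matrix.trace_smul, Matrix.trace_smul, smul_eq_mul, smul_eq_mul]
  have hφ : φ * φ = A.trace • φ - A.det • (1 : E) := by linear_combination (norm := module) h
  induction m using Nat.twoStepInduction with
  | zero => simp [Matrix.trace_one]; module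
  | one => simpa using h
  | more n ih1 ih2 =>
    rw [Matrix.det_pow] at ih1 ih2 ⊢
    rw [hA]
    have e1 : φ ^ (n + 1) = φ * φ ^ n := pow_succ' φ n
    have e2 : φ ^ (n + 2) = A.trace • φ ^ (n + 1) - A.det • φ ^ n := by
      rw [pow_succ' φ (n + 1), e1, ← mul_assoc, hφ, sub_mul, smul_mul_assoc, smul_mul_assoc,
        one_mul, ← e1]
    -- the two-step combination of the relations
    have c1 := congrArg (fun z => (A.trace • φ) * z) ih2
    have c2 := congrArg (fun z => (A.det • (φ * φ)) * z) ih1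
    simp only [mul_zero, mul_sub, mul_add] at c1 c2
    have f1 : φ ^ (n + 2) * φ ^ (n + 2) =
        A.trace • (φ * (φ ^ (n + 1) * φ ^ (n + 1))) - A.det • (φ * φ * (φ ^ n * φ ^ n)) := by
      rw [← pow_add, ← pow_add, ← pow_add, ← pow_succ', ← sq, ← pow_add]
      have hm : φ ^ (n + 2 + (n + 2)) = φ ^ (2 * n + 2) * (φ * φ) := by
        rw [← sq, ← pow_add]; congr 1; omega
      rw [hm, hφ, mul_sub, mul_smul_comm, mul_smul_comm, mul_one, ← pow_succ]
      congr 3 <;> omega
    have g1 : φ * (φ ^ (n + 1)) = φ ^ (n + 2) := (pow_succ' φ (n + 1)).symm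
    have g2 : φ * φ * φ ^ n = φ ^ (n + 2) := by rw [← sq, ← pow_add, Nat.add_comm]
    simp only [smul_mul_assoc, mul_smul_comm, mul_one, g1, g2] at c1 c2
    rw [f1]
    have h2 : A.det • (φ * φ) = A.det • (A.trace • φ - A.det • (1 : E)) := by rw [hφ]
    simp only [pow_succ A.det] at c1 c2 ⊢
    linear_combination (norm := module) c1 - c2 + A.det ^ n • h2

variable (M : ℕ) [NeZero M]

/-- `T_l` on `J₀(M)`, for every natural `l`. -/
def heckeAt (l : ℕ) : Module.End ℤ (JZero M) :=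
  if h : l.Prime then heckeOperatorBar M ⟨l, h⟩ else 0

theorem heckeAt_prime {l : ℕ} (h : l.Prime) : heckeAt M l = heckeOperatorBar M ⟨l, h⟩ := dif_pos h

theorem galois_smul_heckeAt (σ : GQ) (l : ℕ) (x : JZero M) :
    σ • heckeAt M l x = heckeAt M l (σ • x) := by
  unfold heckeAt
  split_ifs with h
  · exact galois_smul_heckeOperatorBar M σ _ x
  · simp

variable {M} {S : Set ℕ} {a : ℕ → ℤ}

/-- An element of the system ring acts on torsion through the Hecke algebra and on eigenvectors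
by its value. -/
theorem sysRing_apply {r : Module.End ℤ (JZero M)}
    {t : CuspForm.heckeAlgebra M 2 S} {c : ℤ} (h : (r, t, c) ∈ sysRing S a (heckeAt M)) :
    (∀ n : ℕ, 0 < n → ∀ v, r ((torsionModel M).proj n v) =
        (torsionModel M).proj n ((torsionModel M).heckeAway S t v)) ∧
      (∀ (σ : GQ) (x : JZero M), r (σ • x) = σ • r x) ∧
      ∀ x : JZero M, (∀ l, l.Prime → ¬ l ∣ M → l ∉ S → heckeAt M l x = a l • x) →
        r x = c • x := by
  suffices H : ∀ z ∈ sysRing S a (heckeAt M),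
      (∀ n : ℕ, 0 < n → ∀ v, z.1 ((torsionModel M).proj n v) =
          (torsionModel M).proj n ((torsionModel M).heckeAway S z.2.1 v)) ∧
        (∀ (σ : GQ) (x : JZero M), z.1 (σ • x) = σ • z.1 x) ∧
        ∀ x : JZero M, (∀ l, l.Prime → ¬ l ∣ M → l ∉ S → heckeAt M l x = a l • x) →
          z.1 x = z.2.2 • x from H _ h
  intro z hz
  induction hz using Subring.closure_induction with
  | mem z hz =>
    obtain ⟨l, hl, hlM, hlS, rfl⟩ := hz
    refine ⟨fun n hn v => ?_, fun σ x => (galois_smul_heckeAt M σ l x).symm,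
      fun x hx => hx l hl hlM hlS⟩
    simp only [heckeAt_prime M hl]
    exact (torsionModel M).proj_T n hn ⟨l, hl⟩ hlM v
  | zero => exact ⟨fun n hn v => by simp, fun σ x => by simp, fun x hx => by simp⟩
  | one => exact ⟨fun n hn v => by simp, fun σ x => rfl, fun x hx => by simp⟩
  | add u v _ _ hu hv =>
    refine ⟨fun n hn w => ?_, fun σ x => ?_, fun x hx => ?_⟩
    · simp [hu.1 n hn w, hv.1 n hn w]
    · simp [hu.2.1 σ x, hv.2.1 σ x, smul_add]
    · show u.1 x + v.1 x = (u.2.2 + v.2.2) • x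
      rw [hu.2.2 x hx, hv.2.2 x hx, add_zsmul]
  | neg u _ hu =>
    refine ⟨fun n hn w => ?_, fun σ x => ?_, fun x hx => ?_⟩
    · simp [hu.1 n hn w]
    · simp [hu.2.1 σ x, smul_neg]
    · simp [hu.2.2 x hx, neg_smul]
  | mul u v _ _ hu hv =>
    refine ⟨fun n hn w => ?_, fun σ x => ?_, fun x hx => ?_⟩
    · simp [hu.1 n hn, hv.1 n hn]
    · simp [hu.2.1, hv.2.1]
    · simp [hu.2.2 x hx, hv.2.2 x hx, smul_smul, mul_comm]

/-- An absent system has a killing operator on `J₀(M)` with value prime to `p`. -/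
theorem exists_zero_killer (hMS : ∀ q : ℕ, q.Prime → q ∣ M → q ∈ S) (p : ℕ) [Fact p.Prime]
    (hno : ¬ HasCongruentForm a p M S) :
    ∃ c : ℤ, ¬ (p : ℤ) ∣ c ∧
      ((0 : Module.End ℤ (JZero M)), (0 : CuspForm.heckeAlgebra M 2 S), c) ∈
        sysRing S a (heckeAt M) := by
  obtain ⟨r, c, hc, h⟩ := exists_killer_of_not_modular hMS p hno (heckeAt M)
  obtain ⟨h1, h2, -⟩ := sysRing_apply h
  suffices r = 0 from ⟨c, hc, this ▸ h⟩
  refine LinearMap.ext fun x => ?_
  refine eq_zero_of_kills_torsion r.toAddMonoidHom h2 (fun n x hn hx => ?_) x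
  obtain ⟨v, rfl⟩ := ((torsionModel M).mem_range_proj_iff n hn x).mpr (by rwa [natCast_zsmul])
  show r _ = 0
  rw [h1 n hn v, map_zero, LinearMap.zero_apply, map_zero]

variable (M S a) in
/-- The eigen part of the `p`-torsion. -/
def eigenGroup (p : ℕ) : AddSubgroup (JZero M) where
  carrier := {x | p • x = 0 ∧ ∀ l, l.Prime → ¬ l ∣ M → l ∉ S → heckeAt M l x = a l • x}
  zero_mem' := ⟨nsmul_zero _, fun l _ _ _ => by rw [map_zero, smul_zero]⟩
  add_mem' := by
    rintro x y ⟨hx, hx'⟩ ⟨hy, hy'⟩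
    exact ⟨by rw [nsmul_add, hx, hy, add_zero],
      fun l hl hM hS => by rw [map_add, hx' l hl hM hS, hy' l hl hM hS, zsmul_add]⟩
  neg_mem' := by
    rintro x ⟨hx, hx'⟩
    exact ⟨by rw [neg_nsmul, hx, neg_zero],
      fun l hl hM hS => by rw [map_neg, hx' l hl hM hS, zsmul_neg]⟩

theorem mem_eigenGroup {p : ℕ} {x : JZero M} : x ∈ eigenGroup M S a p ↔
    p • x = 0 ∧ ∀ l, l.Prime → ¬ l ∣ M → l ∉ S → heckeAt M l x = a l • x := Iff.rfl

theorem smul_mem_eigenGroup {p : ℕ} (σ : GQ) {x : JZero M} (hx : x ∈ eigenGroup M S a p) :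
    σ • x ∈ eigenGroup M S a p := by
  refine ⟨?_, fun l hl hM hS => ?_⟩
  · show p • σ • x = 0
    exact (map_nsmul (DistribSMul.toAddMonoidHom (JZero M) σ) p x).symm.trans
      (by rw [hx.1, map_zero])
  · rw [← galois_smul_heckeAt, hx.2 l hl hM hS]
    exact map_zsmul (DistribSMul.toAddMonoidHom (JZero M) σ) (a l) x

/-- Absent systems have no eigenvectors. -/
theorem eigenGroup_eq_bot (hMS : ∀ q : ℕ, q.Prime → q ∣ M → q ∈ S) {p : ℕ} [Fact p.Prime]
    (hno : ¬ HasCongruentForm a p M S) {x : JZero M} (hx : x ∈ eigenGroup M S a p) : x = 0 := by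
  obtain ⟨c, hc, h⟩ := exists_zero_killer hMS p hno
  have h1 : c • x = 0 := ((sysRing_apply h).2.2 x hx.2).symm.trans (by simp)
  obtain ⟨u, v, huv⟩ : IsCoprime c (p : ℤ) :=
    ((Nat.prime_iff_prime_int.mp Fact.out).coprime_iff_not_dvd.mpr hc).symm
  rw [← one_zsmul x, ← huv, add_zsmul, mul_zsmul, mul_zsmul, h1, natCast_zsmul, hx.1, zsmul_zero,
    zsmul_zero, add_zero]

/-- A congruent form gives an eigenvector. -/
theorem exists_mem_eigenGroup_ne_zero (hMS : ∀ q : ℕ, q.Prime → q ∣ M → q ∈ S) {p : ℕ}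
    [Fact p.Prime] (hf : HasCongruentForm a p M S) : ∃ x ∈ eigenGroup M S a p, x ≠ 0 := by
  obtain ⟨f, 𝔪, hf, h𝔪, hp, hfa⟩ := hf
  obtain ⟨χC, -, hχC, -⟩ := DSLift.exists_ringHom_of_isNormalizedEigenform hf S
  have : Module.Finite ℤ (CuspForm.heckeAlgebra M 2 S) :=
    Periods.moduleFinite_heckeAlgebra_all M 2 S
  let χ₀ : CuspForm.heckeAlgebra M 2 S →+* integralClosure ℤ ℂ :=
    χC.codRestrict (integralClosure ℤ ℂ).toSubring fun t =>
      (IsIntegral.map χC.toIntAlgHom (Algebra.IsIntegral.isIntegral (R := ℤ) t) :)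
  let : Field (integralClosure ℤ ℂ ⧸ 𝔪) := Ideal.Quotient.field 𝔪
  have : CharP (integralClosure ℤ ℂ ⧸ 𝔪) p := by
    rw [CharP.charP_iff_prime_eq_zero Fact.out, ← map_natCast (Ideal.Quotient.mk 𝔪),
      Ideal.Quotient.eq_zero_iff_mem]
    exact hp
  let χ : CuspForm.heckeAlgebra M 2 S →+* integralClosure ℤ ℂ ⧸ 𝔪 :=
    (Ideal.Quotient.mk 𝔪).comp χ₀
  have hχT : ∀ (l : ℕ) (hl : l.Prime) (hlM : ¬ l ∣ M) (hlS : l ∉ S),
      χ (CuspForm.heckeAlgebra.T hl hlM hlS) = (a l : integralClosure ℤ ℂ ⧸ 𝔪) :=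
    fun l hl hlM hlS => by
      obtain ⟨b, hb, hb'⟩ := hfa l hl hlM hlS
      rw [← map_intCast (Ideal.Quotient.mk 𝔪)]
      refine Ideal.Quotient.eq.mpr ?_
      rwa [show χ₀ (CuspForm.heckeAlgebra.T hl hlM hlS) = b from
        Subtype.ext ((hχC l hl hlM hlS).trans hb.symm)]
  -- the values lie in the prime field
  have hval : ∀ t, ∃ c : ℤ, χ t = (c : integralClosure ℤ ℂ ⧸ 𝔪) := by
    intro t
    obtain ⟨r, c, hc⟩ := exists_mem_sysRing (a := a) hMS (fun _ => (0 : ℤ)) t
    refine ⟨c, ?_⟩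
    suffices H : ∀ z ∈ sysRing S a (M := M) (fun _ => (0 : ℤ)),
        χ z.2.1 = (z.2.2 : integralClosure ℤ ℂ ⧸ 𝔪) from H _ hc
    intro z hz
    induction hz using Subring.closure_induction with
    | mem z hz => obtain ⟨l, hl, hlM, hlS, rfl⟩ := hz; exact hχT l hl hlM hlS
    | zero => simp
    | one => simp
    | add u v _ _ hu hv => simp [hu, hv]
    | neg u _ hu => simp [hu]
    | mul u v _ _ hu hv => simp [hu, hv]
  choose c hc using hval
  have hinj : ∀ {i j : ℤ}, (i : integralClosure ℤ ℂ ⧸ 𝔪) = j → (i : ZMod p) = j := fun {i j} h => by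
    rw [← map_intCast (ZMod.castHom dvd_rfl (integralClosure ℤ ℂ ⧸ 𝔪)) i,
      ← map_intCast (ZMod.castHom dvd_rfl (integralClosure ℤ ℂ ⧸ 𝔪)) j] at h
    exact (ZMod.castHom dvd_rfl (integralClosure ℤ ℂ ⧸ 𝔪)).injective h
  let χp : CuspForm.heckeAlgebra M 2 S →+* ZMod p :=
    { toFun := fun t => (c t : ZMod p)
      map_one' := (hinj (by rw [← hc, map_one, Int.cast_one])).trans Int.cast_one
      map_zero' := (hinj (by rw [← hc, map_zero, Int.cast_zero])).trans Int.cast_zero
      map_add' := fun x y => by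
        rw [← Int.cast_add]; exact hinj (by rw [← hc, map_add, hc, hc, Int.cast_add])
      map_mul' := fun x y => by
        rw [← Int.cast_mul]; exact hinj (by rw [← hc, map_mul, hc, hc, Int.cast_mul]) }
  set T := torsionModel M
  obtain ⟨v, hv0, hv⟩ := GalRep.exists_common_eigenvector (T.heckeMatrixAway S)
    (T.heckeMatrixAway_injective S) χp
  let w : Fin T.rank → ℤ := fun i => (v i).val
  have hw : T.redMod p w = v := funext fun i => by simp [w, T.redMod_apply]
  have hp0 : 0 < p := (Fact.out : p.Prime).pos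
  refine ⟨T.proj p w, ⟨?_, fun l hl hlM hlS => ?_⟩, fun h0 => hv0 ?_⟩
  · rw [← natCast_zsmul]
    exact T.zsmul_proj_self hp0 w
  · rw [heckeAt_prime M hl, T.proj_T p hp0 ⟨l, hl⟩ hlM, ← map_zsmul, T.proj_eq_iff hp0]
    rw [← T.heckeAway_T S hl hlM hlS, T.redMod_hecke, map_zsmul, hw, hv]
    have h1 : χp (CuspForm.heckeAlgebra.T hl hlM hlS) = (a l : ZMod p) :=
      hinj (by rw [← hc, hχT])
    rw [h1, Int.cast_smul_eq_zsmul]
  · rw [← hw, ← map_zero (T.redMod p), ← T.proj_eq_iff hp0, h0, map_zero]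

end FermatAgent.MazurPrinciple

end
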