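import Fermat.Agent.MazurPrinciple.Plane
import Fermat.Agent.GalRep.Density.Burnside
import Fermat.Agent.GalRep.Density.Frobenius
import Fermat.Agent.ES.Main
import Fermat.Agent.ModCurve.Torsion.Model

/-!
# The Galois action on the eigen part of `J₀(M)[p]`

Every element satisfies the characteristic polynomial of its action on `E[p]`; the fixed part
`planeGroup` of the kernel of `E[p]` is nonzero, and no element acts on it as multiplication by its
determinant unless that is `1`.
-/

set_option autoImplicit false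

noncomputable section

open ModularCurve AlgebraicCurve Matrix
open FermatAgent.ModCurveTorsion (exists_finiteDimensional_fixing)
open FermatAgent.Ihara (torMat torMat_factors torMat_frobenius span_torMat)

namespace FermatAgent.MazurPrinciple

local notation "Qb" => AlgebraicClosure ℚ
local notation "GQ" => AlgebraicClosure ℚ ≃ₐ[ℚ] AlgebraicClosure ℚ

variable {M : ℕ} [NeZero M] {S : Set ℕ} {a : ℕ → ℤ} {p : ℕ} [hp : Fact p.Prime]

instance : Module (ZMod p) (eigenGroup M S a p) :=
  AddCommGroup.zmodModule fun x => Subtype.ext x.2.1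

/-- The action of Galois on the eigen part. -/
def galOn : GQ →* Module.End (ZMod p) (eigenGroup M S a p) where
  toFun σ :=
    AddMonoidHom.toZModLinearMap p
      { toFun := fun x => ⟨σ • (x : JZero M), smul_mem_eigenGroup σ x.2⟩
        map_zero' := Subtype.ext (smul_zero σ)
        map_add' := fun x y => Subtype.ext (smul_add σ (x : JZero M) y) }
  map_one' := LinearMap.ext fun x => Subtype.ext (one_smul GQ (x : JZero M))
  map_mul' σ τ := LinearMap.ext fun x => Subtype.ext (mul_smul σ τ (x : JZero M))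

omit hp in
theorem coe_galOn [Fact p.Prime] (σ : GQ) (x : eigenGroup M S a p) :
    ((galOn σ x : eigenGroup M S a p) : JZero M) = σ • (x : JZero M) := rfl

instance : Finite (eigenGroup M S a p) := by
  have := ((ModCurveTorsion.torsionModel M).torsion_finite hp.out.pos).to_subtype
  refine Finite.of_injective
    (fun x : eigenGroup M S a p => (⟨x.1, by simpa using x.2.1⟩ : {x : JZero M | (p : ℤ) • x = 0})) ?_
  intro x y h
  exact Subtype.ext (Subtype.mk.inj h :)

theorem galOn_factors : GaloisFactorsThroughFiniteLevel (galOn : GQ →* Module.End (ZMod p) (eigenGroup M S a p)) := by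
  choose E hE hfix using fun x : eigenGroup M S a p => exists_finiteDimensional_fixing M (x : JZero M)
  have := hE
  refine ⟨⨆ x, E x, IntermediateField.finiteDimensional_iSup_of_finite, fun σ hσ => ?_⟩
  refine LinearMap.ext fun x => Subtype.ext ?_
  rw [coe_galOn]
  exact hfix x σ fun y => hσ _ (le_iSup E x y.2)

variable (W : WeierstrassCurve ℤ) (hΔ : (W.map (Int.castRingHom ℚ)).Δ ≠ 0)
variable (hirr : W.ModRepIsIrreducible p) (hS : S.Finite)
  (hgood : ∀ l, l.Prime → l ∉ S → W.IsGoodPrimeFor l)

include hirr hS hgood in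
/-- The relation of Eichler and Shimura, spread out by Čebotarev. -/
theorem galOn_quad (σ : GQ) :
    let φ := galOn (M := M) (S := S) (a := W.apOfModel) (p := p) σ
    φ * φ - (torMat W (p := p) hΔ σ).trace • φ + (torMat W (p := p) hΔ σ).det • 1 = 0 := by
  have hfac : GaloisFactorsThroughFiniteLevel
      ((torMat W (p := p) hΔ).prod (galOn (M := M) (S := S) (a := W.apOfModel) (p := p))) := by
    obtain ⟨L₁, h₁, e₁⟩ := torMat_factors W (p := p) hΔ
    obtain ⟨L₂, h₂, e₂⟩ := galOn_factors (M := M) (S := S) (a := W.apOfModel) (p := p)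
    exact ⟨L₁ ⊔ L₂, IntermediateField.finiteDimensional_sup L₁ L₂, fun τ hτ => Prod.ext
      (e₁ τ fun x hx => hτ x (le_sup_left (b := L₂) hx))
      (e₂ τ fun x hx => hτ x (le_sup_right (a := L₁) hx))⟩
  refine GalRep.forall_of_frobenius _ hfac
    ((hS.union (Set.finite_singleton p)).union (Set.finite_Iic M))
    (fun z => z.2 * z.2 - z.1.trace • z.2 + z.1.det • 1 = 0)
    (fun z m hz => quad_pow z.1 z.2 hz m) (fun l hl hlS A hA τ hτ => ?_) σ
  simp only [Set.mem_union, Set.mem_singleton_iff, Set.mem_Iic, not_or, not_le] at hlS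
  have hlM : ¬ l ∣ M := fun h => absurd (Nat.le_of_dvd (Nat.pos_of_neZero M) h) (by omega)
  obtain ⟨ht, hd⟩ := torMat_frobenius W hΔ hirr hl (hgood l hl hlS.1.1) hlS.1.2 hA hτ
  have hlMp : ¬ l ∣ M * p := fun h => (hl.dvd_mul.mp h).elim hlM
    fun h => hlS.1.2 ((Nat.prime_dvd_prime_iff_eq hl hp.out).mp h)
  simp only [MonoidHom.prod_apply, ht, hd]
  refine LinearMap.ext fun x => Subtype.ext ?_
  simp only [LinearMap.add_apply, LinearMap.sub_apply, Module.End.mul_apply, LinearMap.smul_apply,
    Module.End.one_apply, LinearMap.zero_apply, Int.cast_smul_eq_zsmul, Nat.cast_smul_eq_nsmul,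
    AddSubgroup.coe_add, AddSubgroup.coe_sub, AddSubgroup.coe_zsmul, AddSubgroup.coe_nsmul,
    ZeroMemClass.coe_zero, coe_galOn]
  have h := ES.torsionFrobQuadratic M p l hl hlMp A hA τ hτ 1 (x : JZero M)
    (by rw [pow_one]; exact x.2.1)
  rw [← heckeAt_prime M hl, ← galois_smul_heckeAt, x.2.2 l hl hlM hlS.1.1] at h
  rwa [show τ • (W.apOfModel l • (x : JZero M)) = W.apOfModel l • τ • (x : JZero M) from
    map_zsmul (DistribSMul.toAddMonoidHom (JZero M) τ) _ _] at h

/-- The part fixed by the kernel of `E[p]`. -/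
def planeGroup : Submodule (ZMod p) (eigenGroup M S W.apOfModel p) where
  carrier := {x | ∀ h, torMat W (p := p) hΔ h = 1 → galOn h x = x}
  zero_mem' _ _ := map_zero _
  add_mem' hx hy h hh := by rw [map_add, hx h hh, hy h hh]
  smul_mem' c x hx h hh := by rw [map_smul, hx h hh]

theorem galOn_mem_planeGroup (σ : GQ) {x : eigenGroup M S W.apOfModel p}
    (hx : x ∈ planeGroup W hΔ) : galOn σ x ∈ planeGroup W hΔ := by
  intro h hh
  have h1 : galOn (σ⁻¹ * h * σ) x = x := hx _ (by
    rw [map_mul, map_mul, hh, mul_one, ← map_mul, inv_mul_cancel, map_one])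
  calc galOn h (galOn σ x) = galOn σ (galOn (σ⁻¹ * h * σ) x) := by
        rw [← Module.End.mul_apply, ← map_mul, ← Module.End.mul_apply, ← map_mul]
        congr 2; group
    _ = galOn σ x := by rw [h1]

theorem pow_eq_of_sq_sub_one {R : Type*} [Ring R] {x : R} (h : (x - 1) * (x - 1) = 0) (n : ℕ) :
    x ^ n = 1 + n • (x - 1) := by
  induction n with
  | zero => simp
  | succ n ih =>
    rw [pow_succ, ih, add_mul, one_mul, succ_nsmul, smul_mul_assoc,
      show (x - 1) * x = (x - 1) + (x - 1) * (x - 1) by noncomm_ring, h, add_zero]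
    abel

include hirr hS hgood in
theorem exists_mem_planeGroup_ne_zero {x₀ : eigenGroup M S W.apOfModel p} (hx₀ : x₀ ≠ 0) :
    ∃ x ∈ planeGroup W hΔ, x ≠ (0 : eigenGroup M S W.apOfModel p) := by
  let f : GQ →* Equiv.Perm (eigenGroup M S W.apOfModel p) :=
    (MonoidHom.mk' (fun σ => (⟨galOn σ, galOn σ⁻¹, fun x => by
      rw [← Module.End.mul_apply, ← map_mul, inv_mul_cancel, map_one]; rfl, fun x => by
      rw [← Module.End.mul_apply, ← map_mul, mul_inv_cancel, map_one]; rfl⟩ : Equiv.Perm (eigenGroup M S W.apOfModel p)))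
      fun σ τ => Equiv.ext fun x => by
        show galOn (σ * τ) x = galOn σ (galOn τ x)
        rw [map_mul]; rfl)
  let H : Subgroup (Equiv.Perm (eigenGroup M S W.apOfModel p)) := (torMat W (p := p) hΔ).ker.map f
  have hH : IsPGroup p H := fun g => ⟨1, by
    obtain ⟨σ, hσ, hg⟩ := g.2
    refine Subtype.ext ?_
    rw [SubmonoidClass.coe_pow, pow_one, ← hg, ← map_pow]
    refine Equiv.ext fun x => ?_
    show galOn (σ ^ p) x = x
    have hq := galOn_quad (M := M) (p := p) W hΔ hirr hS hgood σ
    rw [MonoidHom.mem_ker.mp hσ, Matrix.trace_one, Matrix.det_one, Fintype.card_fin] at hq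
    have h2 : (galOn σ - 1) * (galOn σ - 1) =
        (0 : Module.End (ZMod p) (eigenGroup M S W.apOfModel p)) := by
      rw [← hq]; simp only [mul_sub, sub_mul, mul_one, one_mul, Nat.cast_ofNat, two_smul, one_smul]
      abel
    rw [map_pow, pow_eq_of_sq_sub_one h2, LinearMap.add_apply, Module.End.one_apply,
      LinearMap.smul_apply, ← Nat.cast_smul_eq_nsmul (ZMod p), ZMod.natCast_self, zero_smul,
      add_zero]⟩
  have hpG : p ∣ Nat.card (eigenGroup M S W.apOfModel p) := by
    have h1 : addOrderOf x₀ = p := addOrderOf_eq_prime (Subtype.ext x₀.2.1) hx₀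
    calc p = addOrderOf x₀ := h1.symm
      _ ∣ _ := addOrderOf_dvd_natCard x₀
  have hfix0 : (0 : eigenGroup M S W.apOfModel p) ∈ MulAction.fixedPoints H (eigenGroup M S W.apOfModel p) := fun g => by
    obtain ⟨σ, -, hg⟩ := g.2
    show (g : Equiv.Perm (eigenGroup M S W.apOfModel p)) 0 = 0
    rw [← hg]
    exact map_zero (galOn σ)
  obtain ⟨x, hx, hx0⟩ := hH.exists_fixed_point_of_prime_dvd_card_of_fixed_point (eigenGroup M S W.apOfModel p) hpG hfix0
  exact ⟨x, fun h hh => hx ⟨f h, h, MonoidHom.mem_ker.mpr hh, rfl⟩, fun e => hx0 e.symm⟩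

include hirr hS hgood in
/-- An element cannot act on the plane as its determinant unless that is `1`. -/
theorem det_eq_one_of_scalar (hp2 : p ≠ 2) {x₀ : eigenGroup M S W.apOfModel p} (hx₀ : x₀ ≠ 0)
    {σ₀ : GQ}
    (hσ₀ : ∀ x ∈ planeGroup W hΔ, galOn σ₀ x =
      (torMat W (p := p) hΔ σ₀).det • (x : eigenGroup M S W.apOfModel p)) :
    (torMat W (p := p) hΔ σ₀).det = 1 := by
  by_contra hw1
  obtain ⟨x, hx, hxne⟩ := exists_mem_planeGroup_ne_zero W hΔ hirr hS hgood hx₀
  set A := torMat W (p := p) hΔ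
  set w := (A σ₀).det
  have hdet : ∀ g, (A g).det ≠ 0 := fun g => by
    exact left_ne_zero_of_mul_eq_one (b := (A g⁻¹).det)
      (by rw [← Matrix.det_mul, ← map_mul A, mul_inv_cancel, map_one A, Matrix.det_one])
  have hq := fun g y => LinearMap.congr_fun (galOn_quad (M := M) (p := p) W hΔ hirr hS hgood g) y
  have hscal : ∀ g, ∃ c : ZMod p, ∀ y ∈ planeGroup (M := M) (S := S) (p := p) W hΔ, galOn g y = c • y := fun g => by
    have key : ∀ y ∈ planeGroup (M := M) (S := S) (p := p) W hΔ,
        (w * (A g).trace - (A (g * σ₀)).trace) • galOn g y = ((A g).det * (w - 1)) • y := by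
      intro y hy
      have hy' := galOn_mem_planeGroup W hΔ g hy
      have hgg := hq (g * σ₀) y
      have hg := hq g y
      simp only [LinearMap.add_apply, LinearMap.sub_apply, Module.End.mul_apply, LinearMap.smul_apply,
        Module.End.one_apply, LinearMap.zero_apply] at hg hgg
      rw [show (A (g * σ₀)).det = (A g).det * w by rw [map_mul, Matrix.det_mul], map_mul galOn,
        Module.End.mul_apply, Module.End.mul_apply, hσ₀ y hy] at hgg
      simp only [map_smul] at hgg
      rw [hσ₀ _ hy'] at hgg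
      simp only [map_smul, smul_smul] at hgg
      have hw0 : w ≠ 0 := hdet σ₀
      apply smul_right_injective _ hw0
      linear_combination (norm := module) hgg - (w * w) • hg
    have hc : w * (A g).trace - (A (g * σ₀)).trace ≠ 0 := fun h => by
      have := key x hx
      rw [h] at this
      have := smul_eq_zero.mp (this.symm.trans (zero_smul (ZMod p) (galOn g x)))
      exact this.elim (mul_ne_zero (hdet g) (sub_ne_zero.mpr hw1)) hxne
    exact ⟨(w * (A g).trace - (A (g * σ₀)).trace)⁻¹ * ((A g).det * (w - 1)), fun y hy => by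
      rw [mul_smul, ← key y hy, inv_smul_smul₀ hc]⟩
  choose c hc using hscal
  have huniq : ∀ {r s : ZMod p}, r • x = s • x → r = s := fun h =>
    smul_left_injective (ZMod p) hxne h
  have hc1 : c 1 = 1 := huniq (by rw [← hc 1 x hx, map_one, Module.End.one_apply, one_smul])
  have hcmul : ∀ g k, c (g * k) = c g * c k := fun g k => huniq (by
    rw [← hc _ x hx, map_mul, Module.End.mul_apply, hc k x hx, map_smul, hc g x hx, smul_smul,
      mul_comm])
  have htr : ∀ g, (A g).trace = c g + (A g).det * c g⁻¹ := fun g => by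
    have hg := hq g x
    simp only [LinearMap.add_apply, LinearMap.sub_apply, Module.End.mul_apply, LinearMap.smul_apply,
      Module.End.one_apply, LinearMap.zero_apply] at hg
    rw [hc g x hx, map_smul, hc g x hx, smul_smul, smul_smul, ← sub_smul, ← add_smul,
      smul_eq_zero] at hg
    have h := hg.resolve_right hxne
    have hinv : c g * c g⁻¹ = 1 := by rw [← hcmul, mul_inv_cancel, hc1]
    linear_combination (-(c g⁻¹)) * h + (c g - (A g).trace) * hinv
  let B : GQ →* Matrix (Fin 2) (Fin 2) (ZMod p) :=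
    { toFun := fun g => Matrix.diagonal ![c g, (A g).det * c g⁻¹]
      map_one' := by
        rw [map_one, Matrix.det_one, inv_one, hc1, ← Matrix.diagonal_one]
        congr 1; ext i; fin_cases i <;> simp
      map_mul' := fun g k => by
        rw [Matrix.diagonal_mul_diagonal, map_mul, Matrix.det_mul, hcmul, _root_.mul_inv_rev, hcmul]
        congr 1; ext i; fin_cases i <;> simp; ring }
  obtain ⟨P, hP, hPA⟩ := GalRep.exists_conj_of_trace_eq A B (span_torMat W hΔ hp2 hirr) fun g => by
    rw [htr g]
    simp [B]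
  refine Ihara.not_commute_all A (span_torMat W hΔ hp2 hirr) fun g k => hP.mul_left_cancel ?_
  rw [← mul_assoc, hPA, mul_assoc, hPA, ← mul_assoc P, hPA, mul_assoc, hPA, ← mul_assoc,
    ← mul_assoc, show B g * B k = B k * B g from by
      show Matrix.diagonal _ * Matrix.diagonal _ = Matrix.diagonal _ * Matrix.diagonal _
      simp [Matrix.diagonal_mul_diagonal, mul_comm]]

/-- An equivariant map to another level keeps the eigen condition. -/
theorem map_mem_eigenGroup {M' : ℕ} [NeZero M'] (φ : JZero M →+ JZero M')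
    (hφ : ∀ (σ : GQ) (x : JZero M), σ • φ x = φ (σ • x))
    (hMS : ∀ q : ℕ, q.Prime → q ∣ M → q ∈ S) (hpS : p ∈ S) {x : JZero M}
    (hx : x ∈ eigenGroup M S a p) : φ x ∈ eigenGroup M' S a p := by
  refine ⟨by rw [← map_nsmul, hx.1, map_zero], fun l hl hlM' hlS => ?_⟩
  have hlM : ¬ l ∣ M := fun h => hlS (hMS l hl h)
  have hlp : l ≠ p := fun h => hlS (h ▸ hpS)
  have hlMp : ∀ {N : ℕ}, ¬ l ∣ N → ¬ l ∣ N * p := fun hN h =>
    (hl.dvd_mul.mp h).elim hN fun h => hlp ((Nat.prime_dvd_prime_iff_eq hl hp.out).mp h)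
  obtain ⟨B, τ, hB, hτ⟩ := RT.exists_place_isFrobeniusAt hl
  have h1 := ES.torsionFrobQuadratic M p l hl (hlMp hlM) B hB τ hτ 1 x (by rw [pow_one]; exact hx.1)
  have h2 := ES.torsionFrobQuadratic M' p l hl (hlMp hlM') B hB τ hτ 1 (φ x)
    (by rw [pow_one, ← map_nsmul, hx.1, map_zero])
  rw [← heckeAt_prime M hl, ← galois_smul_heckeAt, hx.2 l hl hlM hlS] at h1
  rw [← heckeAt_prime M' hl, ← galois_smul_heckeAt] at h2
  have h3 := congrArg φ h1
  rw [map_add, map_sub, map_zero, map_nsmul, ← hφ, ← hφ, ← hφ, map_zsmul] at h3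
  have h4 : τ • heckeAt M' l (φ x) = τ • (a l • φ x) := by
    have h5 := h2.trans h3.symm
    rwa [add_left_inj, sub_right_inj] at h5
  exact smul_left_cancel τ h4

end FermatAgent.MazurPrinciple

end
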