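import Fermat.Agent.MazurPrinciple.Core
import Fermat.Agent.MazurPrinciple.Descend
import Fermat.Agent.MazurPrinciple.LevelSetup
import Fermat.Agent.MazurPrinciple.LevelTwist
import Fermat.Agent.BadRed.AtP.UpLevel
import Fermat.Agent.BadRed.AtP.HeckeComm

/-!
# Mazur's principle at `X₀(p M)`: the twisted roots

The representatives over a local base form `Inputs` for the nodal datum, given the slope relation
at the nodes and the triviality of eigen classes on the components; inertia then has twisted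
roots.
-/

set_option autoImplicit false
set_option maxHeartbeats 800000
set_option maxRecDepth 4000

noncomputable section

namespace FermatAgent.MazurPrinciple

open Polynomial AlgebraicCurve ModularCurve IsLocalRing
open FermatAgent.Curve (IsFunctionField1 divisorOf)
open FermatAgent.BadRed.Semistable FermatAgent.BadRed.Carayol FermatAgent.BadRed.Carayol.Instance
open FermatAgent.ModFun FermatAgent.ES FermatAgent.ModCurveTorsion
open FermatAgent.BadRed

local notation "ℚbar" => AlgebraicClosure ℚ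
local notation "GQ" => AlgebraicClosure ℚ ≃ₐ[ℚ] AlgebraicClosure ℚ
local notation "𝐅" N:max => laurentBaseChange ℚbar (modularFunctionFieldFull N)

attribute [local instance] ModCurveTorsion.isFunctionField1_laurent
attribute [local instance] isAlgClosed_residue

variable {p : ℕ} [hp : Fact p.Prime] [NeZero p] {A : ValuationSubring ℚbar} (B : LocalBase A p)
  (hA : A.LiesOverPrime p) {N M : ℕ} [NeZero N] [NeZero M] [NeZero (p * N)] [NeZero (p * M)]
  (hd : N ∣ M) (hN : p.Coprime N) (hM : p.Coprime M)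
  [IsFunctionField1 (IsLocalRing.ResidueField A) (FibField A M)]
  [Infinite (IsLocalRing.ResidueField A)]
  [IsDiscreteValuationRing (inertiaRing A)] [IsAlgClosed (ResidueField (inertiaRing A))]
  (H : Hauptmodul p) (hH : H.L ∣ M)
  (hpM : ¬ p ∣ M) {R : ℤ[X]} (hR : IsCuspPoly H R) (hB : ∀ a ∈ inertiaField A, a ∈ B.S)
  (D : ChartData (inertiaRing A) (tower (inertiaField A) M hpM) (uElt (inertiaField A) H hH))
  (hDc : D.cusps = cuspSet R (inertiaRing A))

/-- The slope relation at the nodes of the level datum. -/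
def SlopeRelation (ζ : B.int) (hζ : IsPrimitiveRoot (ζ : ℚbar) p) : Prop :=
  haveI := charP_residue_place p A hA
  let d := levelData p A hA hM
  let L := levelSetup B hA hM H hH hpM hR hB D hDc ζ hζ
  ∃ R₀ : ℕ, ∀ (i : d.C.ι) (n : ℕ), R₀ ≤ n → ∀ (G₁ G₂ : 𝐅 (p * M))
    (h₁ : G₁ ∈ inertiaFun A (p * M)) (h₂ : G₂ ∈ inertiaFun A (p * M))
    (u₁ : IsUnitAt d.g₁ G₁) (u₂ : IsUnitAt d.g₂ G₂) (d₁ d₂ : (modPow B.unifW n)ˣ) (n₁ n₂ : ℤ),
    IsDecomp ((L.node i).end₁ n ⟨G₁, L.le h₁, u₁.1⟩) d₁ n₁ →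
    IsDecomp ((L.node i).end₂ n ⟨G₂, L.le h₂, u₂.1⟩) d₂ n₂ →
    (p : ℤ) ∣ n₁ → (p : ℤ) ∣ n₂ → (∃ η : (modPow B.unifW n)ˣ, d₂ = d₁ * η ^ p) →
    (p : ℤ) ∣ (d.C.x i).ord (d.g₁.red ⟨G₁, u₁.1⟩) + (d.C.y i).ord (d.g₂.red ⟨G₂, u₂.1⟩) →
      (p : ℤ) ∣ (d.C.x i).ord (d.g₁.red ⟨G₁, u₁.1⟩) ∧
        (p : ℤ) ∣ (d.C.y i).ord (d.g₂.red ⟨G₂, u₂.1⟩)

/-- Eigen classes reduce to zero on both components. -/
def EigenResidual (S : Set ℕ) (a : ℕ → ℤ) (C : IntermediateField ℚ ℚbar) : Prop :=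
  let d := levelData p A hA hM
  ∀ f, IsRep hd C S a f →
    (∀ h : IsUnitAt d.g₁ f, (∀ Q : Place (IsLocalRing.ResidueField A) (FibField A M),
        (p : ℤ) ∣ Q.ord (d.g₁.red ⟨f, h.1⟩)) → ∃ φ, d.g₁.red ⟨f, h.1⟩ = φ ^ p) ∧
    ∀ h : IsUnitAt d.g₂ f, (∀ Q : Place (IsLocalRing.ResidueField A) (FibField A M),
        (p : ℤ) ∣ Q.ord (d.g₂.red ⟨f, h.1⟩)) → ∃ φ, d.g₂.red ⟨f, h.1⟩ = φ ^ p

include hN in
/-- **Inertia has twisted roots.** -/
theorem twistRoots_of (ζ : B.int) (hζ : IsPrimitiveRoot (ζ : ℚbar) p)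
    (hslope : SlopeRelation B hA hM H hH hpM hR hB D hDc ζ hζ)
    (W : WeierstrassCurve ℤ) {S : Set ℕ} (hMS : ∀ q : ℕ, q.Prime → q ∣ p * N → q ∈ S)
    (hno : ¬ HasCongruentForm W.apOfModel p N S)
    (hres : EigenResidual hA hd hM S W.apOfModel B.base)
    {ℓ : ℕ} [Fact ℓ.Prime] [NeZero (ℓ * M)] [NeZero (p * (ℓ * M))] [NeZero (ℓ * (p * N))]
    [NeZero (ℓ * (p * M))] (hℓ : ℓ.Coprime (p * M)) (hℓS : ℓ ∉ S)
    {σ : GQ} (hσ : σ ∈ A.inertiaSubgroupIn ℚ) (hσS : ∀ x ∈ B.S, σ x ∈ B.S)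
    {w : ℕ} (hw : w ≤ p) (hσζ : σ ζ = (ζ : ℚbar) ^ w) :
    TwistRoots (S := S) hd W hℓ B.base σ w := by
  have hℓN : ℓ.Coprime (p * N) := hℓ.coprime_dvd_right (Nat.mul_dvd_mul_left p hd)
  have hlp : p.Coprime (ℓ * M) :=
    Nat.Coprime.mul_right (Nat.Coprime.coprime_mul_right_right hℓ).symm hM
  have := charP_residue_place p A hA
  obtain ⟨v, hv⟩ : ∃ v : A, (p : A) = B.unif * v := by
    obtain ⟨u, hu, -⟩ := (levelSetup B hA hM H hH hpM hR hB D hDc ζ hζ).p_eq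
    obtain ⟨k, hk⟩ : ∃ k, (levelSetup B hA hM H hH hpM hR hB D hDc ζ hζ).v = k + 1 :=
      ⟨_, (Nat.succ_pred_eq_of_pos (levelSetup B hA hM H hH hpM hR hB D hDc ζ hζ).one_le).symm⟩
    exact ⟨B.unif ^ k * u, by rw [hu, hk, pow_succ']; ring⟩
  let I : Inputs (levelData p A hA hM) (B.funField (p * M)) (inertiaFun A (p * M)) B.unif B.unifW p
      (levelSetup B hA hM H hH hpM hR hB D hDc ζ hζ) :=
    { N₁ := AtP.levelContract₁ p A hA hM B.base (inertiaField A) B.unif v hv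
      N₂ := AtP.levelContract₂ p A hA hM B.base (inertiaField A) B.unif v hv
      e := ℓ + 1
      T₁ := AtP.levelHecke₁ p A hA hM B.base (inertiaField A) B.unif v hv hℓ
      T₂ := AtP.levelHecke₂ p A hA hM B.base (inertiaField A) B.unif v hv hℓ
      hecke_eq := AtP.conjHom_heckeNorm hM hlp hℓ ℚbar
      Rep := {f | IsRep hd B.base S W.apOfModel f}
      rep_mem := fun f hf => IsRep.mem hd hf
      rep_hecke := fun f hf => IsRep.hecke hd hℓ hℓN hℓS hf
      rep_pow := fun f hf G hG hG0 => IsRep.mul_pth_pow hd hf hG hG0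
      rep_smul := fun f hf c hc0 hc => IsRep.smul hd hf hc0 hc
      ident₁ := fun f hf => (IsRep.ident hd hN hM hMS hno hf).1
      ident₂ := fun f hf => (IsRep.ident hd hN hM hMS hno hf).2
      slope := hslope
      residual₁ := fun f hf => (hres f hf).1
      residual₂ := fun f hf => (hres f hf).2 }
  have hζW : (scalarTwist hσ B hσS).σ (algebraMap B.int B.W ζ) = algebraMap B.int B.W ζ ^ w := by
    rw [scalarTwist_algebraMap, ← map_pow]
    exact congrArg _ (Subtype.ext ((coe_intTwist hσ B hσS ζ).trans hσζ))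
  intro f hf
  obtain ⟨t, Φ, -, hG, hΦ⟩ := I.exists_twist_root (levelTwist hA hM hσ B hσS) hw
    (fun i n c r T₁ T₂ eX eY =>
      levelNode_twist B hA hM H hH hpM hR hB D hDc hσ hσS i hζW n c r T₁ T₂ eX eY) hf
  exact ⟨t, Φ, hG, hΦ⟩

end FermatAgent.MazurPrinciple

end
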