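import Fermat.Agent.MazurPrinciple.Lift

/-!
# Rational structures on spaces spanned by rational elements

If a space of sections is spanned by elements of a discretely valued field of definition `E`, every
reduction is the reduction of an integral element of `E`: iterated division by the uniformiser and
preservation of dimensions under reduction replace completeness.
-/

set_option autoImplicit false
set_option linter.unusedSectionVars false

noncomputable section

open AlgebraicCurve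

namespace FermatAgent.MazurPrinciple

open FermatAgent.Curve FermatAgent.Curve.RR BadRed.Semistable

variable {K : Type*} [Field K] [IsAlgClosed K] {A : ValuationSubring K} {k : Type*}
    [Field k] [IsAlgClosed k] {π : A →+* k} {F F₁ F₂ : Type*} [Field F] [Field F₁] [Field F₂]
    [Algebra K F] [Algebra k F₁] [Algebra k F₂] [IsFunctionField1 K F] [IsFunctionField1 k F₁]
    [IsFunctionField1 k F₂] [RRSetting K F] [RRSetting k F₁] [RRSetting k F₂]

/-- The field of definition of a rational structure. -/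
structure RationalBase (d : NodalDatum A π F F₁ F₂) (E : Subfield F) (ϖ : A) : Prop where
  unif_ne_zero : (ϖ : K) ≠ 0
  pi_unif : π ϖ = 0
  unif_mem : algebraMap K F (ϖ : K) ∈ E
  arch : ∀ δ : K, δ ≠ 0 → ∃ R : ℕ, δ / (ϖ : K) ^ R ∉ A
  scalar : ∀ c : k, ∃ a : A, algebraMap K F (a : K) ∈ E ∧ π a = c
  div₁ : ∀ x ∈ E, ∀ h : x ∈ d.g₁.integers, d.g₁.red ⟨x, h⟩ = 0 →
    ∃ y ∈ d.g₁.integers, x = (ϖ : K) • y
  div₂ : ∀ x ∈ E, ∀ h : x ∈ d.g₂.integers, d.g₂.red ⟨x, h⟩ = 0 →
    ∃ y ∈ d.g₂.integers, x = (ϖ : K) • y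
  exists_int : ∀ x ∈ E, ∃ m : ℕ, (ϖ : K) ^ m • x ∈ d.int

variable {d : NodalDatum A π F F₁ F₂} {E : Subfield F} {ϖ : A} (H : RationalBase d E ϖ)
include H

theorem RationalBase.smul_mem {x : F} (hx : x ∈ E) : (ϖ : K) • x ∈ E := by
  rw [Algebra.smul_def]; exact E.mul_mem H.unif_mem hx

theorem RationalBase.mem_of_smul_mem {y : F} (hy : (ϖ : K) • y ∈ E) : y ∈ E := by
  rw [Algebra.smul_def] at hy
  have h0 : algebraMap K F (ϖ : K) ≠ 0 := (map_ne_zero _).mpr H.unif_ne_zero
  rw [← inv_mul_cancel_left₀ h0 y]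
  exact E.mul_mem (E.inv_mem H.unif_mem) hy

theorem RationalBase.div {x : F} (hxE : x ∈ E) (hx : x ∈ d.int) (h0 : d.red ⟨x, hx⟩ = 0) :
    ∃ y ∈ d.int, y ∈ E ∧ x = (ϖ : K) • y := by
  rw [d.red_mk hx, Prod.mk_eq_zero] at h0
  obtain ⟨y, hy, e⟩ := H.div₁ x hxE hx.1 h0.1
  obtain ⟨y', hy', e'⟩ := H.div₂ x hxE hx.2 h0.2
  obtain rfl : y = y' := smul_right_injective F H.unif_ne_zero (e.symm.trans e')
  exact ⟨y, ⟨hy, hy'⟩, H.mem_of_smul_mem (e ▸ hxE), e⟩

/-- Reductions lift to the field of definition. -/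
theorem RationalBase.exists_lift {n : ℕ} (hn : d.N₀ ≤ n) (V : Submodule K F)
    (hV : V ≤ riemannRochSpace (n • d.D))
    (hspan : V ≤ Submodule.span K {x : F | x ∈ V ∧ x ∈ E}) :
    ∀ p ∈ d.redImage V, ∃ (f : F) (h : f ∈ d.int), f ∈ E ∧ f ∈ V ∧ d.red ⟨f, h⟩ = p := by
  classical
  let W₀ : Submodule k (F₁ × F₂) :=
    { carrier := {p | ∃ (f : F) (h : f ∈ d.int), f ∈ E ∧ f ∈ V ∧ d.red ⟨f, h⟩ = p}
      zero_mem' := ⟨0, zero_mem _, zero_mem _, zero_mem _, map_zero _⟩
      add_mem' := by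
        rintro _ _ ⟨f, hf, hfE, hfV, rfl⟩ ⟨g, hg, hgE, hgV, rfl⟩
        exact ⟨f + g, add_mem hf hg, add_mem hfE hgE, add_mem hfV hgV, d.red_add hf hg⟩
      smul_mem' := by
        rintro c _ ⟨f, hf, hfE, hfV, rfl⟩
        obtain ⟨a, ha, rfl⟩ := H.scalar c
        refine ⟨(a : K) • f, d.smul_mem a.2 hf, ?_, V.smul_mem _ hfV, d.red_smul a.2 hf⟩
        rw [Algebra.smul_def]; exact E.mul_mem ha hfE }
  intro p hp
  show p ∈ W₀
  have hle : W₀ ≤ d.redImage V := by
    rintro _ ⟨f, hf, -, hfV, rfl⟩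
    exact ⟨f, hf, hfV, rfl⟩
  have hfinV : Module.Finite k (d.redImage V) := by
    rcases Nat.eq_zero_or_pos (Module.finrank k (d.redImage V)) with h | h
    · have := d.finite_of_le hV
      rw [d.finrank_redImage hn V hV, Submodule.finrank_eq_zero] at h
      subst h
      have : d.redImage (⊥ : Submodule K F) = ⊥ := by
        rw [eq_bot_iff]
        rintro _ ⟨f, hf, hf0, rfl⟩
        obtain rfl : f = 0 := (Submodule.mem_bot K).mp hf0
        exact map_zero d.red
      rw [this]; infer_instance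
    · exact Module.finite_of_finrank_pos h
  have : Module.Finite k W₀ := Submodule.finiteDimensional_of_le hle
  let e := Module.finBasis k W₀
  choose F₀ hF₀ hF₀E hF₀V hF₀r using fun i => (e i).2
  have hli : LinearIndependent k fun i => d.red ⟨F₀ i, hF₀ i⟩ := by
    simp only [hF₀r]
    exact e.linearIndependent.map' W₀.subtype (Submodule.ker_subtype _)
  have hW₀ : ∀ q ∈ W₀, ∃ c : _ → k, ∑ i, c i • d.red ⟨F₀ i, hF₀ i⟩ = q := fun q hq => by
    refine ⟨e.equivFun ⟨q, hq⟩, ?_⟩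
    have h := congrArg Subtype.val (e.sum_equivFun ⟨q, hq⟩)
    rw [Submodule.coe_sum] at h
    simp only [Submodule.coe_smul] at h
    simp only [hF₀r]
    exact h
  -- rational elements are combinations of the lifts
  have key : ∀ g : F, g ∈ E → g ∈ V → g ∈ d.int → g ∈ Submodule.span K (Set.range F₀) := by
    intro g hgE hgV hg
    by_contra hns
    have happ : ∀ R : ℕ, ∃ (a : Fin (Module.finrank k W₀) → A) (g' : F), g' ∈ d.int ∧ g' ∈ E ∧ g' ∈ V ∧
        g = ∑ i, ((a i : A) : K) • F₀ i + (ϖ : K) ^ R • g' := by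
      intro R
      induction R with
      | zero => exact ⟨0, g, hg, hgE, hgV, by simp⟩
      | succ R ih =>
        obtain ⟨a, g', hg', hg'E, hg'V, eg⟩ := ih
        obtain ⟨c, hc⟩ := hW₀ _ (show d.red ⟨g', hg'⟩ ∈ W₀ from ⟨g', hg', hg'E, hg'V, rfl⟩)
        choose b hbE hbπ using fun i => H.scalar (c i)
        set x := g' - ∑ i, ((b i : A) : K) • F₀ i with hx
        have hsum := d.sum_mem_int Finset.univ b F₀ fun i _ => hF₀ i
        have hxi : x ∈ d.int := sub_mem hg' hsum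
        have hxE : x ∈ E := sub_mem hg'E (sum_mem fun i _ => by
          rw [Algebra.smul_def]; exact E.mul_mem (hbE i) (hF₀E i))
        obtain ⟨y, hy, hyE, exy⟩ := H.div hxE hxi (by
          rw [show (⟨x, hxi⟩ : d.int) = ⟨g', hg'⟩ - ⟨_, hsum⟩ from rfl, map_sub, d.red_sum b F₀ hF₀,
            sub_eq_zero, ← hc]
          simp only [hbπ])
        have hyV : y ∈ V := by
          have hxV : x ∈ V := sub_mem hg'V (sum_mem fun i _ => V.smul_mem _ (hF₀V i))
          rw [exy] at hxV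
          exact (Submodule.smul_mem_iff V H.unif_ne_zero).mp hxV
        refine ⟨fun i => a i + ϖ ^ R * b i, y, hy, hyE, hyV, ?_⟩
        rw [eg, pow_succ, mul_smul, ← exy, hx, smul_sub, Finset.smul_sum]
        simp only [MulMemClass.coe_mul, AddMemClass.coe_add, SubmonoidClass.coe_pow, add_smul,
          mul_smul, Finset.sum_add_distrib]
        abel
    set U := Submodule.span K (Set.range (Fin.snoc F₀ g : Fin (Module.finrank k W₀ + 1) → F))
    have hsn : ∀ i, (Fin.snoc F₀ g : Fin (Module.finrank k W₀ + 1) → F) i ∈ V := Fin.lastCases (by simpa using hgV)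
      (fun i => by simpa using hF₀V i)
    have hUle : U ≤ V := Submodule.span_le.mpr (by rintro _ ⟨i, rfl⟩; exact hsn i)
    have hdim : Module.finrank K U = Module.finrank k W₀ + 1 := by
      rw [finrank_span_eq_card, Fintype.card_fin]
      exact (linearIndependent_finSnoc).mpr ⟨d.linearIndependent_of_red F₀ hF₀ hli, hns⟩
    obtain ⟨q, hqU, hqW⟩ : ∃ q ∈ d.redImage U, q ∉ W₀ := by
      by_contra! h
      have h1 := Submodule.finrank_mono (s := d.redImage U) (t := W₀) h
      rw [d.finrank_redImage hn U (hUle.trans hV), hdim] at h1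
      omega
    obtain ⟨f, hf, hfU, rfl⟩ := hqU
    obtain ⟨c, hc⟩ := (Submodule.mem_span_range_iff_exists_fun K).mp hfU
    rw [Fin.sum_univ_castSucc] at hc
    simp only [Fin.snoc_castSucc, Fin.snoc_last] at hc
    set α := c (Fin.last (Module.finrank k W₀))
    by_cases hα : α = 0
    · rw [hα, zero_smul, add_zero] at hc
      have hγ := d.coeff_mem F₀ hF₀ hli _ (hc ▸ hf)
      refine hqW ?_
      let γ : Fin (Module.finrank k W₀) → A := fun i => ⟨_, hγ i⟩
      have hr := d.red_sum γ F₀ hF₀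
      rw [d.red_congr (show ∑ i, ((γ i : A) : K) • F₀ i = f from hc)] at hr
      rw [hr]
      exact W₀.sum_mem fun i _ => W₀.smul_mem _ ⟨F₀ i, hF₀ i, hF₀E i, hF₀V i, rfl⟩
    · obtain ⟨R', hR'⟩ := H.arch α⁻¹ (inv_ne_zero hα)
      refine hqW ?_
      obtain ⟨a, g', hg', -, -, eg⟩ := happ R'
      have hinv : (α⁻¹ / (ϖ : K) ^ R')⁻¹ = α * (ϖ : K) ^ R' := by
        rw [inv_div, div_inv_eq_mul, mul_comm]
      have hmem := inv_mem_of_not_mem hR'
      set w : A := ⟨α * (ϖ : K) ^ R', hinv ▸ hmem⟩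
      have hw : π w = 0 := by
        rw [show w = ⟨_, hmem⟩ from Subtype.ext hinv.symm]
        exact pi_inv_of_not_mem d.residue_surjective hR'
      have hrest : ∑ i, (c i.castSucc + α * ((a i : A) : K)) • F₀ i = f - (w : K) • g' := by
        rw [← hc, eg, smul_add, Finset.smul_sum]
        simp only [add_smul, mul_smul, Finset.sum_add_distrib, w]
        abel
      have hwg : (w : K) • g' ∈ d.int := d.smul_mem w.2 hg'
      have hγ := d.coeff_mem F₀ hF₀ hli _ (hrest ▸ sub_mem hf hwg)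
      let γ : Fin (Module.finrank k W₀) → A := fun i => ⟨_, hγ i⟩
      have efw : (⟨f, hf⟩ : d.int) =
          ⟨_, d.sum_mem_int Finset.univ γ F₀ fun i _ => hF₀ i⟩ + ⟨_, hwg⟩ :=
        Subtype.ext (eq_add_of_sub_eq hrest.symm)
      rw [efw, map_add, d.red_sum γ F₀ hF₀, d.red_smul w.2 hg',
        show (⟨(w : K), w.2⟩ : A) = w from rfl, hw, zero_smul, add_zero]
      exact W₀.sum_mem fun i _ => W₀.smul_mem _ ⟨F₀ i, hF₀ i, hF₀E i, hF₀V i, rfl⟩
  have hVF : V ≤ Submodule.span K (Set.range F₀) := hspan.trans (Submodule.span_le.mpr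
    fun g ⟨hgV, hgE⟩ => by
      obtain ⟨m, hm⟩ := H.exists_int g hgE
      have hE : ∀ j : ℕ, (ϖ : K) ^ j • g ∈ E := fun j => by
        induction j with
        | zero => simpa using hgE
        | succ j ih => rw [pow_succ', mul_smul]; exact H.smul_mem ih
      exact (Submodule.smul_mem_iff _ (pow_ne_zero m H.unif_ne_zero)).mp
        (key _ (hE m) (V.smul_mem _ hgV) hm))
  obtain ⟨f, hf, hfV, rfl⟩ := hp
  obtain ⟨c, hc⟩ := (Submodule.mem_span_range_iff_exists_fun K).mp (hVF hfV)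
  have hγ := d.coeff_mem F₀ hF₀ hli c (hc ▸ hf)
  let γ : Fin (Module.finrank k W₀) → A := fun i => ⟨_, hγ i⟩
  have hr := d.red_sum γ F₀ hF₀
  rw [d.red_congr (show ∑ i, ((γ i : A) : K) • F₀ i = f from hc)] at hr
  rw [hr]
  exact W₀.sum_mem fun i _ => W₀.smul_mem _ ⟨F₀ i, hF₀ i, hF₀E i, hF₀V i, rfl⟩

/-- The rational structure on a space spanned by rational elements. -/
theorem RationalBase.exists_structure {n : ℕ} (hn : d.N₀ ≤ n) (V : Submodule K F)
    (hV : V ≤ riemannRochSpace (n • d.D))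
    (hspan : V ≤ Submodule.span K {x : F | x ∈ V ∧ x ∈ E}) :
    ∃ S : RationalStructure d ϖ V, ∀ x, x ∈ S.carrier ↔ x ∈ E :=
  ⟨{ carrier := E.toSubring.toAddSubgroup
     smul_mem := fun _ hx => H.smul_mem hx
     div₁ := fun x hx h h0 => by
       obtain ⟨y, hy, e⟩ := H.div₁ x hx h h0
       exact ⟨y, H.mem_of_smul_mem (e ▸ hx), hy, e⟩
     div₂ := fun x hx h h0 => by
       obtain ⟨y, hy, e⟩ := H.div₂ x hx h h0
       exact ⟨y, H.mem_of_smul_mem (e ▸ hx), hy, e⟩
     lift := fun p hp => by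
       obtain ⟨f, h, hfE, hfV, e⟩ := H.exists_lift hn V hV hspan p hp
       exact ⟨f, h, hfE, hfV, e⟩ }, fun _ => Iff.rfl⟩

end FermatAgent.MazurPrinciple
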