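import Fermat.Agent.MazurPrinciple.Bridge
import Fermat.Agent.MazurPrinciple.PlaneRep
import Fermat.Agent.BadRed.AtP.Classes
import Fermat.Agent.BadRed.AtP.UpTransfer

/-!
# Functions representing eigen classes over a field of constants

`IsRep hd C S a f`: `f` of level `p M` is a constant times a function `f₀` of level `p N` over `C`
times a `p`-th power, where `f₀` has divisor `p D` with the class of `D` in the eigen part of
`J₀(p N)[p]`. These sets are stable under `T ℓ` divided by powers and satisfy the two fixed point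
equations when the system is absent at level `N`.
-/

set_option autoImplicit false
set_option linter.unusedSectionVars false

noncomputable section

namespace FermatAgent.MazurPrinciple

open AlgebraicCurve ModularCurve IntermediateField
open FermatAgent.Curve (divisorOf IsFunctionField1)
open FermatAgent.ModCurveTorsion (galN coe_galN_smul)
open FermatAgent.BadRed
open FermatAgent.ModFun FermatAgent.ES

local notation "Qb" => AlgebraicClosure ℚ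
local notation "GQ" => AlgebraicClosure ℚ ≃ₐ[ℚ] AlgebraicClosure ℚ
local notation "𝐅" N:max => laurentBaseChange Qb (modularFunctionFieldFull N)

attribute [local instance] ModCurveTorsion.isFunctionField1_laurent RT.isGalois_algClosureRat

variable {p : ℕ} [hp : Fact p.Prime] {N M : ℕ} [NeZero N] [NeZero M] [NeZero (p * N)]
  [NeZero (p * M)] (hd : N ∣ M)
variable (C : IntermediateField ℚ Qb) (S : Set ℕ) (a : ℕ → ℤ)

/-- Functions representing eigen classes. -/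
def IsRep (f : 𝐅 (p * M)) : Prop :=
  ∃ (D : Divisor.degZero (K := Qb) (F := 𝐅 (p * N))) (f₀ : 𝐅 (p * N)) (c : Qb) (G : 𝐅 (p * M)),
    f₀ ∈ fixedFun C (p * N) ∧ f₀ ≠ 0 ∧ p • (D : Divisor Qb (𝐅 (p * N))) = divisorOf f₀ ∧
      Pic0.mk D ∈ eigenGroup (p * N) S a p ∧ c ∈ C ∧ c ≠ 0 ∧
      G ∈ fixedFun C (p * M) ∧ G ≠ 0 ∧ f = c • (AtP.upLevel hd Qb f₀ * G ^ p)

theorem smul_mem_fixedFun {L : ℕ} [NeZero L] {c : Qb} (hc : c ∈ C) {x : 𝐅 L}
    (hx : x ∈ fixedFun C L) : c • x ∈ fixedFun C L := by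
  rw [Algebra.smul_def]
  exact mul_mem (algebraMap_mem_fixedFun.mpr hc) hx

theorem normAlong_smul_mul_pow {K A B : Type*} [Field K] [Field A] [Field B] [Algebra K A]
    [Algebra K B] (φ : A →ₐ[K] B) (c : K) (u G : B) (n : ℕ) :
    normAlong φ (c • (u * G ^ n)) =
      (c ^ finrankAlong K φ) • (normAlong φ u * normAlong φ G ^ n) := by
  let := algebraAlong φ
  have := isScalarTower_along φ
  show Algebra.norm A (c • (u * G ^ n)) = _
  rw [Algebra.smul_def, Algebra.smul_def, IsScalarTower.algebraMap_apply K A B, map_mul, map_mul,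
    map_pow, Algebra.norm_algebraMap, map_pow]
  rfl

theorem divisorOf_pow {K F : Type*} [Field K] [IsAlgClosed K] [Field F] [Algebra K F]
    [IsFunctionField1 K F] (a : F) (n : ℕ) :
    divisorOf (K := K) (a ^ n) = n • divisorOf a :=
  Finsupp.ext fun v => by
    rw [Finsupp.smul_apply, Curve.divisorOf_apply, Curve.divisorOf_apply, Curve.ord_pow',
      nsmul_eq_mul]

variable {C S a}

/-- The divisor of a root is fixed with the function. -/
theorem galN_smul_eq_of_nsmul {L : ℕ} [NeZero L] {P : ℕ} (hP : P ≠ 0) {D : Divisor Qb (𝐅 L)}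
    {f : 𝐅 L} (hfD : P • D = divisorOf f) (hf : f ∈ fixedFun C L) {σ : GQ}
    (hσ : σ ∈ C.fixingSubgroup) : galN L σ • D = D := by
  have h : P • (galN L σ • D) = P • D := by
    rw [smul_comm, hfD, ModCurveTorsion.smul_divisorOf, hf σ hσ]
  exact Finsupp.ext fun v => by
    have := DFunLike.congr_fun h v
    simp only [Finsupp.smul_apply, nsmul_eq_mul] at this
    exact mul_left_cancel₀ (Nat.cast_ne_zero.mpr hP) this

theorem IsRep.mem {f : 𝐅 (p * M)} (h : IsRep hd C S a f) :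
    f ∈ fixedFun C (p * M) ∧ f ≠ 0 ∧ ∀ v : Place Qb (𝐅 (p * M)), (p : ℤ) ∣ v.ord f := by
  obtain ⟨D, f₀, c, G, hf₀, hf₀0, hfD, -, hc, hc0, hG, hG0, rfl⟩ := h
  have hu : AtP.upLevel (p := p) hd Qb f₀ ≠ 0 :=
    (map_ne_zero_iff _ (AtP.upLevel (p := p) hd Qb).toRingHom.injective).mpr hf₀0
  refine ⟨smul_mem_fixedFun C hc (mul_mem (AtP.upLevel_mem_fixedFun hd hf₀) (pow_mem hG _)),
    smul_ne_zero hc0 (mul_ne_zero hu (pow_ne_zero _ hG0)), fun v => ?_⟩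
  rw [Algebra.smul_def, v.ord_mul ((map_ne_zero _).mpr hc0) (mul_ne_zero hu (pow_ne_zero _ hG0)),
    Curve.RR.ord_algebraMap v hc0, zero_add, v.ord_mul hu (pow_ne_zero _ hG0), Curve.ord_pow',
    v.ord_restrictAlong (AtP.upLevel (p := p) hd Qb) (Curve.isIntegralAlong _)]
  refine dvd_add (Dvd.dvd.mul_left ?_ _) (dvd_mul_right _ _)
  have h1 := DFunLike.congr_fun hfD (v.restrictAlong (AtP.upLevel (p := p) hd Qb)
    (Curve.isIntegralAlong _))
  rw [Finsupp.smul_apply, nsmul_eq_mul, Curve.divisorOf_apply] at h1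
  exact ⟨_, h1.symm⟩

theorem IsRep.mul_pth_pow {f G : 𝐅 (p * M)} (h : IsRep hd C S a f) (hG : G ∈ fixedFun C (p * M))
    (hG0 : G ≠ 0) : IsRep hd C S a (f * G ^ p) := by
  obtain ⟨D, f₀, c, G', hf₀, hf₀0, hfD, hx, hc, hc0, hG', hG'0, rfl⟩ := h
  exact ⟨D, f₀, c, G' * G, hf₀, hf₀0, hfD, hx, hc, hc0, mul_mem hG' hG, mul_ne_zero hG'0 hG0,
    by rw [smul_mul_assoc, mul_pow, mul_assoc]⟩

theorem IsRep.smul {f : 𝐅 (p * M)} (h : IsRep hd C S a f) {c : Qb} (hc0 : c ≠ 0)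
    (hc : algebraMap Qb (𝐅 (p * M)) c ∈ fixedFun C (p * M)) : IsRep hd C S a (c • f) := by
  obtain ⟨D, f₀, c', G', hf₀, hf₀0, hfD, hx, hc', hc'0, hG', hG'0, rfl⟩ := h
  exact ⟨D, f₀, c * c', G', hf₀, hf₀0, hfD, hx, mul_mem (algebraMap_mem_fixedFun.mp hc) hc',
    mul_ne_zero hc0 hc'0, hG', hG'0, smul_smul c c' _⟩

theorem isRep_upLevel {D : Divisor.degZero (K := Qb) (F := 𝐅 (p * N))} {f₀ : 𝐅 (p * N)}
    (hf₀ : f₀ ∈ fixedFun C (p * N)) (hf₀0 : f₀ ≠ 0)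
    (hfD : p • (D : Divisor Qb (𝐅 (p * N))) = divisorOf f₀)
    (hx : Pic0.mk D ∈ eigenGroup (p * N) S a p) : IsRep hd C S a (AtP.upLevel hd Qb f₀) :=
  ⟨D, f₀, 1, 1, hf₀, hf₀0, hfD, hx, one_mem _, one_ne_zero, one_mem _, one_ne_zero,
    by rw [one_pow, mul_one, one_smul]⟩

variable (N) in
/-- A fixed eigen class has a representative over the field of constants. -/
theorem exists_fixed_rep {x : JZero (p * N)} (hpx : p • x = 0)
    (hfix : ∀ σ ∈ C.fixingSubgroup, σ • x = x) :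
    ∃ (D : Divisor.degZero (K := Qb) (F := 𝐅 (p * N))) (f₀ : 𝐅 (p * N)), Pic0.mk D = x ∧
      f₀ ∈ fixedFun C (p * N) ∧ f₀ ≠ 0 ∧ p • (D : Divisor Qb (𝐅 (p * N))) = divisorOf f₀ := by
  have := FermatAgent.Curve.instHasPrincipalDivisors (K := Qb) (F := 𝐅 (p * N))
  obtain ⟨D, hDx, hD⟩ := Carayol.exists_fixed_divisor_of (p * N) (C.fixingSubgroup : Set GQ) x hfix
  subst hDx
  rw [← AtP.pic0_mk_nsmul] at hpx
  obtain ⟨f, hf, hfD⟩ :=
    AddSubgroup.mem_addSubgroupOf.mp ((QuotientAddGroup.eq_zero_iff _).mp hpx)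
  obtain ⟨g, hg, hgD, hgfix⟩ := Carayol.exists_fixed_fun_of (p * N) (C.fixingSubgroup : Set GQ)
    (D := p • (D : Divisor Qb (𝐅 (p * N)))) (fun σ hσ => by rw [smul_comm, hD σ hσ]) hf
    (Finsupp.ext hfD)
  exact ⟨D, g, rfl, hgfix, hg, hgD⟩

section Hecke

variable {ℓ : ℕ} [hℓ : Fact ℓ.Prime] [NeZero (ℓ * (p * N))] [NeZero (ℓ * (p * M))]
  (hℓN : ℓ.Coprime (p * N)) (hℓM : ℓ.Coprime (p * M))

include hℓN in
/-- The class of `T f₀ / f₀ ^ (ℓ + 1)`. -/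
theorem exists_hecke_divisor (hℓS : ℓ ∉ S) {D : Divisor.degZero (K := Qb) (F := 𝐅 (p * N))}
    {f₀ : 𝐅 (p * N)} (hf₀ : f₀ ∈ fixedFun C (p * N)) (hf₀0 : f₀ ≠ 0)
    (hfD : p • (D : Divisor Qb (𝐅 (p * N))) = divisorOf f₀)
    (hx : Pic0.mk D ∈ eigenGroup (p * N) S a p) :
    ∃ D' : Divisor.degZero (K := Qb) (F := 𝐅 (p * N)),
      AtP.heckeNorm Qb hℓN f₀ / f₀ ^ (ℓ + 1) ∈ fixedFun C (p * N) ∧
      AtP.heckeNorm Qb hℓN f₀ / f₀ ^ (ℓ + 1) ≠ 0 ∧
      p • (D' : Divisor Qb (𝐅 (p * N))) =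
        divisorOf (AtP.heckeNorm Qb hℓN f₀ / f₀ ^ (ℓ + 1)) ∧
      Pic0.mk D' = (a ℓ - ((ℓ : ℤ) + 1)) • Pic0.mk D := by
  have := FermatAgent.Curve.instHasPrincipalDivisors (K := Qb) (F := 𝐅 (p * N))
  have : NeZero ℓ := ⟨hℓ.out.ne_zero⟩
  obtain ⟨ζ, hζ⟩ := HasEnoughRootsOfUnity.exists_primitiveRoot Qb ℓ
  have hζu : IsPrimitiveRoot (hζ.isUnit hℓ.out.ne_zero).unit ℓ :=
    IsPrimitiveRoot.coe_units_iff.mp (by rw [IsUnit.unit_spec]; exact hζ)
  have hlN : ¬ ℓ ∣ p * N := hℓ.out.coprime_iff_not_dvd.mp hℓN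
  have hT : AtP.heckeNorm Qb hℓN f₀ = ModCurveTorsion.heckeNorm Qb (p * N) ℓ f₀ :=
    (torsion_heckeNorm_eq hℓN f₀).symm
  have hT0 : AtP.heckeNorm Qb hℓN f₀ ≠ 0 := by
    rw [hT]; exact ModCurveTorsion.heckeNorm_ne_zero Qb (p * N) ℓ hf₀0
  let TD : Divisor.degZero (K := Qb) (F := 𝐅 (p * N)) :=
    ⟨ModCurveTorsion.heckeDiv Qb (p * N) ℓ D,
      ModCurveTorsion.heckeDiv_mem_degZero Qb (p * N) ℓ D.2⟩
  refine ⟨TD - (ℓ + 1) • D, (fixedFun C _).div_mem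
    (AtP.heckeNorm_mem_fixedFun C hℓN hζu hf₀) (pow_mem hf₀ _),
    div_ne_zero hT0 (pow_ne_zero _ hf₀0), ?_, ?_⟩
  · have h1 : p • (TD : Divisor Qb (𝐅 (p * N))) = divisorOf (AtP.heckeNorm Qb hℓN f₀) := by
      show p • ModCurveTorsion.heckeDiv Qb (p * N) ℓ D = _
      rw [← map_nsmul, hfD, ModCurveTorsion.heckeDiv_divisorOf Qb (p * N) ℓ hf₀0, hT]
    rw [AddSubgroup.coe_sub, AddSubmonoidClass.coe_nsmul, smul_sub, h1, smul_comm, hfD,
      ← divisorOf_pow]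
    ext v
    rw [Finsupp.sub_apply, Curve.divisorOf_apply, Curve.divisorOf_apply, Curve.divisorOf_apply,
      Curve.ord_div v hT0 (pow_ne_zero _ hf₀0)]
  · have h2 := hx.2 ℓ hℓ.out hlN hℓS
    rw [heckeAt_prime _ hℓ.out] at h2
    replace h2 : heckeOperatorAlong Qb (p * N) ℓ (Pic0.mk D) = a ℓ • Pic0.mk D := h2
    rw [AtP.pic0_mk_sub, AtP.pic0_mk_nsmul,
      ← ModCurveTorsion.heckeOperatorAlong_mk Qb (p * N) ℓ D, h2, sub_smul, ← natCast_zsmul]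
    push_cast
    rfl

include hℓM in
theorem heckeNorm_smul_mul_pow (hℓN : ℓ.Coprime (p * N)) (c : Qb) (f₀ : 𝐅 (p * N))
    (G : 𝐅 (p * M)) :
    AtP.heckeNorm Qb hℓM (c • (AtP.upLevel hd Qb f₀ * G ^ p)) =
      c ^ (ℓ + 1) • (AtP.upLevel hd Qb (AtP.heckeNorm Qb hℓN f₀) *
        AtP.heckeNorm Qb hℓM G ^ p) := by
  have : NeZero ℓ := ⟨hℓ.out.ne_zero⟩
  obtain ⟨ζ, hζ⟩ := HasEnoughRootsOfUnity.exists_primitiveRoot Qb ℓ
  have hζu : IsPrimitiveRoot (hζ.isUnit hℓ.out.ne_zero).unit ℓ :=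
    IsPrimitiveRoot.coe_units_iff.mp (by rw [IsUnit.unit_spec]; exact hζ)
  rw [Algebra.smul_def, Algebra.smul_def, map_mul, AtP.heckeNorm_algebraMap hℓM hζu, map_mul,
    map_pow]
  congr 2
  · rw [upLevel_eq_upBase, upLevel_eq_upBase,
      heckeNorm_upBase hℓN hℓM (Nat.mul_dvd_mul_left p hd) hζu]
  · exact map_pow _ _ _

include hℓM in
theorem IsRep.hecke (hℓN : ℓ.Coprime (p * N)) (hℓS : ℓ ∉ S) {f : 𝐅 (p * M)}
    (h : IsRep hd C S a f) : IsRep hd C S a (AtP.heckeNorm Qb hℓM f / f ^ (ℓ + 1)) := by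
  have : NeZero ℓ := ⟨hℓ.out.ne_zero⟩
  obtain ⟨ζ, hζ⟩ := HasEnoughRootsOfUnity.exists_primitiveRoot Qb ℓ
  have hζu : IsPrimitiveRoot (hζ.isUnit hℓ.out.ne_zero).unit ℓ :=
    IsPrimitiveRoot.coe_units_iff.mp (by rw [IsUnit.unit_spec]; exact hζ)
  obtain ⟨D, f₀, c, G, hf₀, hf₀0, hfD, hx, hc, hc0, hG, hG0, rfl⟩ := h
  obtain ⟨D', hF, hF0, hD', hcl⟩ := exists_hecke_divisor hℓN hℓS hf₀ hf₀0 hfD hx
  have hx' : Pic0.mk D' ∈ eigenGroup (p * N) S a p := by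
    rw [hcl]; exact zsmul_mem hx _
  have hTG : AtP.heckeNorm Qb hℓM G ≠ 0 := fun e => by
    have := congrArg (AtP.heckeNorm Qb hℓM) (mul_inv_cancel₀ hG0)
    rw [map_mul, e, zero_mul, map_one] at this
    exact zero_ne_one this
  refine ⟨D', _, 1, AtP.heckeNorm Qb hℓM G / G ^ (ℓ + 1), hF, hF0, hD', hx', one_mem _,
    one_ne_zero, (fixedFun C _).div_mem (AtP.heckeNorm_mem_fixedFun C hℓM hζu hG) (pow_mem hG _),
    div_ne_zero hTG (pow_ne_zero _ hG0), ?_⟩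
  rw [heckeNorm_smul_mul_pow hd hℓM hℓN, one_smul, map_div₀ (AtP.upLevel (p := p) hd Qb),
    map_pow (AtP.upLevel (p := p) hd Qb), Algebra.smul_def, Algebra.smul_def, mul_pow, mul_pow,
    div_pow, ← pow_mul, ← pow_mul, map_pow, mul_comm p (ℓ + 1), mul_div_mul_left,
    mul_div_mul_comm]
  exact pow_ne_zero _ ((map_ne_zero _).mpr hc0)

end Hecke

section Ident

variable (hN : p.Coprime N) (hM : p.Coprime M)
variable (hMS : ∀ q : ℕ, q.Prime → q ∣ p * N → q ∈ S) (hno : ¬ HasCongruentForm a p N S)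

include hMS hno in
/-- The push forwards kill the eigen part. -/
theorem push_eq_zero {x : JZero (p * N)} (hx : x ∈ eigenGroup (p * N) S a p) :
    AtP.pushOne p N x = 0 ∧ AtP.pushTwo hN x = 0 := by
  have hpS : p ∈ S := hMS p hp.out (dvd_mul_right p N)
  have hNS : ∀ q : ℕ, q.Prime → q ∣ N → q ∈ S := fun q hq h => hMS q hq (h.mul_left p)
  exact ⟨eigenGroup_eq_bot hNS hno
      (map_mem_eigenGroup _ (AtP.galois_smul_pushOne (p := p) (N := N)) hMS hpS hx),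
    eigenGroup_eq_bot hNS hno
      (map_mem_eigenGroup _ (AtP.galois_smul_pushTwo hN) hMS hpS hx)⟩

/-- A principal norm gives a root over the field of constants. -/
theorem exists_fixed_norm (φ : 𝐅 N →ₐ[Qb] 𝐅 (p * N))
    (hφ : ∀ (σ : GQ) (y : 𝐅 N), galN (p * N) σ • φ y = φ (galN N σ • y))
    {D : Divisor.degZero (K := Qb) (F := 𝐅 (p * N))} {f₀ : 𝐅 (p * N)}
    (hf₀ : f₀ ∈ fixedFun C (p * N)) (hf₀0 : f₀ ≠ 0)
    (hfD : p • (D : Divisor Qb (𝐅 (p * N))) = divisorOf f₀)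
    (h : Carayol.pushPic0 φ (Pic0.mk D) = 0) :
    ∃ (c : Qb) (g : 𝐅 N), g ≠ 0 ∧ g ∈ fixedFun C N ∧ normAlong φ f₀ = c • g ^ p := by
  obtain ⟨g₁, hg₁, hpush, hdiv⟩ := Carayol.norm_divisorOf_of_pushPic0 φ hf₀0 hfD h
  obtain ⟨g, hg, hgD, hgfix⟩ := Carayol.exists_fixed_fun_of N (C.fixingSubgroup : Set GQ)
    (D := Carayol.pushDiv φ (D : Divisor Qb (𝐅 (p * N)))) (fun σ hσ => by
      rw [Carayol.semilinear_pushDiv φ (galN N σ) (galN (p * N) σ) (hφ σ),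
        galN_smul_eq_of_nsmul hp.out.ne_zero hfD hf₀ hσ]) hg₁ hpush
  obtain ⟨c, hc⟩ := AtP.exists_eq_smul_of_divisorOf_eq (K := Qb)
    (Carayol.normAlongHom_ne_zero φ hf₀0) (pow_ne_zero p hg) (by
      rw [hdiv, divisorOf_pow, ← hpush, hgD])
  exact ⟨c, g, hg, hgfix, hc⟩

include hN hM hMS hno in
/-- Both norms of a representative are constants times `p`-th powers over the constants. -/
theorem IsRep.exists_norms {f : 𝐅 (p * M)} (h : IsRep hd C S a f) :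
    ∃ (κ κ' : Qb) (G G' : 𝐅 M), G ≠ 0 ∧ G ∈ fixedFun C M ∧ G' ≠ 0 ∧ G' ∈ fixedFun C M ∧
      normAlong (AtP.levelIncl p M Qb) f = κ • G ^ p ∧
      normAlong (AtP.levelIncl p M Qb) (atkinLehnerBar hM Qb f) = κ' • G' ^ p := by
  have : NeZero p := ⟨hp.out.ne_zero⟩
  obtain ⟨ζ, hζ⟩ := HasEnoughRootsOfUnity.exists_primitiveRoot Qb p
  have hu : IsPrimitiveRoot (hζ.isUnit hp.out.ne_zero).unit p :=
    IsPrimitiveRoot.coe_units_iff.mp (by rw [IsUnit.unit_spec]; exact hζ)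
  obtain ⟨D, f₀, c, G, hf₀, hf₀0, hfD, hx, hc, hc0, hG, hG0, rfl⟩ := h
  obtain ⟨h₁, h₂⟩ := push_eq_zero hN hMS hno hx
  obtain ⟨d₁, g₁, hg₁, hg₁E, e₁⟩ := exists_fixed_norm (AtP.levelIncl p N Qb)
    (fun σ y => (AtP.levelIncl_galN σ y).symm) hf₀ hf₀0 hfD h₁
  obtain ⟨d₂, g₂, hg₂, hg₂E, e₂⟩ := exists_fixed_norm (AtP.inclTwo hN)
    (fun σ y => by
      show galN (p * N) σ • atkinLehnerBar hN Qb (AtP.levelIncl p N Qb y) =
        atkinLehnerBar hN Qb (AtP.levelIncl p N Qb (galN N σ • y))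
      rw [AtP.levelIncl_galN, AtP.atkinLehnerBar_galN]) hf₀ hf₀0 hfD h₂
  have e₂' : normAlong (AtP.levelIncl p N Qb) (atkinLehnerBar hN Qb f₀) = d₂ • g₂ ^ p := by
    rw [← e₂, ← AtP.normAlong_comp_equiv (atkinLehnerBar hN Qb) (AtP.levelIncl p N Qb)
      (atkinLehnerBar hN Qb f₀), atkinLehnerBar_atkinLehnerBar]
    rfl
  have up_norm : ∀ {y : 𝐅 (p * N)} {g : 𝐅 N} {d : Qb},
      normAlong (AtP.levelIncl p N Qb) y = d • g ^ p →
      normAlong (AtP.levelIncl p M Qb) (AtP.upLevel hd Qb y) = d • AtP.upBase hd Qb g ^ p :=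
    fun {y g d} e => by
      rw [AtP.normAlong_upLevel hN hM hd hu, e, Algebra.smul_def, map_mul, map_pow,
        AlgHom.commutes, ← Algebra.smul_def]
  set i := AtP.levelIncl p M Qb
  have hfin : FiniteAlong Qb i := AtP.finiteAlong_levelIncl hM Qb
  have hne : ∀ z : 𝐅 (p * M), z ≠ 0 → normAlong i z ≠ 0 := fun z hz => by
    let := algebraAlong i
    have : FiniteDimensional (𝐅 M) (𝐅 (p * M)) := hfin
    exact Algebra.norm_ne_zero_iff.mpr hz
  have hmemN : ∀ z : 𝐅 (p * M), z ∈ fixedFun C (p * M) → z ≠ 0 → normAlong i z ∈ fixedFun C M := by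
    intro z hz hz0 σ hσ
    have hg := AtP.levelIncl_galN (p := p) (M := M) σ
    let := algebraAlong i
    let e₁ : 𝐅 M ≃+* 𝐅 M := SemilinearAut.toRingAut (galN M σ)
    let e₂ : 𝐅 (p * M) ≃+* 𝐅 (p * M) := SemilinearAut.toRingAut (galN (p * M) σ)
    have hn := Algebra.norm_eq_of_equiv_equiv e₁ e₂ (RingHom.ext fun x => hg x) z
    have he₂ : e₂ z = z := hz σ hσ
    show e₁ (normAlong i z) = normAlong i z
    conv_lhs => rw [show normAlong i z = Algebra.norm (𝐅 M) z from rfl, hn]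
    rw [RingEquiv.apply_symm_apply, he₂]
    rfl
  refine ⟨c ^ finrankAlong Qb i * d₁, c ^ finrankAlong Qb i * d₂,
    AtP.upBase hd Qb g₁ * normAlong i G,
    AtP.upBase hd Qb g₂ * normAlong i (atkinLehnerBar hM Qb G),
    mul_ne_zero ((map_ne_zero_iff _ (AtP.upBase hd Qb).toRingHom.injective).mpr hg₁) (hne _ hG0),
    mul_mem (AtP.upBase_mem_fixedFun hd hg₁E) (hmemN _ hG hG0),
    mul_ne_zero ((map_ne_zero_iff _ (AtP.upBase hd Qb).toRingHom.injective).mpr hg₂)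
      (hne _ (by simpa using hG0)),
    mul_mem (AtP.upBase_mem_fixedFun hd hg₂E)
      (hmemN _ (AtP.atkinLehnerBar_mem_fixedFun hM C hG) (by simpa using hG0)), ?_, ?_⟩
  · rw [normAlong_smul_mul_pow, up_norm e₁, mul_pow,
      smul_mul_assoc, smul_smul]
  · rw [Algebra.smul_def c, map_mul, AlgEquiv.commutes, map_mul, map_pow, ← Algebra.smul_def,
      normAlong_smul_mul_pow, AtP.atkinLehnerBar_upLevel hN hM hd, up_norm e₂', mul_pow,
      smul_mul_assoc, smul_smul]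

include hN hM hMS hno in
/-- **The two fixed point equations.** -/
theorem IsRep.ident {f : 𝐅 (p * M)} (h : IsRep hd C S a f) :
    (∃ κ : Qb, ∃ H ∈ fixedFun C (p * M), H ≠ 0 ∧
      f = κ • (H ^ p * AtP.upNorm hM Qb (AtP.upNorm hM Qb f))) ∧
    ∃ κ : Qb, ∃ H ∈ fixedFun C (p * M), H ≠ 0 ∧
      f = κ • (H ^ p * AtP.conjHom (atkinLehnerBar hM Qb) (AtP.upNorm hM Qb)
        (AtP.conjHom (atkinLehnerBar hM Qb) (AtP.upNorm hM Qb) f)) := by
  have : NeZero p := ⟨hp.out.ne_zero⟩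
  obtain ⟨ζ, hζ⟩ := HasEnoughRootsOfUnity.exists_primitiveRoot Qb p
  have hu : IsPrimitiveRoot (hζ.isUnit hp.out.ne_zero).unit p :=
    IsPrimitiveRoot.coe_units_iff.mp (by rw [IsUnit.unit_spec]; exact hζ)
  have hf := (IsRep.mem hd h).2.1
  obtain ⟨κ, κ', G, G', hG, hGE, hG', hG'E, e, e'⟩ := IsRep.exists_norms hd hN hM hMS hno h
  have hi : ∀ z : 𝐅 M, z ≠ 0 → AtP.levelIncl p M Qb z ≠ 0 := fun z hz =>
    (map_ne_zero_iff _ (AtP.levelIncl p M Qb).toRingHom.injective).mpr hz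
  refine ⟨⟨_, _, ?_, ?_, AtP.eq_upNorm_upNorm hM hu hf e e'⟩,
    ⟨_, _, ?_, ?_, AtP.eq_conjNorm_conjNorm hM hu hf e e'⟩⟩
  · exact (fixedFun C _).div_mem (AtP.levelIncl_mem_fixedFun C hGE)
      (AtP.upNorm_mem_fixedFun hM C hu (AtP.levelIncl_mem_fixedFun C hG'E))
  · exact div_ne_zero (hi _ hG) (AtP.upNorm_ne_zero hM (hi _ hG'))
  · exact AtP.atkinLehnerBar_mem_fixedFun hM C ((fixedFun C _).div_mem
      (AtP.levelIncl_mem_fixedFun C hG'E)
      (AtP.upNorm_mem_fixedFun hM C hu (AtP.levelIncl_mem_fixedFun C hGE)))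
  · exact (map_ne_zero_iff _ (atkinLehnerBar hM Qb).injective).mpr
      (div_ne_zero (hi _ hG') (AtP.upNorm_ne_zero hM (hi _ hG)))

end Ident

end FermatAgent.MazurPrinciple

end
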