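import Fermat.Agent.MazurPrinciple.HeckePaired
import Fermat.Agent.MazurPrinciple.Plane
import Fermat.Agent.MazurPrinciple.Bridge
import Fermat.Agent.Igusa.GoodRed.Concrete

/-!
# Residual eigenfunctions of an absent system are powers

If no form of level `M` is congruent to `a` mod `p` outside `S`, some expression in the Hecke
operators is zero on `J₀(M)` and prime to `p` at `a`. A function on a good reduction of `X₀(M)`
whose orders are divisible by `p` and which is an eigenfunction mod `p`-th powers with system `a`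
is therefore a `p`-th power. The residue characteristic is arbitrary.
-/

set_option autoImplicit false
set_option linter.style.haveILetI false

noncomputable section

open AlgebraicCurve ModularCurve
open FermatAgent.JacCharts (GoodReductionDatum divOf)
open FermatAgent.Mazur.Step3 (corrNorm heckeDiv heckeOperatorBar_mk)

namespace FermatAgent.MazurPrinciple

local notation "Qb" => AlgebraicClosure ℚ

variable {M : ℕ} [NeZero M]

/-- An endomorphism of divisors inducing an endomorphism of the Jacobian. -/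
def InducesEnd (Φ : AddMonoid.End (Divisor Qb (modularFunctionFieldBar M)))
    (r : Module.End ℤ (JZero M)) : Prop :=
  ∀ D : Divisor.degZero (K := Qb) (F := modularFunctionFieldBar M),
    ∃ h : Φ D ∈ Divisor.degZero (K := Qb) (F := modularFunctionFieldBar M),
      r (Pic0.mk D) = Pic0.mk ⟨Φ D, h⟩

omit [NeZero M] in
/-- Inducing zero means sending divisors of degree zero to principal divisors. -/
theorem InducesEnd.mem_principal {Φ : AddMonoid.End (Divisor Qb (modularFunctionFieldBar M))}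
    (h : InducesEnd Φ 0) {D : Divisor Qb (modularFunctionFieldBar M)} (hD : Divisor.degree D = 0) :
    Φ D ∈ Divisor.principal (K := Qb) (F := modularFunctionFieldBar M) := by
  obtain ⟨h1, h2⟩ := h ⟨D, hD⟩
  rw [LinearMap.zero_apply] at h2
  exact (QuotientAddGroup.eq_zero_iff (⟨Φ D, h1⟩ : Divisor.degZero (K := Qb)
    (F := modularFunctionFieldBar M))).mp h2.symm

variable {A : ValuationSubring Qb} {k : Type*} [Field k] {π : A →+* k}

/-- Expressions in the Hecke operators act on an eigenclass. -/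
theorem exists_mem_eigenRing_of_mem_sysRing
    {d : GoodReductionDatum A π (modularFunctionFieldBar M) (modularFunctionFieldFullC k M)}
    {S : Set ℕ} {a : ℕ → ℤ} {Db : Divisor k (modularFunctionFieldFullC k M)}
    (hT : ∀ (l : ℕ) [NeZero l], l.Prime → ¬ l ∣ M → l ∉ S →
      ((heckeDiv M l : AddMonoid.End (Divisor Qb (modularFunctionFieldBar M))), a l) ∈
        eigenRing d Db)
    {r : Module.End ℤ (JZero M)} {t : CuspForm.heckeAlgebra M 2 S} {c : ℤ}
    (h : (r, t, c) ∈ sysRing S a (heckeAt M)) :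
    ∃ Φ, (Φ, c) ∈ eigenRing d Db ∧ InducesEnd Φ r := by
  suffices H : ∀ z ∈ sysRing S a (heckeAt M),
      ∃ Φ, (Φ, z.2.2) ∈ eigenRing d Db ∧ InducesEnd Φ z.1 by
    have h' := H _ h
    dsimp only at h'
    exact h'
  intro z hz
  induction hz using Subring.closure_induction with
  | mem z hz =>
    obtain ⟨l, hl, hlM, hlS, rfl⟩ := hz
    haveI : NeZero l := ⟨hl.ne_zero⟩
    refine ⟨_, hT l hl hlM hlS, fun D => ?_⟩
    obtain ⟨h', e⟩ := heckeOperatorBar_mk M ⟨l, hl⟩ D
    exact ⟨h', (congrArg (fun T : Module.End ℤ (JZero M) => T (Pic0.mk D))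
      (heckeAt_prime M hl)).trans e⟩
  | zero => exact ⟨0, zero_mem (eigenRing d Db), fun D => ⟨zero_mem _, rfl⟩⟩
  | one => exact ⟨1, one_mem (eigenRing d Db), fun D => ⟨D.2, rfl⟩⟩
  | add u v _ _ hu hv =>
    obtain ⟨Φ, hΦ, hΦr⟩ := hu
    obtain ⟨Ψ, hΨ, hΨr⟩ := hv
    refine ⟨Φ + Ψ, by rw [Prod.snd_add, Prod.snd_add, ← Prod.mk_add_mk]; exact add_mem hΦ hΨ,
      fun D => ?_⟩
    obtain ⟨h1, e1⟩ := hΦr D
    obtain ⟨h2, e2⟩ := hΨr D
    refine ⟨add_mem h1 h2, ?_⟩
    rw [Prod.fst_add, LinearMap.add_apply, e1, e2]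
    rfl
  | neg u _ hu =>
    obtain ⟨Φ, hΦ, hΦr⟩ := hu
    refine ⟨-Φ, by rw [Prod.snd_neg, Prod.snd_neg, ← Prod.neg_mk]; exact neg_mem hΦ, fun D => ?_⟩
    obtain ⟨h1, e1⟩ := hΦr D
    refine ⟨neg_mem h1, ?_⟩
    rw [Prod.fst_neg, LinearMap.neg_apply, e1]
    rfl
  | mul u v _ _ hu hv =>
    obtain ⟨Φ, hΦ, hΦr⟩ := hu
    obtain ⟨Ψ, hΨ, hΨr⟩ := hv
    refine ⟨Φ * Ψ, by rw [Prod.snd_mul, Prod.snd_mul, ← Prod.mk_mul_mk]; exact mul_mem hΦ hΨ,
      fun D => ?_⟩
    obtain ⟨h2, e2⟩ := hΨr D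
    obtain ⟨h1, e1⟩ := hΦr ⟨Ψ D, h2⟩
    exact ⟨h1, by rw [Prod.fst_mul, Module.End.mul_apply, e2, e1]; rfl⟩

variable [IsAlgClosed k] [FermatAgent.Curve.IsFunctionField1 k (modularFunctionFieldFullC k M)]
  {d : GoodReductionDatum A π (modularFunctionFieldBar M) (modularFunctionFieldFullC k M)}

/-- A residual eigenfunction of an absent system, with orders divisible by `p`, is a `p`-th
power. -/
theorem exists_pow_eq_of_absent (hd : d.IsLaurent) {S : Set ℕ} {a : ℕ → ℤ}
    (hMS : ∀ q : ℕ, q.Prime → q ∣ M → q ∈ S) {p : ℕ} [Fact p.Prime]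
    (hno : ¬ HasCongruentForm a p M S) {φ : modularFunctionFieldFullC k M} (hφ : φ ≠ 0)
    (hord : ∀ v : Place k (modularFunctionFieldFullC k M), (p : ℤ) ∣ v.ord φ)
    (heig : ∀ (l : ℕ) [NeZero l], l.Prime → ¬ l ∣ M → l ∉ S →
      ∃ f h, d.RedsTo f φ ∧ d.RedsTo (corrNorm M l f) (φ ^ a l * h ^ p)) :
    ∃ h : modularFunctionFieldFullC k M, φ = h ^ p := by
  classical
  haveI := Igusa.Down.isFunctionField1_bar M
  have hp : p.Prime := Fact.out
  set Db : Divisor k (modularFunctionFieldFullC k M) :=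
    Finsupp.mapRange (fun n : ℤ => n / (p : ℤ)) (Int.zero_ediv _) (divOf (K := k) φ) with hDb'
  have hDb : divOf (K := k) φ = p • Db := Finsupp.ext fun v => by
    rw [Finsupp.smul_apply, hDb', Finsupp.mapRange_apply, nsmul_eq_mul,
      FermatAgent.JacCharts.divOf_apply hφ, Int.mul_ediv_cancel' (hord v)]
  obtain ⟨c, hc, h0⟩ := exists_zero_killer hMS p hno
  obtain ⟨Φ, hΦ, hΦ0⟩ := exists_mem_eigenRing_of_mem_sysRing (d := d) (Db := Db)
    (fun l _ hl hlM hlS => by
      obtain ⟨f, h, hf, hh⟩ := heig l hl hlM hlS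
      refine (heckePaired hd hl hlM).mem_eigenRing hp.ne_zero hφ hDb fun f' hf' => ?_
      obtain ⟨hb, hb0, hb1, hb2⟩ := (heckePaired hd hl hlM).red f f' φ hφ hf hf'
      have e : hb = φ ^ a l * h ^ p := hb1.unique hh
      have hh0 : h ≠ 0 := fun e0 => hb0 (by rw [e, e0, zero_pow hp.ne_zero, mul_zero])
      refine ⟨hb, h, hh0, hb0, hb2, Finsupp.ext fun v => ?_⟩
      rw [FermatAgent.JacCharts.divOf_apply hb0, Finsupp.add_apply, Finsupp.smul_apply,
        Finsupp.smul_apply, FermatAgent.JacCharts.divOf_apply hφ,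
        FermatAgent.JacCharts.divOf_apply hh0, e, v.ord_mul (zpow_ne_zero _ hφ) (pow_ne_zero _ hh0),
        v.ord_zpow, FermatAgent.Curve.ord_pow', smul_eq_mul, nsmul_eq_mul]) h0
  exact exists_pow_eq_of_eigenRing hp hφ hDb hc hΦ fun D hD => hΦ0.mem_principal hD

/-- The same with natural exponents and with the norm of `AtP`. -/
theorem exists_pow_eq_of_absent_nat (hd : d.IsLaurent) {S : Set ℕ} {a : ℕ → ℤ}
    (hMS : ∀ q : ℕ, q.Prime → q ∣ M → q ∈ S) {p : ℕ} [Fact p.Prime]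
    (hno : ¬ HasCongruentForm a p M S) {φ : modularFunctionFieldFullC k M} (hφ : φ ≠ 0)
    (hord : ∀ v : Place k (modularFunctionFieldFullC k M), (p : ℤ) ∣ v.ord φ)
    (e : ℕ → ℕ) (he : ∀ l : ℕ, l.Prime → ¬ l ∣ M → l ∉ S → (p : ℤ) ∣ a l - e l)
    (heig : ∀ (l : ℕ) [Fact l.Prime] [NeZero (l * M)] (hco : l.Coprime M), l ∉ S →
      ∃ f h, d.RedsTo f φ ∧ d.RedsTo (BadRed.AtP.heckeNorm Qb hco f) (φ ^ e l * h ^ p)) :
    ∃ h : modularFunctionFieldFullC k M, φ = h ^ p := by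
  refine exists_pow_eq_of_absent hd hMS hno hφ hord fun l _ hl hlM hlS => ?_
  haveI : Fact l.Prime := ⟨hl⟩
  haveI : NeZero (l * M) := ⟨mul_ne_zero hl.ne_zero (NeZero.ne M)⟩
  have hco : l.Coprime M := hl.coprime_iff_not_dvd.mpr hlM
  obtain ⟨m, hm⟩ := he l hl hlM hlS
  obtain ⟨f, h, hf, hh⟩ := heig l hco hlS
  refine ⟨f, h * (φ ^ m)⁻¹, hf, ?_⟩
  rw [← torsion_heckeNorm_eq hco] at hh
  have e1 : φ ^ a l * (h * (φ ^ m)⁻¹) ^ p = φ ^ e l * h ^ p := by
    rw [show a l = (e l : ℤ) + p * m by omega, zpow_add₀ hφ, zpow_natCast, mul_pow, inv_pow,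
      mul_comm (p : ℤ) m, zpow_mul, zpow_natCast]
    field_simp
  rw [e1]
  exact hh

end FermatAgent.MazurPrinciple

end
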