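import Fermat.Agent.MazurPrinciple.AnnulusUnit
import Mathlib.RingTheory.RootsOfUnity.PrimitiveRoots
import Mathlib.FieldTheory.KummerExtension
import Mathlib.Data.Nat.Choose.Dvd

/-!
# Roots modulo high powers of `ϖ`

Refined uniqueness of the decomposition of units, and uniqueness of `p`-th roots modulo
`ϖ ^ R` up to `p`-th roots of unity.
-/

set_option autoImplicit false

noncomputable section

namespace FermatAgent.MazurPrinciple

section Refined

variable {S : Type*} [CommRing S] [IsLocalRing S]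

/-- The positive part of a decomposition is unique. -/
theorem pos_part_unique {c d : Sˣ} {m n : ℤ} {P P' Q Q' : LaurentSeries S} (hP : IsPos P)
    (hP' : IsPos P') (hQ : IsNeg Q) (hQ' : IsNeg Q')
    (h : HahnSeries.single m (c : S) * P * Q = HahnSeries.single n (d : S) * P' * Q') :
    P = P' := by
  obtain ⟨e, k⟩ := IsDecomp.unique (z := HahnSeries.single m (c : S) * P * Q)
    ⟨P, Q, hP, hQ, rfl⟩ ⟨P', Q', hP', hQ', h⟩
  subst e k
  obtain ⟨Pi, hPi, ePi⟩ := hP'.exists_inv
  obtain ⟨Qi, hQi, eQi⟩ := hQ.exists_inv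
  have hu : IsUnit (HahnSeries.single m (c : S)) := by
    refine isUnit_iff_exists_inv.mpr ⟨HahnSeries.single (-m) ((c⁻¹ : Sˣ) : S), ?_⟩
    simp [HahnSeries.single_mul_single]
  have h1 : P * Q = P' * Q' := hu.mul_left_cancel (by rw [← mul_assoc, h, mul_assoc])
  have h2 : P * Pi = Q' * Qi := by
    linear_combination (Pi * Qi) * h1 - (P * Pi) * eQi + (Q' * Qi) * ePi
  obtain ⟨A, hA, eA⟩ := hP.mul hPi
  obtain ⟨B, hB, -, eB⟩ := hQ'.mul hQi
  have h3 : P * Pi = 1 := by
    refine HahnSeries.ext (funext fun i => ?_)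
    rcases lt_trichotomy i 0 with hi | rfl | hi
    · rw [← eA, coeff_ofPowerSeries, if_pos hi, HahnSeries.coeff_one, if_neg hi.ne]
    · rw [← eA, coeff_ofPowerSeries, if_neg (lt_irrefl _), HahnSeries.coeff_one, if_pos rfl]
      simpa [PowerSeries.coeff_zero_eq_constantCoeff_apply] using hA
    · rw [h2, ← eB, coeff_negPart_pos _ hi, HahnSeries.coeff_one, if_neg hi.ne']
  calc P = P * (P' * Pi) := by rw [ePi, mul_one]
    _ = P' * (P * Pi) := by ring
    _ = P' := by rw [h3, mul_one]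

end Refined

variable {W : Type*} [CommRing W]

/-- Series with constant term `1` whose `p`-th powers are congruent modulo `ϖ ^ R` are congruent
modulo `ϖ ^ R'` when `p = ϖ ^ v * unit` and `R ≤ R' + v`, `R ≤ p * R'`. -/
theorem dvd_coeff_sub_one_of_pow [IsDomain W] {ϖ : W} (hϖ : ϖ ≠ 0) {p : ℕ} (hp : p.Prime) {v R R' : ℕ}
    (hv : ∃ w : W, IsUnit w ∧ (p : W) = ϖ ^ v * w) (hR : R' + v ≤ R) (hpR : R' + v ≤ p * R')
    {P : PowerSeries W} (hP : PowerSeries.constantCoeff P = 1)
    (h : ∀ i, ϖ ^ R ∣ PowerSeries.coeff i (P ^ p - 1)) :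
    ∀ i, ϖ ^ R' ∣ PowerSeries.coeff i (P - 1) := by
  obtain ⟨w, hw, hpw⟩ := hv
  suffices key : ∀ i : ℕ, ∃ A B : PowerSeries W,
      P - 1 = PowerSeries.X ^ (i + 1) * A + PowerSeries.C (ϖ ^ R') * B by
    intro i
    obtain ⟨A, B, e⟩ := key i
    rw [e, map_add, PowerSeries.coeff_X_pow_mul', if_neg (by omega), zero_add,
      PowerSeries.coeff_C_mul]
    exact dvd_mul_right _ _
  intro i
  induction i with
  | zero =>
    obtain ⟨A, hA⟩ := PowerSeries.X_dvd_iff.mpr
      (show PowerSeries.constantCoeff (P - 1) = 0 by simp [hP])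
    exact ⟨A, 0, by rw [pow_one, mul_zero, add_zero]; exact hA⟩
  | succ i ih =>
    obtain ⟨A, B, e⟩ := ih
    set Δ := P - 1 with hΔ
    -- expand the `p`-th power
    obtain ⟨U, hU⟩ : ∃ U : PowerSeries W, (1 + Δ) ^ p = 1 + Δ ^ p + (p : PowerSeries W) * Δ * U ∧
        PowerSeries.constantCoeff U = 1 := by
      refine ⟨∑ k ∈ Finset.Ioo 0 p, ((Nat.choose p k / p : ℕ) : PowerSeries W) * Δ ^ (k - 1),
        ?_, ?_⟩
      · rw [add_comm 1 Δ, add_pow, Finset.sum_range_succ, Nat.choose_self, Finset.range_eq_Ico,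
          Finset.sum_eq_sum_Ico_succ_bot hp.pos, Nat.choose_zero_right, Finset.mul_sum]
        simp only [one_pow, mul_one, pow_zero, Nat.cast_one, Nat.sub_self]
        rw [show Finset.Ioo 0 p = Finset.Ico (0 + 1) p by ext; simp; omega]
        have : ∀ k ∈ Finset.Ico (0 + 1) p, Δ ^ k * (p.choose k : PowerSeries W) =
            (p : PowerSeries W) * Δ * (((p.choose k / p : ℕ) : PowerSeries W) * Δ ^ (k - 1)) := by
          intro k hk
          rw [Finset.mem_Ico] at hk
          obtain ⟨c, hc⟩ := Nat.Prime.dvd_choose hp (show k < p by omega) (show p - k < p by omega) le_rfl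
          rw [hc, Nat.mul_div_cancel_left _ hp.pos, Nat.cast_mul]
          conv_lhs => rw [show k = (k - 1) + 1 by omega, pow_succ]
          ring
        rw [Finset.sum_congr rfl this]
        ring
      · have hΔ0 : PowerSeries.constantCoeff Δ = 0 := by simp [hΔ, hP]
        rw [map_sum, Finset.sum_eq_single 1]
        · simp [Nat.div_self hp.pos]
        · intro k hk hk1
          rw [Finset.mem_Ioo] at hk
          simp [hΔ0, zero_pow (show k - 1 ≠ 0 by omega)]
        · intro h1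
          exact absurd (Finset.mem_Ioo.mpr ⟨one_pos, hp.one_lt⟩) h1
    obtain ⟨hU, hU0⟩ := hU
    have h1 := h (i + 1)
    rw [show P ^ p - 1 = Δ ^ p + (p : PowerSeries W) * Δ * U by
      rw [show P = 1 + Δ by simp [hΔ], hU]; ring] at h1
    -- the `p`-th power contributes multiples of `ϖ ^ (R' + v)`
    obtain ⟨Y, hY⟩ := exists_add_pow_prime_eq hp (PowerSeries.X ^ (i + 1) * A)
      (PowerSeries.C (ϖ ^ R') * B)
    have h2 : ϖ ^ (R' + v) ∣ PowerSeries.coeff (i + 1) (Δ ^ p) := by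
      rw [e, hY, map_add, map_add, mul_pow, ← pow_mul, PowerSeries.coeff_X_pow_mul',
        if_neg (show ¬ (i + 1) * p ≤ i + 1 by
          have : (i + 1) * 2 ≤ (i + 1) * p := Nat.mul_le_mul_left _ hp.two_le
          omega), zero_add, mul_pow, ← map_pow, PowerSeries.coeff_C_mul, ← pow_mul]
      refine dvd_add ((pow_dvd_pow ϖ (by rw [mul_comm]; exact hpR)).mul_right _) ?_
      rw [show (p : PowerSeries W) * (PowerSeries.X ^ (i + 1) * A) *
          (PowerSeries.C (ϖ ^ R') * B) * Y =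
          PowerSeries.C ((p : W) * ϖ ^ R') * (PowerSeries.X ^ (i + 1) * A * B * Y) by
        rw [map_mul, map_natCast]; ring, PowerSeries.coeff_C_mul]
      refine Dvd.dvd.mul_right ?_ _
      rw [hpw, pow_add]
      exact ⟨w, by ring⟩
    have h3 : ϖ ^ (R' + v) ∣ (p : W) * PowerSeries.coeff (i + 1) (Δ * U) := by
      have h1' := (pow_dvd_pow ϖ hR).trans h1
      rw [map_add] at h1'
      have h4 := (dvd_add_right h2).mp h1'
      rwa [mul_assoc, ← map_natCast (PowerSeries.C (R := W)), PowerSeries.coeff_C_mul] at h4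
    rw [hpw, pow_add, mul_comm (ϖ ^ R'), mul_assoc,
      mul_dvd_mul_iff_left (pow_ne_zero v hϖ)] at h3
    have h5 := (IsUnit.dvd_mul_left hw).mp h3
    rw [e, add_mul, map_add, mul_assoc, mul_assoc, PowerSeries.coeff_C_mul] at h5
    have h6 := (dvd_add_left (dvd_mul_right _ _)).mp h5
    rw [PowerSeries.coeff_X_pow_mul', if_pos le_rfl, Nat.sub_self,
      PowerSeries.coeff_zero_eq_constantCoeff_apply, map_mul, hU0, mul_one] at h6
    obtain ⟨a, ha⟩ := h6
    obtain ⟨A', hA'⟩ := PowerSeries.X_dvd_iff.mpr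
      (show PowerSeries.constantCoeff (A - PowerSeries.C (PowerSeries.constantCoeff A)) = 0 by simp)
    refine ⟨A', B + PowerSeries.X ^ (i + 1) * PowerSeries.C a, ?_⟩
    rw [e, show A = PowerSeries.C (PowerSeries.constantCoeff A) + PowerSeries.X * A' by
      rw [← hA']; ring, ha, map_mul, pow_succ _ (i + 1)]
    ring

/-- `p`-th roots in `W` modulo `ϖ ^ R` are unique up to roots of unity. -/
theorem exists_root_of_unity_dvd_sub [IsDomain W] [IsDiscreteValuationRing W] {ϖ : W}
    (hϖ : Irreducible ϖ) {p : ℕ} (hp : p.Prime) {ζ : W} (hζ : IsPrimitiveRoot ζ p) {v R : ℕ}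
    (hv : ∃ w : W, IsUnit w ∧ (p : W) = ϖ ^ v * w) {a b : W} (hb : IsUnit b)
    (h : ϖ ^ R ∣ a ^ p - b ^ p) : ∃ i < p, ϖ ^ (R - v) ∣ a - ζ ^ i * b := by
  classical
  obtain ⟨b, rfl⟩ := hb
  set x := a * ((b⁻¹ : Wˣ) : W) with hx
  have ha : a = x * b := by rw [hx, mul_assoc, Units.inv_mul, mul_one]
  have hxR : ϖ ^ R ∣ x ^ p - 1 := by
    have := h.mul_right (((b⁻¹ : Wˣ) : W) ^ p)
    rwa [sub_mul, ← mul_pow, ← mul_pow, Units.mul_inv, one_pow, ← hx] at this
  -- choose the root of largest multiplicity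
  obtain ⟨i₀, hi₀, hmax⟩ := Finset.exists_max_image (Finset.range p)
    (fun i => emultiplicity ϖ (x - ζ ^ i)) ⟨0, Finset.mem_range.mpr hp.pos⟩
  refine ⟨i₀, Finset.mem_range.mp hi₀, ?_⟩
  suffices hgoal : ϖ ^ (R - v) ∣ x - ζ ^ i₀ by
    rw [ha, ← sub_mul]
    exact hgoal.mul_right _
  by_cases hx0 : x - ζ ^ i₀ = 0
  · rw [hx0]; exact dvd_zero _
  have hprod : x ^ p - 1 = (x - ζ ^ i₀) * ∏ i ∈ (Finset.range p).erase i₀, (x - ζ ^ i) := by
    rw [Finset.mul_prod_erase _ (fun i => x - ζ ^ i) hi₀]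
    have := congrArg (Polynomial.eval x) (X_pow_sub_C_eq_prod hζ hp.pos (one_pow p))
    simp only [Polynomial.eval_sub, Polynomial.eval_pow, Polynomial.eval_X, Polynomial.eval_one,
      Polynomial.eval_prod, Polynomial.eval_C, mul_one, map_one] at this
    exact this
  have hdiff : emultiplicity ϖ (∏ i ∈ (Finset.range p).erase i₀, (x - ζ ^ i)) ≤
      emultiplicity ϖ (∏ i ∈ (Finset.range p).erase i₀, (ζ ^ i₀ - ζ ^ i)) := by
    rw [Finset.emultiplicity_prod hϖ.prime, Finset.emultiplicity_prod hϖ.prime]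
    refine Finset.sum_le_sum fun i hi => ?_
    rw [show ζ ^ i₀ - ζ ^ i = (x - ζ ^ i) - (x - ζ ^ i₀) by ring]
    have hsub : ∀ u w : W, min (emultiplicity ϖ u) (emultiplicity ϖ w) ≤
        emultiplicity ϖ (u - w) := fun u w => by
      rw [sub_eq_add_neg, ← emultiplicity_neg ϖ w]
      exact min_le_emultiplicity_add
    refine le_trans ?_ (hsub _ _)
    exact le_min le_rfl (hmax i (Finset.mem_of_mem_erase hi))
  have hval : emultiplicity ϖ (∏ i ∈ (Finset.range p).erase i₀, (ζ ^ i₀ - ζ ^ i)) = v := by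
    obtain ⟨w, hw, hpw⟩ := hv
    have hder : ∏ i ∈ (Finset.range p).erase i₀, (ζ ^ i₀ - ζ ^ i) =
        (p : W) * (ζ ^ i₀) ^ (p - 1) := by
      have := congrArg (fun P => Polynomial.eval (ζ ^ i₀) (Polynomial.derivative P))
        (X_pow_sub_C_eq_prod hζ hp.pos (one_pow p))
      simp only [mul_one, map_one, Polynomial.derivative_sub, Polynomial.derivative_X_pow,
        Polynomial.derivative_one, sub_zero, Polynomial.eval_mul, Polynomial.eval_C, Polynomial.eval_pow,
        Polynomial.eval_X] at this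
      rw [this, ← Finset.mul_prod_erase _ (fun i => Polynomial.X - Polynomial.C (ζ ^ i)) hi₀,
        Polynomial.derivative_mul, Polynomial.eval_add, Polynomial.eval_mul, Polynomial.eval_mul,
        Polynomial.eval_prod]
      simp [-map_pow]
    rw [hder, hpw, mul_assoc]
    exact emultiplicity_eq_of_dvd_of_not_dvd (dvd_mul_right _ _) fun hd => by
      rw [pow_succ, mul_dvd_mul_iff_left (pow_ne_zero v hϖ.ne_zero)] at hd
      exact hϖ.not_isUnit (isUnit_of_dvd_unit hd (hw.mul ((hζ.isUnit hp.ne_zero).pow _ |>.pow _)))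
  have htot : (R : ℕ∞) ≤ emultiplicity ϖ (x - ζ ^ i₀) + v := by
    have := le_emultiplicity_of_pow_dvd hxR
    rw [hprod, emultiplicity_mul hϖ.prime] at this
    exact this.trans (by gcongr; exact hdiff.trans hval.le)
  have hfin : FiniteMultiplicity ϖ (x - ζ ^ i₀) :=
    FiniteMultiplicity.of_prime_left hϖ.prime hx0
  rw [hfin.emultiplicity_eq_multiplicity] at htot
  have htot' : R ≤ multiplicity ϖ (x - ζ ^ i₀) + v := by exact_mod_cast htot
  exact (pow_dvd_pow ϖ (by omega)).trans (pow_multiplicity_dvd _ _)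

end FermatAgent.MazurPrinciple
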