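import Fermat.Agent.TW.ValueGroup
import Fermat.Agent.Conductor.Embedding
import Fermat.Agent.MazurPrinciple.AdicSum

/-!
# A discretely valued field inside `ℚ̄` and its completion

`LocalBase A p`: a subfield whose values are powers of the value of `p` up to bounded index. Its
integers are a discrete valuation ring, completed to `W`.
-/

set_option autoImplicit false

noncomputable section

open IsLocalRing

namespace FermatAgent.MazurPrinciple

local notation "Qb" => AlgebraicClosure ℚ

/-- A subfield of `ℚ̄` with bounded ramification at `A`. -/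
structure LocalBase (A : ValuationSubring Qb) (p : ℕ) where
  S : Subfield Qb
  prime : p.Prime
  liesOver : A.LiesOverPrime p
  d : ℕ
  d_ne_zero : d ≠ 0
  bdd : ∀ x ∈ S, x ≠ 0 → ∃ k : ℤ, A.valuation x ^ d = A.valuation (p : Qb) ^ k

namespace LocalBase

variable {A : ValuationSubring Qb} {p : ℕ} (B : LocalBase A p)

theorem exists_unif : ∃ x ∈ B.S, x ≠ 0 ∧ A.valuation x < 1 ∧
    ∀ y ∈ B.S, y ≠ 0 → ∃ k : ℤ, A.valuation y = A.valuation x ^ k := by
  classical
  set v := A.valuation (p : Qb)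
  have hv0 : v ≠ 0 := TW.natCast_val_ne_zero A B.prime
  have hv1 : v < 1 := B.liesOver
  have hp0 : (p : Qb) ≠ 0 := Nat.cast_ne_zero.mpr B.prime.ne_zero
  have hex : ∃ n : ℕ, 0 < n ∧ ∃ x ∈ B.S, x ≠ 0 ∧ A.valuation x ^ B.d = v ^ n :=
    ⟨B.d, Nat.pos_of_ne_zero B.d_ne_zero, p, natCast_mem B.S p, hp0, rfl⟩
  set g := Nat.find hex
  obtain ⟨hg, x, hxS, hx0, hx⟩ := Nat.find_spec hex
  have hxlt : A.valuation x < 1 := by
    by_contra h
    have h1 : (1 : A.ValueGroup) ≤ A.valuation x ^ B.d := one_le_pow₀ (not_lt.mp h)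
    rw [hx] at h1
    exact absurd h1 (not_le.mpr (pow_lt_one₀ zero_le hv1 hg.ne'))
  refine ⟨x, hxS, hx0, hxlt, fun y hy hy0 => ?_⟩
  obtain ⟨m, hm⟩ := B.bdd y hy hy0
  have hvx : A.valuation x ≠ 0 := (map_ne_zero _).2 hx0
  set z := y / x ^ (m / (g : ℤ))
  have hz0 : z ≠ 0 := div_ne_zero hy0 (zpow_ne_zero _ hx0)
  have hzS : z ∈ B.S := B.S.div_mem hy (zpow_mem hxS _)
  have hz : A.valuation z ^ B.d = v ^ (m % (g : ℤ)) := by
    rw [map_div₀, map_zpow₀, div_pow, ← zpow_natCast (A.valuation x ^ _), ← zpow_mul,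
      mul_comm, zpow_mul, zpow_natCast, hm, hx, ← zpow_natCast, ← zpow_mul, Int.emod_def,
      zpow_sub₀ hv0]
  have hr : m % (g : ℤ) = 0 := by
    by_contra hr
    have h0 := Int.emod_nonneg m (Int.natCast_ne_zero.mpr hg.ne')
    have hlt := Int.emod_lt_of_pos m (Int.natCast_pos.mpr hg)
    obtain ⟨n, hn⟩ := Int.eq_ofNat_of_zero_le h0
    refine Nat.find_min hex (m := n) (show n < g by omega)
      ⟨Nat.pos_of_ne_zero fun e => hr (by rw [hn, e, Nat.cast_zero]), z, hzS, hz0, ?_⟩
    rw [hz, hn, zpow_natCast]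
  rw [hr, zpow_zero] at hz
  refine ⟨m / (g : ℤ), ?_⟩
  have h1 := TW.eq_one_of_pow_eq_one B.d_ne_zero hz
  rw [map_div₀, map_zpow₀, div_eq_one_iff_eq (zpow_ne_zero _ hvx)] at h1
  exact h1

/-- A uniformizer. -/
def unifQ : Qb := B.exists_unif.choose

theorem unifQ_mem : B.unifQ ∈ B.S := B.exists_unif.choose_spec.1

theorem unifQ_ne_zero : B.unifQ ≠ 0 := B.exists_unif.choose_spec.2.1

theorem val_unifQ_lt_one : A.valuation B.unifQ < 1 := B.exists_unif.choose_spec.2.2.1

theorem val_eq_zpow {y : Qb} (hy : y ∈ B.S) (hy0 : y ≠ 0) :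
    ∃ k : ℤ, A.valuation y = A.valuation B.unifQ ^ k :=
  B.exists_unif.choose_spec.2.2.2 y hy hy0

/-- The uniformizer as an element of `A`. -/
def unif : A := ⟨B.unifQ, (A.valuation_le_one_iff _).mp B.val_unifQ_lt_one.le⟩

theorem unif_ne_zero : (B.unif : Qb) ≠ 0 := B.unifQ_ne_zero

/-- The integers of the subfield. -/
def int : Subring Qb := A.toSubring ⊓ B.S.toSubring

/-- The uniformizer in the integers. -/
def unifO : B.int := ⟨B.unifQ, B.unif.2, B.unifQ_mem⟩

theorem exists_factor {x : B.int} (hx : x ≠ 0) :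
    ∃ (n : ℕ) (u : B.intˣ), x = B.unifO ^ n * u := by
  have hx0 : (x : Qb) ≠ 0 := fun e => hx (Subtype.ext e)
  obtain ⟨k, hk⟩ := B.val_eq_zpow x.2.2 hx0
  have hv0 : A.valuation B.unifQ ≠ 0 := (map_ne_zero _).2 B.unifQ_ne_zero
  obtain ⟨n, rfl⟩ : ∃ n : ℕ, k = n := Int.eq_ofNat_of_zero_le (by
    by_contra h
    have h1 : A.valuation (x : Qb) ≤ 1 := (A.valuation_le_one_iff _).mpr x.2.1
    rw [hk] at h1
    exact absurd h1 (not_le.mpr
      (one_lt_zpow_of_neg₀ (zero_lt_iff.mpr hv0) B.val_unifQ_lt_one (not_le.mp h))))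
  rw [zpow_natCast] at hk
  set w : Qb := (x : Qb) / B.unifQ ^ n
  have hw : A.valuation w = 1 := by
    rw [map_div₀, map_pow, hk, div_self (pow_ne_zero _ hv0)]
  have hwS : w ∈ B.S := B.S.div_mem x.2.2 (pow_mem B.unifQ_mem _)
  refine ⟨n, ⟨⟨w, (A.valuation_le_one_iff _).mp hw.le, hwS⟩,
    ⟨w⁻¹, (A.valuation_le_one_iff _).mp (by rw [map_inv₀, hw, inv_one]), B.S.inv_mem hwS⟩,
    Subtype.ext (mul_inv_cancel₀ ?_), Subtype.ext (inv_mul_cancel₀ ?_)⟩, Subtype.ext ?_⟩
  · rintro h; change w = 0 at h; rw [h, map_zero] at hw; exact zero_ne_one hw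
  · rintro h; change w = 0 at h; rw [h, map_zero] at hw; exact zero_ne_one hw
  · exact (mul_div_cancel₀ (x : Qb) (pow_ne_zero n B.unifQ_ne_zero)).symm

theorem not_isUnit_unifO : ¬ IsUnit B.unifO := fun h => by
  obtain ⟨w, hw⟩ := isUnit_iff_exists_inv.mp h
  have h1 := congrArg (fun y : B.int => A.valuation (y : Qb)) hw
  simp only [Subring.coe_mul, map_mul, Subring.coe_one, map_one] at h1
  exact absurd h1 (mul_lt_one_of_lt_of_le B.val_unifQ_lt_one
    ((A.valuation_le_one_iff _).mpr w.2.1)).ne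

instance isDiscreteValuationRing : IsDiscreteValuationRing B.int := by
  refine IsDiscreteValuationRing.ofHasUnitMulPowIrreducibleFactorization
    ⟨B.unifO, ⟨B.not_isUnit_unifO, fun a b hab => ?_⟩, fun {x} hx => ?_⟩
  · have h0 : (B.unifO : B.int) ≠ 0 := fun e => B.unifQ_ne_zero (congrArg Subtype.val e)
    obtain ⟨m, u, rfl⟩ := B.exists_factor (left_ne_zero_of_mul (hab ▸ h0))
    obtain ⟨l, w, rfl⟩ := B.exists_factor (right_ne_zero_of_mul (hab ▸ h0))
    rcases m with _ | m
    · exact Or.inl (by simp)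
    rcases l with _ | l
    · exact Or.inr (by simp)
    exfalso
    apply B.not_isUnit_unifO
    refine IsUnit.of_mul_eq_one (B.unifO ^ (m + l) * u * w) ?_
    refine mul_left_cancel₀ h0 ?_
    rw [mul_one]
    conv_rhs => rw [hab]
    ring
  · obtain ⟨n, u, rfl⟩ := B.exists_factor hx
    exact ⟨n, u, rfl⟩

theorem maximalIdeal_eq : maximalIdeal B.int = Ideal.span {B.unifO} := by
  refine le_antisymm (fun x hx => ?_) ?_
  · rcases eq_or_ne x 0 with rfl | hx0
    · exact zero_mem _
    obtain ⟨n, u, rfl⟩ := B.exists_factor hx0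
    rcases n with _ | n
    · exact absurd hx (by simp)
    exact Ideal.mem_span_singleton.mpr ⟨B.unifO ^ n * u, by ring⟩
  · rw [Ideal.span_singleton_le_iff_mem]
    exact B.not_isUnit_unifO

theorem irreducible_unifO : Irreducible B.unifO :=
  (IsDiscreteValuationRing.irreducible_iff_uniformizer _).mpr B.maximalIdeal_eq

/-- The completion. -/
abbrev W : Type := AdicCompletion (maximalIdeal B.int) B.int

theorem algebraMap_injective : Function.Injective (algebraMap B.int B.W) := fun a b h => by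
  have : IsHausdorff (maximalIdeal B.int) B.int :=
    IsHausdorff.of_le_jacobson _ _ (by rw [IsLocalRing.jacobson_eq_maximalIdeal ⊥ bot_ne_top])
  exact AdicCompletion.of_injective (maximalIdeal B.int) B.int
    (by simpa [AdicCompletion.algebraMap_apply] using h)

/-- The uniformizer of the completion. -/
def unifW : B.W := algebraMap B.int B.W B.unifO

theorem map_maximalIdeal :
    (maximalIdeal B.int).map (algebraMap B.int B.W) = Ideal.span {B.unifW} := by
  refine (congrArg (Ideal.map (algebraMap B.int B.W)) B.maximalIdeal_eq).trans ?_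
  rw [Ideal.map_span, Set.image_singleton]
  rfl

theorem maximalIdeal_W : maximalIdeal B.W = Ideal.span {B.unifW} :=
  AdicCompletion.maximalIdeal_eq_map.trans B.map_maximalIdeal

theorem domain_dvr_W : ∃ _ : IsDomain B.W, IsDiscreteValuationRing B.W :=
  Conductor.isDomain_and_dvr_of_maximalIdeal_eq_span B.maximalIdeal_W fun n h => by
    rw [unifW, ← map_pow, ← map_zero (algebraMap B.int B.W)] at h
    exact pow_ne_zero n B.irreducible_unifO.ne_zero (B.algebraMap_injective h)

instance isDomain_W : IsDomain B.W := B.domain_dvr_W.1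

instance dvr_W : IsDiscreteValuationRing B.W := B.domain_dvr_W.2

theorem irreducible_unifW : Irreducible B.unifW :=
  (IsDiscreteValuationRing.irreducible_iff_uniformizer _).mpr B.maximalIdeal_W

instance complete_W : IsAdicComplete (Ideal.span {B.unifW}) B.W := by
  rw [← B.maximalIdeal_W]; infer_instance

/-- Elements of the completion are approximated by integers. -/
theorem exists_approx (R : ℕ) (w : B.W) :
    ∃ c : B.int, B.unifW ^ R ∣ algebraMap B.int B.W c - w := by
  obtain ⟨c, hc⟩ := Ideal.Quotient.mk_surjective (AdicCompletion.evalₐ (maximalIdeal B.int) R w)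
  refine ⟨c, ?_⟩
  have hfg : (maximalIdeal B.int).FG := IsNoetherian.noetherian _
  have h0 : AdicCompletion.eval (maximalIdeal B.int) B.int R (algebraMap B.int B.W c - w) = 0 := by
    have h1 : AdicCompletion.evalₐ (maximalIdeal B.int) R (algebraMap B.int B.W c - w) = 0 := by
      rw [map_sub, AlgHom.commutes, Ideal.Quotient.algebraMap_eq, hc, sub_self]
    rw [← AdicCompletion.factor_evalₐ_eq_eval (maximalIdeal B.int) _ (by simp), h1, map_zero]
  rw [← LinearMap.mem_ker, ← AdicCompletion.pow_smul_top_eq_ker_eval hfg,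
    Ideal.smul_top_eq_map, Submodule.restrictScalars_mem, Ideal.map_pow, B.map_maximalIdeal,
    Ideal.span_singleton_pow, Ideal.mem_span_singleton] at h0
  exact h0

/-- Divisibility in the completion comes from the integers. -/
theorem dvd_reflect {c : B.int} {R : ℕ} (h : B.unifW ^ R ∣ algebraMap B.int B.W c) :
    B.unifO ^ R ∣ c := by
  rcases eq_or_ne c 0 with rfl | hc
  · exact dvd_zero _
  obtain ⟨n, u, rfl⟩ := B.exists_factor hc
  rw [map_mul, map_pow, (u.isUnit.map _).dvd_mul_right] at h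
  exact Dvd.dvd.mul_right (pow_dvd_pow _
    ((pow_dvd_pow_iff B.irreducible_unifW.ne_zero B.irreducible_unifW.not_isUnit).mp h)) _

theorem arch {δ : Qb} (hδ : δ ≠ 0) : ∃ R : ℕ, δ / (B.unif : Qb) ^ R ∉ A := by
  have : FiniteDimensional ℚ (IntermediateField.adjoin ℚ {δ}) :=
    IntermediateField.adjoin.finiteDimensional
      ((AlgebraicClosure.isAlgebraic ℚ).isAlgebraic δ).isIntegral
  obtain ⟨k, hk⟩ := TW.exists_val_pow_eq B.prime B.liesOver (IntermediateField.adjoin ℚ {δ})
    (IntermediateField.mem_adjoin_simple_self ℚ δ) hδ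
  set m := (Module.finrank ℚ (IntermediateField.adjoin ℚ {δ})).factorial
  have hp0 : (p : Qb) ≠ 0 := Nat.cast_ne_zero.mpr B.prime.ne_zero
  obtain ⟨e, he⟩ := B.val_eq_zpow (natCast_mem B.S p) hp0
  have hv0 : A.valuation B.unifQ ≠ 0 := (map_ne_zero _).2 B.unifQ_ne_zero
  refine ⟨(e * k).toNat + 1, fun hmem => ?_⟩
  have h1 : A.valuation (δ / B.unifQ ^ ((e * k).toNat + 1)) ^ m ≤ 1 :=
    pow_le_one₀ zero_le ((A.valuation_le_one_iff _).mpr hmem)
  rw [map_div₀, map_pow, div_pow, hk, he, ← zpow_mul, ← pow_mul, ← zpow_natCast,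
    ← zpow_sub₀ hv0] at h1
  refine absurd h1 (not_le.mpr (one_lt_zpow_of_neg₀ (zero_lt_iff.mpr hv0) B.val_unifQ_lt_one ?_))
  have hm : 1 ≤ m := Nat.factorial_pos _
  have h2 := Int.self_le_toNat (e * k)
  push_cast
  nlinarith [Int.natCast_nonneg (e * k).toNat]

theorem exists_p_eq : ∃ v : ℕ, 1 ≤ v ∧ ∃ u : B.intˣ, (p : B.int) = B.unifO ^ v * u := by
  have hp0 : (p : B.int) ≠ 0 := fun e =>
    B.prime.ne_zero (by simpa using congrArg Subtype.val e)
  obtain ⟨n, u, hn⟩ := B.exists_factor hp0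
  refine ⟨n, Nat.one_le_iff_ne_zero.mpr fun e => ?_, u, hn⟩
  subst e
  have h1 := congrArg (fun y : B.int => A.valuation (y : Qb)) hn
  simp only [pow_zero, one_mul] at h1
  have h2 : A.valuation ((u : B.int) : Qb) = 1 := by
    refine le_antisymm ((A.valuation_le_one_iff _).mpr (u : B.int).2.1) ?_
    have h3 := congrArg (fun y : B.int => A.valuation (y : Qb)) u.mul_inv
    simp only [Subring.coe_mul, map_mul, Subring.coe_one, map_one] at h3
    rw [← h3]
    exact mul_le_of_le_one_right' ((A.valuation_le_one_iff _).mpr (↑u⁻¹ : B.int).2.1)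
  rw [h2] at h1
  have : A.valuation (p : Qb) < 1 := B.liesOver
  rw [show ((p : B.int) : Qb) = (p : Qb) from map_natCast B.int.subtype p] at h1
  exact this.ne h1

variable {k : Type*} [Field k] (π : A →+* k)

theorem pi_eq_zero_of_lt (hπ : Function.Surjective π) {a : A} (h : A.valuation (a : Qb) < 1) :
    π a = 0 := by
  have := RingHom.ker_isMaximal_of_surjective π hπ
  rw [← RingHom.mem_ker, IsLocalRing.eq_maximalIdeal this]
  exact (A.valuation_lt_one_iff a).mpr h

theorem pi_unif (hπ : Function.Surjective π) : π B.unif = 0 :=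
  pi_eq_zero_of_lt π hπ B.val_unifQ_lt_one

/-- The residue map restricted to the integers. -/
def piO : B.int →+* k := π.comp (Subring.inclusion (T := A.toSubring) inf_le_left)

/-- The residue map of the completion. -/
def resW (hπ : Function.Surjective π) : B.W →+* k :=
  (Ideal.Quotient.lift (maximalIdeal B.int) (B.piO π) fun x hx => by
    rw [B.maximalIdeal_eq, Ideal.mem_span_singleton] at hx
    obtain ⟨y, rfl⟩ := hx
    rw [map_mul, show B.piO π B.unifO = 0 from B.pi_unif π hπ, zero_mul]).comp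
    (AdicCompletion.evalOneₐ (maximalIdeal B.int)).toRingHom

theorem resW_algebraMap (hπ : Function.Surjective π) (c : B.int) :
    B.resW π hπ (algebraMap B.int B.W c) = B.piO π c := by
  simp [resW, Ideal.Quotient.algebraMap_eq]

theorem resW_unifW (hπ : Function.Surjective π) : B.resW π hπ B.unifW = 0 := by
  rw [unifW, resW_algebraMap]; exact B.pi_unif π hπ

end LocalBase

end FermatAgent.MazurPrinciple
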